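import Mathlib
import Fermat.Agent.S18.Core.Charts
import Fermat.Agent.S18.Cusp.NormalBridge

/-!
# S37 (CHJ): `LocalGen` at the closed points of the `J`-chart from `LocalGen` on the two `t`-charts

`R` a domain, `π ∈ R` with `R/π` a field, `F ⊇ R` a field, `t J ∈ F` with `J · Q(t) = P(t)` for monic
`P, Q ∈ R[X]`, `deg P = deg Q + 1`, coprime modulo `π`.  If every maximal ideal `n ∋ π` of the two
charts `B0 R t` (integral closure of `R[t]`) and `B1 R t` (integral closure of `R[t⁻¹]`) has the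
two-generator local form `LocalGen π n`, then so has every maximal ideal `n ∋ π` of the `J`-chart
`B0 R (J - b)⁻¹`.

The proof identifies, inside `F`, the local ring of the `J`-chart at `n` with the local ring of one
of the `t`-charts at a maximal ideal containing `π`.
-/

set_option autoImplicit false
set_option linter.style.haveILetI false
set_option linter.unusedSectionVars false

open Polynomial

namespace Fermat.Agent.S37.Local.ChartJ

open Fermat.Agent.S18.Core.Charts Fermat.Agent.S18.Cusp.NormalBridge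

/-! ### the local ring of a subring of a field at a prime, inside the field -/

section Loc

variable {F : Type*} [Field F]

/-- the localisation of the subring `B ⊆ F` at the prime `n`, as a subring of `F` -/
def locSubring (B : Subring F) (n : Ideal B) [hn : n.IsPrime] : Subring F where
  carrier := {x | ∃ a s : B, s ∉ n ∧ x * (s : F) = (a : F)}
  mul_mem' := by
    rintro x y ⟨a, s, hs, h⟩ ⟨a', s', hs', h'⟩
    refine ⟨a * a', s * s', fun hmem => (hn.mem_or_mem hmem).elim hs hs', ?_⟩
    push_cast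
    rw [← h, ← h']
    ring
  one_mem' := ⟨1, 1, (Ideal.ne_top_iff_one n).mp hn.ne_top, by simp⟩
  add_mem' := by
    rintro x y ⟨a, s, hs, h⟩ ⟨a', s', hs', h'⟩
    refine ⟨a * s' + a' * s, s * s', fun hmem => (hn.mem_or_mem hmem).elim hs hs', ?_⟩
    push_cast
    rw [← h, ← h']
    ring
  zero_mem' := ⟨0, 1, (Ideal.ne_top_iff_one n).mp hn.ne_top, by simp⟩
  neg_mem' := by
    rintro x ⟨a, s, hs, h⟩
    refine ⟨-a, s, hs, ?_⟩
    push_cast
    rw [← h]
    ring

variable (B : Subring F) (n : Ideal B) [hn : n.IsPrime]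

theorem mem_locSubring {x : F} :
    x ∈ locSubring B n ↔ ∃ a s : B, s ∉ n ∧ x * (s : F) = (a : F) := Iff.rfl

theorem le_locSubring : B ≤ locSubring B n := fun x hx =>
  ⟨⟨x, hx⟩, 1, (Ideal.ne_top_iff_one n).mp hn.ne_top, by simp⟩

/-- `x ∈ n B_n` -/
def InMax (x : F) : Prop := ∃ a s : B, a ∈ n ∧ s ∉ n ∧ x * (s : F) = (a : F)

variable {B n}

theorem InMax.mem {x : F} (h : InMax B n x) : x ∈ locSubring B n := by
  obtain ⟨a, s, -, hs, h⟩ := h
  exact ⟨a, s, hs, h⟩

theorem inMax_of_mem {x : B} (hx : x ∈ n) : InMax B n (x : F) :=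
  ⟨x, 1, hx, (Ideal.ne_top_iff_one n).mp hn.ne_top, by simp⟩

/-- independence of the representation -/
theorem InMax.num_mem {x : F} (h : InMax B n x) {a s : B} (hs : s ∉ n)
    (hx : x * (s : F) = (a : F)) : a ∈ n := by
  obtain ⟨a', s', ha', hs', h'⟩ := h
  have h1 : a * s' = a' * s := by
    apply Subtype.ext
    push_cast
    rw [← hx, ← h']
    ring
  have h2 : a * s' ∈ n := by rw [h1]; exact n.mul_mem_right _ ha'
  exact (hn.mem_or_mem h2).resolve_right hs'

theorem InMax.mul_left {x y : F} (hx : x ∈ locSubring B n) (hy : InMax B n y) :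
    InMax B n (x * y) := by
  obtain ⟨a, s, hs, h⟩ := hx
  obtain ⟨a', s', ha', hs', h'⟩ := hy
  refine ⟨a * a', s * s', n.mul_mem_left _ ha', fun hmem => (hn.mem_or_mem hmem).elim hs hs', ?_⟩
  push_cast
  rw [← h, ← h']
  ring

theorem InMax.mul_right {x y : F} (hx : InMax B n x) (hy : y ∈ locSubring B n) :
    InMax B n (x * y) := by
  rw [mul_comm]
  exact hx.mul_left hy

theorem InMax.add {x y : F} (hx : InMax B n x) (hy : InMax B n y) : InMax B n (x + y) := by
  obtain ⟨a, s, ha, hs, h⟩ := hx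
  obtain ⟨a', s', ha', hs', h'⟩ := hy
  refine ⟨a * s' + a' * s, s * s', n.add_mem (n.mul_mem_right _ ha) (n.mul_mem_right _ ha'),
    fun hmem => (hn.mem_or_mem hmem).elim hs hs', ?_⟩
  push_cast
  rw [← h, ← h']
  ring

theorem InMax.neg {x : F} (hx : InMax B n x) : InMax B n (-x) := by
  obtain ⟨a, s, ha, hs, h⟩ := hx
  refine ⟨-a, s, n.neg_mem ha, hs, ?_⟩
  push_cast
  rw [← h]
  ring

theorem InMax.sub {x y : F} (hx : InMax B n x) (hy : InMax B n y) : InMax B n (x - y) := by
  rw [sub_eq_add_neg]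
  exact hx.add hy.neg

theorem inMax_zero : InMax B n (0 : F) := by
  simpa using inMax_of_mem (n := n) (x := 0) n.zero_mem

theorem not_inMax_one : ¬ InMax B n (1 : F) := by
  rintro ⟨a, s, ha, hs, h⟩
  apply hs
  have : s = a := Subtype.ext (by rw [← h, one_mul])
  rw [this]
  exact ha

/-- elements of `B_n` outside `n B_n` are units of `B_n` -/
theorem inv_mem_of_not_inMax {x : F} (hx : x ∈ locSubring B n) (h : ¬ InMax B n x) :
    x ≠ 0 ∧ x⁻¹ ∈ locSubring B n ∧ ¬ InMax B n x⁻¹ := by
  obtain ⟨a, s, hs, hxs⟩ := hx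
  have ha : a ∉ n := fun ha => h ⟨a, s, ha, hs, hxs⟩
  have ha0 : (a : F) ≠ 0 := by
    intro h0
    apply ha
    have : a = 0 := Subtype.ext h0
    rw [this]
    exact n.zero_mem
  have hx0 : x ≠ 0 := by
    rintro rfl
    rw [zero_mul] at hxs
    exact ha0 hxs.symm
  have hinv : x⁻¹ * (a : F) = (s : F) := by
    rw [← hxs]
    field_simp
  refine ⟨hx0, ⟨s, a, ha, hinv⟩, fun h' => ?_⟩
  exact hs (h'.num_mem ha hinv)

theorem not_inMax_of_sub_one {x : F} (h : InMax B n (x - 1)) : ¬ InMax B n x := by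
  intro hx
  apply not_inMax_one (B := B) (n := n)
  have := hx.sub h
  simpa using this

end Loc

/-! ### `B_n` as a localisation -/

section LocAlg

variable {F : Type*} [Field F] (B : Subring F) (n : Ideal B) [hn : n.IsPrime]

/-- the inclusion `B → B_n` -/
def toLoc : B →+* locSubring B n := Subring.inclusion (le_locSubring B n)

/-- `B_n` as a `B`-algebra -/
@[reducible] def algLoc : Algebra B (locSubring B n) := (toLoc B n).toAlgebra

attribute [local instance] algLoc

theorem coe_algebraMap_loc (x : B) : ((algebraMap B (locSubring B n) x : locSubring B n) : F) = x :=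
  rfl

instance isScalarTower_loc : IsScalarTower B (locSubring B n) F :=
  IsScalarTower.of_algebraMap_eq (fun _ => rfl)

instance isLocalization_loc : IsLocalization.AtPrime (locSubring B n) n := by
  refine (isLocalization_iff _ _).mpr ⟨?_, ?_, ?_⟩
  · rintro ⟨s, hs⟩
    have hs' : s ∉ n := hs
    have hs0 : (s : F) ≠ 0 := by
      intro h0
      apply hs'
      have : s = 0 := Subtype.ext h0
      rw [this]
      exact n.zero_mem
    refine isUnit_iff_exists_inv.mpr ⟨⟨(s : F)⁻¹, ⟨1, s, hs', ?_⟩⟩, ?_⟩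
    · rw [inv_mul_cancel₀ hs0]
      rfl
    · apply Subtype.ext
      show (s : F) * (s : F)⁻¹ = 1
      exact mul_inv_cancel₀ hs0
  · rintro ⟨x, a, s, hs, h⟩
    exact ⟨(a, ⟨s, hs⟩), Subtype.ext h⟩
  · intro a b h
    refine ⟨1, ?_⟩
    have : (a : F) = b := congrArg (fun z : locSubring B n => (z : F)) h
    rw [Subtype.ext this]

/-- `B_n` is integrally closed in `F` if `B` is -/
theorem mem_loc_of_isIntegral (hB : ∀ x : F, IsIntegral B x → x ∈ B) {x : F}
    (hx : IsIntegral (locSubring B n) x) : x ∈ locSubring B n := by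
  obtain ⟨⟨m, hm⟩, hmx⟩ := IsIntegral.exists_multiple_integral_of_isLocalization n.primeCompl
    (Rₘ := locSubring B n) x hx
  have h1 : (m : F) * x ∈ B := by
    apply hB
    have e : (⟨m, hm⟩ : n.primeCompl) • x = (m : F) * x := by
      rw [Submonoid.smul_def, Algebra.smul_def]
      rfl
    rw [← e]
    exact hmx
  exact ⟨⟨(m : F) * x, h1⟩, m, hm, by ring⟩

end LocAlg

/-! ### maximality of contracted ideals (the residue fields are algebraic over `R/π`) -/

section MaxKer

variable {R B : Type*} [CommRing R] [CommRing B]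

/-- Let `B` be integral over `R[τ]`, `π ∈ R` with `R/π` a field and `n ∋ π` a maximal ideal
of `B`.  Every `R`-compatible ring homomorphism `B' → B/n` has a maximal kernel. -/
theorem ker_isMaximal_of_integral (ι : R →+* B) (τ : B)
    (hint : ∀ b : B, (Polynomial.eval₂RingHom ι τ).IsIntegralElem b)
    (π : R) (hπ : (Ideal.span {π} : Ideal R).IsMaximal) (n : Ideal B) [hn : n.IsMaximal]
    (hπn : ι π ∈ n) {B' : Type*} [CommRing B'] (ι' : R →+* B') (φ : B' →+* B ⧸ n)
    (hφ : ∀ r, φ (ι' r) = Ideal.Quotient.mk n (ι r)) : (RingHom.ker φ).IsMaximal := by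
  haveI := hπ
  letI : Field (R ⧸ Ideal.span {π}) := Ideal.Quotient.field _
  letI : Field (B ⧸ n) := Ideal.Quotient.field n
  let g0 : R →+* B ⧸ n := (Ideal.Quotient.mk n).comp ι
  have hg0 : ∀ a ∈ Ideal.span {π}, g0 a = 0 := by
    intro a ha
    obtain ⟨c, rfl⟩ := Ideal.mem_span_singleton.mp ha
    show Ideal.Quotient.mk n (ι (π * c)) = 0
    rw [map_mul, map_mul, Ideal.Quotient.eq_zero_iff_mem.mpr hπn, zero_mul]
  let g : (R ⧸ Ideal.span {π}) →+* B ⧸ n := Ideal.Quotient.lift _ g0 hg0
  letI : Algebra (R ⧸ Ideal.span {π}) (B ⧸ n) := g.toAlgebra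
  have hg : ∀ r : R, algebraMap (R ⧸ Ideal.span {π}) (B ⧸ n) (Ideal.Quotient.mk _ r)
      = Ideal.Quotient.mk n (ι r) := fun r => rfl
  set τb : B ⧸ n := Ideal.Quotient.mk n τ with hτb
  let μ : R[X] →+* (R ⧸ Ideal.span {π})[X] := Polynomial.mapRingHom (Ideal.Quotient.mk _)
  let ev : (R ⧸ Ideal.span {π})[X] →+* B ⧸ n :=
    ((aeval τb : (R ⧸ Ideal.span {π})[X] →ₐ[R ⧸ Ideal.span {π}] B ⧸ n) :
      (R ⧸ Ideal.span {π})[X] →+* B ⧸ n)
  have hcomp : ev.comp μ = (Ideal.Quotient.mk n).comp (Polynomial.eval₂RingHom ι τ) := by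
    refine Polynomial.ringHom_ext (fun r => ?_) ?_
    · show aeval τb (Polynomial.map _ (C r)) = Ideal.Quotient.mk n (Polynomial.eval₂ ι τ (C r))
      rw [Polynomial.map_C, aeval_C, Polynomial.eval₂_C]
      rfl
    · show aeval τb (Polynomial.map _ X) = Ideal.Quotient.mk n (Polynomial.eval₂ ι τ X)
      rw [Polynomial.map_X, aeval_X, Polynomial.eval₂_X]
  have hintk : ∀ z : B ⧸ n, ev.IsIntegralElem z := by
    intro z
    obtain ⟨b, rfl⟩ := Ideal.Quotient.mk_surjective z
    obtain ⟨q, hq, hqb⟩ := hint b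
    refine ⟨q.map μ, hq.map μ, ?_⟩
    rw [Polynomial.eval₂_map, hcomp, ← Polynomial.hom_eval₂, hqb, map_zero]
  -- the kernel of `ev` is a nonzero ideal: `τ̄` is algebraic over `R/π`
  have hkermax : (RingHom.ker ev).IsMaximal := by
    haveI : (⊥ : Ideal (B ⧸ n)).IsMaximal := Ideal.bot_isMaximal
    have := Ideal.isMaximal_comap_of_isIntegral_of_isMaximal' ev hintk (⊥ : Ideal (B ⧸ n))
    rwa [← RingHom.ker_eq_comap_bot] at this
  have hkerne : RingHom.ker ev ≠ ⊥ :=
    Ring.ne_bot_of_isMaximal_of_not_isField hkermax (Polynomial.not_isField _)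
  obtain ⟨f, hfker, hf0⟩ := Submodule.exists_mem_ne_zero_of_ne_bot hkerne
  have hτint : IsIntegral (R ⧸ Ideal.span {π}) τb :=
    IsAlgebraic.isIntegral ⟨f, hf0, hfker⟩
  haveI : Algebra.IsIntegral (R ⧸ Ideal.span {π}) (Algebra.adjoin (R ⧸ Ideal.span {π}) {τb}) :=
    Algebra.IsIntegral.adjoin (fun x hx => by
      rw [Set.mem_singleton_iff] at hx
      rw [hx]
      exact hτint)
  haveI : Algebra.IsIntegral (R ⧸ Ideal.span {π}) (B ⧸ n) := ⟨fun z =>
    isIntegral_trans (A := Algebra.adjoin (R ⧸ Ideal.span {π}) {τb}) z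
      ((isIntegral_adjoin_iff τb z).mpr (hintk z))⟩
  -- the range of `φ` is a field
  let D : Subalgebra (R ⧸ Ideal.span {π}) (B ⧸ n) :=
    { φ.range with
      algebraMap_mem' := by
        intro c
        obtain ⟨r, rfl⟩ := Ideal.Quotient.mk_surjective c
        exact ⟨ι' r, by rw [hφ, hg]⟩ }
  have hD : IsField D := Subalgebra.isField_of_algebraic D
  letI := hD.toField
  let φ' : B' →+* D := φ.codRestrict D (fun x => ⟨x, rfl⟩)
  have hsurj : Function.Surjective φ' := by
    rintro ⟨y, x, rfl⟩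
    exact ⟨x, rfl⟩
  have hmax := RingHom.ker_isMaximal_of_surjective φ' hsurj
  have hker : RingHom.ker φ' = RingHom.ker φ := by
    ext x
    rw [RingHom.mem_ker, RingHom.mem_ker]
    constructor
    · intro h
      exact congrArg Subtype.val h
    · intro h
      exact Subtype.ext h
  rwa [hker] at hmax

end MaxKer

/-! ### the residue map of `B_n` -/

section Residue

variable {F : Type*} [Field F] (B : Subring F) (n : Ideal B) [hmax : n.IsMaximal]

attribute [local instance] algLoc

/-- the residue map `B_n → B/n` -/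
noncomputable def resLoc : locSubring B n →+* B ⧸ n :=
  IsLocalization.lift (M := n.primeCompl) (g := Ideal.Quotient.mk n) (fun y => by
    letI := Ideal.Quotient.field n
    have : Ideal.Quotient.mk n (y : B) ≠ 0 := by
      rw [Ne, Ideal.Quotient.eq_zero_iff_mem]
      exact y.2
    exact this.isUnit)

theorem resLoc_coe (x : B) :
    resLoc B n ⟨x, le_locSubring B n x.2⟩ = Ideal.Quotient.mk n x :=
  IsLocalization.lift_eq _ x

theorem resLoc_eq_zero_iff (x : locSubring B n) : resLoc B n x = 0 ↔ InMax B n (x : F) := by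
  obtain ⟨x, a, s, hs, h⟩ := x
  have e : (⟨x, a, s, hs, h⟩ : locSubring B n) * ⟨s, le_locSubring B n s.2⟩
      = ⟨a, le_locSubring B n a.2⟩ := Subtype.ext h
  have e2 := congrArg (resLoc B n) e
  rw [map_mul, resLoc_coe, resLoc_coe] at e2
  have hs0 : Ideal.Quotient.mk n s ≠ 0 := by rwa [Ne, Ideal.Quotient.eq_zero_iff_mem]
  constructor
  · intro h0
    rw [h0, zero_mul] at e2
    exact ⟨a, s, Ideal.Quotient.eq_zero_iff_mem.mp e2.symm, hs, h⟩
  · intro hM
    have ha := hM.num_mem hs h
    rw [Ideal.Quotient.eq_zero_iff_mem.mpr ha] at e2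
    exact (mul_eq_zero.mp e2).resolve_right hs0

end Residue

/-! ### transport of `LocalGen` along an equality of local rings -/

section Transport

variable {F : Type*} [Field F]

theorem localGen_transport (B B' : Subring F) (π : F) (hπB : π ∈ B) (hπB' : π ∈ B')
    (n : Ideal B) [hn : n.IsPrime] (n' : Ideal B') [hn' : n'.IsPrime]
    (h1 : B' ≤ locSubring B n) (h2 : B ≤ locSubring B' n')
    (hnn' : ∀ y : B', y ∈ n' ↔ InMax B n (y : F))
    (h : LocalGen (⟨π, hπB'⟩ : B') n') : LocalGen (⟨π, hπB⟩ : B) n := by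
  obtain ⟨T', hT', hgen⟩ := h
  -- `T' = θ / s0`
  obtain ⟨θ, s0, hθ, hs0, hθs⟩ := (hnn' T').mp hT'
  refine ⟨θ, hθ, fun x hx => ?_⟩
  -- `x = y / σ` with `y ∈ n'`, `σ ∉ n'`
  obtain ⟨y, σ, hσ, hxσ⟩ := h2 x.2
  have hy : y ∈ n' := by
    rw [hnn', ← hxσ]
    exact (inMax_of_mem hx).mul_right (h1 σ.2)
  obtain ⟨s', hs', hmem⟩ := hgen y hy
  rw [Ideal.mem_span_pair] at hmem
  obtain ⟨u, v, huv⟩ := hmem
  have huvF : (u : F) * π + (v : F) * (T' : F) = (s' : F) * (y : F) := by
    have := congrArg (fun z : B' => (z : F)) huv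
    simpa using this
  -- `s' σ` is a unit of `B_n`
  have hs'σ : s' * σ ∉ n' := fun hmem => (hn'.mem_or_mem hmem).elim hs' hσ
  obtain ⟨a1, s1, hs1, h1eq⟩ := h1 (s' * σ).2
  have ha1 : a1 ∉ n := by
    intro ha1
    apply hs'σ
    rw [hnn']
    exact ⟨a1, s1, ha1, hs1, h1eq⟩
  obtain ⟨au, su, hsu, hueq⟩ := h1 u.2
  obtain ⟨av, sv, hsv, hveq⟩ := h1 v.2
  refine ⟨a1 * su * sv * s0, ?_, ?_⟩
  · intro hmem
    rcases hn.mem_or_mem hmem with hmem | hmem
    · rcases hn.mem_or_mem hmem with hmem | hmem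
      · rcases hn.mem_or_mem hmem with hmem | hmem
        · exact ha1 hmem
        · exact hsu hmem
      · exact hsv hmem
    · exact hs0 hmem
  · rw [Ideal.mem_span_pair]
    refine ⟨au * s1 * sv * s0, av * s1 * su, ?_⟩
    apply Subtype.ext
    push_cast at h1eq ⊢
    have e1 : (a1 : F) * su * sv * s0 * (x : F)
        = ((s' : F) * (y : F)) * (s1 : F) * su * sv * s0 := by
      rw [← h1eq, ← hxσ]
      ring
    rw [e1, ← huvF]
    have e2 : ((u : F) * π + (v : F) * (T' : F)) * (s1 : F) * su * sv * s0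
        = ((u : F) * su) * s1 * sv * s0 * π + ((v : F) * sv) * s1 * su * ((T' : F) * s0) := by
      ring
    rw [e2, hueq, hveq, hθs]

end Transport

/-! ### charts -/

section Chart

variable {R F : Type*} [CommRing R] [Field F] [Algebra R F]

/-- the charts are integrally closed in `F` -/
theorem mem_B0_of_isIntegral {τ x : F} (hx : IsIntegral (B0 R τ) x) : x ∈ B0 R τ := by
  obtain ⟨p, hp, hpx⟩ := hx
  let g : ↥(B0 R τ) →+* ↥(integralClosure (Algebra.adjoin R {τ}) F) :=
    { toFun := fun y => ⟨y.1, y.2⟩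
      map_one' := rfl
      map_mul' := fun _ _ => rfl
      map_zero' := rfl
      map_add' := fun _ _ => rfl }
  have hI : IsIntegral (integralClosure (Algebra.adjoin R {τ}) F) x := by
    refine ⟨p.map g, hp.map g, ?_⟩
    rw [Polynomial.eval₂_map]
    exact hpx
  exact mem_B0.mpr (isIntegral_trans (R := Algebra.adjoin R {τ}) x hI)

/-- if `σ ∈ (B0 R τ)_n` then `B0 R σ ⊆ (B0 R τ)_n` -/
theorem B0_le_loc {τ σ : F} (n : Ideal (B0 R τ)) [n.IsPrime]
    (hσ : σ ∈ locSubring (B0 R τ) n) : B0 R σ ≤ locSubring (B0 R τ) n := by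
  intro y hy
  apply mem_loc_of_isIntegral (B0 R τ) n (fun x hx => mem_B0_of_isIntegral hx)
  let S' : Subalgebra R F :=
    { (locSubring (B0 R τ) n) with
      algebraMap_mem' := fun r => le_locSubring _ _ (algebraMap_mem_B0 r) }
  have hle : Algebra.adjoin R {σ} ≤ S' := Algebra.adjoin_le (Set.singleton_subset_iff.mpr hσ)
  obtain ⟨p, hp, hpy⟩ := mem_B0.mp hy
  let g : ↥(Algebra.adjoin R {σ}) →+* ↥(locSubring (B0 R τ) n) :=
    RingHom.codRestrict ((Algebra.adjoin R {σ}).val : ↥(Algebra.adjoin R {σ}) →+* F) _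
      (fun a => hle a.2)
  refine ⟨p.map g, hp.map g, ?_⟩
  rw [Polynomial.eval₂_map]
  exact hpy

/-- `R → B0 R τ` -/
noncomputable def toB0 (R : Type*) {F : Type*} [CommRing R] [Field F] [Algebra R F] (τ : F) :
    R →+* ↥(B0 R τ) :=
  RingHom.codRestrict (algebraMap R F) (B0 R τ) (fun r => algebraMap_mem_B0 r)

theorem isIntegralElem_B0 (τ : F) (b : ↥(B0 R τ)) :
    (Polynomial.eval₂RingHom (toB0 R τ) ⟨τ, tau_mem_B0⟩).IsIntegralElem b := by
  obtain ⟨q, hq, hqb⟩ := (isIntegral_adjoin_iff τ (b : F)).mp (mem_B0.mp b.2)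
  refine ⟨q, hq, ?_⟩
  apply Subtype.ext
  have hc : (B0 R τ).subtype.comp (Polynomial.eval₂RingHom (toB0 R τ) ⟨τ, tau_mem_B0⟩)
      = ((aeval τ : R[X] →ₐ[R] F) : R[X] →+* F) := by
    refine Polynomial.ringHom_ext (fun r => ?_) ?_
    · show ((Polynomial.eval₂ (toB0 R τ) ⟨τ, tau_mem_B0⟩ (C r) : ↥(B0 R τ)) : F) = aeval τ (C r)
      rw [Polynomial.eval₂_C, aeval_C]
      rfl
    · show ((Polynomial.eval₂ (toB0 R τ) ⟨τ, tau_mem_B0⟩ X : ↥(B0 R τ)) : F) = aeval τ X
      rw [Polynomial.eval₂_X, aeval_X]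
  have h := Polynomial.hom_eval₂ q (Polynomial.eval₂RingHom (toB0 R τ) ⟨τ, tau_mem_B0⟩)
    (B0 R τ).subtype b
  rw [hc] at h
  show (B0 R τ).subtype _ = ((0 : ↥(B0 R τ)) : F)
  rw [h]
  exact hqb

/-- **Identification of local rings.** Let `n ∋ π` be a maximal ideal of the chart `B0 R τ` and
`σ ∈ (B0 R τ)_n` such that `τ = N / D` with `N, D ∈ B0 R σ`, `D` a unit of `(B0 R τ)_n`.
Then `LocalGen` at all closed points over `π` of the chart `B0 R σ` gives `LocalGen π n`. -/
theorem localGen_of_chart (π : R) (hπ : (Ideal.span {π} : Ideal R).IsMaximal) (τ σ : F)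
    (n : Ideal ↥(B0 R τ)) [hn : n.IsMaximal]
    (hπn : (⟨algebraMap R F π, algebraMap_mem_B0 π⟩ : ↥(B0 R τ)) ∈ n)
    (hσ : σ ∈ locSubring (B0 R τ) n)
    (N D : ↥(B0 R σ)) (hND : τ * (D : F) = (N : F)) (hD : ¬ InMax (B0 R τ) n (D : F))
    (hstar : ∀ n' : Ideal ↥(B0 R σ), n'.IsMaximal →
      (⟨algebraMap R F π, algebraMap_mem_B0 π⟩ : ↥(B0 R σ)) ∈ n' →
      LocalGen (⟨algebraMap R F π, algebraMap_mem_B0 π⟩ : ↥(B0 R σ)) n') :
    LocalGen (⟨algebraMap R F π, algebraMap_mem_B0 π⟩ : ↥(B0 R τ)) n := by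
  have h1 : B0 R σ ≤ locSubring (B0 R τ) n := B0_le_loc n hσ
  let φ : ↥(B0 R σ) →+* ↥(B0 R τ) ⧸ n := (resLoc (B0 R τ) n).comp (Subring.inclusion h1)
  have hφ0 : ∀ y : ↥(B0 R σ), φ y = 0 ↔ InMax (B0 R τ) n (y : F) := fun y =>
    resLoc_eq_zero_iff (B0 R τ) n (Subring.inclusion h1 y)
  have hmax : (RingHom.ker φ).IsMaximal := by
    refine ker_isMaximal_of_integral (toB0 R τ) ⟨τ, tau_mem_B0⟩ (isIntegralElem_B0 τ) π hπ n hπn
      (toB0 R σ) φ (fun r => ?_)
    exact resLoc_coe (B0 R τ) n (toB0 R τ r)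
  have hprime : (RingHom.ker φ).IsPrime := hmax.isPrime
  have hnn' : ∀ y : ↥(B0 R σ), y ∈ RingHom.ker φ ↔ InMax (B0 R τ) n (y : F) := fun y => by
    rw [RingHom.mem_ker]
    exact hφ0 y
  have hπn' : (⟨algebraMap R F π, algebraMap_mem_B0 π⟩ : ↥(B0 R σ)) ∈ RingHom.ker φ := by
    rw [hnn']
    exact inMax_of_mem hπn
  have hτ : τ ∈ locSubring (B0 R σ) (RingHom.ker φ) :=
    ⟨N, D, fun h => hD ((hnn' D).mp h), hND⟩
  have h2 : B0 R τ ≤ locSubring (B0 R σ) (RingHom.ker φ) := B0_le_loc _ hτ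
  exact localGen_transport (B0 R τ) (B0 R σ) (algebraMap R F π) (algebraMap_mem_B0 π)
    (algebraMap_mem_B0 π) n (RingHom.ker φ) h1 h2 hnn' (hstar _ hmax hπn')

end Chart

/-! ### the dichotomy `t ∈ S` or `t⁻¹ ∈ 𝔪_S` -/

section Dichotomy

theorem isIntegral_of_coeff_unit {S A : Type*} [CommRing S] [CommRing A] [Algebra S A]
    (G : S[X]) (m : ℕ) (hdeg : G.natDegree ≤ m) (v : S) (hv : v * G.coeff m = 1) (x : A)
    (hx : Polynomial.eval₂ (algebraMap S A) x G = 0) : IsIntegral S x := by
  refine ⟨C v * G, Polynomial.monic_of_natDegree_le_of_coeff_eq_one m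
    ((Polynomial.natDegree_C_mul_le v G).trans hdeg) (by rw [Polynomial.coeff_C_mul, hv]), ?_⟩
  rw [Polynomial.eval₂_mul, hx, mul_zero]

variable {R F : Type*} [CommRing R] [Field F] [Algebra R F]

theorem not_inMax_of_add_one {B : Subring F} {n : Ideal B} [n.IsPrime] {x : F}
    (h : InMax B n (x + 1)) : ¬ InMax B n x := by
  intro hx
  apply not_inMax_one (B := B) (n := n)
  have := h.sub hx
  simpa using this

/-- **Dichotomy.** In the local ring `S` of the `J`-chart at a closed point, either `t ∈ S` or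
`t⁻¹ ∈ 𝔪_S`. -/
theorem mem_or_inv_inMax (t J : F) (b : R) (P Q : R[X]) (hP : P.Monic) (hQ : Q.Monic)
    (hdeg : P.natDegree = Q.natDegree + 1) (hrel : J * aeval t Q = aeval t P)
    (τ : F) (hτJ : τ * (J - algebraMap R F b) = 1)
    (n : Ideal ↥(B0 R τ)) [hn : n.IsPrime] :
    t ∈ locSubring (B0 R τ) n ∨ (t ≠ 0 ∧ InMax (B0 R τ) n t⁻¹) := by
  set b' := algebraMap R F b with hb'
  have hτ0 : τ ≠ 0 := left_ne_zero_of_mul_eq_one hτJ
  have hJb : J - b' ≠ 0 := right_ne_zero_of_mul_eq_one hτJ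
  have hτ : τ = (J - b')⁻¹ := eq_inv_of_mul_eq_one_left hτJ
  set S := locSubring (B0 R τ) n with hS
  have hBS : B0 R τ ≤ S := le_locSubring _ _
  have hτS : τ ∈ S := hBS tau_mem_B0
  have hRS : ∀ r : R, algebraMap R F r ∈ S := fun r => hBS (algebraMap_mem_B0 r)
  have hSint : ∀ x : F, IsIntegral S x → x ∈ S := fun x hx =>
    mem_loc_of_isIntegral _ n (fun y hy => mem_B0_of_isIntegral hy) hx
  let ιS : R →+* S := RingHom.codRestrict (algebraMap R F) S hRS
  have hιS : (algebraMap S F).comp ιS = algebraMap R F := rfl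
  have hevalP : ∀ p : R[X], Polynomial.eval₂ (algebraMap S F) t (p.map ιS) = aeval t p := by
    intro p
    rw [Polynomial.eval₂_map, hιS, Polynomial.aeval_def]
  have hm1 : (1 : ↥(B0 R τ)) ∉ n := (Ideal.ne_top_iff_one n).mp hn.ne_top
  by_cases hτn : (⟨τ, tau_mem_B0⟩ : ↥(B0 R τ)) ∈ n
  · -- `τ ∈ n`
    have hτM : InMax (B0 R τ) n τ := inMax_of_mem hτn
    have hu1M : ¬ InMax (B0 R τ) n (1 + b' * τ) := by
      apply not_inMax_of_sub_one
      have : 1 + b' * τ - 1 = b' * τ := by ring
      rw [this]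
      exact hτM.mul_left (hRS b)
    have hu1S : 1 + b' * τ ∈ S := S.add_mem S.one_mem (S.mul_mem (hRS b) hτS)
    obtain ⟨hu10, hu1inv, -⟩ := inv_mem_of_not_inMax hu1S hu1M
    set w := τ * (1 + b' * τ)⁻¹ with hw
    have hwM : InMax (B0 R τ) n w := hτM.mul_right hu1inv
    have hwS : w ∈ S := hwM.mem
    have hw0 : w ≠ 0 := mul_ne_zero hτ0 (inv_ne_zero hu10)
    have hJw : J * w = 1 := by
      have hJτ : J * τ = 1 + b' * τ := by
        have : J = (J - b') + b' := by ring
        rw [this, add_mul, mul_comm (J - b') τ, hτJ]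
      rw [hw, ← mul_assoc, hJτ, mul_inv_cancel₀ hu10]
    have hwP : w * aeval t P = aeval t Q := by
      rw [← hrel, ← mul_assoc, mul_comm w J, hJw, one_mul]
    -- `e = w t ∈ S`
    set G : S[X] := C (⟨w, hwS⟩ : S) * P.map ιS - Q.map ιS with hG
    have hPm : (P.map ιS).Monic := hP.map ιS
    have hQm : (Q.map ιS).Monic := hQ.map ιS
    have hw0S : (⟨w, hwS⟩ : S) ≠ 0 := fun h => hw0 (congrArg Subtype.val h)
    have hdegCP : (C (⟨w, hwS⟩ : S) * P.map ιS).degree = (P.map ιS).degree :=
      Polynomial.degree_C_mul hw0S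
    have hdeglt : (Q.map ιS).degree < (C (⟨w, hwS⟩ : S) * P.map ιS).degree := by
      rw [hdegCP, Polynomial.degree_eq_natDegree hPm.ne_zero,
        Polynomial.degree_eq_natDegree hQm.ne_zero, hP.natDegree_map, hQ.natDegree_map, hdeg]
      exact_mod_cast Nat.lt_succ_self _
    have hlc : G.leadingCoeff = ⟨w, hwS⟩ := by
      rw [hG, Polynomial.leadingCoeff_sub_of_degree_lt hdeglt, Polynomial.leadingCoeff_mul,
        Polynomial.leadingCoeff_C, hPm.leadingCoeff, mul_one]
    have hG0 : G ≠ 0 := by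
      intro h0
      rw [h0, Polynomial.leadingCoeff_zero] at hlc
      exact hw0S hlc.symm
    have hGt : Polynomial.eval₂ (algebraMap S F) t G = 0 := by
      rw [hG, Polynomial.eval₂_sub, Polynomial.eval₂_mul, Polynomial.eval₂_C, hevalP, hevalP]
      show w * aeval t P - aeval t Q = 0
      rw [hwP, sub_self]
    have heS : w * t ∈ S := by
      apply hSint
      refine ⟨Polynomial.integralNormalization G, Polynomial.monic_integralNormalization hG0, ?_⟩
      have := Polynomial.integralNormalization_eval₂_eq_zero (algebraMap S F) hGt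
        (fun x hx => Subtype.ext hx)
      rw [hlc] at this
      exact this
    by_cases heM : InMax (B0 R τ) n (w * t)
    · -- `e ∈ 𝔪_S`: `t` is integral over `S`
      left
      apply hSint
      set m := Q.natDegree with hm
      set P'' := (P.map ιS).eraseLead with hP''
      set Q'' := (Q.map ιS).eraseLead with hQ''
      have hPdec : P'' + X ^ (m + 1) = P.map ιS := by
        have := Polynomial.eraseLead_add_C_mul_X_pow (P.map ιS)
        rw [hPm.leadingCoeff, map_one, one_mul, hP.natDegree_map, hdeg] at this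
        exact this
      have hQdec : Q'' + X ^ m = Q.map ιS := by
        have := Polynomial.eraseLead_add_C_mul_X_pow (Q.map ιS)
        rw [hQm.leadingCoeff, map_one, one_mul, hQ.natDegree_map] at this
        exact this
      have hP''deg : P''.natDegree ≤ m := by
        have := Polynomial.eraseLead_natDegree_le (P.map ιS)
        rw [hP.natDegree_map, hdeg, Nat.add_sub_cancel] at this
        exact this
      have hQ''deg : Q''.natDegree ≤ m := by
        have := Polynomial.eraseLead_natDegree_le (Q.map ιS)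
        rw [hQ.natDegree_map] at this
        exact this.trans (Nat.sub_le _ _)
      have hQ''m : Q''.coeff m = 0 := by
        have := Polynomial.eraseLead_coeff_natDegree (f := Q.map ιS)
        rw [hQ.natDegree_map] at this
        exact this
      set G1 : S[X] := C (⟨w * t, heS⟩ - 1 : S) * X ^ m + C (⟨w, hwS⟩ : S) * P'' - Q'' with hG1
      have hG1deg : G1.natDegree ≤ m := by
        rw [hG1]
        refine (Polynomial.natDegree_sub_le _ _).trans (max_le ?_ hQ''deg)
        refine (Polynomial.natDegree_add_le _ _).trans (max_le ?_ ?_)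
        · exact (Polynomial.natDegree_C_mul_le _ _).trans (Polynomial.natDegree_X_pow_le m)
        · exact (Polynomial.natDegree_C_mul_le _ _).trans hP''deg
      have hG1t : Polynomial.eval₂ (algebraMap S F) t G1 = 0 := by
        have h1 : Polynomial.eval₂ (algebraMap S F) t P'' = aeval t P - t ^ (m + 1) := by
          rw [← hevalP, ← hPdec, Polynomial.eval₂_add, Polynomial.eval₂_pow, Polynomial.eval₂_X]
          ring
        have h2 : Polynomial.eval₂ (algebraMap S F) t Q'' = aeval t Q - t ^ m := by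
          rw [← hevalP, ← hQdec, Polynomial.eval₂_add, Polynomial.eval₂_pow, Polynomial.eval₂_X]
          ring
        rw [hG1, Polynomial.eval₂_sub, Polynomial.eval₂_add, Polynomial.eval₂_mul,
          Polynomial.eval₂_mul, Polynomial.eval₂_C, Polynomial.eval₂_C, Polynomial.eval₂_pow,
          Polynomial.eval₂_X, h1, h2]
        show (w * t - 1) * t ^ m + w * (aeval t P - t ^ (m + 1)) - (aeval t Q - t ^ m) = 0
        rw [mul_sub, hwP]
        ring
      -- the coefficient at `m` is a unit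
      set c : S := P''.coeff m with hc
      have hcoeff : G1.coeff m = ⟨w * t, heS⟩ - 1 + ⟨w, hwS⟩ * c := by
        rw [hG1, Polynomial.coeff_sub, Polynomial.coeff_add, Polynomial.coeff_C_mul,
          Polynomial.coeff_C_mul, Polynomial.coeff_X_pow, if_pos rfl, hQ''m, mul_one, sub_zero]
      have huM : ¬ InMax (B0 R τ) n (w * t - 1 + w * (c : F)) := by
        apply not_inMax_of_add_one
        have : w * t - 1 + w * (c : F) + 1 = w * t + w * (c : F) := by ring
        rw [this]
        exact heM.add (hwM.mul_right c.2)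
      have huS : w * t - 1 + w * (c : F) ∈ S :=
        S.add_mem (S.sub_mem heS S.one_mem) (S.mul_mem hwS c.2)
      obtain ⟨hu0, huinv, -⟩ := inv_mem_of_not_inMax huS huM
      refine isIntegral_of_coeff_unit G1 m hG1deg ⟨(w * t - 1 + w * (c : F))⁻¹, huinv⟩ ?_ t hG1t
      rw [hcoeff]
      apply Subtype.ext
      show (w * t - 1 + w * (c : F))⁻¹ * (w * t - 1 + w * (c : F)) = 1
      exact inv_mul_cancel₀ hu0
    · -- `e` is a unit of `S`: `t⁻¹ = w / e ∈ 𝔪_S`
      right
      obtain ⟨he0, heinv, -⟩ := inv_mem_of_not_inMax heS heM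
      have ht0 : t ≠ 0 := by
        rintro rfl
        exact he0 (mul_zero w)
      refine ⟨ht0, ?_⟩
      have : t⁻¹ = w * (w * t)⁻¹ := by
        field_simp
      rw [this]
      exact hwM.mul_right heinv
  · -- `τ ∉ n`: `J ∈ S` and `t` is integral over `S`
    left
    have hτM : ¬ InMax (B0 R τ) n τ := by
      intro h
      apply hτn
      exact h.num_mem (s := 1) hm1 (by simp)
    obtain ⟨-, hτinv, -⟩ := inv_mem_of_not_inMax hτS hτM
    have hJS : J ∈ S := by
      have : J = τ⁻¹ + b' := by rw [hτ, inv_inv]; ring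
      rw [this]
      exact S.add_mem hτinv (hRS b)
    apply hSint
    have hPm : (P.map ιS).Monic := hP.map ιS
    have hQm : (Q.map ιS).Monic := hQ.map ιS
    have hlt : (C (⟨J, hJS⟩ : S) * Q.map ιS).degree < (P.map ιS).degree := by
      refine lt_of_le_of_lt (Polynomial.degree_mul_le _ _) ?_
      refine lt_of_le_of_lt (add_le_add (Polynomial.degree_C_le) le_rfl) ?_
      rw [zero_add, Polynomial.degree_eq_natDegree hPm.ne_zero,
        Polynomial.degree_eq_natDegree hQm.ne_zero, hP.natDegree_map, hQ.natDegree_map, hdeg]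
      exact_mod_cast Nat.lt_succ_self _
    refine ⟨P.map ιS - C (⟨J, hJS⟩ : S) * Q.map ιS, hPm.sub_of_left hlt, ?_⟩
    rw [Polynomial.eval₂_sub, Polynomial.eval₂_mul, Polynomial.eval₂_C, hevalP, hevalP]
    show aeval t P - J * aeval t Q = 0
    rw [hrel, sub_self]

end Dichotomy

/-! ### the main theorem -/

section Main

variable {R F : Type*} [CommRing R] [Field F] [Algebra R F]

/-- **(CHJ)** `LocalGen π n` at every closed point `n ∋ π` of the `J`-chart `B0 R (J - b)⁻¹`, from
`LocalGen` at the closed points over `π` of the two `t`-charts, when `J = P(t)/Q(t)` with `P, Q`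
monic, `deg P = deg Q + 1`, coprime modulo `π`.  General coordinate `τ` with `τ (J - b) = 1`. -/
theorem localGen_chartJ_tau (π : R) (hπ : (Ideal.span {π} : Ideal R).IsMaximal) (t J : F) (b : R)
    (P Q : R[X]) (hP : P.Monic) (hQ : Q.Monic) (hdeg : P.natDegree = Q.natDegree + 1)
    (hrel : J * aeval t Q = aeval t P)
    (hcop : ∃ U V W : R[X], U * P + V * Q = 1 + C π * W)
    (h0 : ∀ n : Ideal ↥(B0 R t), n.IsMaximal →
      (⟨algebraMap R F π, algebraMap_mem_B0 π⟩ : ↥(B0 R t)) ∈ n →
      LocalGen (⟨algebraMap R F π, algebraMap_mem_B0 π⟩ : ↥(B0 R t)) n)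
    (h1 : ∀ n : Ideal ↥(B1 R t), n.IsMaximal →
      (⟨algebraMap R F π, algebraMap_mem_B0 π⟩ : ↥(B1 R t)) ∈ n →
      LocalGen (⟨algebraMap R F π, algebraMap_mem_B0 π⟩ : ↥(B1 R t)) n)
    (τ : F) (hτJ : τ * (J - algebraMap R F b) = 1)
    (n : Ideal ↥(B0 R τ)) (hn : n.IsMaximal)
    (hπn : (⟨algebraMap R F π, algebraMap_mem_B0 π⟩ : ↥(B0 R τ)) ∈ n) :
    LocalGen (⟨algebraMap R F π, algebraMap_mem_B0 π⟩ : ↥(B0 R τ)) n := by
  haveI := hn
  set b' := algebraMap R F b with hb'
  set S := locSubring (B0 R τ) n with hS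
  have hBS : B0 R τ ≤ S := le_locSubring _ _
  have hτS : τ ∈ S := hBS tau_mem_B0
  have hRS : ∀ r : R, algebraMap R F r ∈ S := fun r => hBS (algebraMap_mem_B0 r)
  have hπM : InMax (B0 R τ) n (algebraMap R F π) := inMax_of_mem hπn
  have haevalS : ∀ x : F, x ∈ S → ∀ p : R[X], aeval x p ∈ S := fun x hx p =>
    B0_le_loc n hx (aeval_mem_B0 p)
  rcases mem_or_inv_inMax t J b P Q hP hQ hdeg hrel τ hτJ n with htS | ⟨ht0, hsM⟩
  · -- the chart `B0 R t`
    have hD : aeval t P - b' * aeval t Q ∈ B0 R t :=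
      (B0 R t).sub_mem (aeval_mem_B0 P) ((B0 R t).mul_mem (algebraMap_mem_B0 b) (aeval_mem_B0 Q))
    refine localGen_of_chart π hπ τ t n hπn htS ⟨aeval t Q, aeval_mem_B0 Q⟩
      ⟨aeval t P - b' * aeval t Q, hD⟩ ?_ ?_ h0
    · show τ * (aeval t P - b' * aeval t Q) = aeval t Q
      rw [← hrel]
      have : τ * (J * aeval t Q - b' * aeval t Q) = (τ * (J - b')) * aeval t Q := by ring
      rw [this, hτJ, one_mul]
    · show ¬ InMax (B0 R τ) n (aeval t P - b' * aeval t Q)
      intro hDM
      have hQM : InMax (B0 R τ) n (aeval t Q) := by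
        have : aeval t Q = τ * (aeval t P - b' * aeval t Q) := by
          rw [← hrel]
          have : τ * (J * aeval t Q - b' * aeval t Q) = (τ * (J - b')) * aeval t Q := by ring
          rw [this, hτJ, one_mul]
        rw [this]
        exact hDM.mul_left hτS
      have hPM : InMax (B0 R τ) n (aeval t P) := by
        have : aeval t P = (aeval t P - b' * aeval t Q) + b' * aeval t Q := by ring
        rw [this]
        exact hDM.add (hQM.mul_left (hRS b))
      obtain ⟨U, V, W, hUVW⟩ := hcop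
      have h1' := congrArg (aeval t) hUVW
      simp only [map_add, map_mul, map_one, aeval_C] at h1'
      apply not_inMax_one (B := B0 R τ) (n := n)
      have : (1 : F) = aeval t U * aeval t P + aeval t V * aeval t Q
          - algebraMap R F π * aeval t W := by
        rw [h1']
        ring
      rw [this]
      exact ((hPM.mul_left (haevalS t htS U)).add (hQM.mul_left (haevalS t htS V))).sub
        (hπM.mul_right (haevalS t htS W))
  · -- the chart `B1 R t = B0 R t⁻¹`
    set s := t⁻¹ with hs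
    have hsS : s ∈ S := hsM.mem
    have hst : s * t = 1 := inv_mul_cancel₀ ht0
    letI : Invertible t := invertibleOfNonzero ht0
    have hPr : aeval s P.reverse * t ^ P.natDegree = aeval t P := by
      have := Polynomial.eval₂_reverse_mul_pow (algebraMap R F) t P
      rw [invOf_eq_inv] at this
      rw [Polynomial.aeval_def, Polynomial.aeval_def]
      exact this
    have hQr : aeval s Q.reverse * t ^ Q.natDegree = aeval t Q := by
      have := Polynomial.eval₂_reverse_mul_pow (algebraMap R F) t Q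
      rw [invOf_eq_inv] at this
      rw [Polynomial.aeval_def, Polynomial.aeval_def]
      exact this
    -- `J s Qr(s) = Pr(s)`
    have hJs : J * s * aeval s Q.reverse = aeval s P.reverse := by
      have h2 : J * (aeval s Q.reverse * t ^ Q.natDegree)
          = aeval s P.reverse * t ^ Q.natDegree * t := by
        rw [hQr, hrel, ← hPr, hdeg, pow_succ]
        ring
      have ht0' : t ^ Q.natDegree ≠ 0 := pow_ne_zero _ ht0
      have h3 : J * aeval s Q.reverse = aeval s P.reverse * t := by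
        apply mul_right_cancel₀ ht0'
        rw [mul_assoc, h2]
        ring
      calc J * s * aeval s Q.reverse = (J * aeval s Q.reverse) * s := by ring
        _ = aeval s P.reverse * (s * t) := by rw [h3]; ring
        _ = aeval s P.reverse := by rw [hst, mul_one]
    -- `Pr(s) = 1 + s H(s)`
    obtain ⟨H, hH⟩ := Polynomial.X_dvd_sub_C (p := P.reverse)
    rw [Polynomial.coeff_zero_reverse, hP.leadingCoeff, map_one] at hH
    have hPr1 : aeval s P.reverse - 1 = s * aeval s H := by
      have := congrArg (aeval s) hH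
      simpa using this
    have hN : s * aeval s Q.reverse ∈ B0 R s :=
      (B0 R s).mul_mem tau_mem_B0 (aeval_mem_B0 _)
    have hD : aeval s P.reverse - b' * (s * aeval s Q.reverse) ∈ B0 R s :=
      (B0 R s).sub_mem (aeval_mem_B0 _) ((B0 R s).mul_mem (algebraMap_mem_B0 b) hN)
    refine localGen_of_chart π hπ τ s n hπn hsS ⟨s * aeval s Q.reverse, hN⟩
      ⟨aeval s P.reverse - b' * (s * aeval s Q.reverse), hD⟩ ?_ ?_ h1
    · show τ * (aeval s P.reverse - b' * (s * aeval s Q.reverse)) = s * aeval s Q.reverse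
      rw [← hJs]
      have : τ * (J * s * aeval s Q.reverse - b' * (s * aeval s Q.reverse))
          = (τ * (J - b')) * (s * aeval s Q.reverse) := by ring
      rw [this, hτJ, one_mul]
    · show ¬ InMax (B0 R τ) n (aeval s P.reverse - b' * (s * aeval s Q.reverse))
      apply not_inMax_of_sub_one
      have : aeval s P.reverse - b' * (s * aeval s Q.reverse) - 1
          = s * (aeval s H - b' * aeval s Q.reverse) := by
        have : aeval s P.reverse = 1 + s * aeval s H := by rw [← hPr1]; ring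
        rw [this]
        ring
      rw [this]
      exact hsM.mul_right (S.sub_mem (haevalS s hsS H)
        (S.mul_mem (hRS b) (haevalS s hsS Q.reverse)))

/-- **(CHJ)** in the coordinate `(J - b)⁻¹`. -/
theorem localGen_chartJ (π : R) (hπ : (Ideal.span {π} : Ideal R).IsMaximal) (t J : F) (b : R)
    (P Q : R[X]) (hP : P.Monic) (hQ : Q.Monic) (hdeg : P.natDegree = Q.natDegree + 1)
    (hrel : J * aeval t Q = aeval t P)
    (hcop : ∃ U V W : R[X], U * P + V * Q = 1 + C π * W)
    (hJb : J - algebraMap R F b ≠ 0)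
    (h0 : ∀ n : Ideal ↥(B0 R t), n.IsMaximal →
      (⟨algebraMap R F π, algebraMap_mem_B0 π⟩ : ↥(B0 R t)) ∈ n →
      LocalGen (⟨algebraMap R F π, algebraMap_mem_B0 π⟩ : ↥(B0 R t)) n)
    (h1 : ∀ n : Ideal ↥(B1 R t), n.IsMaximal →
      (⟨algebraMap R F π, algebraMap_mem_B0 π⟩ : ↥(B1 R t)) ∈ n →
      LocalGen (⟨algebraMap R F π, algebraMap_mem_B0 π⟩ : ↥(B1 R t)) n)
    (n : Ideal ↥(B0 R (J - algebraMap R F b)⁻¹)) (hn : n.IsMaximal)
    (hπn : (⟨algebraMap R F π, algebraMap_mem_B0 π⟩ : ↥(B0 R (J - algebraMap R F b)⁻¹)) ∈ n) :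
    LocalGen (⟨algebraMap R F π, algebraMap_mem_B0 π⟩ : ↥(B0 R (J - algebraMap R F b)⁻¹)) n :=
  localGen_chartJ_tau π hπ t J b P Q hP hQ hdeg hrel hcop h0 h1 _ (inv_mul_cancel₀ hJb) n hn hπn

/-- the coprimality hypothesis from coprimality of the reductions modulo `π` -/
theorem exists_bezout_of_isCoprime_map (π : R) (P Q : R[X])
    (h : IsCoprime (P.map (Ideal.Quotient.mk (Ideal.span {π})))
      (Q.map (Ideal.Quotient.mk (Ideal.span {π})))) :
    ∃ U V W : R[X], U * P + V * Q = 1 + C π * W := by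
  obtain ⟨u, v, huv⟩ := h
  obtain ⟨U, rfl⟩ := Polynomial.map_surjective _ Ideal.Quotient.mk_surjective u
  obtain ⟨V, rfl⟩ := Polynomial.map_surjective _ Ideal.Quotient.mk_surjective v
  have hker : U * P + V * Q - 1 ∈ RingHom.ker
      (Polynomial.mapRingHom (Ideal.Quotient.mk (Ideal.span {π}))) := by
    rw [RingHom.mem_ker]
    simp only [Polynomial.coe_mapRingHom, Polynomial.map_sub, Polynomial.map_add,
      Polynomial.map_mul, Polynomial.map_one]
    rw [huv, sub_self]
  rw [Polynomial.ker_mapRingHom, Ideal.mk_ker, Ideal.map_span, Set.image_singleton,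
    Ideal.mem_span_singleton] at hker
  obtain ⟨W, hW⟩ := hker
  exact ⟨U, V, W, by rw [← hW]; ring⟩

end Main

end Fermat.Agent.S37.Local.ChartJ
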