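import Mathlib
import Fermat.Agent.S37.Local.ChartJ
import Fermat.Agent.S18.Inst.Level4Final
import Fermat.Agent.S18.Inst.Level9Final

/-!
# S37 (GLUE-CHJ): `LocalGen` on the `J`-chart at levels `4 ∣ M` and `9 ∣ M`

`L` any field of characteristic `0`, `A` a discrete valuation subring of `L` with uniformiser `π`,
`FL := laurentBaseChange L (modularFunctionFieldFull M)`, `J := ⟨jqModC L, _⟩ : FL`, `b : A`,
`τ_b := (J - b)⁻¹`.  From `LocalGen π n` at every maximal ideal `n ∋ π` of the two `t`-charts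
`B0 A t`, `B1 A t` (`t` the Hauptmodul of level `4` resp. `9`; this is the export of
`S18/Final/CuspsGen.localGen_of_coordData_cusps`) we get `LocalGen π n` at every maximal ideal
`n ∋ π` of the `J`-chart `B0 A τ_b`, via `ChartJ.localGen_chartJ` with the explicit monic
polynomials `P, Q` (`J · Q(t) = P(t)`, coprime modulo `π` as `2` resp. `3` is a unit).
-/

set_option autoImplicit false
set_option linter.style.haveILetI false
set_option linter.unusedSectionVars false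

open Polynomial

namespace Fermat.Agent.S37.Local.ChartJLevel

open Fermat.Agent.S18.Core.Charts Fermat.Agent.S18.Cusp.NormalBridge
open Fermat.Agent.S37.Local.ChartJ

/-! ### generic: a DVR with uniformiser `π`, coprimality over the residue field -/

section Generic

variable {R F : Type*} [CommRing R] [IsDomain R] [IsDiscreteValuationRing R] [Field F]
  [Algebra R F]

/-- the ideal generated by a uniformiser is maximal -/
theorem span_isMaximal_of_irreducible {π : R} (hπ : Irreducible π) :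
    (Ideal.span {π} : Ideal R).IsMaximal := by
  rw [← hπ.maximalIdeal_eq]
  exact IsLocalRing.maximalIdeal.isMaximal R

/-- Bezout modulo `π` from coprimality over the residue field -/
theorem exists_bezout_of_isCoprime_residue {π : R} (hπ : Irreducible π) (P Q : R[X])
    (h : IsCoprime (P.map (IsLocalRing.residue R)) (Q.map (IsLocalRing.residue R))) :
    ∃ U V W : R[X], U * P + V * Q = 1 + C π * W := by
  obtain ⟨u, v, huv⟩ := h
  obtain ⟨U, rfl⟩ := Polynomial.map_surjective _ IsLocalRing.residue_surjective u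
  obtain ⟨V, rfl⟩ := Polynomial.map_surjective _ IsLocalRing.residue_surjective v
  have hker : U * P + V * Q - 1 ∈ RingHom.ker
      (Polynomial.mapRingHom (IsLocalRing.residue R)) := by
    rw [RingHom.mem_ker]
    simp only [Polynomial.coe_mapRingHom, Polynomial.map_sub, Polynomial.map_add,
      Polynomial.map_mul, Polynomial.map_one]
    rw [huv, sub_self]
  rw [Polynomial.ker_mapRingHom, IsLocalRing.ker_residue, hπ.maximalIdeal_eq, Ideal.map_span,
    Set.image_singleton, Ideal.mem_span_singleton] at hker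
  obtain ⟨W, hW⟩ := hker
  exact ⟨U, V, W, by rw [← hW]; ring⟩

/-- **(CHJ) over a DVR**: the hypotheses of `ChartJ.localGen_chartJ` with `π` a uniformiser and
coprimality over the residue field. -/
theorem localGen_chartJ_dvr {π : R} (hπ : Irreducible π) (t J : F) (b : R)
    (P Q : R[X]) (hP : P.Monic) (hQ : Q.Monic) (hdeg : P.natDegree = Q.natDegree + 1)
    (hrel : J * aeval t Q = aeval t P)
    (hcop : IsCoprime (P.map (IsLocalRing.residue R)) (Q.map (IsLocalRing.residue R)))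
    (hJb : J - algebraMap R F b ≠ 0)
    (h0 : ∀ n : Ideal ↥(B0 R t), n.IsMaximal →
      (⟨algebraMap R F π, algebraMap_mem_B0 π⟩ : ↥(B0 R t)) ∈ n →
      LocalGen (⟨algebraMap R F π, algebraMap_mem_B0 π⟩ : ↥(B0 R t)) n)
    (h1 : ∀ n : Ideal ↥(B1 R t), n.IsMaximal →
      (⟨algebraMap R F π, algebraMap_mem_B0 π⟩ : ↥(B1 R t)) ∈ n →
      LocalGen (⟨algebraMap R F π, algebraMap_mem_B0 π⟩ : ↥(B1 R t)) n)
    (n : Ideal ↥(B0 R (J - algebraMap R F b)⁻¹)) (hn : n.IsMaximal)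
    (hπn : (⟨algebraMap R F π, algebraMap_mem_B0 π⟩ : ↥(B0 R (J - algebraMap R F b)⁻¹)) ∈ n) :
    LocalGen (⟨algebraMap R F π, algebraMap_mem_B0 π⟩ : ↥(B0 R (J - algebraMap R F b)⁻¹)) n :=
  localGen_chartJ π (span_isMaximal_of_irreducible hπ) t J b P Q hP hQ hdeg hrel
    (exists_bezout_of_isCoprime_residue hπ P Q hcop) hJb h0 h1 n hn hπn

end Generic

/-! ### the explicit polynomials over an arbitrary commutative ring -/

section Polys

variable (R : Type*) [CommRing R]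

/-- level 4: `P = (X² + 256 X + 4096)³` -/
noncomputable def P4 : R[X] := (X ^ 2 + 256 * X + 4096) ^ 3

/-- level 4: `Q = X⁴ (X + 16)` -/
noncomputable def Q4 : R[X] := X ^ 4 * (X + 16)

/-- level 9: `P = ((X + 9)(X³ + 243 X² + 2187 X + 6561))³` -/
noncomputable def P9 : R[X] := ((X + 9) * (X ^ 3 + 243 * X ^ 2 + 2187 * X + 6561)) ^ 3

/-- level 9: `Q = X⁹ (X² + 9 X + 27)` -/
noncomputable def Q9 : R[X] := X ^ 9 * (X ^ 2 + 9 * X + 27)

variable {R}

theorem map_P4 {S : Type*} [CommRing S] (f : R →+* S) : (P4 R).map f = P4 S := by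
  simp [P4]

theorem map_Q4 {S : Type*} [CommRing S] (f : R →+* S) : (Q4 R).map f = Q4 S := by
  simp [Q4]

theorem map_P9 {S : Type*} [CommRing S] (f : R →+* S) : (P9 R).map f = P9 S := by
  simp [P9]

theorem map_Q9 {S : Type*} [CommRing S] (f : R →+* S) : (Q9 R).map f = Q9 S := by
  simp [Q9]

variable (R)

theorem monic_P4 : (P4 R).Monic := by
  unfold P4
  monicity!

theorem monic_Q4 : (Q4 R).Monic := by
  unfold Q4
  monicity!

theorem monic_P9 : (P9 R).Monic := by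
  unfold P9
  monicity!

theorem monic_Q9 : (Q9 R).Monic := by
  unfold Q9
  monicity!

theorem natDegree_P4 [Nontrivial R] : (P4 R).natDegree = 6 := by
  unfold P4
  compute_degree!

theorem natDegree_Q4 [Nontrivial R] : (Q4 R).natDegree = 5 := by
  unfold Q4
  compute_degree!

theorem natDegree_P9 [Nontrivial R] : (P9 R).natDegree = 12 := by
  unfold P9
  compute_degree!

theorem natDegree_Q9 [Nontrivial R] : (Q9 R).natDegree = 11 := by
  unfold Q9
  compute_degree!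

theorem P4_eq_Rn (k : Type*) [Field k] : P4 k = Fermat.Agent.S18.Haupt.Level4Degree.Rn k := rfl

theorem Q4_eq_Dp (k : Type*) [Field k] : Q4 k = Fermat.Agent.S18.Haupt.Level4Degree.Dp k := rfl

theorem P9_eq_Rn (k : Type*) [Field k] : P9 k = Fermat.Agent.S18.Haupt9.Degree.Rn k := rfl

theorem Q9_eq_Dp (k : Type*) [Field k] : Q9 k = Fermat.Agent.S18.Haupt9.Degree.Dp k := rfl

end Polys

/-! ### the function field `F_{M,L}`: `J - b ≠ 0` -/

section FunctionField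

open ModularCurve
open Fermat.Agent.S18.Gauss Fermat.Agent.S18.Gauss.Residue

set_option synthInstance.maxHeartbeats 400000

variable {L : Type*} [Field L] [Algebra ℚ L] {M : ℕ} [NeZero M] (A : ValuationSubring L)

/-- `J` is not a constant -/
theorem Jel_sub_ne_zero (b : A) :
    Jel (Concrete.jqModC_mem L M) -
      algebraMap ↥A ↥(laurentBaseChange L (modularFunctionFieldFull M)) b ≠ 0 := by
  intro h
  apply Concrete.transcendental_Jel L M
  rw [sub_eq_zero.mp h]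
  exact isAlgebraic_algebraMap (R := L)
    (A := ↥(laurentBaseChange L (modularFunctionFieldFull M))) (b : L)

end FunctionField

/-! ### level `4 ∣ M` -/

section Level4

open IsLocalRing ModularCurve
open Fermat.Agent.S18.Gauss Fermat.Agent.S18.Gauss.Residue Fermat.Agent.S18.Inst.Level4
open Fermat.Agent.S18.Haupt Fermat.Agent.S18.Haupt.Level4Degree

set_option synthInstance.maxHeartbeats 400000

variable {L : Type*} [Field L] [Algebra ℚ L] {M : ℕ} [NeZero M] (h4 : 4 ∣ M)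
  (A : ValuationSubring L)

/-- `J · Q₄(t₄) = P₄(t₄)` in `F_{M,L}`, with coefficients in `A` -/
theorem rel4 :
    Jel (Concrete.jqModC_mem L M) * aeval (tEl (L := L) M h4) (Q4 ↥A) =
      aeval (tEl (L := L) M h4) (P4 ↥A) := by
  have h := Fermat.Agent.S18.Inst.Haupt.rel_mk (laurentBaseChange L (modularFunctionFieldFull M))
    (Concrete.jqModC_mem L M) (t4C_mem_laurentBaseChange L M h4) (Rn L) (Dp L) (rel_t4C L)
  rw [← P4_eq_Rn, ← Q4_eq_Dp, ← map_P4 (algebraMap ↥A L), ← map_Q4 (algebraMap ↥A L),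
    aeval_map_algebraMap, aeval_map_algebraMap] at h
  exact h

variable [IsDiscreteValuationRing A] {π : A} (hπ : Irreducible π)

include hπ in
/-- **(GLUE-CHJ), level `4 ∣ M`**: `LocalGen` on the `J`-chart `B0 A (J - b)⁻¹` from `LocalGen` on
the two `t₄`-charts (`2` a unit of `A`). -/
theorem localGen_chartJ4 (h2 : (2 : ResidueField ↥A) ≠ 0) (b : A)
    (h0 : ∀ n : Ideal ↥(B0 ↥A (tEl (L := L) M h4)), n.IsMaximal →
      (⟨algebraMap ↥A _ π, algebraMap_mem_B0 π⟩ : ↥(B0 ↥A (tEl (L := L) M h4))) ∈ n →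
      LocalGen (⟨algebraMap ↥A _ π, algebraMap_mem_B0 π⟩ : ↥(B0 ↥A (tEl (L := L) M h4))) n)
    (h1 : ∀ n : Ideal ↥(B1 ↥A (tEl (L := L) M h4)), n.IsMaximal →
      (⟨algebraMap ↥A _ π, algebraMap_mem_B0 π⟩ : ↥(B1 ↥A (tEl (L := L) M h4))) ∈ n →
      LocalGen (⟨algebraMap ↥A _ π, algebraMap_mem_B0 π⟩ : ↥(B1 ↥A (tEl (L := L) M h4))) n)
    (n : Ideal ↥(B0 ↥A (Jel (Concrete.jqModC_mem L M) -
      algebraMap ↥A ↥(laurentBaseChange L (modularFunctionFieldFull M)) b)⁻¹))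
    (hn : n.IsMaximal)
    (hπn : (⟨algebraMap ↥A _ π, algebraMap_mem_B0 π⟩ : ↥(B0 ↥A (Jel (Concrete.jqModC_mem L M) -
      algebraMap ↥A ↥(laurentBaseChange L (modularFunctionFieldFull M)) b)⁻¹)) ∈ n) :
    LocalGen (⟨algebraMap ↥A _ π, algebraMap_mem_B0 π⟩ :
      ↥(B0 ↥A (Jel (Concrete.jqModC_mem L M) -
        algebraMap ↥A ↥(laurentBaseChange L (modularFunctionFieldFull M)) b)⁻¹)) n :=
  localGen_chartJ_dvr hπ (tEl (L := L) M h4) (Jel (Concrete.jqModC_mem L M)) b (P4 ↥A) (Q4 ↥A)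
    (monic_P4 _) (monic_Q4 _) (by rw [natDegree_P4, natDegree_Q4]) (rel4 h4 A)
    (by rw [map_P4, map_Q4, P4_eq_Rn, Q4_eq_Dp]; exact isCoprime_Rn_Dp h2)
    (Jel_sub_ne_zero A b) h0 h1 n hn hπn

include hπ in
/-- the same with the residue characteristic `ℓ ∤ M` -/
theorem localGen_chartJ4_of_char {ℓ : ℕ} [Fact ℓ.Prime] [CharP (ResidueField ↥A) ℓ]
    (hℓM : ¬ ℓ ∣ M) (b : A)
    (h0 : ∀ n : Ideal ↥(B0 ↥A (tEl (L := L) M h4)), n.IsMaximal →
      (⟨algebraMap ↥A _ π, algebraMap_mem_B0 π⟩ : ↥(B0 ↥A (tEl (L := L) M h4))) ∈ n →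
      LocalGen (⟨algebraMap ↥A _ π, algebraMap_mem_B0 π⟩ : ↥(B0 ↥A (tEl (L := L) M h4))) n)
    (h1 : ∀ n : Ideal ↥(B1 ↥A (tEl (L := L) M h4)), n.IsMaximal →
      (⟨algebraMap ↥A _ π, algebraMap_mem_B0 π⟩ : ↥(B1 ↥A (tEl (L := L) M h4))) ∈ n →
      LocalGen (⟨algebraMap ↥A _ π, algebraMap_mem_B0 π⟩ : ↥(B1 ↥A (tEl (L := L) M h4))) n) :
    ∀ n : Ideal ↥(B0 ↥A (Jel (Concrete.jqModC_mem L M) -
      algebraMap ↥A ↥(laurentBaseChange L (modularFunctionFieldFull M)) b)⁻¹), n.IsMaximal →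
      (⟨algebraMap ↥A _ π, algebraMap_mem_B0 π⟩ : ↥(B0 ↥A (Jel (Concrete.jqModC_mem L M) -
        algebraMap ↥A ↥(laurentBaseChange L (modularFunctionFieldFull M)) b)⁻¹)) ∈ n →
      LocalGen (⟨algebraMap ↥A _ π, algebraMap_mem_B0 π⟩ :
        ↥(B0 ↥A (Jel (Concrete.jqModC_mem L M) -
          algebraMap ↥A ↥(laurentBaseChange L (modularFunctionFieldFull M)) b)⁻¹)) n :=
  fun n hn hπn => localGen_chartJ4 h4 A hπ
    (Fermat.Agent.S18.Inst.Level4Final.two_ne_zero_res h4 A hℓM) b h0 h1 n hn hπn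

include hπ in
/-- the same, consuming the conjunction exported by
`S18/Final/CuspsGen.localGen_of_coordData_cusps` (instance-implicit maximality) -/
theorem localGen_chartJ4_of_cuspsGen {ℓ : ℕ} [Fact ℓ.Prime] [CharP (ResidueField ↥A) ℓ]
    (hℓM : ¬ ℓ ∣ M) (b : A)
    (hLG : (∀ (n : Ideal ↥(B0 ↥A (tEl (L := L) M h4))) [n.IsMaximal],
        (⟨algebraMap ↥A _ π, algebraMap_mem_B0 π⟩ : ↥(B0 ↥A (tEl (L := L) M h4))) ∈ n →
        LocalGen (⟨algebraMap ↥A _ π, algebraMap_mem_B0 π⟩ : ↥(B0 ↥A (tEl (L := L) M h4))) n) ∧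
      (∀ (n : Ideal ↥(B1 ↥A (tEl (L := L) M h4))) [n.IsMaximal],
        (⟨algebraMap ↥A _ π, algebraMap_mem_B0 π⟩ : ↥(B1 ↥A (tEl (L := L) M h4))) ∈ n →
        LocalGen (⟨algebraMap ↥A _ π, algebraMap_mem_B0 π⟩ : ↥(B1 ↥A (tEl (L := L) M h4))) n)) :
    ∀ n : Ideal ↥(B0 ↥A (Jel (Concrete.jqModC_mem L M) -
      algebraMap ↥A ↥(laurentBaseChange L (modularFunctionFieldFull M)) b)⁻¹), n.IsMaximal →
      (⟨algebraMap ↥A _ π, algebraMap_mem_B0 π⟩ : ↥(B0 ↥A (Jel (Concrete.jqModC_mem L M) -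
        algebraMap ↥A ↥(laurentBaseChange L (modularFunctionFieldFull M)) b)⁻¹)) ∈ n →
      LocalGen (⟨algebraMap ↥A _ π, algebraMap_mem_B0 π⟩ :
        ↥(B0 ↥A (Jel (Concrete.jqModC_mem L M) -
          algebraMap ↥A ↥(laurentBaseChange L (modularFunctionFieldFull M)) b)⁻¹)) n :=
  localGen_chartJ4_of_char h4 A hπ hℓM b (fun n hn h => by haveI := hn; exact hLG.1 n h)
    (fun n hn h => by haveI := hn; exact hLG.2 n h)

end Level4

/-! ### level `9 ∣ M` -/

section Level9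

open IsLocalRing ModularCurve
open Fermat.Agent.S18.Gauss Fermat.Agent.S18.Gauss.Residue
open Fermat.Agent.S18.Inst.Level9Final (tEl)
open Fermat.Agent.S18.Haupt9 (t9C)
open Fermat.Agent.S18.Haupt9.Degree

set_option synthInstance.maxHeartbeats 400000

variable {L : Type*} [Field L] [Algebra ℚ L] {M : ℕ} [NeZero M] (h9 : 9 ∣ M)
  (A : ValuationSubring L)

/-- `J · Q₉(t₉) = P₉(t₉)` in `F_{M,L}`, with coefficients in `A` -/
theorem rel9 :
    Jel (Concrete.jqModC_mem L M) * aeval (tEl (L := L) M h9) (Q9 ↥A) =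
      aeval (tEl (L := L) M h9) (P9 ↥A) := by
  have h := Fermat.Agent.S18.Inst.Haupt.rel_mk (laurentBaseChange L (modularFunctionFieldFull M))
    (Concrete.jqModC_mem L M)
    (Fermat.Agent.S18.Haupt.Level9Final.t9C_mem_laurentBaseChange L M h9) (Rn L) (Dp L)
    (rel_t9C L)
  rw [← P9_eq_Rn, ← Q9_eq_Dp, ← map_P9 (algebraMap ↥A L), ← map_Q9 (algebraMap ↥A L),
    aeval_map_algebraMap, aeval_map_algebraMap] at h
  exact h

variable [IsDiscreteValuationRing A] {π : A} (hπ : Irreducible π)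

include hπ in
/-- **(GLUE-CHJ), level `9 ∣ M`**: `LocalGen` on the `J`-chart `B0 A (J - b)⁻¹` from `LocalGen` on
the two `t₉`-charts (`3` a unit of `A`). -/
theorem localGen_chartJ9 (h3 : (3 : ResidueField ↥A) ≠ 0) (b : A)
    (h0 : ∀ n : Ideal ↥(B0 ↥A (tEl (L := L) M h9)), n.IsMaximal →
      (⟨algebraMap ↥A _ π, algebraMap_mem_B0 π⟩ : ↥(B0 ↥A (tEl (L := L) M h9))) ∈ n →
      LocalGen (⟨algebraMap ↥A _ π, algebraMap_mem_B0 π⟩ : ↥(B0 ↥A (tEl (L := L) M h9))) n)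
    (h1 : ∀ n : Ideal ↥(B1 ↥A (tEl (L := L) M h9)), n.IsMaximal →
      (⟨algebraMap ↥A _ π, algebraMap_mem_B0 π⟩ : ↥(B1 ↥A (tEl (L := L) M h9))) ∈ n →
      LocalGen (⟨algebraMap ↥A _ π, algebraMap_mem_B0 π⟩ : ↥(B1 ↥A (tEl (L := L) M h9))) n)
    (n : Ideal ↥(B0 ↥A (Jel (Concrete.jqModC_mem L M) -
      algebraMap ↥A ↥(laurentBaseChange L (modularFunctionFieldFull M)) b)⁻¹))
    (hn : n.IsMaximal)
    (hπn : (⟨algebraMap ↥A _ π, algebraMap_mem_B0 π⟩ : ↥(B0 ↥A (Jel (Concrete.jqModC_mem L M) -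
      algebraMap ↥A ↥(laurentBaseChange L (modularFunctionFieldFull M)) b)⁻¹)) ∈ n) :
    LocalGen (⟨algebraMap ↥A _ π, algebraMap_mem_B0 π⟩ :
      ↥(B0 ↥A (Jel (Concrete.jqModC_mem L M) -
        algebraMap ↥A ↥(laurentBaseChange L (modularFunctionFieldFull M)) b)⁻¹)) n :=
  localGen_chartJ_dvr hπ (tEl (L := L) M h9) (Jel (Concrete.jqModC_mem L M)) b (P9 ↥A) (Q9 ↥A)
    (monic_P9 _) (monic_Q9 _) (by rw [natDegree_P9, natDegree_Q9]) (rel9 h9 A)
    (by rw [map_P9, map_Q9, P9_eq_Rn, Q9_eq_Dp]; exact isCoprime_Rn_Dp h3)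
    (Jel_sub_ne_zero A b) h0 h1 n hn hπn

include hπ in
/-- the same with the residue characteristic `ℓ ∤ M` -/
theorem localGen_chartJ9_of_char {ℓ : ℕ} [Fact ℓ.Prime] [CharP (ResidueField ↥A) ℓ]
    (hℓM : ¬ ℓ ∣ M) (b : A)
    (h0 : ∀ n : Ideal ↥(B0 ↥A (tEl (L := L) M h9)), n.IsMaximal →
      (⟨algebraMap ↥A _ π, algebraMap_mem_B0 π⟩ : ↥(B0 ↥A (tEl (L := L) M h9))) ∈ n →
      LocalGen (⟨algebraMap ↥A _ π, algebraMap_mem_B0 π⟩ : ↥(B0 ↥A (tEl (L := L) M h9))) n)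
    (h1 : ∀ n : Ideal ↥(B1 ↥A (tEl (L := L) M h9)), n.IsMaximal →
      (⟨algebraMap ↥A _ π, algebraMap_mem_B0 π⟩ : ↥(B1 ↥A (tEl (L := L) M h9))) ∈ n →
      LocalGen (⟨algebraMap ↥A _ π, algebraMap_mem_B0 π⟩ : ↥(B1 ↥A (tEl (L := L) M h9))) n) :
    ∀ n : Ideal ↥(B0 ↥A (Jel (Concrete.jqModC_mem L M) -
      algebraMap ↥A ↥(laurentBaseChange L (modularFunctionFieldFull M)) b)⁻¹), n.IsMaximal →
      (⟨algebraMap ↥A _ π, algebraMap_mem_B0 π⟩ : ↥(B0 ↥A (Jel (Concrete.jqModC_mem L M) -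
        algebraMap ↥A ↥(laurentBaseChange L (modularFunctionFieldFull M)) b)⁻¹)) ∈ n →
      LocalGen (⟨algebraMap ↥A _ π, algebraMap_mem_B0 π⟩ :
        ↥(B0 ↥A (Jel (Concrete.jqModC_mem L M) -
          algebraMap ↥A ↥(laurentBaseChange L (modularFunctionFieldFull M)) b)⁻¹)) n :=
  fun n hn hπn => localGen_chartJ9 h9 A hπ
    (Fermat.Agent.S18.Inst.Level9Final.three_ne_zero_res h9 A hℓM) b h0 h1 n hn hπn

include hπ in
/-- the same, consuming the conjunction exported by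
`S18/Final/CuspsGen.localGen_of_coordData_cusps` (instance-implicit maximality) -/
theorem localGen_chartJ9_of_cuspsGen {ℓ : ℕ} [Fact ℓ.Prime] [CharP (ResidueField ↥A) ℓ]
    (hℓM : ¬ ℓ ∣ M) (b : A)
    (hLG : (∀ (n : Ideal ↥(B0 ↥A (tEl (L := L) M h9))) [n.IsMaximal],
        (⟨algebraMap ↥A _ π, algebraMap_mem_B0 π⟩ : ↥(B0 ↥A (tEl (L := L) M h9))) ∈ n →
        LocalGen (⟨algebraMap ↥A _ π, algebraMap_mem_B0 π⟩ : ↥(B0 ↥A (tEl (L := L) M h9))) n) ∧
      (∀ (n : Ideal ↥(B1 ↥A (tEl (L := L) M h9))) [n.IsMaximal],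
        (⟨algebraMap ↥A _ π, algebraMap_mem_B0 π⟩ : ↥(B1 ↥A (tEl (L := L) M h9))) ∈ n →
        LocalGen (⟨algebraMap ↥A _ π, algebraMap_mem_B0 π⟩ : ↥(B1 ↥A (tEl (L := L) M h9))) n)) :
    ∀ n : Ideal ↥(B0 ↥A (Jel (Concrete.jqModC_mem L M) -
      algebraMap ↥A ↥(laurentBaseChange L (modularFunctionFieldFull M)) b)⁻¹), n.IsMaximal →
      (⟨algebraMap ↥A _ π, algebraMap_mem_B0 π⟩ : ↥(B0 ↥A (Jel (Concrete.jqModC_mem L M) -
        algebraMap ↥A ↥(laurentBaseChange L (modularFunctionFieldFull M)) b)⁻¹)) ∈ n →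
      LocalGen (⟨algebraMap ↥A _ π, algebraMap_mem_B0 π⟩ :
        ↥(B0 ↥A (Jel (Concrete.jqModC_mem L M) -
          algebraMap ↥A ↥(laurentBaseChange L (modularFunctionFieldFull M)) b)⁻¹)) n :=
  localGen_chartJ9_of_char h9 A hπ hℓM b (fun n hn h => by haveI := hn; exact hLG.1 n h)
    (fun n hn h => by haveI := hn; exact hLG.2 n h)

end Level9

end Fermat.Agent.S37.Local.ChartJLevel
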