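import Mathlib
import Fermat.Agent.S18.Inst.Bundle
import Fermat.Agent.S18.Inst.Haupt
import Fermat.Agent.S18.Inst.Level4Final
import Fermat.Agent.S18.Gauss.ModularH
import Fermat.Agent.S18.Gauss.Concrete
import Fermat.Agent.S18.Trans.ConstK

/-!
# S37 (GLUE-J): the INST bundle for the `J`-chart coordinate `τ_b = (J - b)⁻¹`

`L` any field of characteristic `0` (`[Algebra ℚ L]`), `A` a valuation subring of `L` whose residue
field `κ` has characteristic `ℓ ∤ M`, `FL := laurentBaseChange L (modularFunctionFieldFull M)`,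
`O := ModularH.gaussVS A hℓM`, `ρ := ModularH.gaussRes A hℓM`, `J := ⟨jqModC L, _⟩ ∈ FL`, `b ∈ A`.

* `JsubB b = J - b ∈ O`, `ρ (J - b) = j̄ - b̄ ≠ 0`;
* `tauB b = (J - b)⁻¹ ∈ O`, `ρ τ_b = (j̄ - b̄)⁻¹`, transcendental over `κ`;
* `L(J) = L(τ_b)`;
* `coordDataJ : CoordData A π O (tauB b)` for `A` a DVR with uniformiser `π`.
-/

set_option autoImplicit false

noncomputable section

namespace Fermat.Agent.S37.Local.CoordJ

open Polynomial IsLocalRing IntermediateField ModularCurve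
open Fermat.Agent.S18.Gauss.Basic Fermat.Agent.S18.Gauss.Residue
open Fermat.Agent.S18.Gauss
open Fermat.Agent.S18.Inst.Bundle Fermat.Agent.S18.Inst
open Fermat.Agent.S18.Trans

set_option synthInstance.maxHeartbeats 400000

variable {L : Type*} [Field L] [Algebra ℚ L] {M : ℕ} [NeZero M]
  (A : ValuationSubring L) {ℓ : ℕ} [Fact ℓ.Prime] [CharP (ResidueField A) ℓ] (hℓM : ¬ ℓ ∣ M)

/-- `J = j(q)` as an element of `FL`. -/
abbrev JL (L : Type*) [Field L] [Algebra ℚ L] (M : ℕ) [NeZero M] :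
    ↥(laurentBaseChange L (modularFunctionFieldFull M)) :=
  Jel (Concrete.jqModC_mem L M)

/-- `J - b`. -/
def JsubB (M : ℕ) [NeZero M] (b : A) : ↥(laurentBaseChange L (modularFunctionFieldFull M)) :=
  JL L M - algebraMap L _ (b : L)

/-- the `J`-chart coordinate `τ_b = (J - b)⁻¹`. -/
def tauB (M : ℕ) [NeZero M] (b : A) : ↥(laurentBaseChange L (modularFunctionFieldFull M)) :=
  (JsubB A M b)⁻¹

omit [Fact ℓ.Prime] [CharP (ResidueField A) ℓ] in
theorem JsubB_eq_aeval (b : A) :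
    JsubB A M b = aeval (JL L M) ((X - C b : A[X]).map A.subtype) := by
  rw [JsubB, Polynomial.map_sub, map_X, map_C, map_sub, aeval_X, aeval_C]
  rfl

/-- `J - b ∈ O`. -/
theorem JsubB_mem (b : A) : JsubB A M b ∈ ModularH.gaussVS A hℓM := by
  rw [JsubB_eq_aeval]
  exact (ModularH.isGaussRed A hℓM).aeval_mem (Concrete.jqModC_mem L M) _

/-- `ρ (J - b) = j̄ - b̄`. -/
theorem gaussRes_JsubB (b : A) :
    ModularH.gaussRes A hℓM ⟨JsubB A M b, JsubB_mem A hℓM b⟩ =
      jqModC (ResidueField A) - HahnSeries.C (residue A b) := by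
  have h := (ModularH.isGaussRed A hℓM).map_aeval (Concrete.jqModC_mem L M) (X - C b : A[X])
  have h2 : (⟨JsubB A M b, JsubB_mem A hℓM b⟩ : ↥(ModularH.gaussVS A hℓM)) =
      ⟨aeval (JL L M) ((X - C b : A[X]).map A.subtype),
        (ModularH.isGaussRed A hℓM).aeval_mem (Concrete.jqModC_mem L M) _⟩ :=
    Subtype.ext (JsubB_eq_aeval A b)
  rw [h2, h, Polynomial.map_sub, map_X, map_C]
  simp [Fermat.Agent.S28.Export.ev1_eq_aeval]
  exact Fermat.Agent.S18.Core.ConstOfIntegral.algebraMap_laurent_eq_C _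

omit [Fact ℓ.Prime] [CharP (ResidueField A) ℓ] in
/-- `j̄ - c ≠ 0`. -/
theorem jq_sub_C_ne_zero (c : ResidueField A) :
    jqModC (ResidueField A) - HahnSeries.C c ≠ 0 := by
  intro h
  apply transcendental_jqModC (ResidueField A)
  rw [sub_eq_zero.mp h, ← Fermat.Agent.S18.Core.ConstOfIntegral.algebraMap_laurent_eq_C]
  exact isAlgebraic_algebraMap c

omit [Fact ℓ.Prime] [CharP (ResidueField A) ℓ] in
/-- `(j̄ - c)⁻¹` is transcendental over `κ`. -/
theorem transcendental_inv_jq_sub_C (c : ResidueField A) :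
    Transcendental (ResidueField A) (jqModC (ResidueField A) - HahnSeries.C c)⁻¹ := by
  intro h
  apply transcendental_jqModC (ResidueField A)
  have h1 := h.inv
  rw [inv_inv] at h1
  have h2 := h1.add (isAlgebraic_algebraMap (R := ResidueField A)
    (A := LaurentSeries (ResidueField A)) c)
  rwa [Fermat.Agent.S18.Core.ConstOfIntegral.algebraMap_laurent_eq_C, sub_add_cancel] at h2

/-- `J - b` is a unit of `O`. -/
theorem isUnit_JsubB (b : A) :
    IsUnit (⟨JsubB A M b, JsubB_mem A hℓM b⟩ : ↥(ModularH.gaussVS A hℓM)) := by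
  refine (isUnit_iff_resMap_ne_zero (ModularH.scalable A hℓM) _).mpr ?_
  show ModularH.gaussRes A hℓM ⟨JsubB A M b, JsubB_mem A hℓM b⟩ ≠ 0
  rw [gaussRes_JsubB]
  exact jq_sub_C_ne_zero A _

/-- `τ_b ∈ O`. -/
theorem tauB_mem (b : A) : tauB A M b ∈ ModularH.gaussVS A hℓM := by
  obtain ⟨u, hu⟩ := isUnit_JsubB A hℓM b
  have h1 : ((u⁻¹ : (↥(ModularH.gaussVS A hℓM))ˣ) : ↥(ModularH.gaussVS A hℓM)).1 =
      tauB A M b := by
    rw [tauB]
    apply eq_inv_of_mul_eq_one_left
    have h := congrArg (fun z : ↥(ModularH.gaussVS A hℓM) => (z : ↥(laurentBaseChange L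
      (modularFunctionFieldFull M)))) u.inv_mul
    simp only [hu] at h
    exact h
  rw [← h1]
  exact SetLike.coe_mem _

omit [Fact ℓ.Prime] [CharP (ResidueField A) ℓ] in
theorem JsubB_ne_zero (b : A) : JsubB A M b ≠ 0 := by
  intro h
  apply Concrete.transcendental_Jel L M
  have h1 : JL L M = algebraMap L _ (b : L) := sub_eq_zero.mp h
  show IsAlgebraic L (JL L M)
  rw [h1]
  exact isAlgebraic_algebraMap _

/-- `ρ τ_b = (j̄ - b̄)⁻¹`. -/
theorem gaussRes_tauB (b : A) :
    ModularH.gaussRes A hℓM ⟨tauB A M b, tauB_mem A hℓM b⟩ =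
      (jqModC (ResidueField A) - HahnSeries.C (residue A b))⁻¹ := by
  rw [← gaussRes_JsubB A hℓM b]
  apply eq_inv_of_mul_eq_one_left
  rw [← map_mul]
  have : (⟨tauB A M b, tauB_mem A hℓM b⟩ : ↥(ModularH.gaussVS A hℓM)) *
      ⟨JsubB A M b, JsubB_mem A hℓM b⟩ = 1 := by
    apply Subtype.ext
    show tauB A M b * JsubB A M b = 1
    rw [tauB, inv_mul_cancel₀ (JsubB_ne_zero A b)]
  rw [this, map_one]

/-- the reduction of `τ_b` is transcendental over the residue field. -/
theorem transcendental_gaussRes_tauB (b : A) :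
    Transcendental (ResidueField A)
      (ModularH.gaussRes A hℓM ⟨tauB A M b, tauB_mem A hℓM b⟩) := by
  rw [gaussRes_tauB]
  exact transcendental_inv_jq_sub_C A _

omit [Fact ℓ.Prime] [CharP (ResidueField A) ℓ] in
/-- `L(J) ≤ L(τ_b)`. -/
theorem adjoin_JL_le (b : A) : L⟮JL L M⟯ ≤ L⟮tauB A M b⟯ := by
  rw [adjoin_simple_le_iff]
  have h1 : (tauB A M b)⁻¹ ∈ L⟮tauB A M b⟯ := inv_mem (mem_adjoin_simple_self L _)
  have h2 := add_mem h1 (IntermediateField.algebraMap_mem L⟮tauB A M b⟯ (b : L))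
  rwa [tauB, inv_inv, JsubB, sub_add_cancel] at h2

omit [Fact ℓ.Prime] [CharP (ResidueField A) ℓ] in
/-- `L(τ_b) ≤ L(J)`. -/
theorem adjoin_tauB_le (b : A) : L⟮tauB A M b⟯ ≤ L⟮JL L M⟯ := by
  rw [adjoin_simple_le_iff, tauB, JsubB]
  exact inv_mem (sub_mem (mem_adjoin_simple_self L _) (IntermediateField.algebraMap_mem _ _))

omit [Fact ℓ.Prime] [CharP (ResidueField A) ℓ] in
theorem adjoin_tauB_eq (b : A) : L⟮tauB A M b⟯ = L⟮JL L M⟯ :=
  le_antisymm (adjoin_tauB_le A b) (adjoin_JL_le A b)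

/-- **The INST bundle for the `J`-chart coordinate `τ_b = (J - b)⁻¹`.** -/
theorem coordDataJ [IsDiscreteValuationRing A] {π : A} (hπ : Irreducible π) (b : A) :
    CoordData A π (ModularH.gaussVS A hℓM) (tauB A M b) :=
  have := Concrete.finiteDimensional L M
  coordData_of_gauss (Haupt.val_algebraMap _) (ModularH.scalable A hℓM) hπ (tauB_mem A hℓM b)
    (transcendental_gaussRes_tauB A hℓM b) (adjoin_JL_le A b)
    (Concrete.eq_of_comap_eq (ModularH.isGaussRed A hℓM) hℓM)

/-- `[FL : L(τ_b)] = ψ(M)`. -/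
theorem finrank_tauB (b : A) :
    Module.finrank L⟮tauB A M b⟯ ↥(laurentBaseChange L (modularFunctionFieldFull M)) =
      dedekindPsi M := by
  rw [← Concrete.finrank_eq_psi L M]
  have key : ∀ E₁ E₂ : IntermediateField L ↥(laurentBaseChange L (modularFunctionFieldFull M)),
      E₁ = E₂ → Module.finrank E₁ ↥(laurentBaseChange L (modularFunctionFieldFull M)) =
        Module.finrank E₂ ↥(laurentBaseChange L (modularFunctionFieldFull M)) := by
    rintro _ _ rfl; rfl
  exact key _ _ (adjoin_tauB_eq A b)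

/-- the corestricted residue map (`Level4Final.rho4`, which does not depend on the level) at
`τ_b`. -/
theorem rho_tauB (b : A) :
    ((Level4Final.rho4 A hℓM ⟨tauB A M b, tauB_mem A hℓM b⟩ :
      ↥(modularFunctionFieldFullC (ResidueField A) M)) : LaurentSeries (ResidueField A)) =
      (jqModC (ResidueField A) - HahnSeries.C (residue A b))⁻¹ := by
  rw [Level4Final.coe_rho4]
  exact gaussRes_tauB A hℓM b

/-- the same inside `F_{M,κ}`: `ρ τ_b = (J̄ - b̄)⁻¹`. -/
theorem rho_tauB_eq (b : A) :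
    Level4Final.rho4 A hℓM ⟨tauB A M b, tauB_mem A hℓM b⟩ =
      (jBar (ResidueField A) M -
        algebraMap (ResidueField A) ↥(modularFunctionFieldFullC (ResidueField A) M)
          (residue A b))⁻¹ := by
  apply Subtype.ext
  rw [rho_tauB]
  show _ = ((jqModC (ResidueField A) : LaurentSeries (ResidueField A)) -
    algebraMap (ResidueField A) (LaurentSeries (ResidueField A)) (residue A b))⁻¹
  rw [Fermat.Agent.S18.Core.ConstOfIntegral.algebraMap_laurent_eq_C]

end Fermat.Agent.S37.Local.CoordJ
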