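import Mathlib
import Fermat.Agent.S18.Core.Charts
import Fermat.Agent.S18.Core.StartB0
import Fermat.Agent.S18.Places.Dictionary

/-!
# S37 (L-B): the DVR-level dictionary for the charts `B0 R τ`

Setting of `S18/Core/Charts.lean`: `R` a discrete valuation ring with uniformiser `π` and fraction
field `L`, `F ⊇ L` a function field, `τ : F` transcendental over `L` with `[F : L(τ)] < ∞`,
`B := B0 R τ` the integral closure of `R[τ]` in `F`.

* (B-gen) the nonzero primes `p` of `B` with `π ∉ p` are the centres `primeOfPlace P` of the places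
  `P` of `F/L` at which `τ` is regular; they have height one, `B_p = O_P`.
* (B-pi) `π` is a prime element of `B`, `B_(π) = O` (Gauss valuation ring).
* (B-sp) the closed points `pointOfPlace Q` of the special fibre.
-/

set_option autoImplicit false

open Polynomial IntermediateField AlgebraicCurve IsDedekindDomain

namespace Fermat.Agent.S37.Local.ChartDict

open Fermat.Agent.S18.Core.Charts Fermat.Agent.S18.Core.StartB0 Fermat.Agent.S18.Places

set_option linter.unusedSectionVars false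
set_option linter.style.haveILetI false

/-! ### Denominators: `B0 R τ [1/π]` is the integral closure of `L[τ]` -/

section Denominators

variable {R L F : Type*} [CommRing R] [IsDomain R] [IsDiscreteValuationRing R]
  [Field L] [Field F] [Algebra R L] [IsFractionRing R L] [Algebra L F] [Algebra R F]
  [IsScalarTower R L F] {π : R} {τ : F}

/-- `R[τ] ⊆ L[τ]` -/
theorem adjoin_le_adjoin_field : ∀ a ∈ Algebra.adjoin R {τ}, a ∈ Algebra.adjoin L {τ} := by
  intro a ha
  induction ha using Algebra.adjoin_induction with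
  | mem y hy => exact Algebra.subset_adjoin hy
  | algebraMap r =>
    rw [IsScalarTower.algebraMap_apply R L F]
    exact Subalgebra.algebraMap_mem _ _
  | add a b _ _ ha hb => exact add_mem ha hb
  | mul a b _ _ ha hb => exact mul_mem ha hb

/-- `L[τ] = R[τ][1/π]` -/
theorem exists_pow_mul_mem_adjoin_field (hπ : Irreducible π) :
    ∀ a ∈ Algebra.adjoin L {τ}, ∃ N : ℕ, ∀ n, N ≤ n →
      algebraMap R F π ^ n * a ∈ Algebra.adjoin R {τ} := by
  intro a ha
  have hπmem : ∀ n : ℕ, algebraMap R F π ^ n ∈ Algebra.adjoin R {τ} := fun n =>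
    pow_mem (Subalgebra.algebraMap_mem _ π) n
  induction ha using Algebra.adjoin_induction with
  | mem y hy =>
    exact ⟨0, fun n _ => mul_mem (hπmem n) (Algebra.subset_adjoin hy)⟩
  | algebraMap c =>
    obtain ⟨N, r, hr⟩ := exists_pow_mul_eq (L := L) hπ c
    refine ⟨N, fun n hn => ?_⟩
    obtain ⟨k, rfl⟩ : ∃ k, n = N + k := ⟨n - N, by omega⟩
    have e : algebraMap R F π ^ (N + k) * algebraMap L F c = algebraMap R F (π ^ k * r) := by
      rw [map_mul, map_pow, IsScalarTower.algebraMap_apply R L F r, ← hr, map_mul, map_pow,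
        ← IsScalarTower.algebraMap_apply, pow_add]
      ring
    rw [e]
    exact Subalgebra.algebraMap_mem _ _
  | add a b _ _ ha hb =>
    obtain ⟨N₁, h₁⟩ := ha
    obtain ⟨N₂, h₂⟩ := hb
    refine ⟨max N₁ N₂, fun n hn => ?_⟩
    rw [mul_add]
    exact add_mem (h₁ n (le_trans (le_max_left _ _) hn)) (h₂ n (le_trans (le_max_right _ _) hn))
  | mul a b _ _ ha hb =>
    obtain ⟨N₁, h₁⟩ := ha
    obtain ⟨N₂, h₂⟩ := hb
    refine ⟨N₁ + N₂, fun n hn => ?_⟩
    obtain ⟨k, rfl⟩ : ∃ k, n = N₁ + k := ⟨n - N₁, by omega⟩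
    have : algebraMap R F π ^ (N₁ + k) * (a * b) =
        (algebraMap R F π ^ N₁ * a) * (algebraMap R F π ^ k * b) := by
      rw [pow_add]; ring
    rw [this]
    exact mul_mem (h₁ N₁ le_rfl) (h₂ k (by omega))

/-- integrality over `L[τ]` becomes integrality over `R[τ]` after multiplying by a power
of `π`. -/
theorem exists_pow_mul_isIntegral_field (hπ : Irreducible π) {x : F}
    (hx : IsIntegral (Algebra.adjoin L {τ}) x) :
    ∃ N : ℕ, IsIntegral (Algebra.adjoin R {τ}) (algebraMap R F π ^ N * x) := by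
  classical
  obtain ⟨p, hp, hpx⟩ := hx
  choose Nf hNf using fun i : ℕ =>
    exists_pow_mul_mem_adjoin_field (R := R) (L := L) (τ := τ) hπ (p.coeff i : F) (p.coeff i).2
  set N := (Finset.range (p.natDegree + 1)).sup Nf + 1 with hN
  have hπmem : algebraMap R F π ∈ Algebra.adjoin L {τ} := by
    rw [IsScalarTower.algebraMap_apply R L F]
    exact Subalgebra.algebraMap_mem _ _
  set t : Algebra.adjoin L {τ} := ⟨algebraMap R F π, hπmem⟩ ^ N with ht
  have htval : (algebraMap (Algebra.adjoin L {τ}) F) t = algebraMap R F π ^ N := by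
    rw [ht, map_pow]
    rfl
  have hroot := Polynomial.scaleRoots_eval₂_eq_zero
    (algebraMap (Algebra.adjoin L {τ}) F) (s := t) hpx
  rw [htval] at hroot
  have hmonic : (scaleRoots p t).Monic := (monic_scaleRoots_iff t).mpr hp
  let g : Algebra.adjoin R {τ} →+* Algebra.adjoin L {τ} :=
    RingHom.codRestrict ((Algebra.adjoin R {τ}).val : _ →+* F) (Algebra.adjoin L {τ})
      (fun a => adjoin_le_adjoin_field (R := R) (L := L) (a : F) a.2)
  have hcoef : ∀ i, ((scaleRoots p t).coeff i : F) ∈ Algebra.adjoin R {τ} := by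
    intro i
    rw [coeff_scaleRoots]
    rcases lt_trichotomy i p.natDegree with hi | hi | hi
    · have h1 : ((p.coeff i * t ^ (p.natDegree - i) : Algebra.adjoin L {τ}) : F) =
          algebraMap R F π ^ (N * (p.natDegree - i)) * (p.coeff i : F) := by
        rw [ht, ← pow_mul]
        push_cast
        rw [mul_comm]
      rw [h1]
      apply hNf i
      have h2 : Nf i ≤ (Finset.range (p.natDegree + 1)).sup Nf :=
        Finset.le_sup (f := Nf) (Finset.mem_range.mpr (by omega))
      have h3 : 1 ≤ p.natDegree - i := by omega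
      calc Nf i ≤ N := by omega
        _ = N * 1 := (mul_one N).symm
        _ ≤ N * (p.natDegree - i) := Nat.mul_le_mul_left N h3
    · rw [hi, Nat.sub_self, pow_zero, mul_one, hp.coeff_natDegree]
      exact one_mem _
    · rw [coeff_eq_zero_of_natDegree_lt hi, zero_mul]
      exact zero_mem _
  have hlift : scaleRoots p t ∈ Polynomial.lifts g := by
    rw [Polynomial.lifts_iff_coeff_lifts]
    intro i
    exact ⟨⟨_, hcoef i⟩, Subtype.ext rfl⟩
  obtain ⟨q, hq, -, hqm⟩ := Polynomial.lifts_and_degree_eq_and_monic hlift hmonic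
  refine ⟨N, q, hqm, ?_⟩
  have : (algebraMap (Algebra.adjoin L {τ}) F).comp g = algebraMap (Algebra.adjoin R {τ}) F :=
    rfl
  rw [← this, ← Polynomial.eval₂_map, hq]
  exact hroot

end Denominators

/-! ### The chart and the Dedekind model of the generic fibre -/

section Model

variable {R L F : Type*} [CommRing R] [IsDomain R] [IsDiscreteValuationRing R]
  [Field L] [Field F] [Algebra R L] [IsFractionRing R L] [Algebra L F] [Algebra R F]
  [IsScalarTower R L F] {π : R} {τ : F}

theorem mem_Bof_iff_isIntegral {x : F} :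
    x ∈ S24.Bof L τ ↔ IsIntegral (Algebra.adjoin L {τ}) x := by
  rw [isIntegral_adjoin_iff]
  exact Iff.rfl

theorem B0_le_Bof {x : F} (hx : x ∈ B0 R τ) : x ∈ S24.Bof L τ :=
  mem_Bof_iff_isIntegral.mpr
    (isIntegral_of_le (fun a ha => adjoin_le_adjoin_field (R := R) (L := L) a ha) (mem_B0.mp hx))

theorem exists_pow_mul_mem_B0_of_mem_Bof (hπ : Irreducible π) {x : F} (hx : x ∈ S24.Bof L τ) :
    ∃ N : ℕ, algebraMap R F π ^ N * x ∈ B0 R τ :=
  exists_pow_mul_isIntegral_field hπ (mem_Bof_iff_isIntegral.mp hx)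

/-- constants of `L` lie in the Dedekind model -/
theorem algebraMap_mem_Bof (c : L) : algebraMap L F c ∈ S24.Bof L τ := by
  rw [mem_Bof_iff_isIntegral]
  exact isIntegral_algebraMap (R := Algebra.adjoin L {τ}) (x := algebraMap L _ c)

variable (R L τ) in
/-- the inclusion `B0 R τ → Bof L τ` -/
noncomputable def toBof : ↥(B0 R τ) →+* ↥(S24.Bof L τ) :=
  RingHom.codRestrict (Subring.subtype (B0 R τ)) (S24.Bof L τ) (fun b => B0_le_Bof b.2)

@[simp]
theorem coe_toBof (b : ↥(B0 R τ)) : ((toBof R L τ b : ↥(S24.Bof L τ)) : F) = (b : F) := rfl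

theorem toBof_injective : Function.Injective (toBof R L τ) := fun a b hab =>
  Subtype.ext (by simpa using congrArg (fun z : ↥(S24.Bof L τ) => (z : F)) hab)

/-- `Bof L τ = (B0 R τ)[1/π]`. -/
theorem isLocalization_Bof (hπ : Irreducible π) :
    @IsLocalization _ _ (Submonoid.powers (piB0 R π τ)) ↥(S24.Bof L τ) _
      (toBof R L τ).toAlgebra := by
  letI : Algebra ↥(B0 R τ) ↥(S24.Bof L τ) := (toBof R L τ).toAlgebra
  have hπL : algebraMap R L π ≠ 0 := by
    rw [Ne, map_eq_zero_iff _ (IsFractionRing.injective R L)]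
    exact hπ.ne_zero
  rw [isLocalization_iff]
  refine ⟨?_, ?_, ?_⟩
  · rintro ⟨y, n, rfl⟩
    refine isUnit_iff_exists_inv.mpr
      ⟨⟨algebraMap L F ((algebraMap R L π)⁻¹ ^ n), algebraMap_mem_Bof _⟩, Subtype.ext ?_⟩
    change ((piB0 R π τ ^ n : ↥(B0 R τ)) : F) * algebraMap L F ((algebraMap R L π)⁻¹ ^ n) = 1
    rw [SubmonoidClass.coe_pow]
    change algebraMap R F π ^ n * _ = 1
    rw [IsScalarTower.algebraMap_apply R L F, ← map_pow, ← map_mul, ← mul_pow,
      mul_inv_cancel₀ hπL, one_pow, map_one]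
  · rintro ⟨z, hz⟩
    obtain ⟨N, hN⟩ := exists_pow_mul_mem_B0_of_mem_Bof (R := R) hπ hz
    refine ⟨(⟨_, hN⟩, ⟨piB0 R π τ ^ N, N, rfl⟩), Subtype.ext ?_⟩
    change z * ((piB0 R π τ ^ N : ↥(B0 R τ)) : F) = algebraMap R F π ^ N * z
    rw [SubmonoidClass.coe_pow, mul_comm]
    rfl
  · intro x y hxy
    exact ⟨1, by rw [toBof_injective hxy]⟩

end Model

/-! ### (B-gen) places of the generic fibre and height-one primes of the chart -/

section GenericFibre

variable {R L F : Type*} [CommRing R] [IsDomain R] [IsDiscreteValuationRing R]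
  [Field L] [Field F] [Algebra R L] [IsFractionRing R L] [Algebra L F] [Algebra R F]
  [IsScalarTower R L F] {π : R} {τ : F}

/-- constants of `R` are regular at every place of `F/L` -/
theorem algebraMap_mem_place (P : Place L F) (r : R) :
    algebraMap R F r ∈ P.toValuationSubring := by
  rw [IsScalarTower.algebraMap_apply R L F]
  exact P.algebraMap_mem' _

/-- the chart is regular at every place at which `τ` is regular -/
theorem B0_le_place (P : Place L F) (hτ : τ ∈ P.toValuationSubring) {b : F}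
    (hb : b ∈ B0 R τ) : b ∈ P.toValuationSubring :=
  mem_of_isIntegral_of_le P.toValuationSubring (fun a ha => by
    induction ha using Algebra.adjoin_induction with
    | mem y hy => rw [Set.mem_singleton_iff.mp hy]; exact hτ
    | algebraMap r => exact algebraMap_mem_place P r
    | add a b _ _ ha hb => exact P.toValuationSubring.add_mem _ _ ha hb
    | mul a b _ _ ha hb => exact P.toValuationSubring.mul_mem _ _ ha hb) (mem_B0.mp hb)

variable (R) in
/-- the ring hom `B0 R τ → O_P` -/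
noncomputable def toPlace (P : Place L F) (hτ : τ ∈ P.toValuationSubring) :
    ↥(B0 R τ) →+* ↥P.toValuationSubring :=
  RingHom.codRestrict (Subring.subtype (B0 R τ)) P.toValuationSubring
    (fun b => B0_le_place P hτ b.2)

@[simp]
theorem coe_toPlace (P : Place L F) (hτ : τ ∈ P.toValuationSubring) (b : ↥(B0 R τ)) :
    ((toPlace R P hτ b : ↥P.toValuationSubring) : F) = (b : F) := rfl

variable (R) in
/-- **(B-gen)** the centre on the chart `B0 R τ` of a place `P` of the generic fibre at which `τ`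
is regular: `{b | 0 < ord_P b}`. -/
noncomputable def primeOfPlace (P : Place L F) (hτ : τ ∈ P.toValuationSubring) :
    Ideal ↥(B0 R τ) :=
  Ideal.comap (toPlace R P hτ) (IsLocalRing.maximalIdeal P.toValuationSubring)

instance primeOfPlace_isPrime (P : Place L F) (hτ : τ ∈ P.toValuationSubring) :
    (primeOfPlace R P hτ).IsPrime :=
  Ideal.comap_isPrime _ _

theorem mem_primeOfPlace_iff (P : Place L F) (hτ : τ ∈ P.toValuationSubring)
    {b : ↥(B0 R τ)} : b ∈ primeOfPlace R P hτ ↔ ¬ IsUnit (toPlace R P hτ b) := by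
  simp [primeOfPlace, IsLocalRing.mem_maximalIdeal]

theorem mem_primeOfPlace_iff_valuation (P : Place L F) (hτ : τ ∈ P.toValuationSubring)
    {b : ↥(B0 R τ)} :
    b ∈ primeOfPlace R P hτ ↔ P.toValuationSubring.valuation (b : F) < 1 := by
  rw [primeOfPlace, Ideal.mem_comap]
  exact ValuationSubring.valuation_lt_one_iff P.toValuationSubring (toPlace R P hτ b)

theorem mem_primeOfPlace_iff_ord_pos (P : Place L F) (hτ : τ ∈ P.toValuationSubring)
    {b : ↥(B0 R τ)} (hb : b ≠ 0) : b ∈ primeOfPlace R P hτ ↔ 0 < P.ord (b : F) := by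
  have hb0 : (b : F) ≠ 0 := fun h0 => hb (Subtype.ext h0)
  rw [S24.ord_pos_iff_mem_maximalIdeal P hb0, primeOfPlace, Ideal.mem_comap]
  exact ⟨fun hm => ⟨B0_le_place P hτ b.2, hm⟩, fun ⟨_, hm⟩ => hm⟩

theorem ord_nonneg_of_mem_B0 (P : Place L F) (hτ : τ ∈ P.toValuationSubring)
    (b : ↥(B0 R τ)) : 0 ≤ P.ord (b : F) := by
  rcases eq_or_ne (b : F) 0 with h0 | h0
  · rw [h0, Place.ord_zero]
  · exact (S24.mem_iff_ord_nonneg P h0).mp (B0_le_place P hτ b.2)

/-- an element of the chart outside the centre of `P` is a unit at `P` -/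
theorem ord_eq_zero_of_not_mem (P : Place L F) (hτ : τ ∈ P.toValuationSubring)
    {b : ↥(B0 R τ)} (hb : b ∉ primeOfPlace R P hτ) : P.ord (b : F) = 0 := by
  have hb0 : b ≠ 0 := fun h0 => hb (h0 ▸ zero_mem _)
  have h1 := ord_nonneg_of_mem_B0 P hτ b
  have h2 := (mem_primeOfPlace_iff_ord_pos P hτ hb0).not.mp hb
  omega

/-- `π` is a unit at every place of the generic fibre -/
theorem pi_not_mem_primeOfPlace (hπ : Irreducible π) (P : Place L F)
    (hτ : τ ∈ P.toValuationSubring) : piB0 R π τ ∉ primeOfPlace R P hτ := by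
  rw [mem_primeOfPlace_iff, not_not]
  have hπL : algebraMap R L π ≠ 0 := by
    rw [Ne, map_eq_zero_iff _ (IsFractionRing.injective R L)]
    exact hπ.ne_zero
  refine isUnit_iff_exists_inv.mpr
    ⟨⟨algebraMap L F (algebraMap R L π)⁻¹, P.algebraMap_mem' _⟩, Subtype.ext ?_⟩
  change algebraMap R F π * algebraMap L F (algebraMap R L π)⁻¹ = 1
  rw [IsScalarTower.algebraMap_apply R L F, ← map_mul, mul_inv_cancel₀ hπL, map_one]

variable [CharZero L] [hy : Fact (Transcendental L τ)] [FiniteDimensional L⟮τ⟯ F]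

/-- the centre on the chart is the restriction of the prime of the Dedekind model -/
theorem primeOfPlace_eq_comap (P : Place L F) (hτ : τ ∈ P.toValuationSubring) :
    primeOfPlace R P hτ =
      Ideal.comap (toBof R L τ) (Dictionary.placeEquiv L τ ⟨P, hτ⟩).asIdeal := by
  ext b
  rw [Ideal.mem_comap, mem_primeOfPlace_iff]
  change _ ↔ toBof R L τ b ∈ (S24.primeOfPlace P (S24.Bof_le_of_mem L τ P hτ)).asIdeal
  rw [S24.mem_primeOfPlace_iff]
  exact Iff.rfl

theorem disjoint_powers_of_not_mem (q : Ideal ↥(B0 R τ)) [q.IsPrime]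
    (hq : piB0 R π τ ∉ q) :
    Disjoint ((Submonoid.powers (piB0 R π τ) : Submonoid ↥(B0 R τ)) : Set ↥(B0 R τ)) ↑q := by
  rw [Set.disjoint_left]
  rintro x ⟨n, rfl⟩ hx
  exact hq (Ideal.IsPrime.mem_of_pow_mem ‹_› n hx)

/-- **(B-gen), height one.** The centre of a place is a height-one prime of the chart. -/
theorem eq_bot_or_eq_of_le_primeOfPlace (hπ : Irreducible π) (P : Place L F)
    (hτ : τ ∈ P.toValuationSubring) (q : Ideal ↥(B0 R τ)) [q.IsPrime]
    (hq : q ≤ primeOfPlace R P hτ) : q = ⊥ ∨ q = primeOfPlace R P hτ := by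
  letI : Algebra ↥(B0 R τ) ↥(S24.Bof L τ) := (toBof R L τ).toAlgebra
  haveI : IsLocalization (Submonoid.powers (piB0 R π τ)) ↥(S24.Bof L τ) :=
    isLocalization_Bof (L := L) (τ := τ) hπ
  by_cases hq0 : q = ⊥
  · exact Or.inl hq0
  right
  have hπq : piB0 R π τ ∉ q := fun h => pi_not_mem_primeOfPlace hπ P hτ (hq h)
  have hdisj := disjoint_powers_of_not_mem q hπq
  have hprime : (Ideal.map (algebraMap ↥(B0 R τ) ↥(S24.Bof L τ)) q).IsPrime :=
    IsLocalization.isPrime_of_isPrime_disjoint (Submonoid.powers (piB0 R π τ)) _ q ‹_› hdisj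
  have hcm : Ideal.comap (algebraMap ↥(B0 R τ) ↥(S24.Bof L τ))
      (Ideal.map (algebraMap ↥(B0 R τ) ↥(S24.Bof L τ)) q) = q :=
    IsLocalization.under_map_of_isPrime_disjoint (Submonoid.powers (piB0 R π τ)) _ ‹_› hdisj
  have hne : Ideal.map (algebraMap ↥(B0 R τ) ↥(S24.Bof L τ)) q ≠ ⊥ := by
    intro h0
    apply hq0
    rw [← hcm, h0]
    exact Ideal.comap_bot_of_injective _ toBof_injective
  have hmax : (Ideal.map (algebraMap ↥(B0 R τ) ↥(S24.Bof L τ)) q).IsMaximal :=
    hprime.isMaximal hne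
  have hle : Ideal.map (algebraMap ↥(B0 R τ) ↥(S24.Bof L τ)) q ≤
      (Dictionary.placeEquiv L τ ⟨P, hτ⟩).asIdeal := by
    rw [Ideal.map_le_iff_le_comap]
    exact hq.trans_eq (primeOfPlace_eq_comap P hτ)
  have heq := hmax.eq_of_le (Dictionary.placeEquiv L τ ⟨P, hτ⟩).isPrime.ne_top hle
  rw [primeOfPlace_eq_comap P hτ, ← heq]
  exact hcm.symm

/-- the centre of a place is a nonzero prime -/
theorem primeOfPlace_ne_bot (hπ : Irreducible π) (P : Place L F)
    (hτ : τ ∈ P.toValuationSubring) : primeOfPlace R P hτ ≠ ⊥ := by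
  letI : Algebra ↥(B0 R τ) ↥(S24.Bof L τ) := (toBof R L τ).toAlgebra
  haveI : IsLocalization (Submonoid.powers (piB0 R π τ)) ↥(S24.Bof L τ) :=
    isLocalization_Bof (L := L) (τ := τ) hπ
  intro h0
  have h1 := IsLocalization.map_under (Submonoid.powers (piB0 R π τ)) ↥(S24.Bof L τ)
    (Dictionary.placeEquiv L τ ⟨P, hτ⟩).asIdeal
  have h2 : Ideal.under ↥(B0 R τ) (Dictionary.placeEquiv L τ ⟨P, hτ⟩).asIdeal = ⊥ := by
    rw [← h0, primeOfPlace_eq_comap P hτ]
    rfl
  rw [h2, Ideal.map_bot] at h1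
  exact (Dictionary.placeEquiv L τ ⟨P, hτ⟩).ne_bot h1.symm

/-- **(B-gen), injectivity.** A place is determined by its centre on the chart. -/
theorem primeOfPlace_injective (hπ : Irreducible π) {P P' : Place L F}
    (hτ : τ ∈ P.toValuationSubring) (hτ' : τ ∈ P'.toValuationSubring)
    (heq : primeOfPlace R P hτ = primeOfPlace R P' hτ') : P = P' := by
  letI : Algebra ↥(B0 R τ) ↥(S24.Bof L τ) := (toBof R L τ).toAlgebra
  haveI : IsLocalization (Submonoid.powers (piB0 R π τ)) ↥(S24.Bof L τ) :=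
    isLocalization_Bof (L := L) (τ := τ) hπ
  have h1 := IsLocalization.map_under (Submonoid.powers (piB0 R π τ)) ↥(S24.Bof L τ)
    (Dictionary.placeEquiv L τ ⟨P, hτ⟩).asIdeal
  have h2 := IsLocalization.map_under (Submonoid.powers (piB0 R π τ)) ↥(S24.Bof L τ)
    (Dictionary.placeEquiv L τ ⟨P', hτ'⟩).asIdeal
  have h3 : Ideal.under ↥(B0 R τ) (Dictionary.placeEquiv L τ ⟨P, hτ⟩).asIdeal =
      Ideal.under ↥(B0 R τ) (Dictionary.placeEquiv L τ ⟨P', hτ'⟩).asIdeal := by
    have e1 := primeOfPlace_eq_comap (R := R) P hτ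
    have e2 := primeOfPlace_eq_comap (R := R) P' hτ'
    rw [heq] at e1
    exact (e1.symm.trans e2 : _)
  rw [h3, h2] at h1
  have h4 : Dictionary.placeEquiv L τ ⟨P, hτ⟩ = Dictionary.placeEquiv L τ ⟨P', hτ'⟩ :=
    HeightOneSpectrum.ext h1.symm
  have h5 := (Dictionary.placeEquiv L τ).injective h4
  exact congrArg Subtype.val h5

/-- **(B-gen), surjectivity.** Every nonzero prime of the chart not containing `π` is the centre
of a place of the generic fibre. -/
theorem exists_primeOfPlace_eq (hπ : Irreducible π) (p : Ideal ↥(B0 R τ)) [p.IsPrime]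
    (hp0 : p ≠ ⊥) (hπp : piB0 R π τ ∉ p) :
    ∃ (P : Place L F) (hτ : τ ∈ P.toValuationSubring), primeOfPlace R P hτ = p := by
  letI : Algebra ↥(B0 R τ) ↥(S24.Bof L τ) := (toBof R L τ).toAlgebra
  haveI : IsLocalization (Submonoid.powers (piB0 R π τ)) ↥(S24.Bof L τ) :=
    isLocalization_Bof (L := L) (τ := τ) hπ
  have hdisj := disjoint_powers_of_not_mem p hπp
  have hprime : (Ideal.map (algebraMap ↥(B0 R τ) ↥(S24.Bof L τ)) p).IsPrime :=
    IsLocalization.isPrime_of_isPrime_disjoint (Submonoid.powers (piB0 R π τ)) _ p ‹_› hdisj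
  have hcm : Ideal.comap (algebraMap ↥(B0 R τ) ↥(S24.Bof L τ))
      (Ideal.map (algebraMap ↥(B0 R τ) ↥(S24.Bof L τ)) p) = p :=
    IsLocalization.under_map_of_isPrime_disjoint (Submonoid.powers (piB0 R π τ)) _ ‹_› hdisj
  have hne : Ideal.map (algebraMap ↥(B0 R τ) ↥(S24.Bof L τ)) p ≠ ⊥ := by
    intro h0
    apply hp0
    rw [← hcm, h0]
    exact Ideal.comap_bot_of_injective _ toBof_injective
  let 𝔓 : HeightOneSpectrum ↥(S24.Bof L τ) := ⟨_, hprime, hne⟩
  refine ⟨((Dictionary.placeEquiv L τ).symm 𝔓).1, ((Dictionary.placeEquiv L τ).symm 𝔓).2, ?_⟩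
  rw [primeOfPlace_eq_comap, Subtype.coe_eta, Equiv.apply_symm_apply]
  exact hcm

/-- **(B-gen), localisation.** `O_P` is the localisation of the chart at the centre of `P`. -/
theorem exists_frac_of_mem_place (hπ : Irreducible π) (P : Place L F)
    (hτ : τ ∈ P.toValuationSubring) {x : F} (hx : x ∈ P.toValuationSubring) :
    ∃ b s : ↥(B0 R τ), s ∉ primeOfPlace R P hτ ∧ x * (s : F) = (b : F) := by
  have hP := Dictionary.placeOfPrime_placeEquiv L τ ⟨P, hτ⟩
  set 𝔓 := Dictionary.placeEquiv L τ ⟨P, hτ⟩ with h𝔓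
  have hx' : x ∈ HeightOneSpectrum.valuationSubringAtPrime F 𝔓 := by
    rw [HeightOneSpectrum.valuationSubringAtPrime_eq_valuationSubring,
      ← S24.placeOfPrime_toValuationSubring (K := L), hP]
    exact hx
  obtain ⟨a, s, hs, rfl⟩ := hx'
  obtain ⟨N₁, hN₁⟩ := exists_pow_mul_mem_B0_of_mem_Bof (R := R) hπ a.2
  obtain ⟨N₂, hN₂⟩ := exists_pow_mul_mem_B0_of_mem_Bof (R := R) hπ s.2
  have hπmem : ∀ n : ℕ, algebraMap R F π ^ n ∈ B0 R τ := fun n =>
    pow_mem (algebraMap_mem_B0 π) n
  have hs0 : (s : F) ≠ 0 := by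
    intro h0
    apply hs
    have : s = 0 := Subtype.ext h0
    rw [this]
    exact zero_mem _
  have hb : algebraMap R F π ^ (N₁ + N₂) * (a : F) ∈ B0 R τ := by
    rw [pow_add, mul_comm (algebraMap R F π ^ N₁), mul_assoc]
    exact mul_mem (hπmem N₂) hN₁
  have hs' : algebraMap R F π ^ (N₁ + N₂) * (s : F) ∈ B0 R τ := by
    rw [pow_add, mul_assoc]
    exact mul_mem (hπmem N₁) hN₂
  refine ⟨⟨_, hb⟩, ⟨_, hs'⟩, ?_, ?_⟩
  · rw [primeOfPlace_eq_comap, Ideal.mem_comap, ← h𝔓]
    intro hmem
    have e : toBof R L τ ⟨_, hs'⟩ = toBof R L τ (piB0 R π τ ^ (N₁ + N₂)) * s := by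
      apply Subtype.ext
      simp only [coe_toBof, MulMemClass.coe_mul, SubmonoidClass.coe_pow]
      rfl
    rw [e] at hmem
    rcases 𝔓.isPrime.mem_or_mem hmem with h1 | h1
    · rw [map_pow] at h1
      have h2 := 𝔓.isPrime.mem_of_pow_mem _ h1
      have h3 : piB0 R π τ ∈ primeOfPlace R P hτ := by
        rw [primeOfPlace_eq_comap, Ideal.mem_comap]
        exact h2
      exact pi_not_mem_primeOfPlace hπ P hτ h3
    · exact hs h1
  · change algebraMap ↥(S24.Bof L τ) F a * (algebraMap ↥(S24.Bof L τ) F s)⁻¹ *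
      (algebraMap R F π ^ (N₁ + N₂) * (s : F)) = algebraMap R F π ^ (N₁ + N₂) * (a : F)
    change (a : F) * (s : F)⁻¹ * (algebraMap R F π ^ (N₁ + N₂) * (s : F)) = _
    field_simp

/-- **(B-gen), uniformisers.** For `g` in the centre `p` of `P`: `ord_P g = 1` iff `g` generates
`p B_p`. -/
theorem ord_eq_one_iff (hπ : Irreducible π) (P : Place L F)
    (hτ : τ ∈ P.toValuationSubring) {g : ↥(B0 R τ)} (hg : g ∈ primeOfPlace R P hτ) :
    P.ord (g : F) = 1 ↔ ∀ x ∈ primeOfPlace R P hτ, ∃ s b : ↥(B0 R τ),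
      s ∉ primeOfPlace R P hτ ∧ s * x = b * g := by
  constructor
  · intro hg1 x hx
    have hg0 : (g : F) ≠ 0 := by
      intro h0
      rw [h0, Place.ord_zero] at hg1
      exact zero_ne_one hg1
    rcases eq_or_ne x 0 with rfl | hx0
    · exact ⟨1, 0, fun h => (primeOfPlace_isPrime P hτ).ne_top ((Ideal.eq_top_iff_one _).mpr h),
        by simp⟩
    have hxF : (x : F) ≠ 0 := fun h0 => hx0 (Subtype.ext h0)
    have hxpos := (mem_primeOfPlace_iff_ord_pos P hτ hx0).mp hx
    have hq : (x : F) / (g : F) ∈ P.toValuationSubring := by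
      rw [S24.mem_iff_ord_nonneg P (div_ne_zero hxF hg0), div_eq_mul_inv,
        Place.ord_mul P hxF (inv_ne_zero hg0), Place.ord_inv, hg1]
      omega
    obtain ⟨b, s, hs, hbs⟩ := exists_frac_of_mem_place hπ P hτ hq
    refine ⟨s, b, hs, Subtype.ext ?_⟩
    change (s : F) * (x : F) = (b : F) * (g : F)
    rw [← hbs]
    field_simp
  · intro hgen
    obtain ⟨t, ht⟩ := IsDiscreteValuationRing.exists_irreducible P.toValuationSubring
    have ht1 : P.ord (t : F) = 1 := P.ord_coe_irreducible ht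
    have ht0 : (t : F) ≠ 0 := by
      intro h0
      rw [h0, Place.ord_zero] at ht1
      exact zero_ne_one ht1
    obtain ⟨b, s, hs, hbs⟩ := exists_frac_of_mem_place hπ P hτ t.2
    have hs0 : (s : F) ≠ 0 := by
      intro h0
      apply hs
      have : s = 0 := Subtype.ext h0
      rw [this]
      exact zero_mem _
    have hb1 : P.ord (b : F) = 1 := by
      rw [← hbs, Place.ord_mul P ht0 hs0, ht1, ord_eq_zero_of_not_mem P hτ hs, add_zero]
    have hb0 : b ≠ 0 := by
      rintro rfl
      rw [ZeroMemClass.coe_zero, Place.ord_zero] at hb1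
      exact zero_ne_one hb1
    have hbF : (b : F) ≠ 0 := fun h0 => hb0 (Subtype.ext h0)
    have hbmem : b ∈ primeOfPlace R P hτ := by
      rw [mem_primeOfPlace_iff_ord_pos P hτ hb0, hb1]
      exact one_pos
    obtain ⟨s', b', hs', hsb⟩ := hgen b hbmem
    have hs'0 : (s' : F) ≠ 0 := by
      intro h0
      apply hs'
      have : s' = 0 := Subtype.ext h0
      rw [this]
      exact zero_mem _
    have hsbF : (s' : F) * (b : F) = (b' : F) * (g : F) := congrArg Subtype.val hsb
    have hg0 : g ≠ 0 := by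
      rintro rfl
      rw [ZeroMemClass.coe_zero, mul_zero] at hsbF
      exact (mul_ne_zero hs'0 hbF) hsbF
    have hgF : (g : F) ≠ 0 := fun h0 => hg0 (Subtype.ext h0)
    have hb'F : (b' : F) ≠ 0 := by
      intro h0
      rw [h0, zero_mul] at hsbF
      exact (mul_ne_zero hs'0 hbF) hsbF
    have hord := congrArg P.ord hsbF
    rw [Place.ord_mul P hs'0 hbF, Place.ord_mul P hb'F hgF, ord_eq_zero_of_not_mem P hτ hs',
      hb1] at hord
    have h1 := ord_nonneg_of_mem_B0 P hτ b'
    have h2 := (mem_primeOfPlace_iff_ord_pos P hτ hg0).mp hg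
    omega

/-- **(B-gen), units.** A function with `ord_P z = 0` is a fraction of two elements of the chart
outside the centre of `P`. -/
theorem exists_frac_of_ord_eq_zero (hπ : Irreducible π) (P : Place L F)
    (hτ : τ ∈ P.toValuationSubring) {z : F} (hz : z ≠ 0) (hord : P.ord z = 0) :
    ∃ a s : ↥(B0 R τ), a ∉ primeOfPlace R P hτ ∧ s ∉ primeOfPlace R P hτ ∧
      z * (s : F) = (a : F) := by
  have hzmem : z ∈ P.toValuationSubring := (S24.mem_iff_ord_nonneg P hz).mpr hord.ge
  obtain ⟨b, s, hs, hbs⟩ := exists_frac_of_mem_place hπ P hτ hzmem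
  have hs0 : (s : F) ≠ 0 := by
    intro h0
    apply hs
    have : s = 0 := Subtype.ext h0
    rw [this]
    exact zero_mem _
  refine ⟨b, s, ?_, hs, hbs⟩
  have hb0 : b ≠ 0 := by
    rintro rfl
    rw [ZeroMemClass.coe_zero] at hbs
    exact (mul_ne_zero hz hs0) hbs
  rw [mem_primeOfPlace_iff_ord_pos P hτ hb0, ← hbs, Place.ord_mul P hz hs0, hord,
    ord_eq_zero_of_not_mem P hτ hs]
  exact lt_irrefl 0

end GenericFibre

/-! ### (B-pi) the special fibre as a prime divisor of the chart -/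

section Pi

variable {R L F : Type*} [CommRing R] [IsDomain R] [IsDiscreteValuationRing R]
  [Field L] [Field F] [Algebra R L] [IsFractionRing R L] [Algebra L F] [Algebra R F]
  [IsScalarTower R L F] {π : R} {O : ValuationSubring F} {τ : F}

theorem coe_piB0 : ((piB0 R π τ : ↥(B0 R τ)) : F) = algebraMap R F π := rfl

/-- **(B-pi)** an element of the chart is divisible by `π` iff its Gauss valuation is `< 1`. -/
theorem piB0_dvd_iff (h : GoodCoord π O τ) (K : IntermediateField L F) (hK : K = L⟮τ⟯)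
    (halg : Algebra.IsAlgebraic K F)
    (huniq : ∀ O'' : ValuationSubring F,
      O''.comap (algebraMap K F) = O.comap (algebraMap K F) → O'' = O) {b : ↥(B0 R τ)} :
    piB0 R π τ ∣ b ↔ O.valuation (b : F) < 1 := by
  rw [h.lt_one_iff]
  constructor
  · rintro ⟨c, rfl⟩
    exact ⟨(c : F), B0_le h c.2, rfl⟩
  · rintro ⟨y, hy, hby⟩
    have hyB : y ∈ B0 R τ := sat_B0 h K hK halg huniq hy (hby ▸ b.2)
    exact ⟨⟨y, hyB⟩, Subtype.ext hby⟩

theorem valuation_eq_one_iff_not_dvd (h : GoodCoord π O τ) (K : IntermediateField L F)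
    (hK : K = L⟮τ⟯) (halg : Algebra.IsAlgebraic K F)
    (huniq : ∀ O'' : ValuationSubring F,
      O''.comap (algebraMap K F) = O.comap (algebraMap K F) → O'' = O) {b : ↥(B0 R τ)} :
    O.valuation (b : F) = 1 ↔ ¬ piB0 R π τ ∣ b := by
  rw [piB0_dvd_iff h K hK halg huniq, not_lt]
  have hle : O.valuation (b : F) ≤ 1 := (O.valuation_le_one_iff _).mpr (B0_le h b.2)
  exact ⟨fun h1 => h1.ge, fun h1 => le_antisymm hle h1⟩

/-- **(B-pi)** `π` is a prime element of the chart. -/
theorem prime_piB0 (h : GoodCoord π O τ) (K : IntermediateField L F) (hK : K = L⟮τ⟯)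
    (halg : Algebra.IsAlgebraic K F)
    (huniq : ∀ O'' : ValuationSubring F,
      O''.comap (algebraMap K F) = O.comap (algebraMap K F) → O'' = O) :
    Prime (piB0 R π τ) := by
  refine ⟨?_, ?_, ?_⟩
  · intro h0
    exact h.pi_ne_zero L (congrArg Subtype.val h0)
  · intro hu
    have h1 : piB0 R π τ ∣ 1 := hu.dvd
    rw [piB0_dvd_iff h K hK halg huniq] at h1
    simp at h1
  · intro a b hab
    rw [piB0_dvd_iff h K hK halg huniq] at hab ⊢
    rw [piB0_dvd_iff h K hK halg huniq]
    by_contra hcon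
    push Not at hcon
    have ha : O.valuation (a : F) = 1 :=
      le_antisymm ((O.valuation_le_one_iff _).mpr (B0_le h a.2)) hcon.1
    have hb : O.valuation (b : F) = 1 :=
      le_antisymm ((O.valuation_le_one_iff _).mpr (B0_le h b.2)) hcon.2
    rw [Subring.coe_mul, map_mul, ha, hb, one_mul] at hab
    exact lt_irrefl _ hab

/-- **(B-pi)** the Gauss valuation ring is the localisation of the chart at `(π)`. -/
theorem exists_frac_of_mem_O (h : GoodCoord π O τ) (K : IntermediateField L F) (hK : K = L⟮τ⟯)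
    (halg : Algebra.IsAlgebraic K F)
    (huniq : ∀ O'' : ValuationSubring F,
      O''.comap (algebraMap K F) = O.comap (algebraMap K F) → O'' = O) {x : F} (hx : x ∈ O) :
    ∃ b s : ↥(B0 R τ), ¬ piB0 R π τ ∣ s ∧ x * (s : F) = (b : F) := by
  obtain ⟨p, hp1, hp2⟩ := exists_frac_B0 h K hK halg huniq hx
  refine ⟨⟨_, hp2⟩, ⟨aeval τ p, aeval_mem_B0 p⟩, ?_, rfl⟩
  rw [← valuation_eq_one_iff_not_dvd h K hK halg huniq]
  exact hp1

/-- **(B-pi), units.** A Gauss unit is a fraction of two elements of the chart prime to `π`. -/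
theorem exists_frac_of_valuation_eq_one (h : GoodCoord π O τ) (K : IntermediateField L F)
    (hK : K = L⟮τ⟯) (halg : Algebra.IsAlgebraic K F)
    (huniq : ∀ O'' : ValuationSubring F,
      O''.comap (algebraMap K F) = O.comap (algebraMap K F) → O'' = O) {z : F}
    (hz : O.valuation z = 1) :
    ∃ a s : ↥(B0 R τ), ¬ piB0 R π τ ∣ a ∧ ¬ piB0 R π τ ∣ s ∧ z * (s : F) = (a : F) := by
  have hzO : z ∈ O := (O.valuation_le_one_iff _).mp hz.le
  obtain ⟨b, s, hs, hbs⟩ := exists_frac_of_mem_O h K hK halg huniq hzO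
  refine ⟨b, s, ?_, hs, hbs⟩
  rw [← valuation_eq_one_iff_not_dvd h K hK halg huniq] at hs ⊢
  rw [← hbs, map_mul, hz, hs, one_mul]

/-- **(B-pi)** `(π)` is the only height-one prime of the chart containing `π`. -/
theorem eq_span_pi_of_mem (h : GoodCoord π O τ) (K : IntermediateField L F)
    (hK : K = L⟮τ⟯) (halg : Algebra.IsAlgebraic K F)
    (huniq : ∀ O'' : ValuationSubring F,
      O''.comap (algebraMap K F) = O.comap (algebraMap K F) → O'' = O)
    (p : Ideal ↥(B0 R τ))
    (hht : ∀ q : Ideal ↥(B0 R τ), q.IsPrime → q ≤ p → q = ⊥ ∨ q = p)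
    (hπp : piB0 R π τ ∈ p) : p = Ideal.span {piB0 R π τ} := by
  have hprime := prime_piB0 h K hK halg huniq
  have h1 : (Ideal.span {piB0 R π τ}).IsPrime :=
    (Ideal.span_singleton_prime hprime.ne_zero).mpr hprime
  rcases hht _ h1 ((Ideal.span_singleton_le_iff_mem _).mpr hπp) with h2 | h2
  · exfalso
    rw [Ideal.span_singleton_eq_bot] at h2
    exact hprime.ne_zero h2
  · exact h2.symm

end Pi

/-! ### (B-sp) closed points of the special fibre -/

section SpecialFibre

variable {R L F : Type*} [CommRing R] [IsDomain R] [IsDiscreteValuationRing R]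
  [Field L] [Field F] [Algebra R L] [IsFractionRing R L] [Algebra L F] [Algebra R F]
  [IsScalarTower R L F] {π : R} {O : ValuationSubring F} {τ : F}
  {κ E : Type*} [Field κ] [Field E] [Algebra κ E]

/-- the residue map restricted to the chart (`= ChartLocalOK.resB0`) -/
noncomputable def resChart (h : GoodCoord π O τ) (ρ : ↥O →+* E) : ↥(B0 R τ) →+* E :=
  ρ.comp (Subring.inclusion (B0_le h))

theorem resChart_apply (h : GoodCoord π O τ) (ρ : ↥O →+* E) (b : ↥(B0 R τ)) :
    resChart h ρ b = ρ ⟨(b : F), B0_le h b.2⟩ := rfl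

/-- `R[X] → O`, `p ↦ p(τ)` -/
noncomputable def polyToO (h : GoodCoord π O τ) : R[X] →+* ↥O :=
  RingHom.codRestrict ((aeval τ : R[X] →ₐ[R] F) : R[X] →+* F) O
    (fun p => B0_le h (aeval_mem_B0 p))

@[simp]
theorem coe_polyToO (h : GoodCoord π O τ) (p : R[X]) : ((polyToO h p : ↥O) : F) = aeval τ p := rfl

/-- reduction of polynomial expressions in `τ` -/
theorem res_comp_polyToO (h : GoodCoord π O τ) (ρ : ↥O →+* E) (resR : R →+* κ)
    (hcompat : ∀ r : R, ρ ⟨algebraMap R F r, h.algebraMap_mem r⟩ = algebraMap κ E (resR r)) :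
    ρ.comp (polyToO h) =
      ((aeval (ρ ⟨τ, h.tau_mem⟩) : κ[X] →ₐ[κ] E) : κ[X] →+* E).comp (mapRingHom resR) := by
  apply Polynomial.ringHom_ext
  · intro r
    have e : polyToO h (C r) = ⟨algebraMap R F r, h.algebraMap_mem r⟩ :=
      Subtype.ext (by simp)
    simp only [RingHom.comp_apply, e, hcompat]
    simp
  · have e : polyToO h (X : R[X]) = ⟨τ, h.tau_mem⟩ := Subtype.ext (by simp)
    simp only [RingHom.comp_apply, e]
    simp

theorem res_polyToO (h : GoodCoord π O τ) (ρ : ↥O →+* E) (resR : R →+* κ)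
    (hcompat : ∀ r : R, ρ ⟨algebraMap R F r, h.algebraMap_mem r⟩ = algebraMap κ E (resR r))
    (p : R[X]) : ρ (polyToO h p) = aeval (ρ ⟨τ, h.tau_mem⟩) (p.map resR) := by
  have := congrArg (fun f : R[X] →+* E => f p) (res_comp_polyToO h ρ resR hcompat)
  simpa using this

/-- the reduction of an element of the chart is integral over the reduction of `R[τ]` -/
theorem resChart_isIntegralElem (h : GoodCoord π O τ) (ρ : ↥O →+* E) (b : ↥(B0 R τ)) :
    (ρ.comp (polyToO h)).IsIntegralElem (resChart h ρ b) := by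
  obtain ⟨f, hf, hfb⟩ := (isIntegral_adjoin_iff τ (b : F)).mp (mem_B0.mp b.2)
  refine ⟨f, hf, ?_⟩
  have h1 : eval₂ (polyToO h) (⟨(b : F), B0_le h b.2⟩ : ↥O) f = 0 := by
    apply Subtype.ext
    have := Polynomial.hom_eval₂ f (polyToO h) O.subtype ⟨(b : F), B0_le h b.2⟩
    exact this.trans hfb
  have h2 := Polynomial.hom_eval₂ f (polyToO h) ρ ⟨(b : F), B0_le h b.2⟩
  rw [h1, map_zero] at h2
  exact h2.symm

/-- the reduction of the chart is regular at every place of the special fibre at which the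
reduction of `τ` is regular -/
theorem resChart_mem_place (h : GoodCoord π O τ) (ρ : ↥O →+* E) (resR : R →+* κ)
    (hcompat : ∀ r : R, ρ ⟨algebraMap R F r, h.algebraMap_mem r⟩ = algebraMap κ E (resR r))
    (Q : Place κ E) (hτ : ρ ⟨τ, h.tau_mem⟩ ∈ Q.toValuationSubring) (b : ↥(B0 R τ)) :
    resChart h ρ b ∈ Q.toValuationSubring :=
  mem_of_isIntegralElem Q.toValuationSubring _ (fun p => by
    rw [RingHom.comp_apply, res_polyToO h ρ resR hcompat]
    exact S24.aeval_mem_of_mem κ _ Q hτ _) (resChart_isIntegralElem h ρ b)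

/-- the ring hom `B0 R τ → O_Q` -/
noncomputable def toPlaceSp (h : GoodCoord π O τ) (ρ : ↥O →+* E) (resR : R →+* κ)
    (hcompat : ∀ r : R, ρ ⟨algebraMap R F r, h.algebraMap_mem r⟩ = algebraMap κ E (resR r))
    (Q : Place κ E) (hτ : ρ ⟨τ, h.tau_mem⟩ ∈ Q.toValuationSubring) :
    ↥(B0 R τ) →+* ↥Q.toValuationSubring :=
  RingHom.codRestrict (resChart h ρ) Q.toValuationSubring
    (resChart_mem_place h ρ resR hcompat Q hτ)

/-- **(B-sp)** the closed point of the chart cut out by a place `Q` of the special fibre at which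
the reduction of `τ` is regular: `{b | ρ b = 0 ∨ 0 < ord_Q (ρ b)}`. -/
noncomputable def pointOfPlace (h : GoodCoord π O τ) (ρ : ↥O →+* E) (resR : R →+* κ)
    (hcompat : ∀ r : R, ρ ⟨algebraMap R F r, h.algebraMap_mem r⟩ = algebraMap κ E (resR r))
    (Q : Place κ E) (hτ : ρ ⟨τ, h.tau_mem⟩ ∈ Q.toValuationSubring) : Ideal ↥(B0 R τ) :=
  Ideal.comap (toPlaceSp h ρ resR hcompat Q hτ) (IsLocalRing.maximalIdeal Q.toValuationSubring)

section

variable (h : GoodCoord π O τ) (ρ : ↥O →+* E) (resR : R →+* κ)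
  (hcompat : ∀ r : R, ρ ⟨algebraMap R F r, h.algebraMap_mem r⟩ = algebraMap κ E (resR r))
  (Q : Place κ E) (hτ : ρ ⟨τ, h.tau_mem⟩ ∈ Q.toValuationSubring)

instance pointOfPlace_isPrime : (pointOfPlace h ρ resR hcompat Q hτ).IsPrime :=
  Ideal.comap_isPrime _ _

theorem mem_pointOfPlace_iff_valuation {b : ↥(B0 R τ)} :
    b ∈ pointOfPlace h ρ resR hcompat Q hτ ↔
      Q.toValuationSubring.valuation (resChart h ρ b) < 1 := by
  rw [pointOfPlace, Ideal.mem_comap]
  exact ValuationSubring.valuation_lt_one_iff Q.toValuationSubring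
    (toPlaceSp h ρ resR hcompat Q hτ b)

theorem mem_pointOfPlace_iff {b : ↥(B0 R τ)} :
    b ∈ pointOfPlace h ρ resR hcompat Q hτ ↔
      resChart h ρ b = 0 ∨ 0 < Q.ord (resChart h ρ b) := by
  rcases eq_or_ne (resChart h ρ b) 0 with h0 | h0
  · simp only [h0, true_or, iff_true]
    rw [mem_pointOfPlace_iff_valuation, h0, map_zero]
    exact zero_lt_one
  · simp only [h0, false_or]
    rw [S24.ord_pos_iff_mem_maximalIdeal Q h0, pointOfPlace, Ideal.mem_comap]
    exact ⟨fun hm => ⟨resChart_mem_place h ρ resR hcompat Q hτ b, hm⟩, fun ⟨_, hm⟩ => hm⟩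

/-- outside the closed point, reductions are units at `Q` -/
theorem ord_resChart_eq_zero_of_not_mem {b : ↥(B0 R τ)}
    (hb : b ∉ pointOfPlace h ρ resR hcompat Q hτ) : Q.ord (resChart h ρ b) = 0 := by
  rw [mem_pointOfPlace_iff, not_or] at hb
  have h1 := (S24.mem_iff_ord_nonneg Q hb.1).mp (resChart_mem_place h ρ resR hcompat Q hτ b)
  have h2 := hb.2
  omega

theorem resChart_ne_zero_of_not_mem {b : ↥(B0 R τ)}
    (hb : b ∉ pointOfPlace h ρ resR hcompat Q hτ) : resChart h ρ b ≠ 0 := by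
  rw [mem_pointOfPlace_iff, not_or] at hb
  exact hb.1

/-- **(B-sp), units.** A fraction `a / s` of elements of the chart outside the closed point of
`Q` reduces to a unit at `Q`. -/
theorem ord_res_eq_zero_of_frac {a s : ↥(B0 R τ)}
    (ha : a ∉ pointOfPlace h ρ resR hcompat Q hτ)
    (hs : s ∉ pointOfPlace h ρ resR hcompat Q hτ) (z : ↥O) (hz : (z : F) * (s : F) = (a : F)) :
    Q.ord (ρ z) = 0 := by
  have e : ρ z * resChart h ρ s = resChart h ρ a := by
    rw [resChart_apply, resChart_apply, ← map_mul]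
    congr 1
    exact Subtype.ext hz
  have hs0 := resChart_ne_zero_of_not_mem h ρ resR hcompat Q hτ hs
  have ha0 := resChart_ne_zero_of_not_mem h ρ resR hcompat Q hτ ha
  have hz0 : ρ z ≠ 0 := by
    intro h0
    rw [h0, zero_mul] at e
    exact ha0 e.symm
  have := congrArg Q.ord e
  rw [Place.ord_mul Q hz0 hs0, ord_resChart_eq_zero_of_not_mem h ρ resR hcompat Q hτ hs,
    ord_resChart_eq_zero_of_not_mem h ρ resR hcompat Q hτ ha] at this
  omega

end

section Kernel

variable (h : GoodCoord π O τ) (K : IntermediateField L F) (hK : K = L⟮τ⟯)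
  (halg : Algebra.IsAlgebraic K F)
  (huniq : ∀ O'' : ValuationSubring F,
    O''.comap (algebraMap K F) = O.comap (algebraMap K F) → O'' = O)
  (ρ : ↥O →+* E) (hρ : ∀ x : ↥O, ρ x = 0 ↔ O.valuation (x : F) < 1)

include K hK halg huniq hρ

/-- the kernel of the reduction on the chart is `(π)` -/
theorem resChart_eq_zero_iff {b : ↥(B0 R τ)} : resChart h ρ b = 0 ↔ piB0 R π τ ∣ b := by
  rw [resChart_apply, hρ, piB0_dvd_iff h K hK halg huniq]

theorem ker_resChart : RingHom.ker (resChart h ρ) = Ideal.span {piB0 R π τ} := by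
  ext b
  rw [RingHom.mem_ker, resChart_eq_zero_iff h K hK halg huniq ρ hρ, Ideal.mem_span_singleton]

/-- if `ρ` is onto, `E` is the fraction field of the reduction of the chart -/
theorem exists_frac_resChart (hρs : Function.Surjective ρ) (z : E) :
    ∃ b s : ↥(B0 R τ), resChart h ρ s ≠ 0 ∧ z * resChart h ρ s = resChart h ρ b := by
  obtain ⟨x, rfl⟩ := hρs z
  obtain ⟨b, s, hs, hbs⟩ := exists_frac_of_mem_O h K hK halg huniq x.2
  refine ⟨b, s, ?_, ?_⟩
  · rwa [Ne, resChart_eq_zero_iff h K hK halg huniq ρ hρ]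
  · rw [resChart_apply, resChart_apply, ← map_mul]
    congr 1
    exact Subtype.ext hbs

variable (resR : R →+* κ)
  (hcompat : ∀ r : R, ρ ⟨algebraMap R F r, h.algebraMap_mem r⟩ = algebraMap κ E (resR r))
  (Q : Place κ E) (hτ : ρ ⟨τ, h.tau_mem⟩ ∈ Q.toValuationSubring)

theorem pi_mem_pointOfPlace : piB0 R π τ ∈ pointOfPlace h ρ resR hcompat Q hτ := by
  rw [mem_pointOfPlace_iff]
  left
  rw [resChart_eq_zero_iff h K hK halg huniq ρ hρ]

theorem span_pi_le_pointOfPlace :
    Ideal.span {piB0 R π τ} ≤ pointOfPlace h ρ resR hcompat Q hτ := by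
  rw [Ideal.span_singleton_le_iff_mem]
  exact pi_mem_pointOfPlace h K hK halg huniq ρ hρ resR hcompat Q hτ

/-- **(B-sp)** the closed point of a place of the special fibre is a maximal ideal (given that
the special fibre of the chart has dimension `≤ 1` and that `E` is the fraction field of its
coordinate ring). -/
theorem pointOfPlace_isMaximal
    [Ring.DimensionLEOne (↥(B0 R τ) ⧸ Ideal.span {piB0 R π τ})]
    (hfrac : ∀ z : E, ∃ b s : ↥(B0 R τ), resChart h ρ s ≠ 0 ∧
      z * resChart h ρ s = resChart h ρ b) :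
    (pointOfPlace h ρ resR hcompat Q hτ).IsMaximal := by
  set n := pointOfPlace h ρ resR hcompat Q hτ with hn
  set I : Ideal ↥(B0 R τ) := Ideal.span {piB0 R π τ} with hI
  have hIn : I ≤ n := span_pi_le_pointOfPlace h K hK halg huniq ρ hρ resR hcompat Q hτ
  have hsurj : Function.Surjective (Ideal.Quotient.mk I) := Ideal.Quotient.mk_surjective
  have hker : RingHom.ker (Ideal.Quotient.mk I) ≤ n := by rwa [Ideal.mk_ker]
  have hprime : (Ideal.map (Ideal.Quotient.mk I) n).IsPrime :=
    Ideal.map_isPrime_of_surjective hsurj hker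
  -- a nonzero element of the image
  obtain ⟨t, ht⟩ := IsDiscreteValuationRing.exists_irreducible Q.toValuationSubring
  have ht0 : (t : E) ≠ 0 := by
    intro h0
    exact ht.ne_zero (Subtype.ext h0)
  have htv : Q.toValuationSubring.valuation (t : E) < 1 := by
    rw [← ValuationSubring.valuation_lt_one_iff, IsLocalRing.mem_maximalIdeal, mem_nonunits_iff]
    exact ht.not_isUnit
  obtain ⟨b, s, hs, hbs⟩ := hfrac (t : E)
  have hb0 : resChart h ρ b ≠ 0 := by
    rw [← hbs]
    exact mul_ne_zero ht0 hs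
  have hbn : b ∈ n := by
    rw [hn, mem_pointOfPlace_iff_valuation, ← hbs, map_mul]
    have h1 : Q.toValuationSubring.valuation (resChart h ρ s) ≤ 1 :=
      (ValuationSubring.valuation_le_one_iff _ _).mpr
        (resChart_mem_place h ρ resR hcompat Q hτ s)
    calc Q.toValuationSubring.valuation (t : E) * Q.toValuationSubring.valuation (resChart h ρ s)
        ≤ Q.toValuationSubring.valuation (t : E) * 1 := by gcongr
      _ < 1 := by rwa [mul_one]
  have hbI : b ∉ I := by
    intro hbI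
    apply hb0
    rw [resChart_eq_zero_iff h K hK halg huniq ρ hρ]
    exact Ideal.mem_span_singleton.mp hbI
  have hne : Ideal.map (Ideal.Quotient.mk I) n ≠ ⊥ := by
    intro h0
    have h1 : Ideal.Quotient.mk I b ∈ Ideal.map (Ideal.Quotient.mk I) n :=
      Ideal.mem_map_of_mem _ hbn
    rw [h0, Ideal.mem_bot, Ideal.Quotient.eq_zero_iff_mem] at h1
    exact hbI h1
  have hmax : (Ideal.map (Ideal.Quotient.mk I) n).IsMaximal :=
    Ring.DimensionLEOne.maximalOfPrime hne hprime
  have hcm : Ideal.comap (Ideal.Quotient.mk I) (Ideal.map (Ideal.Quotient.mk I) n) = n := by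
    rw [Ideal.comap_map_of_surjective' _ hsurj, sup_eq_left]
    exact hker
  rw [← hcm]
  exact Ideal.comap_isMaximal_of_surjective _ hsurj

end Kernel

end SpecialFibre

end Fermat.Agent.S37.Local.ChartDict
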