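import Mathlib
import Fermat.Agent.S18.Core.SemilocalPrincipal
import Fermat.Agent.S18.Core.StartSectionUFD
import Fermat.Agent.S18.Cusp.NormalBridge

/-!
# S37, leaf (L-A): the semilocal ring of a chart at finitely many closed points

`B` a Noetherian domain with fraction field `F`, `π ∈ B` a prime element, `T` a finite set of
maximal ideals of `B` containing `π`, each of the two-generator local form
`n B_n = (π, θ) B_n`.  Let `M_T = {s | ∀ n ∈ T, s ∉ n}` and `S_T = M_T⁻¹ B`.

* (A0) `S_T` is a Noetherian domain, `π` lies in its Jacobson radical and `S_T ⧸ π` is a principal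
  ideal domain; hence `S_T` is a UFD.
* (A1) `exists_localEq`: every nonzero prime `p ∌ π` of `B` contained in some `n ∈ T` has a local
  equation `g ∈ p` (a generator of `p S_T`, not divisible by `π`, outside every other height-one
  prime through `T`).
* (A2) `unit_of_forall_prime`: `z ∈ F` which is a unit at every height-one prime through `T`
  is a unit of `S_T`: `z = a / s` with `a, s ∈ M_T`.
-/

set_option autoImplicit false

namespace Fermat.Agent.S37.Local.Semilocal

open Ideal IsLocalRing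
open Fermat.Agent.S18.Cusp.NormalBridge (LocalGen)
open Fermat.Agent.S18.Core Fermat.Agent.S18.Cusp

/-! ## Generic: two-generator form at all closed points of `V(π)` ⟹ `B ⧸ π` Dedekind -/

section Generic

variable {B : Type*} [CommRing B]

/-- `(N_n)` at every maximal ideal containing `π` implies `dim B/π ≤ 1`. -/
theorem dimensionLEOne_quotient [IsNoetherianRing B] (π : B) [IsDomain (B ⧸ Ideal.span {π})]
    (h : ∀ n : Ideal B, n.IsMaximal → π ∈ n → LocalGen π n) :
    Ring.DimensionLEOne (B ⧸ Ideal.span {π}) := by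
  refine ⟨fun {P} hP0 hPprime => ?_⟩
  obtain ⟨m, hm, hPm⟩ := P.exists_le_maximal hPprime.ne_top
  have hn : (m.comap (Ideal.Quotient.mk (Ideal.span {π}))).IsMaximal :=
    Ideal.comap_isMaximal_of_surjective _ Ideal.Quotient.mk_surjective
  have hπn : π ∈ m.comap (Ideal.Quotient.mk (Ideal.span {π})) := by
    rw [Ideal.mem_comap, NormalBridge.mk_pi_eq_zero]
    exact m.zero_mem
  obtain ⟨T, hT, hgen⟩ := h _ hn hπn
  have key := NormalBridge.maximalIdeal_localization_eq_span π m T hT hgen
  have hprin : (maximalIdeal (Localization.AtPrime m)).IsPrincipal := ⟨⟨_, key⟩⟩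
  have h3 := ((tfae_of_isNoetherianRing_of_isLocalRing_of_isDomain
    (R := Localization.AtPrime m)).out 4 3).mp hprin
  have hdisj : Disjoint (m.primeCompl : Set (B ⧸ Ideal.span {π})) (P : Set _) := by
    rw [Set.disjoint_left]
    intro x hx hxP
    exact hx (hPm hxP)
  have hP'prime := IsLocalization.isPrime_of_isPrime_disjoint m.primeCompl
    (Localization.AtPrime m) P hPprime hdisj
  have hinj : Function.Injective (algebraMap (B ⧸ Ideal.span {π}) (Localization.AtPrime m)) :=
    IsLocalization.injective (Localization.AtPrime m) m.primeCompl_le_nonZeroDivisors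
  have hP'ne : P.map (algebraMap (B ⧸ Ideal.span {π}) (Localization.AtPrime m)) ≠ ⊥ := by
    rw [Ne, Ideal.map_eq_bot_iff_of_injective hinj]
    exact hP0
  have h4 := h3.2 _ hP'ne hP'prime
  have h5 : P = m := by
    rw [← IsLocalization.under_map_of_isPrime_disjoint m.primeCompl (Localization.AtPrime m)
      hPprime hdisj, h4, Localization.AtPrime.under_maximalIdeal]
  exact h5 ▸ hm

/-- `(N_n)` at every maximal ideal containing `π` implies that `B/π` is a Dedekind domain. -/
theorem isDedekindDomain_quotient [IsNoetherianRing B] (π : B) [IsDomain (B ⧸ Ideal.span {π})]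
    (h : ∀ n : Ideal B, n.IsMaximal → π ∈ n → LocalGen π n) :
    IsDedekindDomain (B ⧸ Ideal.span {π}) := by
  have h1 := dimensionLEOne_quotient π h
  have h2 := NormalBridge.isIntegrallyClosed_quotient π h
  exact { toIsDomain := inferInstance, toIsDedekindRing := { } }

end Generic

/-! ## The semilocal ring `S_T` -/

section Semilocal

variable {B : Type*} [CommRing B]

/-- The multiplicative set `M_T = {s | ∀ n ∈ T, s ∉ n}`. -/
def MT (T : Finset (Ideal B)) (hmax : ∀ n ∈ T, n.IsMaximal) : Submonoid B where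
  carrier := {s | ∀ n ∈ T, s ∉ n}
  one_mem' := fun n hn h1 => (hmax n hn).ne_top ((Ideal.eq_top_iff_one n).mpr h1)
  mul_mem' := fun {_ _} ha hb n hn hab =>
    ((hmax n hn).isPrime.mem_or_mem hab).elim (ha n hn) (hb n hn)

theorem mem_MT {T : Finset (Ideal B)} {hmax : ∀ n ∈ T, n.IsMaximal} {s : B} :
    s ∈ MT T hmax ↔ ∀ n ∈ T, s ∉ n := Iff.rfl

variable (T : Finset (Ideal B)) (hmax : ∀ n ∈ T, n.IsMaximal)

/-- The semilocal ring `S_T`. -/
abbrev ST : Type _ := Localization (MT T hmax)

theorem disjoint_MT {p n : Ideal B} (hn : n ∈ T) (hpn : p ≤ n) :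
    Disjoint (MT T hmax : Set B) (p : Set B) := by
  rw [Set.disjoint_left]
  intro x hx hxp
  exact hx n hn (hpn hxp)

theorem MT_le_nonZeroDivisors [IsDomain B] (hne : T.Nonempty) :
    MT T hmax ≤ nonZeroDivisors B := by
  intro s hs
  obtain ⟨n, hn⟩ := hne
  refine mem_nonZeroDivisors_of_ne_zero ?_
  rintro rfl
  exact hs n hn n.zero_mem

theorem isDomain_ST [IsDomain B] (hne : T.Nonempty) : IsDomain (ST T hmax) :=
  IsLocalization.isDomain_localization (MT_le_nonZeroDivisors T hmax hne)

theorem isNoetherianRing_ST [IsNoetherianRing B] : IsNoetherianRing (ST T hmax) :=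
  IsLocalization.isNoetherianRing (MT T hmax) _ inferInstance

/-- Elements of `M_T` become units, and conversely. -/
theorem isUnit_algebraMap_iff (a : B) :
    IsUnit (algebraMap B (ST T hmax) a) ↔ a ∈ MT T hmax := by
  constructor
  · intro hu n hn han
    have hprime : (n.map (algebraMap B (ST T hmax))).IsPrime :=
      IsLocalization.isPrime_of_isPrime_disjoint (MT T hmax) _ n (hmax n hn).isPrime
        (disjoint_MT T hmax hn le_rfl)
    exact hprime.ne_top (Ideal.eq_top_of_isUnit_mem _ (Ideal.mem_map_of_mem _ han) hu)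
  · intro ha
    exact IsLocalization.map_units (ST T hmax) (⟨a, ha⟩ : MT T hmax)

/-- `π` lies in the Jacobson radical of `S_T` as soon as it lies in every `n ∈ T`. -/
theorem pi_mem_jacobson {π : B} (hπT : ∀ n ∈ T, π ∈ n) :
    algebraMap B (ST T hmax) π ∈ Ideal.jacobson (⊥ : Ideal (ST T hmax)) := by
  rw [Ideal.mem_jacobson_bot]
  intro y
  obtain ⟨b, s, rfl⟩ := IsLocalization.exists_mk'_eq (MT T hmax) y
  have hs : IsUnit (algebraMap B (ST T hmax) (s : B)) := IsLocalization.map_units _ s
  have h1 : (algebraMap B (ST T hmax) π * IsLocalization.mk' (ST T hmax) b s + 1) *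
      algebraMap B (ST T hmax) (s : B) = algebraMap B (ST T hmax) (π * b + s) := by
    rw [add_mul, mul_assoc, IsLocalization.mk'_spec, one_mul, map_add, map_mul]
  have h2 : π * b + (s : B) ∈ MT T hmax := by
    intro n hn hmem
    have : (s : B) ∈ n := by
      have h3 := n.sub_mem hmem (n.mul_mem_right b (hπT n hn))
      rwa [add_sub_cancel_left] at h3
    exact s.2 n hn this
  have h3 : IsUnit ((algebraMap B (ST T hmax) π * IsLocalization.mk' (ST T hmax) b s + 1) *
      algebraMap B (ST T hmax) (s : B)) := by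
    rw [h1]
    exact (isUnit_algebraMap_iff T hmax _).mpr h2
  exact (IsUnit.mul_iff.mp h3).1

/-- The maximal ideals of `S_T` come from `T`. -/
theorem under_mem_of_isMaximal (m : Ideal (ST T hmax)) (hm : m.IsMaximal) :
    m.under B ∈ T ∧ m = (m.under B).map (algebraMap B (ST T hmax)) := by
  have h1 := (IsLocalization.isPrime_iff_isPrime_disjoint (MT T hmax) (ST T hmax) m).mp
    hm.isPrime
  have hsub : ((m.under B : Ideal B) : Set B) ⊆ ⋃ n ∈ (T : Set (Ideal B)), ((id n : Ideal B) : Set B) := by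
    intro x hx
    have hx' : x ∉ MT T hmax := fun h => (Set.disjoint_left.mp h1.2) h hx
    rw [mem_MT] at hx'
    simp only [not_forall, not_not] at hx'
    obtain ⟨n, hn, hxn⟩ := hx'
    exact Set.mem_biUnion (Finset.mem_coe.mpr hn) hxn
  obtain ⟨n, hn, hle⟩ := (Ideal.subset_union_prime (s := T) (f := id) ⊥ ⊥
    (fun i hi _ _ => (hmax i hi).isPrime)).mp hsub
  have hmap : m = (m.under B).map (algebraMap B (ST T hmax)) :=
    (IsLocalization.map_under (MT T hmax) (ST T hmax) m).symm
  have hnprime : (n.map (algebraMap B (ST T hmax))).IsPrime :=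
    IsLocalization.isPrime_of_isPrime_disjoint (MT T hmax) _ n (hmax n hn).isPrime
      (disjoint_MT T hmax hn le_rfl)
  have hmn : m = n.map (algebraMap B (ST T hmax)) := by
    refine hm.eq_of_le hnprime.ne_top ?_
    rw [hmap]
    exact Ideal.map_mono hle
  have hun : m.under B = n := by
    rw [hmn]
    exact IsLocalization.under_map_of_isPrime_disjoint (MT T hmax) _ (hmax n hn).isPrime
      (disjoint_MT T hmax hn le_rfl)
  exact ⟨hun ▸ hn, hmap⟩

/-- The two-generator form passes from the points of `T` to the maximal ideals of `S_T`. -/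
theorem localGen_ST {π : B} (hgen : ∀ n ∈ T, LocalGen π n) (m : Ideal (ST T hmax))
    (hm : m.IsMaximal) : LocalGen (algebraMap B (ST T hmax) π) m := by
  obtain ⟨hnT, -⟩ := under_mem_of_isMaximal T hmax m hm
  obtain ⟨θ, hθ, hx⟩ := hgen _ hnT
  refine ⟨algebraMap B (ST T hmax) θ, hθ, fun x hxm => ?_⟩
  obtain ⟨a, s, rfl⟩ := IsLocalization.exists_mk'_eq (MT T hmax) x
  have ha : a ∈ m.under B := by
    show algebraMap B (ST T hmax) a ∈ m
    rw [← IsLocalization.mk'_spec (ST T hmax) a s]
    exact m.mul_mem_right _ hxm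
  obtain ⟨t, htn, hta⟩ := hx a ha
  refine ⟨algebraMap B (ST T hmax) t, htn, ?_⟩
  have h1 : algebraMap B (ST T hmax) (t * a) ∈
      Ideal.span {algebraMap B (ST T hmax) π, algebraMap B (ST T hmax) θ} := by
    have h2 := Ideal.mem_map_of_mem (algebraMap B (ST T hmax)) hta
    rwa [Ideal.map_span, Set.image_pair] at h2
  rw [IsLocalization.mul_mk'_eq_mk'_of_mul, IsLocalization.mk'_eq_mul_mk'_one]
  exact Ideal.mul_mem_right _ _ h1

/-- `π` stays prime in `S_T`. -/
theorem prime_algebraMap_pi [IsDomain B] {π : B} (hπ : Prime π) (hne : T.Nonempty)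
    (hπT : ∀ n ∈ T, π ∈ n) : Prime (algebraMap B (ST T hmax) π) := by
  have := isDomain_ST T hmax hne
  have hdisj : Disjoint (MT T hmax : Set B) ((Ideal.span {π} : Ideal B) : Set B) := by
    obtain ⟨n, hn⟩ := hne
    exact disjoint_MT T hmax hn ((Ideal.span_singleton_le_iff_mem (I := n)).mpr (hπT n hn))
  have hprime : (Ideal.span {π}).IsPrime := (Ideal.span_singleton_prime hπ.ne_zero).mpr hπ
  have h1 := IsLocalization.isPrime_of_isPrime_disjoint (MT T hmax) (ST T hmax) _ hprime hdisj
  rw [Ideal.map_span, Set.image_singleton] at h1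
  have h0 : algebraMap B (ST T hmax) π ≠ 0 := by
    rw [Ne, IsLocalization.to_map_eq_zero_iff (ST T hmax) (MT_le_nonZeroDivisors T hmax hne)]
    exact hπ.ne_zero
  exact (Ideal.span_singleton_prime h0).mp h1

theorem isDomain_quotient_ST [IsDomain B] {π : B} (hπ : Prime π) (hne : T.Nonempty)
    (hπT : ∀ n ∈ T, π ∈ n) :
    IsDomain (ST T hmax ⧸ Ideal.span {algebraMap B (ST T hmax) π}) := by
  have := isDomain_ST T hmax hne
  have h := prime_algebraMap_pi T hmax hπ hne hπT
  have : (Ideal.span {algebraMap B (ST T hmax) π}).IsPrime :=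
    (Ideal.span_singleton_prime h.ne_zero).mpr h
  exact Ideal.Quotient.isDomain _

/-- `S_T ⧸ π` has finitely many maximal ideals. -/
theorem finite_maximals_quotient (π : B) :
    {I : Ideal (ST T hmax ⧸ Ideal.span {algebraMap B (ST T hmax) π}) | I.IsMaximal}.Finite := by
  refine Set.Finite.subset ((T.image (fun n => (n.map (algebraMap B (ST T hmax))).map
    (Ideal.Quotient.mk (Ideal.span {algebraMap B (ST T hmax) π})))).finite_toSet) ?_
  intro I hI
  have hI' : I.IsMaximal := hI
  have hm : (I.comap (Ideal.Quotient.mk (Ideal.span {algebraMap B (ST T hmax) π}))).IsMaximal :=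
    Ideal.comap_isMaximal_of_surjective _ Ideal.Quotient.mk_surjective
  obtain ⟨hnT, hmap⟩ := under_mem_of_isMaximal T hmax _ hm
  rw [Finset.mem_coe, Finset.mem_image]
  refine ⟨_, hnT, ?_⟩
  rw [← hmap, Ideal.map_comap_of_surjective _ Ideal.Quotient.mk_surjective]

/-- **(A0)** `S_T ⧸ π` is a principal ideal ring. -/
theorem isPrincipalIdealRing_quotient_ST [IsDomain B] [IsNoetherianRing B] {π : B}
    (hπ : Prime π) (hne : T.Nonempty) (hπT : ∀ n ∈ T, π ∈ n)
    (hgen : ∀ n ∈ T, LocalGen π n) :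
    IsPrincipalIdealRing (ST T hmax ⧸ Ideal.span {algebraMap B (ST T hmax) π}) := by
  have := isDomain_quotient_ST T hmax hπ hne hπT
  have := isNoetherianRing_ST T hmax
  have := isDedekindDomain_quotient (algebraMap B (ST T hmax) π)
    (fun m hm _ => localGen_ST T hmax hgen m hm)
  exact IsPrincipalIdealRing.of_finite_maximals (finite_maximals_quotient T hmax π)

/-- **(A0)** `S_T` is a unique factorisation domain. -/
theorem ufd_ST [IsDomain B] [IsNoetherianRing B] {π : B}
    (hπ : Prime π) (hne : T.Nonempty) (hπT : ∀ n ∈ T, π ∈ n)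
    (hgen : ∀ n ∈ T, LocalGen π n) :
    @UniqueFactorizationMonoid (ST T hmax) _ := by
  have := isDomain_ST T hmax hne
  have := isDomain_quotient_ST T hmax hπ hne hπT
  have := isNoetherianRing_ST T hmax
  have := isPrincipalIdealRing_quotient_ST T hmax hπ hne hπT hgen
  exact StartSectionUFD.ufd_of_quotient_pid (prime_algebraMap_pi T hmax hπ hne hπT).ne_zero
    (pi_mem_jacobson T hmax hπT)

end Semilocal

/-! ## (A1) local equations -/

section LocalEq

variable {B : Type*} [CommRing B] [IsDomain B] [IsNoetherianRing B]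

/-- **(A1) Local equation.** Every nonzero prime `p ∌ π` of `B` through a point of `T` is
generated in `S_T` by some `g ∈ p` with `π ∤ g`; `g` lies in no other height-one prime through
`T`. -/
theorem exists_localEq {π : B} (hπ : Prime π) (T : Finset (Ideal B))
    (hT : ∀ n ∈ T, n.IsMaximal ∧ π ∈ n ∧
      ∃ θ ∈ n, ∀ x ∈ n, ∃ s, s ∉ n ∧ s * x ∈ Ideal.span {π, θ})
    (p : Ideal B) [hp : p.IsPrime] (hp0 : p ≠ ⊥) (hπp : π ∉ p) (hpT : ∃ n ∈ T, p ≤ n) :
    ∃ g : B, g ∈ p ∧ ¬ π ∣ g ∧
      (∀ x ∈ p, ∃ s : B, (∀ n ∈ T, s ∉ n) ∧ ∃ b : B, s * x = b * g) ∧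
      ∀ p' : Ideal B, p'.IsPrime → (∀ q : Ideal B, q.IsPrime → q ≤ p' → q = ⊥ ∨ q = p') →
        (∃ n ∈ T, p' ≤ n) → p' ≠ p → g ∉ p' := by
  have hmax : ∀ n ∈ T, n.IsMaximal := fun n hn => (hT n hn).1
  have hπT : ∀ n ∈ T, π ∈ n := fun n hn => (hT n hn).2.1
  have hgen : ∀ n ∈ T, LocalGen π n := fun n hn => (hT n hn).2.2
  obtain ⟨n₀, hn₀, hpn₀⟩ := hpT
  have hne : T.Nonempty := ⟨n₀, hn₀⟩
  have := isDomain_ST T hmax hne
  have := isNoetherianRing_ST T hmax
  have := isPrincipalIdealRing_quotient_ST T hmax hπ hne hπT hgen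
  have hinj : Function.Injective (algebraMap B (ST T hmax)) :=
    IsLocalization.injective _ (MT_le_nonZeroDivisors T hmax hne)
  have hdisj := disjoint_MT T hmax hn₀ hpn₀
  have hPprime : (p.map (algebraMap B (ST T hmax))).IsPrime :=
    IsLocalization.isPrime_of_isPrime_disjoint (MT T hmax) _ p hp hdisj
  have hunder : (p.map (algebraMap B (ST T hmax))).under B = p :=
    IsLocalization.under_map_of_isPrime_disjoint (MT T hmax) _ hp hdisj
  have hP0 : p.map (algebraMap B (ST T hmax)) ≠ ⊥ := by
    rw [Ne, Ideal.map_eq_bot_iff_of_injective hinj]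
    exact hp0
  have hπP : algebraMap B (ST T hmax) π ∉ p.map (algebraMap B (ST T hmax)) := by
    intro hmem
    apply hπp
    rw [← hunder]
    exact hmem
  obtain ⟨g', -, hPg', hπg'⟩ := SemilocalPrincipal.exists_prime_generator
    (pi_mem_jacobson T hmax hπT) (p.map (algebraMap B (ST T hmax))) hP0 hπP
  obtain ⟨g, m, rfl⟩ := IsLocalization.exists_mk'_eq (MT T hmax) g'
  have hm : IsUnit (algebraMap B (ST T hmax) (m : B)) := IsLocalization.map_units _ m
  have hgm : algebraMap B (ST T hmax) g =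
      IsLocalization.mk' (ST T hmax) g m * algebraMap B (ST T hmax) (m : B) :=
    (IsLocalization.mk'_spec (ST T hmax) g m).symm
  have hgp : g ∈ p := by
    rw [← hunder]
    show algebraMap B (ST T hmax) g ∈ p.map (algebraMap B (ST T hmax))
    rw [hgm, hPg']
    exact Ideal.mul_mem_right _ _ (Ideal.mem_span_singleton_self _)
  have hxp : ∀ x ∈ p, ∃ s : B, (∀ n ∈ T, s ∉ n) ∧ ∃ b : B, s * x = b * g := by
    intro x hx
    have h1 : algebraMap B (ST T hmax) x ∈ Ideal.span {IsLocalization.mk' (ST T hmax) g m} := by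
      rw [← hPg']
      exact Ideal.mem_map_of_mem _ hx
    obtain ⟨c, hc⟩ := Ideal.mem_span_singleton'.mp h1
    obtain ⟨b, s, rfl⟩ := IsLocalization.exists_mk'_eq (MT T hmax) c
    refine ⟨s * m, (s * m).2, b, ?_⟩
    apply hinj
    have h2 : IsLocalization.mk' (ST T hmax) b s * algebraMap B (ST T hmax) (s : B) =
        algebraMap B (ST T hmax) b := IsLocalization.mk'_spec _ b s
    calc algebraMap B (ST T hmax) (((s * m : MT T hmax) : B) * x)
        = (IsLocalization.mk' (ST T hmax) b s * IsLocalization.mk' (ST T hmax) g m) *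
            (algebraMap B (ST T hmax) (s : B) * algebraMap B (ST T hmax) (m : B)) := by
          rw [hc, Submonoid.coe_mul, map_mul, map_mul]; ring
      _ = (IsLocalization.mk' (ST T hmax) b s * algebraMap B (ST T hmax) (s : B)) *
            (IsLocalization.mk' (ST T hmax) g m * algebraMap B (ST T hmax) (m : B)) := by ring
      _ = algebraMap B (ST T hmax) (b * g) := by rw [h2, ← hgm, map_mul]
  refine ⟨g, hgp, ?_, hxp, ?_⟩
  · intro hdvd
    apply hπg'
    have h1 : algebraMap B (ST T hmax) π ∣ algebraMap B (ST T hmax) g := map_dvd _ hdvd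
    rw [hgm] at h1
    exact (IsUnit.dvd_mul_right hm).mp h1
  · intro p' hp' hht' hp'T hne' hgp'
    obtain ⟨n', hn', hp'n'⟩ := hp'T
    have hle : p ≤ p' := by
      intro x hx
      obtain ⟨s, hs, b, hb⟩ := hxp x hx
      have h1 : s * x ∈ p' := by rw [hb]; exact p'.mul_mem_left b hgp'
      exact (hp'.mem_or_mem h1).resolve_left (fun hs' => hs n' hn' (hp'n' hs'))
    rcases hht' p hp hle with h | h
    · exact hp0 h
    · exact hne' h.symm

end LocalEq

/-! ## (A2) the unit criterion -/

section UnitCriterion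

variable {B : Type*} [CommRing B] [IsDomain B] [IsNoetherianRing B]

/-- The contraction to `B` of the prime ideal generated by a prime element of the UFD `S_T` is a
height-one prime through a point of `T`. -/
theorem under_span_prime {π : B} (hπ : Prime π) (T : Finset (Ideal B))
    (hmax : ∀ n ∈ T, n.IsMaximal) (hne : T.Nonempty) (hπT : ∀ n ∈ T, π ∈ n)
    (hgen : ∀ n ∈ T, LocalGen π n) {g' : ST T hmax} (hg' : Prime g') :
    ((Ideal.span {g'}).under B).IsPrime ∧ (Ideal.span {g'}).under B ≠ ⊥ ∧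
      (∀ q : Ideal B, q.IsPrime → q ≤ (Ideal.span {g'}).under B →
        q = ⊥ ∨ q = (Ideal.span {g'}).under B) ∧
      ∃ n ∈ T, (Ideal.span {g'}).under B ≤ n := by
  have := isDomain_ST T hmax hne
  have hufd := ufd_ST T hmax hπ hne hπT hgen
  have hinj : Function.Injective (algebraMap B (ST T hmax)) :=
    IsLocalization.injective _ (MT_le_nonZeroDivisors T hmax hne)
  have hPprime : (Ideal.span {g'}).IsPrime := (Ideal.span_singleton_prime hg'.ne_zero).mpr hg'
  -- a point of `T` above
  obtain ⟨m, hm, hPm⟩ := (Ideal.span {g'}).exists_le_maximal hPprime.ne_top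
  obtain ⟨hnT, -⟩ := under_mem_of_isMaximal T hmax m hm
  have hle : (Ideal.span {g'}).under B ≤ m.under B := Ideal.comap_mono hPm
  have hmapunder : ((Ideal.span {g'}).under B).map (algebraMap B (ST T hmax)) = Ideal.span {g'} :=
    IsLocalization.map_under (MT T hmax) (ST T hmax) _
  refine ⟨Ideal.IsPrime.under B _, ?_, ?_, ⟨_, hnT, hle⟩⟩
  · intro hbot
    rw [hbot, Ideal.map_bot] at hmapunder
    exact hg'.ne_zero (Ideal.span_singleton_eq_bot.mp hmapunder.symm)
  · intro q hq hqp
    by_cases hq0 : q = ⊥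
    · exact Or.inl hq0
    right
    have hdisj : Disjoint (MT T hmax : Set B) (q : Set B) :=
      disjoint_MT T hmax hnT (hqp.trans hle)
    have hQprime : (q.map (algebraMap B (ST T hmax))).IsPrime :=
      IsLocalization.isPrime_of_isPrime_disjoint (MT T hmax) _ q hq hdisj
    have hQ0 : q.map (algebraMap B (ST T hmax)) ≠ ⊥ := by
      rw [Ne, Ideal.map_eq_bot_iff_of_injective hinj]
      exact hq0
    have hQle : q.map (algebraMap B (ST T hmax)) ≤ Ideal.span {g'} := by
      rw [← hmapunder]
      exact Ideal.map_mono hqp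
    obtain ⟨h', hh'Q, hh'⟩ := Ideal.IsPrime.exists_mem_prime_of_ne_bot hQprime hQ0
    obtain ⟨c, hc⟩ := Ideal.mem_span_singleton.mp (hQle hh'Q)
    have hcu : IsUnit c := by
      rcases hh'.irreducible.isUnit_or_isUnit hc with h | h
      · exact absurd h hg'.not_isUnit
      · exact h
    have hg'Q : g' ∈ q.map (algebraMap B (ST T hmax)) := by
      have h1 : g' = h' * ↑hcu.unit⁻¹ := by
        rw [hc, mul_assoc, IsUnit.mul_val_inv, mul_one]
      rw [h1]
      exact Ideal.mul_mem_right _ _ hh'Q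
    have hQeq : q.map (algebraMap B (ST T hmax)) = Ideal.span {g'} :=
      le_antisymm hQle ((Ideal.span_singleton_le_iff_mem (I := q.map _)).mpr hg'Q)
    rw [← hQeq]
    exact (IsLocalization.under_map_of_isPrime_disjoint (MT T hmax) _ hq hdisj).symm

/-- In a UFD a nonzero element without prime divisors is a unit. -/
theorem isUnit_of_forall_prime_not_dvd {S : Type*} [CommRing S] [IsDomain S]
    [UniqueFactorizationMonoid S] {x : S} (hx : x ≠ 0) (h : ∀ g : S, Prime g → ¬ g ∣ x) :
    IsUnit x := by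
  by_contra hu
  obtain ⟨i, hi, hix⟩ := WfDvdMonoid.exists_irreducible_factor hu hx
  exact h i (UniqueFactorizationMonoid.irreducible_iff_prime.mp hi) hix

variable {F : Type*} [Field F] [Algebra B F] [IsFractionRing B F]

/-- **(A2) Unit criterion.** An element `z ≠ 0` of the fraction field which is a unit at every
height-one prime of `B` through a point of `T` (including `(π)`) is a unit of `S_T`:
`z = a / s` with `a, s ∈ M_T`. -/
theorem unit_of_forall_prime {π : B} (hπ : Prime π) (T : Finset (Ideal B))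
    (hT : ∀ n ∈ T, n.IsMaximal ∧ π ∈ n ∧
      ∃ θ ∈ n, ∀ x ∈ n, ∃ s, s ∉ n ∧ s * x ∈ Ideal.span {π, θ})
    (z : F) (hz : z ≠ 0)
    (h : ∀ p : Ideal B, p.IsPrime → p ≠ ⊥ →
      (∀ q : Ideal B, q.IsPrime → q ≤ p → q = ⊥ ∨ q = p) → (∃ n ∈ T, p ≤ n) →
      ∃ a s : B, a ∉ p ∧ s ∉ p ∧ z * algebraMap B F s = algebraMap B F a) :
    ∃ a s : B, (∀ n ∈ T, a ∉ n) ∧ (∀ n ∈ T, s ∉ n) ∧
      z * algebraMap B F s = algebraMap B F a := by
  rcases T.eq_empty_or_nonempty with hT0 | hne
  · subst hT0
    exact ⟨0, 0, fun n hn => absurd hn (Finset.notMem_empty n),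
      fun n hn => absurd hn (Finset.notMem_empty n), by rw [map_zero, mul_zero]⟩
  have hmax : ∀ n ∈ T, n.IsMaximal := fun n hn => (hT n hn).1
  have hπT : ∀ n ∈ T, π ∈ n := fun n hn => (hT n hn).2.1
  have hgen : ∀ n ∈ T, LocalGen π n := fun n hn => (hT n hn).2.2
  have := isDomain_ST T hmax hne
  have hufd := ufd_ST T hmax hπ hne hπT hgen
  have hinj : Function.Injective (algebraMap B (ST T hmax)) :=
    IsLocalization.injective _ (MT_le_nonZeroDivisors T hmax hne)
  have hinjF : Function.Injective (algebraMap B F) := IsFractionRing.injective B F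
  -- write `z = a0 / s0`
  obtain ⟨a0, s0, hs0, rfl⟩ := IsFractionRing.div_surjective (A := B) z
  have hs00 : s0 ≠ 0 := nonZeroDivisors.ne_zero hs0
  have hs0F : algebraMap B F s0 ≠ 0 := (map_ne_zero_iff _ hinjF).mpr hs00
  have ha00 : a0 ≠ 0 := by
    rintro rfl
    apply hz
    rw [map_zero, zero_div]
  have hx0 : algebraMap B (ST T hmax) a0 ≠ 0 := (map_ne_zero_iff _ hinj).mpr ha00
  have hy0 : algebraMap B (ST T hmax) s0 ≠ 0 := (map_ne_zero_iff _ hinj).mpr hs00
  obtain ⟨x', y', d, hrel, hdx, hdy⟩ :=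
    UniqueFactorizationMonoid.exists_reduced_factors (algebraMap B (ST T hmax) a0) hx0
      (algebraMap B (ST T hmax) s0)
  have hd0 : d ≠ 0 := by
    rintro rfl
    rw [zero_mul] at hdx
    exact hx0 hdx.symm
  have hx'0 : x' ≠ 0 := by
    rintro rfl
    rw [mul_zero] at hdx
    exact hx0 hdx.symm
  have hy'0 : y' ≠ 0 := by
    rintro rfl
    rw [mul_zero] at hdy
    exact hy0 hdy.symm
  -- no prime of `S_T` divides `x'` or `y'`
  have key : ∀ g' : ST T hmax, Prime g' → ¬ g' ∣ x' ∧ ¬ g' ∣ y' := by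
    intro g' hg'
    obtain ⟨hp, hp0, hht, hpT⟩ := under_span_prime hπ T hmax hne hπT hgen hg'
    obtain ⟨a, s, hap, hsp, hzs⟩ := h _ hp hp0 hht hpT
    have hcross : a0 * s = a * s0 := by
      apply hinjF
      rw [map_mul, map_mul, ← hzs]
      field_simp
    have hga : ¬ g' ∣ algebraMap B (ST T hmax) a := fun hd =>
      hap (Ideal.mem_span_singleton.mpr hd)
    have hgs : ¬ g' ∣ algebraMap B (ST T hmax) s := fun hd =>
      hsp (Ideal.mem_span_singleton.mpr hd)
    have heq : x' * algebraMap B (ST T hmax) s = algebraMap B (ST T hmax) a * y' := by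
      apply mul_left_cancel₀ hd0
      calc d * (x' * algebraMap B (ST T hmax) s)
          = (d * x') * algebraMap B (ST T hmax) s := by ring
        _ = algebraMap B (ST T hmax) (a0 * s) := by rw [hdx, map_mul]
        _ = algebraMap B (ST T hmax) (a * s0) := by rw [hcross]
        _ = d * (algebraMap B (ST T hmax) a * y') := by rw [map_mul, ← hdy]; ring
    have hnot : ¬ (g' ∣ x' ∧ g' ∣ y') := fun ⟨h1, h2⟩ => hg'.not_isUnit (hrel h1 h2)
    constructor
    · intro hgx
      have h1 : g' ∣ algebraMap B (ST T hmax) a * y' := heq ▸ Dvd.dvd.mul_right hgx _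
      exact hnot ⟨hgx, (hg'.dvd_or_dvd h1).resolve_left hga⟩
    · intro hgy
      have h1 : g' ∣ x' * algebraMap B (ST T hmax) s := heq ▸ Dvd.dvd.mul_left hgy _
      exact hnot ⟨(hg'.dvd_or_dvd h1).resolve_right hgs, hgy⟩
  have hux : IsUnit x' := isUnit_of_forall_prime_not_dvd hx'0 fun g hg => (key g hg).1
  have huy : IsUnit y' := isUnit_of_forall_prime_not_dvd hy'0 fun g hg => (key g hg).2
  -- the unit `u = x' / y'`
  obtain ⟨a, s, hu⟩ := IsLocalization.exists_mk'_eq (MT T hmax) (x' * ↑huy.unit⁻¹)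
  have hspec : x' * ↑huy.unit⁻¹ * algebraMap B (ST T hmax) (s : B) =
      algebraMap B (ST T hmax) a := by
    rw [← hu]
    exact IsLocalization.mk'_spec _ a s
  have haunit : IsUnit (algebraMap B (ST T hmax) a) := by
    rw [← hspec]
    exact (hux.mul (Units.isUnit _)).mul (IsLocalization.map_units _ s)
  have haM : a ∈ MT T hmax := (isUnit_algebraMap_iff T hmax a).mp haunit
  refine ⟨a, s, haM, s.2, ?_⟩
  have hcross : a0 * (s : B) = s0 * a := by
    apply hinj
    rw [map_mul, map_mul, ← hspec, ← hdx, ← hdy]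
    have h1 : y' * ↑huy.unit⁻¹ = 1 := IsUnit.mul_val_inv huy
    calc d * x' * algebraMap B (ST T hmax) (s : B)
        = d * (y' * ↑huy.unit⁻¹) * x' * algebraMap B (ST T hmax) (s : B) := by
          rw [h1, mul_one]
      _ = d * y' * (x' * ↑huy.unit⁻¹ * algebraMap B (ST T hmax) (s : B)) := by ring
  rw [div_mul_eq_mul_div, div_eq_iff hs0F, ← map_mul, ← map_mul, hcross, mul_comm]

end UnitCriterion

end Fermat.Agent.S37.Local.Semilocal
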