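import Mathlib
import Fermat.Agent.S37.Local.Semilocal
import Fermat.Agent.S37.Local.ChartDict
import Fermat.Agent.S18.Inst.Bundle

/-!
# S37 (L-B2): local equations and the unit criterion in a chart `B0 R τ` (DVR level)

Composition of `Local/Semilocal` ((A1) `exists_localEq`, (A2) `unit_of_forall_prime`) with the
dictionary `Local/ChartDict` between height-one primes of the chart and places of the generic
fibre.  `T` is an arbitrary finite set of closed points of the special fibre of the chart at which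
the two-generator form `LocalGen` holds.

* `exists_localEq_place` (LE-chart): a place `P` of the generic fibre whose centre passes through
  a point of `T` has a local equation `g ∈ B0 R τ`: a Gauss unit with `ord_P g = 1` and
  `ord_{P'} g = 0` at every other place `P'` through `T`.
* `exists_frac_of_forall_place` (UN-chart): a Gauss unit `z` with `ord_P z = 0` at every place
  through `T` is a fraction `a / s` of two elements of the chart outside every point of `T`.
* the same two statements for G's bundle `Inst.Bundle.CoordData A π O t`.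
-/

set_option autoImplicit false

open Polynomial IntermediateField AlgebraicCurve

namespace Fermat.Agent.S37.Local.ChartEq

open Fermat.Agent.S18.Core.Charts Fermat.Agent.S18.Core.StartB0
open Fermat.Agent.S37.Local.ChartDict Fermat.Agent.S37.Local

set_option linter.unusedSectionVars false
set_option linter.style.haveILetI false

section Charts

variable {R L F : Type*} [CommRing R] [IsDomain R] [IsDiscreteValuationRing R]
  [Field L] [Field F] [Algebra R L] [IsFractionRing R L] [Algebra L F] [Algebra R F]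
  [IsScalarTower R L F] {π : R} {O : ValuationSubring F} {τ : F}
  [CharZero L] [hy : Fact (Transcendental L τ)] [FiniteDimensional L⟮τ⟯ F]

/-- **(LE-chart).** Local equation of a place of the generic fibre through `T`. -/
theorem exists_localEq_place (h : GoodCoord π O τ) (K : IntermediateField L F) (hK : K = L⟮τ⟯)
    (halg : Algebra.IsAlgebraic K F)
    (huniq : ∀ O'' : ValuationSubring F,
      O''.comap (algebraMap K F) = O.comap (algebraMap K F) → O'' = O)
    [IsNoetherianRing ↥(B0 R τ)] (T : Finset (Ideal ↥(B0 R τ)))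
    (hT : ∀ n ∈ T, n.IsMaximal ∧ piB0 R π τ ∈ n ∧
      ∃ θ ∈ n, ∀ x ∈ n, ∃ s, s ∉ n ∧ s * x ∈ Ideal.span {piB0 R π τ, θ})
    (P : Place L F) (hτ : τ ∈ P.toValuationSubring)
    (hPT : ∃ n ∈ T, primeOfPlace R P hτ ≤ n) :
    ∃ g : ↥(B0 R τ), O.valuation (g : F) = 1 ∧ P.ord (g : F) = 1 ∧
      ∀ (P' : Place L F) (hτ' : τ ∈ P'.toValuationSubring), P' ≠ P →
        (∃ n ∈ T, primeOfPlace R P' hτ' ≤ n) → P'.ord (g : F) = 0 := by
  have hπ : Irreducible π := h.irreducible
  have hprime := prime_piB0 h K hK halg huniq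
  obtain ⟨g, hgp, hπg, hgen, hother⟩ := Semilocal.exists_localEq hprime T hT
    (primeOfPlace R P hτ) (primeOfPlace_ne_bot hπ P hτ) (pi_not_mem_primeOfPlace hπ P hτ) hPT
  refine ⟨g, (valuation_eq_one_iff_not_dvd h K hK halg huniq).mpr hπg, ?_, ?_⟩
  · rw [ord_eq_one_iff hπ P hτ hgp]
    intro x hx
    obtain ⟨s, hsT, b, hsb⟩ := hgen x hx
    obtain ⟨n, hn, hle⟩ := hPT
    exact ⟨s, b, fun hsp => hsT n hn (hle hsp), hsb⟩
  · intro P' hτ' hne hP'T
    apply ord_eq_zero_of_not_mem P' hτ'
    exact hother (primeOfPlace R P' hτ') inferInstance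
      (fun q hq hle => @eq_bot_or_eq_of_le_primeOfPlace _ _ _ _ _ _ _ _ _ _ _ _ _ _ _ _ _ _
        hπ P' hτ' q hq hle) hP'T
      (fun heq => hne (primeOfPlace_injective hπ hτ' hτ heq))

/-- **(UN-chart).** A Gauss unit which is a unit at every place of the generic fibre through `T`
is a fraction of two elements of the chart outside every point of `T`. -/
theorem exists_frac_of_forall_place (h : GoodCoord π O τ) (K : IntermediateField L F)
    (hK : K = L⟮τ⟯) (halg : Algebra.IsAlgebraic K F)
    (huniq : ∀ O'' : ValuationSubring F,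
      O''.comap (algebraMap K F) = O.comap (algebraMap K F) → O'' = O)
    [IsNoetherianRing ↥(B0 R τ)] (T : Finset (Ideal ↥(B0 R τ)))
    (hT : ∀ n ∈ T, n.IsMaximal ∧ piB0 R π τ ∈ n ∧
      ∃ θ ∈ n, ∀ x ∈ n, ∃ s, s ∉ n ∧ s * x ∈ Ideal.span {piB0 R π τ, θ})
    (z : F) (hz : O.valuation z = 1)
    (hord : ∀ (P : Place L F) (hτ : τ ∈ P.toValuationSubring),
      (∃ n ∈ T, primeOfPlace R P hτ ≤ n) → P.ord z = 0) :
    ∃ a s : ↥(B0 R τ), (∀ n ∈ T, a ∉ n) ∧ (∀ n ∈ T, s ∉ n) ∧ z * (s : F) = (a : F) := by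
  have hπ : Irreducible π := h.irreducible
  have hprime := prime_piB0 h K hK halg huniq
  haveI : IsFractionRing ↥(B0 R τ) F := isFractionRing_B0 h K hK halg huniq
  have hz0 : z ≠ 0 := by
    intro h0
    rw [h0, map_zero] at hz
    exact zero_ne_one hz
  refine Semilocal.unit_of_forall_prime hprime T hT z hz0 (fun p hp hp0 hht hpT => ?_)
  by_cases hπp : piB0 R π τ ∈ p
  · have hp_eq := eq_span_pi_of_mem h K hK halg huniq p hht hπp
    obtain ⟨a, s, ha, hs, has⟩ := exists_frac_of_valuation_eq_one h K hK halg huniq hz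
    refine ⟨a, s, ?_, ?_, has⟩
    · rw [hp_eq, Ideal.mem_span_singleton]
      exact ha
    · rw [hp_eq, Ideal.mem_span_singleton]
      exact hs
  · haveI := hp
    obtain ⟨P, hτ, rfl⟩ := exists_primeOfPlace_eq (L := L) hπ p hp0 hπp
    exact exists_frac_of_ord_eq_zero hπ P hτ hz0 (hord P hτ hpT)

end Charts

/-! ### The same statements for G's bundle `CoordData A π O t` -/

section Bundle

open Fermat.Agent.S18.Inst.Bundle

variable {L : Type*} [Field L] [CharZero L] {A : ValuationSubring L} [IsDiscreteValuationRing A]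
  {F : Type*} [Field F] [Algebra L F] {π : A} {O : ValuationSubring F} {t : F}

/-- the chart of a `CoordData` bundle is noetherian -/
theorem isNoetherianRing_B0_of_coordData (h : CoordData A π O t) :
    IsNoetherianRing ↥(B0 ↥A t) :=
  isNoetherianRing_B0 h.good L⟮t⟯ rfl h.finite h.separable

/-- `F` is the fraction field of the chart of a `CoordData` bundle -/
theorem isFractionRing_B0_of_coordData (h : CoordData A π O t) :
    IsFractionRing ↥(B0 ↥A t) F :=
  isFractionRing_B0 h.good L⟮t⟯ rfl h.algebraic h.uniq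

/-- `π` is a prime element of the chart of a `CoordData` bundle -/
theorem prime_piB0_of_coordData (h : CoordData A π O t) : Prime (piB0 ↥A π t) :=
  prime_piB0 h.good L⟮t⟯ rfl h.algebraic h.uniq

/-- **(LE-chart)** for a `CoordData` bundle. -/
theorem exists_localEq_place_of_coordData (h : CoordData A π O t)
    (T : Finset (Ideal ↥(B0 ↥A t)))
    (hT : ∀ n ∈ T, n.IsMaximal ∧ piB0 ↥A π t ∈ n ∧
      ∃ θ ∈ n, ∀ x ∈ n, ∃ s, s ∉ n ∧ s * x ∈ Ideal.span {piB0 ↥A π t, θ})
    (P : Place L F) (hτ : t ∈ P.toValuationSubring)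
    (hPT : ∃ n ∈ T, primeOfPlace ↥A P hτ ≤ n) :
    ∃ g : ↥(B0 ↥A t), O.valuation (g : F) = 1 ∧ P.ord (g : F) = 1 ∧
      ∀ (P' : Place L F) (hτ' : t ∈ P'.toValuationSubring), P' ≠ P →
        (∃ n ∈ T, primeOfPlace ↥A P' hτ' ≤ n) → P'.ord (g : F) = 0 := by
  haveI : Fact (Transcendental L t) := ⟨h.transc_field⟩
  haveI := h.finite
  haveI := isNoetherianRing_B0_of_coordData h
  exact exists_localEq_place h.good L⟮t⟯ rfl h.algebraic h.uniq T hT P hτ hPT

/-- **(UN-chart)** for a `CoordData` bundle. -/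
theorem exists_frac_of_forall_place_of_coordData (h : CoordData A π O t)
    (T : Finset (Ideal ↥(B0 ↥A t)))
    (hT : ∀ n ∈ T, n.IsMaximal ∧ piB0 ↥A π t ∈ n ∧
      ∃ θ ∈ n, ∀ x ∈ n, ∃ s, s ∉ n ∧ s * x ∈ Ideal.span {piB0 ↥A π t, θ})
    (z : F) (hz : O.valuation z = 1)
    (hord : ∀ (P : Place L F) (hτ : t ∈ P.toValuationSubring),
      (∃ n ∈ T, primeOfPlace ↥A P hτ ≤ n) → P.ord z = 0) :
    ∃ a s : ↥(B0 ↥A t), (∀ n ∈ T, a ∉ n) ∧ (∀ n ∈ T, s ∉ n) ∧ z * (s : F) = (a : F) := by
  haveI : Fact (Transcendental L t) := ⟨h.transc_field⟩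
  haveI := h.finite
  haveI := isNoetherianRing_B0_of_coordData h
  exact exists_frac_of_forall_place h.good L⟮t⟯ rfl h.algebraic h.uniq T hT z hz hord

end Bundle

end Fermat.Agent.S37.Local.ChartEq
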