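import Mathlib
import Fermat.Agent.S18.Final.CuspsGen
import Fermat.Agent.S18.Inst.Level4Final
import Fermat.Agent.S18.Inst.Level9Final
import Fermat.Agent.S37.Local.ChartJ
import Fermat.Agent.S37.Local.ChartEq

/-!
# S37 (GLUE-T4): Theorem N on the `t`-charts of `F_{M,L}` (`4 ∣ M`) over a discrete valuation subring

`L` a field of characteristic zero, `A` a discrete valuation subring of `L` with uniformiser `π`
and residue characteristic `ℓ ∤ M`, `FL := laurentBaseChange L (modularFunctionFieldFull M)`,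
`O := ModularH.gaussVS A hℓM`.

* `isUnit_two`, `isUnit_sixteen` : `2`, `16` are units of `A` when `4 ∣ M`;
* `localGen_tcharts4` : **Theorem N at level `4 ∣ M`**, `LocalGen` form: from the three Kummer
  statements (`hloc_zero`, `hloc_sixteen`, `hloc_inf`, in the shapes of
  `S18/Final/Level4.bundle4_of_hloc`, for the unconditional INST package `Inst/Level4Final`),
  `NormalBridge.LocalGen π n` at every maximal ideal `n ∋ π` of both charts `B0 A t₄`, `B1 A t₄`;
* `hT_of_localGen` : the hypothesis `hT` of `ChartEq` / `ChartEqUp` (for ANY finite set of closed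
  points over `π`) from `LocalGen` at all closed points over `π`;
* `chartFacts` : for any `CoordData` bundle: the chart is a noetherian domain with fraction field
  `F` in which `π` is prime.
-/

set_option autoImplicit false
set_option linter.style.haveILetI false
set_option linter.unusedSectionVars false
set_option synthInstance.maxHeartbeats 400000
set_option backward.isDefEq.respectTransparency.types false

noncomputable section

namespace Fermat.Agent.S37.Local.TCharts4

open Polynomial IsLocalRing IntermediateField ModularCurve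
open Fermat.Agent.S18.Core.Charts Fermat.Agent.S18.Core Fermat.Agent.S18.Core.StartB0
open Fermat.Agent.S18.Cusp Fermat.Agent.S18.Cusp.ChartLocalOK
open Fermat.Agent.S18.Inst.Bundle Fermat.Agent.S18.Gauss
open Fermat.Agent.S18.Inst.Level4 Fermat.Agent.S18.Inst.Level4Final

/-! ### generic chart facts -/

section Generic

variable {L : Type*} [Field L] [CharZero L] {A : ValuationSubring L} [IsDiscreteValuationRing A]
  {F : Type*} [Field F] [Algebra L F] {π : A} {O : ValuationSubring F} {τ : F}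

/-- the chart of a `CoordData` bundle: noetherian, fraction field `F`, `π` prime. -/
theorem chartFacts (h : CoordData A π O τ) :
    IsNoetherianRing ↥(B0 ↥A τ) ∧ IsFractionRing ↥(B0 ↥A τ) F ∧ Prime (piB0 ↥A π τ) :=
  ⟨Fermat.Agent.S37.Local.ChartEq.isNoetherianRing_B0_of_coordData h,
    Fermat.Agent.S37.Local.ChartEq.isFractionRing_B0_of_coordData h,
    Fermat.Agent.S37.Local.ChartEq.prime_piB0_of_coordData h⟩

omit [CharZero L] [IsDiscreteValuationRing A] in
/-- the hypothesis `hT` of `ChartEq.exists_localEq_place_of_coordData` /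
`ChartEqUp.exists_localEq_up` for any finite set `T` of closed points over `π`. -/
theorem hT_of_localGen
    (hLG : ∀ n : Ideal ↥(B0 ↥A τ), n.IsMaximal → piB0 ↥A π τ ∈ n →
      NormalBridge.LocalGen (piB0 ↥A π τ) n)
    (T : Finset (Ideal ↥(B0 ↥A τ))) (hT : ∀ n ∈ T, n.IsMaximal ∧ piB0 ↥A π τ ∈ n) :
    ∀ n ∈ T, n.IsMaximal ∧ piB0 ↥A π τ ∈ n ∧
      ∃ θ ∈ n, ∀ x ∈ n, ∃ s, s ∉ n ∧ s * x ∈ Ideal.span {piB0 ↥A π τ, θ} :=
  fun n hn => ⟨(hT n hn).1, (hT n hn).2, hLG n (hT n hn).1 (hT n hn).2⟩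

end Generic

/-! ### level `4 ∣ M` -/

section Level4

variable {L : Type*} [Field L] [Algebra ℚ L] {M : ℕ} [NeZero M] (h4 : 4 ∣ M)
  (A : ValuationSubring L) {ℓ : ℕ} [Fact ℓ.Prime] [CharP (ResidueField A) ℓ] (hℓM : ¬ ℓ ∣ M)

include h4 hℓM in
/-- `2` is a unit of `A`. -/
theorem isUnit_two : IsUnit (2 : A) := by
  by_contra h
  have h1 : (2 : A) ∈ maximalIdeal A := (mem_maximalIdeal _).mpr h
  have h2 : residue A (2 : A) = 0 := (residue_eq_zero_iff _).mpr h1
  rw [map_ofNat] at h2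
  exact two_ne_zero_res h4 A hℓM h2

include h4 hℓM in
/-- `16` is a unit of `A`. -/
theorem isUnit_sixteen : IsUnit (16 : A) := by
  have h := (isUnit_two h4 A hℓM).pow 4
  have e : (2 : A) ^ 4 = 16 := by norm_num
  rwa [e] at h

/-- **Theorem N at level `4 ∣ M`, `LocalGen` form**, from the three Kummer statements at the cusp
values `t = 0`, `t = -16`, `t = ∞`. -/
theorem localGen_tcharts4 [IsDiscreteValuationRing A] {π : A} (hπ : Irreducible π)
    (hloc_zero : ∀ z : ↥(modularFunctionFieldFullC (ResidueField A) M),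
      IsIntegral (resB0 (coordData4 h4 A hℓM hπ).good (rho4 A hℓM)).range z →
      ∃ (k : ℕ) (b : ↥(B0 ↥A (tEl (L := L) M h4))),
        resB0 (coordData4 h4 A hℓM hπ).good (rho4 A hℓM)
          ⟨aeval (tEl (L := L) M h4) (X + C 16 : (↥A)[X]), aeval_mem_B0 _⟩ ^ k * z =
          resB0 (coordData4 h4 A hℓM hπ).good (rho4 A hℓM) b)
    (hloc_sixteen : ∀ z : ↥(modularFunctionFieldFullC (ResidueField A) M),
      IsIntegral (resB0 (coordData4 h4 A hℓM hπ).good (rho4 A hℓM)).range z →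
      ∃ (k : ℕ) (b : ↥(B0 ↥A (tEl (L := L) M h4))),
        resB0 (coordData4 h4 A hℓM hπ).good (rho4 A hℓM)
          ⟨aeval (tEl (L := L) M h4) (X : (↥A)[X]), aeval_mem_B0 _⟩ ^ k * z =
          resB0 (coordData4 h4 A hℓM hπ).good (rho4 A hℓM) b)
    (hloc_inf : ∀ z : ↥(modularFunctionFieldFullC (ResidueField A) M),
      IsIntegral (resB1 (coordData4 h4 A hℓM hπ).good (rho4 A hℓM)).range z →
      ∃ (k : ℕ) (b : ↥(B1 ↥A (tEl (L := L) M h4))),
        resB1 (coordData4 h4 A hℓM hπ).good (rho4 A hℓM)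
          ⟨aeval (tEl (L := L) M h4)⁻¹ (C 16 * X + 1 : (↥A)[X]), aeval_mem_B0 _⟩ ^ k * z =
          resB1 (coordData4 h4 A hℓM hπ).good (rho4 A hℓM) b) :
    (∀ n : Ideal ↥(B0 ↥A (tEl (L := L) M h4)), n.IsMaximal →
        piB0 ↥A π (tEl (L := L) M h4) ∈ n →
        NormalBridge.LocalGen (piB0 ↥A π (tEl (L := L) M h4)) n) ∧
    (∀ n : Ideal ↥(B1 ↥A (tEl (L := L) M h4)), n.IsMaximal →
        (⟨algebraMap ↥A _ π, algebraMap_mem_B0 π⟩ : ↥(B1 ↥A (tEl (L := L) M h4))) ∈ n →
        NormalBridge.LocalGen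
          (⟨algebraMap ↥A _ π, algebraMap_mem_B0 π⟩ : ↥(B1 ↥A (tEl (L := L) M h4))) n) := by
  classical
  haveI : CharZero L := algebraRat.charZero L
  have hcd := coordData4 h4 A hℓM hπ
  obtain ⟨u, hu⟩ := isUnit_sixteen h4 A hℓM
  have hu' : (16 : A) * ((u⁻¹ : (↥A)ˣ) : A) = 1 := by
    rw [← hu, Units.mul_inv]
  have hcov : ∑ i : Fin 2, (![C ((u⁻¹ : (↥A)ˣ) : A), -C ((u⁻¹ : (↥A)ˣ) : A)] :
      Fin 2 → (↥A)[X]) i * (![X + C 16, X] : Fin 2 → (↥A)[X]) i = 1 := by
    rw [Fin.sum_univ_two]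
    simp only [Matrix.cons_val_zero, Matrix.cons_val_one]
    have : C ((u⁻¹ : (↥A)ˣ) : A) * (X + C 16) + -C ((u⁻¹ : (↥A)ˣ) : A) * X
        = C (16 * ((u⁻¹ : (↥A)ˣ) : A)) := by
      rw [map_mul]; ring
    rw [this, hu', map_one]
  have hcovinf : (-C 16 : (↥A)[X]) * X + 1 * (C 16 * X + 1) = 1 := by ring
  obtain ⟨h0, h1⟩ := Fermat.Agent.S18.Final.CuspsGen.localGen_of_coordData_cusps hcd
    (rho4 A hℓM) (rho4_eq_zero_iff A hℓM) (fun r => rho4_algebraMap A hℓM r _)
    ![X + C 16, X] ![C ((u⁻¹ : (↥A)ˣ) : A), -C ((u⁻¹ : (↥A)ˣ) : A)] hcov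
    (fun i => by
      fin_cases i
      · exact hloc_zero
      · exact hloc_sixteen)
    (C 16 * X + 1) (-C 16) 1 hcovinf hloc_inf
  exact ⟨fun n hn hπn => @h0 n hn hπn, fun n hn hπn => @h1 n hn hπn⟩

end Level4

end Fermat.Agent.S37.Local.TCharts4
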