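import Mathlib
import Fermat.Agent.S37.Local.TCharts4
import Fermat.Agent.S37.Local.ChartJLevel
import Fermat.Agent.S37.Local.CoordJ
import Fermat.Agent.S18.Final.Level9Gen
import Fermat.Agent.S18.Inst.Level9Final

/-!
# S37 (GLUE), final assembly: the `J`-chart `B0 A (J - b)⁻¹` of `F_{M,L}` over a DVR

`L` a field of characteristic zero, `A` a discrete valuation subring of `L` with uniformiser `π`
and residue characteristic `ℓ ∤ M`, `FL := laurentBaseChange L (modularFunctionFieldFull M)`,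
`O := ModularH.gaussVS A hℓM`, `b : A`, `τ_b := CoordJ.tauB A M b = (J - b)⁻¹`.

* `tauB_eq` : `CoordJ.tauB` in the spelling of `ChartJLevel`;
* `localGen_chartJ4_of_hloc` (`4 ∣ M`) / `localGen_chartJ9_of_hloc` (`9 ∣ M`) : `LocalGen π n` at
  every maximal ideal `n ∋ π` of the `J`-chart, from the Kummer statements at the cusp values of
  the `t`-line (the hypotheses of `S18/Final/Level4Gen.localGen4_of_hloc` resp.
  `S18/Final/Level9Gen.localGen9`);
* `chartJ_package` : everything `ChartEq` / `ChartEqUp` / `ClosedPoints` need about the chart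
  `B := B0 A τ_b`, from `LocalGen` on it: the bundle `CoordData A π O τ_b`, `B` noetherian with
  fraction field `FL`, `π` prime in `B`, and the hypothesis `hT` for any finite set `T` of
  maximal ideals containing `π`.
-/

set_option autoImplicit false
set_option linter.style.haveILetI false
set_option linter.unusedSectionVars false
set_option linter.unusedVariables false
set_option synthInstance.maxHeartbeats 400000
set_option backward.isDefEq.respectTransparency.types false

noncomputable section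

namespace Fermat.Agent.S37.Local.ChartJInst

open Polynomial IsLocalRing IntermediateField ModularCurve
open Fermat.Agent.S18.Core.Charts Fermat.Agent.S18.Core Fermat.Agent.S18.Core.StartB0
open Fermat.Agent.S18.Cusp Fermat.Agent.S18.Cusp.ChartLocalOK
open Fermat.Agent.S18.Inst.Bundle Fermat.Agent.S18.Gauss Fermat.Agent.S18.Gauss.Residue
open Fermat.Agent.S37.Local.CoordJ Fermat.Agent.S37.Local.TCharts4

variable {L : Type*} [Field L] [Algebra ℚ L] {M : ℕ} [NeZero M]
  (A : ValuationSubring L) {ℓ : ℕ} [Fact ℓ.Prime] [CharP (ResidueField A) ℓ] (hℓM : ¬ ℓ ∣ M)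

omit [Fact ℓ.Prime] [CharP (ResidueField A) ℓ] in
/-- `CoordJ.tauB` in the spelling of `ChartJLevel`. -/
theorem tauB_eq (b : A) :
    tauB A M b = (Jel (Concrete.jqModC_mem L M) -
      algebraMap ↥A ↥(laurentBaseChange L (modularFunctionFieldFull M)) b)⁻¹ := rfl

/-! ### the package consumed by `ChartEq` / `ChartEqUp` / `ClosedPoints` -/

/-- **The `J`-chart package.**  From `LocalGen` at every closed point over `π` of the chart
`B0 A τ_b`: the INST bundle for `τ_b`, the ring-theoretic facts about the chart, and the hypothesis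
`hT` of `ChartEq.exists_localEq_place_of_coordData` / `ChartEqUp.exists_localEq_up` for every
finite set `T` of closed points over `π`. -/
theorem chartJ_package [IsDiscreteValuationRing A] {π : A} (hπ : Irreducible π) (b : A)
    (hLG : ∀ n : Ideal ↥(B0 ↥A (tauB A M b)), n.IsMaximal → piB0 ↥A π (tauB A M b) ∈ n →
      NormalBridge.LocalGen (piB0 ↥A π (tauB A M b)) n) :
    CoordData A π (ModularH.gaussVS A hℓM) (tauB A M b) ∧
    IsNoetherianRing ↥(B0 ↥A (tauB A M b)) ∧
    IsFractionRing ↥(B0 ↥A (tauB A M b)) ↥(laurentBaseChange L (modularFunctionFieldFull M)) ∧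
    Prime (piB0 ↥A π (tauB A M b)) ∧
    ∀ T : Finset (Ideal ↥(B0 ↥A (tauB A M b))),
      (∀ n ∈ T, n.IsMaximal ∧ piB0 ↥A π (tauB A M b) ∈ n) →
      ∀ n ∈ T, n.IsMaximal ∧ piB0 ↥A π (tauB A M b) ∈ n ∧
        ∃ θ ∈ n, ∀ x ∈ n, ∃ s, s ∉ n ∧ s * x ∈ Ideal.span {piB0 ↥A π (tauB A M b), θ} := by
  haveI : CharZero L := algebraRat.charZero L
  have hcd := coordDataJ A hℓM hπ b
  obtain ⟨h1, h2, h3⟩ := chartFacts hcd
  exact ⟨hcd, h1, h2, h3, fun T hT => hT_of_localGen hLG T hT⟩

/-! ### level `4 ∣ M` -/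

section Level4

open Fermat.Agent.S18.Inst.Level4 Fermat.Agent.S18.Inst.Level4Final

variable (h4 : 4 ∣ M)

/-- **`LocalGen` on the `J`-chart at level `4 ∣ M`** from the three Kummer statements at the cusp
values `t = 0`, `t = -16`, `t = ∞` of the `t₄`-line. -/
theorem localGen_chartJ4_of_hloc [IsDiscreteValuationRing A] {π : A} (hπ : Irreducible π) (b : A)
    (hloc_zero : ∀ z : ↥(modularFunctionFieldFullC (ResidueField A) M),
      IsIntegral (resB0 (coordData4 h4 A hℓM hπ).good (rho4 A hℓM)).range z →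
      ∃ (k : ℕ) (b : ↥(B0 ↥A (tEl (L := L) M h4))),
        resB0 (coordData4 h4 A hℓM hπ).good (rho4 A hℓM)
          ⟨aeval (tEl (L := L) M h4) (X + C 16 : (↥A)[X]), aeval_mem_B0 _⟩ ^ k * z =
          resB0 (coordData4 h4 A hℓM hπ).good (rho4 A hℓM) b)
    (hloc_sixteen : ∀ z : ↥(modularFunctionFieldFullC (ResidueField A) M),
      IsIntegral (resB0 (coordData4 h4 A hℓM hπ).good (rho4 A hℓM)).range z →
      ∃ (k : ℕ) (b : ↥(B0 ↥A (tEl (L := L) M h4))),
        resB0 (coordData4 h4 A hℓM hπ).good (rho4 A hℓM)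
          ⟨aeval (tEl (L := L) M h4) (X : (↥A)[X]), aeval_mem_B0 _⟩ ^ k * z =
          resB0 (coordData4 h4 A hℓM hπ).good (rho4 A hℓM) b)
    (hloc_inf : ∀ z : ↥(modularFunctionFieldFullC (ResidueField A) M),
      IsIntegral (resB1 (coordData4 h4 A hℓM hπ).good (rho4 A hℓM)).range z →
      ∃ (k : ℕ) (b : ↥(B1 ↥A (tEl (L := L) M h4))),
        resB1 (coordData4 h4 A hℓM hπ).good (rho4 A hℓM)
          ⟨aeval (tEl (L := L) M h4)⁻¹ (C 16 * X + 1 : (↥A)[X]), aeval_mem_B0 _⟩ ^ k * z =
          resB1 (coordData4 h4 A hℓM hπ).good (rho4 A hℓM) b) :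
    ∀ n : Ideal ↥(B0 ↥A (tauB A M b)), n.IsMaximal → piB0 ↥A π (tauB A M b) ∈ n →
      NormalBridge.LocalGen (piB0 ↥A π (tauB A M b)) n := by
  obtain ⟨h0, h1⟩ := localGen_tcharts4 h4 A hℓM hπ hloc_zero hloc_sixteen hloc_inf
  exact Fermat.Agent.S37.Local.ChartJLevel.localGen_chartJ4_of_char h4 A hπ hℓM b h0 h1

end Level4

/-! ### level `9 ∣ M` -/

section Level9

open Fermat.Agent.S18.Inst.Level9Final Fermat.Agent.S18.Final.Level9
open Fermat.Agent.S18.Cusp.Level9Poly

variable (h9 : 9 ∣ M)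

include h9 hℓM in
/-- `3` is a unit of `A`. -/
theorem isUnit_three : IsUnit (3 : A) := by
  by_contra h
  have h1 : (3 : A) ∈ maximalIdeal A := (mem_maximalIdeal _).mpr h
  have h2 : residue A (3 : A) = 0 := (residue_eq_zero_iff _).mpr h1
  rw [map_ofNat] at h2
  exact three_ne_zero_res h9 A hℓM h2

/-- **`LocalGen` on the `J`-chart at level `9 ∣ M`** from the four Kummer statements at the cusp
values `t = 0, r, -9 - r, ∞` of the `t₉`-line (`r² + 9 r + 27 = 0`). -/
theorem localGen_chartJ9_of_hloc [IsDiscreteValuationRing A] {π : A} (hπ : Irreducible π) (b : A)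
    {r : A} (hr : r ^ 2 + 9 * r + 27 = 0)
    (hloc0 : ∀ i, ∀ z : ↥(modularFunctionFieldFullC (ResidueField A) M),
      IsIntegral (resB0 (coordData9 h9 A hℓM hπ).good (rho9 A hℓM)).range z →
      ∃ (k : ℕ) (b : ↥(B0 ↥A (tEl (L := L) M h9))),
        resB0 (coordData9 h9 A hℓM hπ).good (rho9 A hℓM)
          ⟨aeval (tEl (L := L) M h9) (G9 r i), aeval_mem_B0 (G9 r i)⟩ ^ k * z =
          resB0 (coordData9 h9 A hℓM hπ).good (rho9 A hℓM) b)
    (hlocinf : ∀ z : ↥(modularFunctionFieldFullC (ResidueField A) M),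
      IsIntegral (resB1 (coordData9 h9 A hℓM hπ).good (rho9 A hℓM)).range z →
      ∃ (k : ℕ) (b : ↥(B1 ↥A (tEl (L := L) M h9))),
        resB1 (coordData9 h9 A hℓM hπ).good (rho9 A hℓM)
          ⟨aeval (tEl (L := L) M h9)⁻¹ (Ginf9 : (↥A)[X]), aeval_mem_B0 Ginf9⟩ ^ k * z =
          resB1 (coordData9 h9 A hℓM hπ).good (rho9 A hℓM) b) :
    ∀ n : Ideal ↥(B0 ↥A (tauB A M b)), n.IsMaximal → piB0 ↥A π (tauB A M b) ∈ n →
      NormalBridge.LocalGen (piB0 ↥A π (tauB A M b)) n := by
  haveI : CharZero L := algebraRat.charZero L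
  obtain ⟨h0, h1⟩ := localGen9 (coordData9 h9 A hℓM hπ) hr (isUnit_three A hℓM h9)
    (rho9 A hℓM) (rho9_eq_zero_iff A hℓM) (fun a => rho9_algebraMap A hℓM a _) hloc0 hlocinf
  exact Fermat.Agent.S37.Local.ChartJLevel.localGen_chartJ9_of_char h9 A hπ hℓM b
    (fun n hn h => by haveI := hn; exact h0 n h) (fun n hn h => by haveI := hn; exact h1 n h)

end Level9

end Fermat.Agent.S37.Local.ChartJInst
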