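import Mathlib
import Fermat.Agent.S37.Local.ChartJInst
import Fermat.Agent.S18.Final.BundleOf
import Fermat.Agent.S18.Descent.StarOfDVR
import Fermat.Agent.S18.Trans.LiesOver

/-!
# S37 (GLUE), level `4 ∣ M`: the chart hypothesis `hchart` of (LE')/(UN') over number fields

* `Hloc4 h4 A hℓM hπ` : the three Kummer statements at the cusp values `t = 0, -16, ∞` of the
  `t₄`-line, for a general pair `(L, A)` (`A` a discrete valuation subring of a field `L` of
  characteristic zero, residue characteristic `ℓ ∤ M`), bundled as ONE proposition (the common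
  input of G's `Final/Level4Rho.bundle4_of_hloc_rho4` and of E's chart hypothesis);
* `Hloc4.localGen_tcharts`, `Hloc4.localGen_chartJ` : `LocalGen` at every closed point over `π` of
  the two `t₄`-charts and of the `J`-chart `B0 A (J - b)⁻¹`;
* `hchart4` : for `A` a valuation subring of `ℚ̄` over `ℓ`: the chart hypothesis in the shape fixed
  by the E architect (board #1308), for every number field `L1 ⊆ ℚ̄` (any guard set `C0`).
-/

set_option autoImplicit false
set_option linter.style.haveILetI false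
set_option linter.unusedSectionVars false
set_option linter.unusedVariables false
set_option synthInstance.maxHeartbeats 400000
set_option backward.isDefEq.respectTransparency.types false

noncomputable section

namespace Fermat.Agent.S37.Local.ChartJInst4

open Polynomial IsLocalRing IntermediateField ModularCurve
open Fermat.Agent.S18.Core.Charts Fermat.Agent.S18.Core Fermat.Agent.S18.Core.StartB0
open Fermat.Agent.S18.Cusp Fermat.Agent.S18.Cusp.ChartLocalOK
open Fermat.Agent.S18.Inst.Bundle Fermat.Agent.S18.Gauss Fermat.Agent.S18.Descent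
open Fermat.Agent.S18.Inst.Level4 Fermat.Agent.S18.Inst.Level4Final
open Fermat.Agent.S37.Local.CoordJ

section General

variable {L : Type*} [Field L] [Algebra ℚ L] {M : ℕ} [NeZero M] (h4 : 4 ∣ M)
  (A : ValuationSubring L) {ℓ : ℕ} [Fact ℓ.Prime] [CharP (ResidueField A) ℓ] (hℓM : ¬ ℓ ∣ M)
  [IsDiscreteValuationRing A] {π : A} (hπ : Irreducible π)

/-- **The three Kummer statements at level `4 ∣ M`** (cusp values `t₄ = 0`, `-16`, `∞`), for the
unconditional INST package `Inst/Level4Final` at `(L, A)`. -/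
structure Hloc4 : Prop where
  zero : ∀ z : ↥(modularFunctionFieldFullC (ResidueField A) M),
    IsIntegral (resB0 (coordData4 h4 A hℓM hπ).good (rho4 A hℓM)).range z →
    ∃ (k : ℕ) (b : ↥(B0 ↥A (tEl (L := L) M h4))),
      resB0 (coordData4 h4 A hℓM hπ).good (rho4 A hℓM)
        ⟨aeval (tEl (L := L) M h4) (X + C 16 : (↥A)[X]), aeval_mem_B0 _⟩ ^ k * z =
        resB0 (coordData4 h4 A hℓM hπ).good (rho4 A hℓM) b
  sixteen : ∀ z : ↥(modularFunctionFieldFullC (ResidueField A) M),
    IsIntegral (resB0 (coordData4 h4 A hℓM hπ).good (rho4 A hℓM)).range z →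
    ∃ (k : ℕ) (b : ↥(B0 ↥A (tEl (L := L) M h4))),
      resB0 (coordData4 h4 A hℓM hπ).good (rho4 A hℓM)
        ⟨aeval (tEl (L := L) M h4) (X : (↥A)[X]), aeval_mem_B0 _⟩ ^ k * z =
        resB0 (coordData4 h4 A hℓM hπ).good (rho4 A hℓM) b
  inf : ∀ z : ↥(modularFunctionFieldFullC (ResidueField A) M),
    IsIntegral (resB1 (coordData4 h4 A hℓM hπ).good (rho4 A hℓM)).range z →
    ∃ (k : ℕ) (b : ↥(B1 ↥A (tEl (L := L) M h4))),
      resB1 (coordData4 h4 A hℓM hπ).good (rho4 A hℓM)
        ⟨aeval (tEl (L := L) M h4)⁻¹ (C 16 * X + 1 : (↥A)[X]), aeval_mem_B0 _⟩ ^ k * z =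
        resB1 (coordData4 h4 A hℓM hπ).good (rho4 A hℓM) b

variable {h4 A hℓM hπ}

/-- `LocalGen` at every closed point over `π` of the two `t₄`-charts. -/
theorem Hloc4.localGen_tcharts (H : Hloc4 h4 A hℓM hπ) :
    (∀ n : Ideal ↥(B0 ↥A (tEl (L := L) M h4)), n.IsMaximal →
        piB0 ↥A π (tEl (L := L) M h4) ∈ n →
        NormalBridge.LocalGen (piB0 ↥A π (tEl (L := L) M h4)) n) ∧
    (∀ n : Ideal ↥(B1 ↥A (tEl (L := L) M h4)), n.IsMaximal →
        (⟨algebraMap ↥A _ π, algebraMap_mem_B0 π⟩ : ↥(B1 ↥A (tEl (L := L) M h4))) ∈ n →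
        NormalBridge.LocalGen
          (⟨algebraMap ↥A _ π, algebraMap_mem_B0 π⟩ : ↥(B1 ↥A (tEl (L := L) M h4))) n) :=
  Fermat.Agent.S37.Local.TCharts4.localGen_tcharts4 h4 A hℓM hπ H.zero H.sixteen H.inf

/-- `LocalGen` at every closed point over `π` of the `J`-chart `B0 A (J - b)⁻¹`. -/
theorem Hloc4.localGen_chartJ (H : Hloc4 h4 A hℓM hπ) (b : A) :
    ∀ n : Ideal ↥(B0 ↥A (tauB A M b)), n.IsMaximal → piB0 ↥A π (tauB A M b) ∈ n →
      NormalBridge.LocalGen (piB0 ↥A π (tauB A M b)) n :=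
  Fermat.Agent.S37.Local.ChartJInst.localGen_chartJ4_of_hloc A hℓM h4 hπ b H.zero H.sixteen H.inf

end General

/-! ### over the number fields inside `ℚ̄` -/

section NumberFields

local notation "Kb" => AlgebraicClosure ℚ

variable {M : ℕ} [NeZero M] (h4 : 4 ∣ M) {ℓ : ℕ} [Fact ℓ.Prime]
  (A : ValuationSubring Kb) (hA : A.LiesOverPrime ℓ) (hℓM : ¬ ℓ ∣ M)

include hA in
/-- **The chart hypothesis of (LE')/(UN') at level `4 ∣ M`** (shape of board #1308; the guard
`C0` is not needed at level 4, take `C0 := ∅`). -/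
theorem hchart4
    (H4 : ∀ (L₁ : IntermediateField ℚ Kb) [FiniteDimensional ℚ L₁]
      [CharP (ResidueField ↥(restrict A L₁)) ℓ] [IsDiscreteValuationRing ↥(restrict A L₁)]
      (π : ↥(restrict A L₁)) (hπ : Irreducible π), Hloc4 h4 (restrict A L₁) hℓM hπ)
    (C0 : Finset Kb) :
    ∀ (L1 : IntermediateField ℚ Kb) [FiniteDimensional ℚ L1], (↑C0 : Set Kb) ⊆ (L1 : Set Kb) →
      ∀ (b1 : ↥(restrict A L1)) (π : ↥(restrict A L1)), Irreducible π →
      ∀ n : Ideal ↥(B0 ↥(restrict A L1) (tauB (restrict A L1) M b1)), n.IsMaximal →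
        piB0 ↥(restrict A L1) π (tauB (restrict A L1) M b1) ∈ n →
        NormalBridge.LocalGen (piB0 ↥(restrict A L1) π (tauB (restrict A L1) M b1)) n := by
  intro L1 _ _ b1 π hπ
  have hℓ0 : ℓ ≠ 0 := (Fact.out : ℓ.Prime).ne_zero
  haveI : IsDiscreteValuationRing ↥(restrict A L1) :=
    isDiscreteValuationRing_restrict_of_liesOver A hℓ0 hA L1
  haveI : CharP (ResidueField ↥(restrict A L1)) ℓ :=
    Fermat.Agent.S18.Trans.LiesOver.charP_residueField
      (Fermat.Agent.S18.Final.BundleOf.liesOverPrime_restrict A L1 hA)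
  exact (H4 L1 π hπ).localGen_chartJ b1

end NumberFields

end Fermat.Agent.S37.Local.ChartJInst4
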