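import Mathlib
import Fermat.Agent.S18.Gauss.Basic
import Fermat.Agent.S18.Descent.Restrict
import Fermat.Agent.S18.ConstExt.Place
import Fermat.Agent.S37.Key.ResExplicit

/-!
# S37 (L-C), item (y): the Gauss valuation under restriction of the constant field

`L ⊆ K` fields, `A` a valuation subring of `K`, `A₁ := restrict A L = A ∩ L`, residue fields
`κ₁ → κ` (`resIncl`).  Series level (`cm := coeffMap (algebraMap L K)`):

* `isInt_coeffMap : IsInt A₁ x → IsInt A (cm x)`, `res_coeffMap : res A (cm x) = resS (res A₁ x)`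
  with `resS := coeffMap (resIncl A L)`, `resS_injective`;
* `isInt_of_isInt_coeffMap : ScalableElt A₁ x → IsInt A (cm x) → IsInt A₁ x`.

Field level, for `f : F₁ →+* F` compatible with the expansions (`φ (f x) = cm (φ₁ x)`):
`mem_iff`, `comap_eq : (gaussSubring hφ).comap f = gaussSubring hφ₁`, `resMap_map`,
`valuation_le_one_iff`, `valuation_lt_one_iff`, `valuation_eq_one_iff`, `isU_iff`.

Concrete: `F₁ = laurentBaseChange L₁ (Full M)`, `F = laurentBaseChange K (Full M)`,
`f = ConstExt.up`, in the spellings of `Key/GaussUnitsFull` (`IsU`, `res`) and `Key/ResExplicit`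
(`gaussVS`, `resHom`): `up_mem_gaussVS_iff`, `comap_gaussVS`, `coe_res_up`, `coe_resHom_up`,
`isU_up_iff`, `valuation_up_lt_one_iff`, `valuation_up_eq_one_iff`.
-/

set_option autoImplicit false
set_option linter.unusedSectionVars false
set_option linter.unusedVariables false
set_option linter.style.haveILetI false

noncomputable section

namespace Fermat.Agent.S37.Local.GaussRestrict

open ModularCurve IsLocalRing
open Fermat.Agent.S18.Gauss.Basic Fermat.Agent.S18.Descent

/-! ### series level -/

section Series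

variable {K : Type*} [Field K] (A : ValuationSubring K) (L : Type*) [Field L] [Algebra L K]

/-- coefficientwise inclusion `A₁((q)) → A((q))`. -/
def inclS : LaurentSeries (restrict A L) →+* LaurentSeries A := coeffMap (restrictIncl A L)

/-- coefficientwise inclusion `κ₁((q)) → κ((q))`. -/
def resS : LaurentSeries (ResidueField (restrict A L)) →+* LaurentSeries (ResidueField A) :=
  coeffMap (resIncl A L)

theorem coeffMap_inj_of_inj {R S : Type*} [CommRing R] [CommRing S] (g : R →+* S)
    (hg : Function.Injective g) : Function.Injective (coeffMap g) := by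
  intro x y h
  ext k
  apply hg
  have := congrArg (fun z => z.coeff k) h
  simpa using this

theorem resS_injective : Function.Injective (resS A L) :=
  coeffMap_inj_of_inj _ (resIncl_injective A L)

theorem coeffMap_incl (P : LaurentSeries (restrict A L)) :
    coeffMap (algebraMap L K) (incl (restrict A L) P) = incl A (inclS A L P) := by
  unfold incl inclS
  rw [coeffMap_coeffMap, coeffMap_coeffMap]
  apply coeffMap_congr
  ext x
  rfl

theorem red_inclS (P : LaurentSeries (restrict A L)) :
    red A (inclS A L P) = resS A L (red (restrict A L) P) := by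
  unfold red inclS resS
  rw [coeffMap_coeffMap, coeffMap_coeffMap]
  apply coeffMap_congr
  ext x
  exact (resIncl_residue A L x).symm

variable {L}

/-- Gauss-integral over `A₁` implies Gauss-integral over `A`. -/
theorem isInt_coeffMap {x : LaurentSeries L} (hx : IsInt (restrict A L) x) :
    IsInt A (coeffMap (algebraMap L K) x) := by
  obtain ⟨P, Q, hQ, h⟩ := hx
  refine ⟨inclS A L P, inclS A L Q, ?_, ?_⟩
  · rw [red_inclS]
    exact fun h0 => hQ ((map_eq_zero_iff _ (resS_injective A L)).mp h0)
  · rw [← coeffMap_incl, ← coeffMap_incl, ← map_mul, h]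

/-- the residue of the base-changed series. -/
theorem res_coeffMap (x : gaussRing (restrict A L))
    (hx : coeffMap (algebraMap L K) (x : LaurentSeries L) ∈ gaussRing A) :
    res A ⟨coeffMap (algebraMap L K) (x : LaurentSeries L), hx⟩ =
      resS A L (res (restrict A L) x) := by
  obtain ⟨P, Q, hQ, h⟩ := x.2
  have hQ' : red A (inclS A L Q) ≠ 0 := by
    rw [red_inclS]
    exact fun h0 => hQ ((map_eq_zero_iff _ (resS_injective A L)).mp h0)
  have h' : coeffMap (algebraMap L K) (x : LaurentSeries L) * incl A (inclS A L Q) =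
      incl A (inclS A L P) := by
    rw [← coeffMap_incl, ← coeffMap_incl, ← map_mul, h]
  refine (res_eq A ⟨_, hx⟩ hQ' h').trans ?_
  rw [res_eq (restrict A L) x hQ h, map_div₀, red_inclS, red_inclS]

/-- for a scalable series, Gauss-integrality descends. -/
theorem isInt_of_isInt_coeffMap {x : LaurentSeries L} (hs : ScalableElt (restrict A L) x)
    (hx : IsInt A (coeffMap (algebraMap L K) x)) : IsInt (restrict A L) x := by
  have hx0 : x ≠ 0 := hs.ne_zero
  rcases hs.mem_or_inv_mem with h | h
  · exact h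
  · by_cases hres : res (restrict A L) ⟨x⁻¹, h⟩ = 0
    · exfalso
      have h1 : res A ⟨coeffMap (algebraMap L K) x⁻¹, isInt_coeffMap A h⟩ = 0 := by
        have := res_coeffMap A (⟨x⁻¹, h⟩ : gaussRing (restrict A L)) (isInt_coeffMap A h)
        rw [hres, map_zero] at this
        exact this
      have hmul : (⟨coeffMap (algebraMap L K) x⁻¹, isInt_coeffMap A h⟩ : gaussRing A) *
          ⟨coeffMap (algebraMap L K) x, hx⟩ = 1 := by
        apply Subtype.ext
        show coeffMap (algebraMap L K) x⁻¹ * coeffMap (algebraMap L K) x = 1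
        rw [← map_mul, inv_mul_cancel₀ hx0, map_one]
      have h2 := congrArg (res A) hmul
      rw [map_mul, h1, zero_mul, map_one] at h2
      exact zero_ne_one h2
    · have h3 : (x⁻¹)⁻¹ ∈ gaussRing (restrict A L) :=
        inv_mem_of_res_ne_zero (restrict A L) ⟨x⁻¹, h⟩ hres
      rw [inv_inv] at h3
      exact h3

end Series

/-! ### field level -/

section Field

variable {K : Type*} [Field K] {A : ValuationSubring K} {L : Type*} [Field L] [Algebra L K]
  {F₁ F : Type*} [Field F₁] [Field F]
  {φ₁ : F₁ →+* LaurentSeries L} {φ : F →+* LaurentSeries K}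
  (hφ₁ : Scalable (restrict A L) φ₁) (hφ : Scalable A φ)
  (f : F₁ →+* F) (hf : ∀ x : F₁, φ (f x) = coeffMap (algebraMap L K) (φ₁ x))

include hf

/-- `f x` is Gauss-integral over `A` iff `x` is Gauss-integral over `A₁`. -/
theorem mem_iff (x : F₁) : f x ∈ gaussSubring hφ ↔ x ∈ gaussSubring hφ₁ := by
  rw [mem_gaussSubring_iff, mem_gaussSubring_iff, hf]
  constructor
  · intro h
    by_cases hx : x = 0
    · rw [hx, map_zero]; exact (gaussRing (restrict A L)).zero_mem
    · exact isInt_of_isInt_coeffMap A (hφ₁ x hx) h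
  · exact isInt_coeffMap A

/-- the Gauss valuation subring over `A₁` is the restriction of the one over `A`. -/
theorem comap_eq : (gaussSubring hφ).comap f = gaussSubring hφ₁ := by
  ext x
  rw [ValuationSubring.mem_comap]
  exact mem_iff hφ₁ hφ f hf x

/-- the reductions are compatible. -/
theorem resMap_map (x : gaussSubring hφ₁) (hx : f x ∈ gaussSubring hφ) :
    resMap hφ ⟨f x, hx⟩ = resS A L (resMap hφ₁ x) := by
  have hx' : coeffMap (algebraMap L K) (φ₁ x) ∈ gaussRing A := by
    rw [← hf]; exact hx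
  have e : (⟨φ (f x), hx⟩ : gaussRing A) = ⟨coeffMap (algebraMap L K) (φ₁ x), hx'⟩ :=
    Subtype.ext (hf x)
  show res A ⟨φ (f x), hx⟩ = resS A L (res (restrict A L) ⟨φ₁ x, x.2⟩)
  rw [e]
  exact res_coeffMap A (⟨φ₁ x, x.2⟩ : gaussRing (restrict A L)) hx'

theorem valuation_le_one_iff (x : F₁) :
    (gaussSubring hφ).valuation (f x) ≤ 1 ↔ (gaussSubring hφ₁).valuation x ≤ 1 := by
  rw [ValuationSubring.valuation_le_one_iff, ValuationSubring.valuation_le_one_iff]
  exact mem_iff hφ₁ hφ f hf x

theorem valuation_lt_one_iff (x : F₁) :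
    (gaussSubring hφ).valuation (f x) < 1 ↔ (gaussSubring hφ₁).valuation x < 1 := by
  rw [← ValuationSubring.mem_nonunits_iff, ← ValuationSubring.mem_nonunits_iff,
    ValuationSubring.mem_nonunits_iff_or, ValuationSubring.mem_nonunits_iff_or,
    map_eq_zero, ← map_inv₀, mem_iff hφ₁ hφ f hf]

theorem valuation_eq_one_iff (x : F₁) :
    (gaussSubring hφ).valuation (f x) = 1 ↔ (gaussSubring hφ₁).valuation x = 1 := by
  constructor
  · intro h
    have hle := (valuation_le_one_iff hφ₁ hφ f hf x).mp h.le
    have hnlt : ¬ (gaussSubring hφ₁).valuation x < 1 := fun hlt =>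
      (ne_of_lt ((valuation_lt_one_iff hφ₁ hφ f hf x).mpr hlt)) h
    exact le_antisymm hle (not_lt.mp hnlt)
  · intro h
    have hle := (valuation_le_one_iff hφ₁ hφ f hf x).mpr h.le
    have hnlt : ¬ (gaussSubring hφ).valuation (f x) < 1 := fun hlt =>
      (ne_of_lt ((valuation_lt_one_iff hφ₁ hφ f hf x).mp hlt)) h
    exact le_antisymm hle (not_lt.mp hnlt)

/-- Gauss units: `f g` is a unit of the big Gauss subring iff `g` is one of the small one. -/
theorem isU_iff (g : F₁) :
    (∃ hz : f g ∈ gaussSubring hφ, resMap hφ ⟨f g, hz⟩ ≠ 0) ↔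
      (gaussSubring hφ₁).valuation g = 1 := by
  constructor
  · rintro ⟨hz, hne⟩
    have hg : g ∈ gaussSubring hφ₁ := (mem_iff hφ₁ hφ f hf g).mp hz
    rw [resMap_map hφ₁ hφ f hf ⟨g, hg⟩ hz] at hne
    have hne' : resMap hφ₁ ⟨g, hg⟩ ≠ 0 := fun h0 => hne (by rw [h0, map_zero])
    have hu : IsUnit (⟨g, hg⟩ : gaussSubring hφ₁) :=
      (isUnit_iff_resMap_ne_zero hφ₁ _).mpr hne'
    exact (ValuationSubring.valuation_eq_one_iff _ _).mp hu
  · intro h1
    have hg : g ∈ gaussSubring hφ₁ :=
      (ValuationSubring.valuation_le_one_iff _ _).mp h1.le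
    have hu : IsUnit (⟨g, hg⟩ : gaussSubring hφ₁) :=
      (ValuationSubring.valuation_eq_one_iff _ _).mpr h1
    have hne' := (isUnit_iff_resMap_ne_zero hφ₁ _).mp hu
    have hz : f g ∈ gaussSubring hφ := (mem_iff hφ₁ hφ f hf g).mpr hg
    refine ⟨hz, ?_⟩
    rw [resMap_map hφ₁ hφ f hf ⟨g, hg⟩ hz]
    exact fun h0 => hne' ((map_eq_zero_iff _ (resS_injective A L)).mp h0)

end Field

/-! ### concrete: `F_M ⊗ L₁ → F_M ⊗ K` -/

section Concrete

open Fermat.Agent.S18.ConstExt Fermat.Agent.S18.Gauss.ScalableFull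
open Fermat.Agent.S37.Key

variable {L₁ K : Type*} [Field L₁] [Field K] [Algebra ℚ L₁] [Algebra ℚ K] [Algebra L₁ K]

omit [Algebra ℚ L₁] [Algebra ℚ K] in
/-- the residue characteristic of the restriction. -/
theorem charP_restrict (A : ValuationSubring K) (ℓ : ℕ) [CharP (ResidueField A) ℓ] :
    CharP (ResidueField (restrict A L₁)) ℓ :=
  (RingHom.charP_iff (resIncl A L₁) (resIncl_injective A L₁) ℓ).mpr inferInstance

/-- the compatibility of `ConstExt.up` with the expansions. -/
theorem val_up (F₀ : IntermediateField ℚ (LaurentSeries ℚ)) (x : laurentBaseChange L₁ F₀) :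
    ((laurentBaseChange K F₀).val : ↥(laurentBaseChange K F₀) →+* LaurentSeries K)
        (up (K := K) F₀ x) =
      coeffMap (algebraMap L₁ K)
        (((laurentBaseChange L₁ F₀).val : ↥(laurentBaseChange L₁ F₀) →+* LaurentSeries L₁) x) :=
  rfl

section AnyProof

variable {A : ValuationSubring K} {F₀ : IntermediateField ℚ (LaurentSeries ℚ)}
  (hφ₁ : Scalable (restrict A L₁) ((laurentBaseChange L₁ F₀).val :
    ↥(laurentBaseChange L₁ F₀) →+* LaurentSeries L₁))
  (hφ : Scalable A ((laurentBaseChange K F₀).val :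
    ↥(laurentBaseChange K F₀) →+* LaurentSeries K))

/-- (1) membership, any scalability proofs, any `F₀`. -/
theorem up_mem_iff (x : laurentBaseChange L₁ F₀) :
    up (K := K) F₀ x ∈ gaussSubring hφ ↔ x ∈ gaussSubring hφ₁ :=
  mem_iff hφ₁ hφ (up (K := K) F₀) (val_up F₀) x

/-- (1') the small Gauss valuation subring is the restriction of the big one. -/
theorem comap_up : (gaussSubring hφ).comap (up (K := K) F₀) = gaussSubring hφ₁ :=
  comap_eq hφ₁ hφ (up (K := K) F₀) (val_up F₀)

/-- (2) residues. -/
theorem resMap_up (x : laurentBaseChange L₁ F₀) (hx₁ : x ∈ gaussSubring hφ₁)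
    (hx : up (K := K) F₀ x ∈ gaussSubring hφ) :
    resMap hφ ⟨up (K := K) F₀ x, hx⟩ = resS A L₁ (resMap hφ₁ ⟨x, hx₁⟩) :=
  resMap_map hφ₁ hφ (up (K := K) F₀) (val_up F₀) ⟨x, hx₁⟩ hx

theorem valuation_up_le_one_iff (x : laurentBaseChange L₁ F₀) :
    (gaussSubring hφ).valuation (up (K := K) F₀ x) ≤ 1 ↔ (gaussSubring hφ₁).valuation x ≤ 1 :=
  valuation_le_one_iff hφ₁ hφ (up (K := K) F₀) (val_up F₀) x

/-- (4) -/
theorem valuation_up_lt_one_iff (x : laurentBaseChange L₁ F₀) :
    (gaussSubring hφ).valuation (up (K := K) F₀ x) < 1 ↔ (gaussSubring hφ₁).valuation x < 1 :=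
  valuation_lt_one_iff hφ₁ hφ (up (K := K) F₀) (val_up F₀) x

/-- (3) -/
theorem valuation_up_eq_one_iff (x : laurentBaseChange L₁ F₀) :
    (gaussSubring hφ).valuation (up (K := K) F₀ x) = 1 ↔ (gaussSubring hφ₁).valuation x = 1 :=
  valuation_eq_one_iff hφ₁ hφ (up (K := K) F₀) (val_up F₀) x

end AnyProof

/-! #### in the spelling of `Key/GaussUnitsFull` and `Key/ResExplicit` -/

variable (M : ℕ) [NeZero M] (A : ValuationSubring K) {ℓ : ℕ} [Fact ℓ.Prime]
  [CharP (ResidueField A) ℓ] [CharP (ResidueField (restrict A L₁)) ℓ] (hℓM : ¬ ℓ ∣ M)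

/-- (1) `up x ∈ gaussVS_K ↔ x ∈ gaussVS_{L₁}`. -/
theorem up_mem_gaussVS_iff (x : laurentBaseChange L₁ (modularFunctionFieldFull M)) :
    up (K := K) (modularFunctionFieldFull M) x ∈ ResExplicit.gaussVS M A hℓM ↔
      x ∈ ResExplicit.gaussVS M (restrict A L₁) hℓM :=
  up_mem_iff (scalable_full M (restrict A L₁) hℓM) (scalable_full M A hℓM) x

/-- (1') -/
theorem comap_gaussVS :
    (ResExplicit.gaussVS M A hℓM).comap (up (K := K) (modularFunctionFieldFull M)) =
      ResExplicit.gaussVS M (restrict A L₁) hℓM :=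
  comap_up (scalable_full M (restrict A L₁) hℓM) (scalable_full M A hℓM)

/-- (2) `resHom (up x) = coeffMap (κ₁ → κ) (resHom₁ x)` as series. -/
theorem coe_resHom_up (x : laurentBaseChange L₁ (modularFunctionFieldFull M))
    (hx₁ : x ∈ ResExplicit.gaussVS M (restrict A L₁) hℓM)
    (hx : up (K := K) (modularFunctionFieldFull M) x ∈ ResExplicit.gaussVS M A hℓM) :
    ((ResExplicit.resHom M A hℓM ⟨up (K := K) (modularFunctionFieldFull M) x, hx⟩ :
        modularFunctionFieldFullC (ResidueField A) M) : LaurentSeries (ResidueField A)) =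
      resS A L₁ ((ResExplicit.resHom M (restrict A L₁) hℓM ⟨x, hx₁⟩ :
        modularFunctionFieldFullC (ResidueField (restrict A L₁)) M) :
          LaurentSeries (ResidueField (restrict A L₁))) :=
  resMap_up (scalable_full M (restrict A L₁) hℓM) (scalable_full M A hℓM) x hx₁ hx

/-- (2) `res (up x) = coeffMap (κ₁ → κ) (res₁ x)` as series, for EVERY `x` (junk value `0`
on both sides outside the Gauss subrings). -/
theorem coe_res_up (x : laurentBaseChange L₁ (modularFunctionFieldFull M)) :
    ((GaussUnitsFull.res M A hℓM (up (K := K) (modularFunctionFieldFull M) x) :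
        modularFunctionFieldFullC (ResidueField A) M) : LaurentSeries (ResidueField A)) =
      resS A L₁ ((GaussUnitsFull.res M (restrict A L₁) hℓM x :
        modularFunctionFieldFullC (ResidueField (restrict A L₁)) M) :
          LaurentSeries (ResidueField (restrict A L₁))) := by
  by_cases hx : x ∈ ResExplicit.gaussVS M (restrict A L₁) hℓM
  · have hx' := (up_mem_gaussVS_iff M A hℓM x).mpr hx
    rw [ResExplicit.res_eq_resHom M A hℓM hx', ResExplicit.res_eq_resHom M _ hℓM hx]
    exact coe_resHom_up M A hℓM x hx hx'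
  · have hx' : up (K := K) (modularFunctionFieldFull M) x ∉ ResExplicit.gaussVS M A hℓM :=
      fun h => hx ((up_mem_gaussVS_iff M A hℓM x).mp h)
    have h1 : GaussUnitsFull.res M A hℓM (up (K := K) (modularFunctionFieldFull M) x) = 0 :=
      GaussUnits.resF_of_not_mem hx'
    have h2 : GaussUnitsFull.res M (restrict A L₁) hℓM x = 0 :=
      GaussUnits.resF_of_not_mem hx
    rw [h1, h2]
    simp

/-- (3) `IsU (up g) ↔ O₁.valuation g = 1`. -/
theorem isU_up_iff_valuation (g : laurentBaseChange L₁ (modularFunctionFieldFull M)) :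
    GaussUnitsFull.IsU M A hℓM (up (K := K) (modularFunctionFieldFull M) g) ↔
      (ResExplicit.gaussVS M (restrict A L₁) hℓM).valuation g = 1 :=
  isU_iff (scalable_full M (restrict A L₁) hℓM) (scalable_full M A hℓM)
    (up (K := K) (modularFunctionFieldFull M)) (val_up _) g

/-- (3') `IsU (up g) ↔ IsU₁ g`. -/
theorem isU_up_iff (g : laurentBaseChange L₁ (modularFunctionFieldFull M)) :
    GaussUnitsFull.IsU M A hℓM (up (K := K) (modularFunctionFieldFull M) g) ↔
      GaussUnitsFull.IsU M (restrict A L₁) hℓM g := by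
  rw [isU_up_iff_valuation]
  constructor
  · intro h1
    have hg : g ∈ gaussSubring (scalable_full M (restrict A L₁) hℓM) :=
      (ValuationSubring.valuation_le_one_iff _ _).mp h1.le
    have hu : IsUnit (⟨g, hg⟩ : gaussSubring (scalable_full M (restrict A L₁) hℓM)) :=
      (ValuationSubring.valuation_eq_one_iff _ _).mpr h1
    exact ⟨hg, (isUnit_iff_resMap_ne_zero _ _).mp hu⟩
  · rintro ⟨hg, hne⟩
    have hu : IsUnit (⟨g, hg⟩ : gaussSubring (scalable_full M (restrict A L₁) hℓM)) :=
      (isUnit_iff_resMap_ne_zero _ _).mpr hne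
    exact (ValuationSubring.valuation_eq_one_iff _ _).mp hu

/-- (4) in the `gaussVS` spelling. -/
theorem valuation_gaussVS_up_lt_one_iff
    (x : laurentBaseChange L₁ (modularFunctionFieldFull M)) :
    (ResExplicit.gaussVS M A hℓM).valuation (up (K := K) (modularFunctionFieldFull M) x) < 1 ↔
      (ResExplicit.gaussVS M (restrict A L₁) hℓM).valuation x < 1 :=
  valuation_up_lt_one_iff (scalable_full M (restrict A L₁) hℓM) (scalable_full M A hℓM) x

theorem valuation_gaussVS_up_eq_one_iff
    (x : laurentBaseChange L₁ (modularFunctionFieldFull M)) :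
    (ResExplicit.gaussVS M A hℓM).valuation (up (K := K) (modularFunctionFieldFull M) x) = 1 ↔
      (ResExplicit.gaussVS M (restrict A L₁) hℓM).valuation x = 1 :=
  valuation_up_eq_one_iff (scalable_full M (restrict A L₁) hℓM) (scalable_full M A hℓM) x

/-! #### the induced map `F_{M,κ₁} → F_{M,κ}` on residue function fields -/

include hℓM in
/-- `coeffMap (κ₁ → κ)` maps `F_{M,κ₁}` into `F_{M,κ}`. -/
theorem resS_mem_fullC {y : LaurentSeries (ResidueField (restrict A L₁))}
    (hy : y ∈ modularFunctionFieldFullC (ResidueField (restrict A L₁)) M) :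
    resS A L₁ y ∈ modularFunctionFieldFullC (ResidueField A) M := by
  have h : y ∈ Set.range (resMap (scalable_full M (restrict A L₁) hℓM)) := by
    rw [range_resMap M (restrict A L₁) hℓM]
    exact hy
  obtain ⟨x, rfl⟩ := h
  have hx' : up (K := K) (modularFunctionFieldFull M) x.1 ∈
      gaussSubring (scalable_full M A hℓM) :=
    (up_mem_iff (scalable_full M (restrict A L₁) hℓM) (scalable_full M A hℓM) x.1).mpr x.2
  have e := resMap_up (scalable_full M (restrict A L₁) hℓM) (scalable_full M A hℓM) x.1 x.2 hx'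
  have e' : resS A L₁ (resMap (scalable_full M (restrict A L₁) hℓM) x) =
      resMap (scalable_full M A hℓM) ⟨up (K := K) (modularFunctionFieldFull M) x.1, hx'⟩ :=
    e.symm
  rw [e']
  exact GaussUnitsFull.resMap_mem M A hℓM _

/-- the map `F_{M,κ₁} → F_{M,κ}` induced by `κ₁ → κ`. -/
def resFull : ↥(modularFunctionFieldFullC (ResidueField (restrict A L₁)) M) →+*
    ↥(modularFunctionFieldFullC (ResidueField A) M) where
  toFun y := ⟨resS A L₁ y.1, resS_mem_fullC M A hℓM y.2⟩
  map_one' := Subtype.ext (by simp)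
  map_mul' a b := Subtype.ext (by simp)
  map_zero' := Subtype.ext (by simp)
  map_add' a b := Subtype.ext (by simp)

@[simp]
theorem coe_resFull (y : ↥(modularFunctionFieldFullC (ResidueField (restrict A L₁)) M)) :
    ((resFull M A hℓM y : ↥(modularFunctionFieldFullC (ResidueField A) M)) :
      LaurentSeries (ResidueField A)) = resS A L₁ (y : LaurentSeries _) := rfl

theorem resFull_injective : Function.Injective (resFull (L₁ := L₁) M A hℓM) :=
  (resFull M A hℓM).injective

/-- (2) `res (up x) = resFull (res₁ x)` in `F_{M,κ}`. -/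
theorem res_up (x : laurentBaseChange L₁ (modularFunctionFieldFull M)) :
    GaussUnitsFull.res M A hℓM (up (K := K) (modularFunctionFieldFull M) x) =
      resFull M A hℓM (GaussUnitsFull.res M (restrict A L₁) hℓM x) :=
  Subtype.ext (coe_res_up M A hℓM x)

/-- (2) `resHom (up x) = resFull (resHom₁ x)` in `F_{M,κ}`. -/
theorem resHom_up (x : laurentBaseChange L₁ (modularFunctionFieldFull M))
    (hx₁ : x ∈ ResExplicit.gaussVS M (restrict A L₁) hℓM)
    (hx : up (K := K) (modularFunctionFieldFull M) x ∈ ResExplicit.gaussVS M A hℓM) :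
    ResExplicit.resHom M A hℓM ⟨up (K := K) (modularFunctionFieldFull M) x, hx⟩ =
      resFull M A hℓM (ResExplicit.resHom M (restrict A L₁) hℓM ⟨x, hx₁⟩) :=
  Subtype.ext (coe_resHom_up M A hℓM x hx₁ hx)

end Concrete

end Fermat.Agent.S37.Local.GaussRestrict
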