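import Mathlib
import Fermat.Prelude.Def_AlgebraicCurve_DivisorClassGroup
import Fermat.Agent.S24.FFDeriv

/-!
# S37, leaf (L-C), part (BRJ): `j`-values and the coordinate `τ = (J - b)⁻¹`

`P` a place of a function field `F/K`, `A` a valuation subring of the constant field `K` with
residue field `k`, `J ∈ F` non-constant, `b ∈ A`, `S` a finite set of `j̄`-values
(`Option k`, `none = ∞`) not containing `some b̄`.  With `τ = (J - b)⁻¹` and

`hpoly = ∏_{some s ∈ S} (1 + (b - ŝ) X) * (X if none ∈ S)`  (`ŝ ∈ A` lifts of the `s`)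

the condition "the reduction of the `J`-value of `P` lies in `S`" (`JBarIn`) is equivalent to:
`τ` is regular at `P`, with a value `c ∈ A` such that `hpoly(c) ∈ 𝔪_A`.

`BRJk` is the analogous (one-directional) statement on the special fibre.
-/

set_option autoImplicit false

noncomputable section

open AlgebraicCurve Polynomial

namespace Fermat.Agent.S37.Local.BRJ

open Fermat.Agent.S24.FFDeriv

/-! ## Elementary facts on `Place.ord` -/

section Ord

variable {K F : Type*} [Field K] [Field F] [Algebra K F] (P : Place K F)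

/-- the ultrametric equality, with the convention `ord 0 = 0` -/
theorem ord_add_of_lt {x y : F} (hx : x ≠ 0) (h : y = 0 ∨ P.ord x < P.ord y) :
    P.ord (x + y) = P.ord x := by
  rcases eq_or_ne y 0 with rfl | hy
  · rw [add_zero]
  have hlt : P.ord x < P.ord y := h.resolve_left hy
  have hxy : x + y ≠ 0 := by
    intro h0
    have : x = -y := eq_neg_of_add_eq_zero_left h0
    rw [this, ord_neg] at hlt
    exact lt_irrefl _ hlt
  have h1 := min_le_ord_add P hxy
  have h2 : min (P.ord (x + y)) (P.ord (-y)) ≤ P.ord ((x + y) + -y) :=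
    min_le_ord_add P (by rwa [add_neg_cancel_right])
  rw [add_neg_cancel_right, ord_neg] at h2
  rw [min_eq_left hlt.le] at h1
  rcases min_le_iff.mp h2 with h3 | h3
  · exact le_antisymm h3 h1
  · exact absurd h3 (not_le.mpr hlt)

/-- constants have order zero -/
theorem ord_const (c : K) : P.ord (algebraMap K F c) = 0 := ord_algebraMap P c

/-- `ord (x - c) > 0`, `c ≠ c'` constants: `ord (x - c') = 0` -/
theorem ord_sub_const_eq_zero {x : F} {c c' : K} (h : 0 < P.ord (x - algebraMap K F c))
    (hne : c ≠ c') : P.ord (x - algebraMap K F c') = 0 := by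
  have hd : algebraMap K F (c - c') ≠ 0 := by
    rw [Ne, map_eq_zero, sub_eq_zero]
    exact hne
  have e : x - algebraMap K F c' = algebraMap K F (c - c') + (x - algebraMap K F c) := by
    rw [map_sub]; ring
  rw [e, ord_add_of_lt P hd (Or.inr (by rw [ord_const]; exact h)), ord_const]

/-- `ord x < 0`: `ord (x - c) = ord x` -/
theorem ord_sub_const_of_neg {x : F} (c : K) (h : P.ord x < 0) :
    P.ord (x - algebraMap K F c) = P.ord x := by
  have hx : x ≠ 0 := by
    rintro rfl
    rw [Place.ord_zero] at h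
    exact lt_irrefl _ h
  rw [sub_eq_add_neg, ← map_neg]
  exact ord_add_of_lt P hx (Or.inr (by rw [ord_const]; exact h))

/-- `x ≠ 0`, `c ≠ 0`: `x⁻¹ - c⁻¹ = -(x - c) / (x c)` -/
theorem inv_sub_inv_eq {x : F} {c : K} (hx : x ≠ 0) (hc : c ≠ 0) :
    x⁻¹ - algebraMap K F c⁻¹ = -(x - algebraMap K F c) * (x * algebraMap K F c)⁻¹ := by
  have hc' : algebraMap K F c ≠ 0 := by rwa [Ne, map_eq_zero]
  rw [map_inv₀]
  field_simp
  ring

/-- `ord x = 0`, `c ≠ 0`, `x ≠ c`: `ord (x⁻¹ - c⁻¹) = ord (x - c)` -/
theorem ord_inv_sub_inv {x : F} {c : K} (hx0 : P.ord x = 0) (hx : x ≠ 0) (hc : c ≠ 0)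
    (hne : x - algebraMap K F c ≠ 0) :
    P.ord (x⁻¹ - algebraMap K F c⁻¹) = P.ord (x - algebraMap K F c) := by
  have hc' : algebraMap K F c ≠ 0 := by rwa [Ne, map_eq_zero]
  rw [inv_sub_inv_eq hx hc, P.ord_mul (neg_ne_zero.mpr hne) (inv_ne_zero (mul_ne_zero hx hc')),
    ord_neg, P.ord_inv, P.ord_mul hx hc', hx0, ord_const]
  ring

end Ord

/-! ## The polynomial `hpoly` -/

section HPoly

variable {K : Type*} [Field K] (A : ValuationSubring K)

open IsLocalRing

open scoped Classical in
/-- `hpoly = ∏_{some s ∈ S} (1 + (b - ŝ) X) * (X if none ∈ S)` -/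
def hpoly (b : A) (lift : ResidueField A → A) (S : Finset (Option (ResidueField A))) : A[X] :=
  (∏ s ∈ S.eraseNone, (1 + C (b - lift s) * X)) * (if none ∈ S then X else 1)

variable {A}
variable (b : A) (lift : ResidueField A → A) (S : Finset (Option (ResidueField A)))

open scoped Classical in
theorem eval_hpoly (c : A) :
    (hpoly A b lift S).eval c =
      (∏ s ∈ S.eraseNone, (1 + (b - lift s) * c)) * (if none ∈ S then c else 1) := by
  rw [hpoly, eval_mul, eval_prod]
  congr 1
  · refine Finset.prod_congr rfl fun s _ => ?_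
    rw [eval_add, eval_one, eval_mul, eval_C, eval_X]
  · split_ifs
    · rw [eval_X]
    · rw [eval_one]

theorem eval_hpoly_mem_iff (c : A) :
    (hpoly A b lift S).eval c ∈ maximalIdeal A ↔
      (∃ s, some s ∈ S ∧ 1 + (b - lift s) * c ∈ maximalIdeal A) ∨
        (none ∈ S ∧ c ∈ maximalIdeal A) := by
  classical
  have hprime : (maximalIdeal A).IsPrime := (maximalIdeal.isMaximal A).isPrime
  rw [eval_hpoly, hprime.mul_mem_iff_mem_or_mem, hprime.prod_mem_iff]
  refine or_congr ?_ ?_
  · constructor
    · rintro ⟨s, hs, h⟩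
      exact ⟨s, Finset.mem_eraseNone.mp hs, h⟩
    · rintro ⟨s, hs, h⟩
      exact ⟨s, Finset.mem_eraseNone.mpr hs, h⟩
  · split_ifs with h
    · exact ⟨fun hc => ⟨h, hc⟩, fun hc => hc.2⟩
    · constructor
      · intro h1
        exact absurd ((Ideal.eq_top_iff_one _).mpr h1) hprime.ne_top
      · intro hc
        exact absurd hc.1 h

end HPoly

/-! ## (BRJ) on the generic fibre -/

section Generic

variable {K F : Type*} [Field K] [Field F] [Algebra K F] (A : ValuationSubring K)

open IsLocalRing

/-- "the reduction of the `J`-value of `P` lies in `S`", in elementary terms: either `J` has a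
value `a ∈ A` at `P` with `some ā ∈ S`, or `none ∈ S` and `J` has a pole or a value outside
`A`. -/
def JBarIn (P : Place K F) (J : F) (S : Finset (Option (ResidueField A))) : Prop :=
  (∃ a : A, 0 < P.ord (J - algebraMap K F (a : K)) ∧ some (residue A a) ∈ S) ∨
    (none ∈ S ∧ (P.ord J < 0 ∨ ∃ a : K, a ∉ A ∧ 0 < P.ord (J - algebraMap K F a)))

variable {A}

/-- an element of `K` outside `A` has its inverse in the maximal ideal -/
theorem inv_mem_maximalIdeal {d : K} (hd : d ∉ A) :
    ∃ c : A, (c : K) = d⁻¹ ∧ c ∈ maximalIdeal A := by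
  have hinv : d⁻¹ ∈ A := (A.mem_or_inv_mem d).resolve_left hd
  refine ⟨⟨d⁻¹, hinv⟩, rfl, ?_⟩
  rw [mem_maximalIdeal, mem_nonunits_iff]
  intro hu
  obtain ⟨e, he⟩ := hu.exists_right_inv
  apply hd
  have h1 : d⁻¹ * (e : K) = 1 := by
    have := congrArg Subtype.val he
    simpa using this
  have hd0 : d⁻¹ ≠ 0 := left_ne_zero_of_mul_eq_one h1
  have : (e : K) = d := by
    have h2 : (e : K) = (d⁻¹)⁻¹ := eq_inv_of_mul_eq_one_right h1
    rw [h2, inv_inv]
  rw [← this]
  exact e.2

variable (P : Place K F) {J : F} (b : A) (lift : ResidueField A → A)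
  (S : Finset (Option (ResidueField A)))

/-- the common computation: `J` has the value `a ≠ b` at `P` ⟹ `τ = (J - b)⁻¹` has order `0`
and the value `(a - b)⁻¹`. -/
theorem tau_of_value (hJ : ∀ c : K, J ≠ algebraMap K F c) {a : K} (hab : a ≠ (b : K))
    (h : 0 < P.ord (J - algebraMap K F a)) :
    P.ord (J - algebraMap K F (b : K))⁻¹ = 0 ∧
      0 < P.ord ((J - algebraMap K F (b : K))⁻¹ - algebraMap K F (a - (b : K))⁻¹) := by
  have hJb : J - algebraMap K F (b : K) ≠ 0 := sub_ne_zero.mpr (hJ _)
  have h0 : P.ord (J - algebraMap K F (b : K)) = 0 := ord_sub_const_eq_zero P h hab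
  have hd : a - (b : K) ≠ 0 := sub_ne_zero.mpr hab
  have e : J - algebraMap K F (b : K) - algebraMap K F (a - (b : K)) = J - algebraMap K F a := by
    rw [map_sub]; ring
  have hne : J - algebraMap K F (b : K) - algebraMap K F (a - (b : K)) ≠ 0 := by
    rw [e]; exact sub_ne_zero.mpr (hJ _)
  refine ⟨by rw [P.ord_inv, h0, neg_zero], ?_⟩
  rw [ord_inv_sub_inv P h0 hJb hd hne, e]
  exact h

/-- the converse computation: `τ` has the value `c ≠ 0` at `P` ⟹ `J` has the value
`b + c⁻¹`. -/
theorem value_of_tau (hJ : ∀ c : K, J ≠ algebraMap K F c) {c : K} (hc : c ≠ 0)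
    (h : 0 < P.ord ((J - algebraMap K F (b : K))⁻¹ - algebraMap K F c)) :
    0 < P.ord (J - algebraMap K F ((b : K) + c⁻¹)) := by
  have hJb : J - algebraMap K F (b : K) ≠ 0 := sub_ne_zero.mpr (hJ _)
  set τ := (J - algebraMap K F (b : K))⁻¹ with hτ
  have hτ0 : τ ≠ 0 := inv_ne_zero hJb
  have hc' : algebraMap K F c ≠ 0 := by rwa [Ne, map_eq_zero]
  have hne : τ - algebraMap K F c ≠ 0 := by
    intro h0
    rw [h0, Place.ord_zero] at h
    exact lt_irrefl _ h
  have hordτ : P.ord τ = 0 := by
    have e : τ = algebraMap K F c + (τ - algebraMap K F c) := by ring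
    rw [e, ord_add_of_lt P hc' (Or.inr (by rw [ord_const]; exact h)), ord_const]
  have e : J - algebraMap K F ((b : K) + c⁻¹) = τ⁻¹ - algebraMap K F c⁻¹ := by
    rw [hτ, inv_inv, map_add]; ring
  rw [e, ord_inv_sub_inv P hordτ hτ0 hc hne]
  exact h

/-- **(BRJ)**. -/
theorem jBarIn_iff (hJ : ∀ c : K, J ≠ algebraMap K F c)
    (hlift : ∀ s, residue A (lift s) = s) (hb : some (residue A b) ∉ S) :
    JBarIn A P J S ↔
      (0 ≤ P.ord (J - algebraMap K F (b : K))⁻¹ ∧
        ∃ c : A, 0 < P.ord ((J - algebraMap K F (b : K))⁻¹ - algebraMap K F (c : K)) ∧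
          (hpoly A b lift S).eval c ∈ maximalIdeal A) := by
  have hJb : J - algebraMap K F (b : K) ≠ 0 := sub_ne_zero.mpr (hJ _)
  constructor
  · rintro (⟨a, ha, haS⟩ | ⟨hnone, hpole | ⟨a, haA, ha⟩⟩)
    · -- a value in `A`
      have hres : residue A a ≠ residue A b := fun h => hb (h ▸ haS)
      have hab : (a : K) ≠ (b : K) := fun h => hres (congrArg _ (Subtype.ext h))
      have hunit : IsUnit (a - b) := by
        by_contra hnu
        have : a - b ∈ maximalIdeal A := (mem_maximalIdeal _).mpr hnu
        rw [← residue_eq_zero_iff, map_sub, sub_eq_zero] at this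
        exact hres this
      obtain ⟨h0, h1⟩ := tau_of_value P b hJ hab ha
      obtain ⟨c, hc⟩ := hunit.exists_right_inv
      have hcK : (c : K) = ((a : K) - (b : K))⁻¹ := by
        have h2 : ((a : K) - (b : K)) * (c : K) = 1 := by
          have := congrArg Subtype.val hc
          simpa using this
        exact eq_inv_of_mul_eq_one_right h2
      refine ⟨h0.ge, c, by rw [hcK]; exact h1, ?_⟩
      rw [eval_hpoly_mem_iff]
      refine Or.inl ⟨residue A a, haS, ?_⟩
      rw [← residue_eq_zero_iff, map_add, map_one, map_mul, map_sub, hlift]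
      have h3 : (residue A a - residue A b) * residue A c = 1 := by
        rw [← map_sub, ← map_mul, hc, map_one]
      linear_combination -h3
    · -- a pole
      have h0 : P.ord (J - algebraMap K F (b : K)) = P.ord J := ord_sub_const_of_neg P _ hpole
      have h1 : 0 < P.ord (J - algebraMap K F (b : K))⁻¹ := by
        rw [P.ord_inv, h0]; omega
      refine ⟨h1.le, 0, ?_, ?_⟩
      · rw [ZeroMemClass.coe_zero, map_zero, sub_zero]
        exact h1
      · rw [eval_hpoly_mem_iff]
        exact Or.inr ⟨hnone, Ideal.zero_mem _⟩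
    · -- a value outside `A`
      have hab : a ≠ (b : K) := fun h => haA (h ▸ b.2)
      have hd : a - (b : K) ∉ A := fun h => haA (by
        have := A.add_mem _ _ h b.2
        rwa [sub_add_cancel] at this)
      obtain ⟨c, hcK, hcm⟩ := inv_mem_maximalIdeal hd
      obtain ⟨h0, h1⟩ := tau_of_value P b hJ hab ha
      refine ⟨h0.ge, c, by rw [hcK]; exact h1, ?_⟩
      rw [eval_hpoly_mem_iff]
      exact Or.inr ⟨hnone, hcm⟩
  · rintro ⟨hτ, c, hc, hmem⟩
    rw [eval_hpoly_mem_iff] at hmem
    rcases hmem with ⟨s, hsS, hs⟩ | ⟨hnone, hcm⟩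
    · -- a finite value
      have hcu : IsUnit c := by
        by_contra hnu
        have hcm : c ∈ maximalIdeal A := (mem_maximalIdeal _).mpr hnu
        have h1 : (1 : A) ∈ maximalIdeal A := by
          have := (maximalIdeal A).sub_mem hs ((maximalIdeal A).mul_mem_left (b - lift s) hcm)
          rwa [add_sub_cancel_right] at this
        exact (maximalIdeal.isMaximal A).ne_top ((Ideal.eq_top_iff_one _).mpr h1)
      obtain ⟨e, he⟩ := hcu.exists_right_inv
      have hc0 : (c : K) ≠ 0 := by
        intro h0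
        have := congrArg Subtype.val he
        rw [MulMemClass.coe_mul, h0, zero_mul] at this
        exact zero_ne_one this
      have heK : (e : K) = (c : K)⁻¹ := by
        have h2 : (c : K) * (e : K) = 1 := by
          have := congrArg Subtype.val he
          simpa using this
        exact eq_inv_of_mul_eq_one_right h2
      have hval := value_of_tau P b hJ hc0 hc
      refine Or.inl ⟨b + e, by rw [AddMemClass.coe_add, heK]; exact hval, ?_⟩
      have h3 : residue A c * residue A e = 1 := by rw [← map_mul, he, map_one]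
      have h4 : 1 + (residue A b - s) * residue A c = 0 := by
        have := (residue_eq_zero_iff _).mpr hs
        rwa [map_add, map_one, map_mul, map_sub, hlift] at this
      have h5 : residue A (b + e) = s := by
        rw [map_add]
        linear_combination (residue A e) * h4 - (residue A b - s) * h3
      rw [h5]
      exact hsS
    · -- the value `∞`
      refine Or.inr ⟨hnone, ?_⟩
      by_cases hc0 : (c : K) = 0
      · left
        rw [hc0, map_zero, sub_zero, P.ord_inv] at hc
        have h1 : P.ord (J - algebraMap K F (b : K)) < 0 := by omega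
        have e : J = (J - algebraMap K F (b : K)) + algebraMap K F (b : K) := by ring
        rw [e, ord_add_of_lt P hJb (Or.inr (by rw [ord_const]; exact h1))]
        exact h1
      · right
        refine ⟨(b : K) + (c : K)⁻¹, ?_, value_of_tau P b hJ hc0 hc⟩
        intro hmemA
        have hinv : (c : K)⁻¹ ∈ A := by
          have := sub_mem hmemA b.2
          rwa [add_sub_cancel_left] at this
        have hcu : IsUnit c := by
          refine isUnit_iff_exists_inv.mpr ⟨⟨(c : K)⁻¹, hinv⟩, Subtype.ext ?_⟩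
          rw [MulMemClass.coe_mul, OneMemClass.coe_one]
          exact mul_inv_cancel₀ hc0
        exact (mem_maximalIdeal _).mp hcm hcu

end Generic

/-! ## (BRJk) on the special fibre -/

section Special

variable {k E : Type*} [Field k] [Field E] [Algebra k E]

open scoped Classical in
/-- the reduction of `hpoly`: `∏_{some s ∈ S} (1 + (b̄ - s) X) * (X if none ∈ S)` -/
def hpolyk (bb : k) (S : Finset (Option k)) : k[X] :=
  (∏ s ∈ S.eraseNone, (1 + C (bb - s) * X)) * (if none ∈ S then X else 1)

/-- `hpolyk` is the reduction of `hpoly`. -/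
theorem map_hpoly {K : Type*} [Field K] {A : ValuationSubring K} (b : A)
    (lift : IsLocalRing.ResidueField A → A)
    (hlift : ∀ s, IsLocalRing.residue A (lift s) = s)
    (S : Finset (Option (IsLocalRing.ResidueField A))) :
    (hpoly A b lift S).map (IsLocalRing.residue A) = hpolyk (IsLocalRing.residue A b) S := by
  classical
  rw [hpoly, hpolyk, Polynomial.map_mul, Polynomial.map_prod]
  congr 1
  · refine Finset.prod_congr rfl fun s _ => ?_
    rw [Polynomial.map_add, Polynomial.map_one, Polynomial.map_mul, Polynomial.map_C,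
      Polynomial.map_X, map_sub, hlift]
  · split_ifs
    · rw [Polynomial.map_X]
    · rw [Polynomial.map_one]

/-- the `J̄`-value of a place of the special fibre: `some x` iff `0 < ord (J̄ - x)`, `none` iff
`J̄` has a pole. -/
def JValk (Q : Place k E) (Jb : E) : Option k → Prop
  | some x => 0 < Q.ord (Jb - algebraMap k E x)
  | none => Q.ord Jb < 0

variable (Q : Place k E)

/-- `x = 0 ∨ 0 < ord x`: membership in the maximal ideal of the place -/
def InMax (x : E) : Prop := x = 0 ∨ 0 < Q.ord x

theorem InMax.mul_right {x y : E} (hx : InMax Q x) (hy : y ∈ Q.toValuationSubring) :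
    InMax Q (x * y) := by
  rcases hx with rfl | hx
  · left; rw [zero_mul]
  rcases eq_or_ne y 0 with rfl | hy0
  · left; rw [mul_zero]
  have hx0 : x ≠ 0 := by
    rintro rfl
    rw [Place.ord_zero] at hx
    exact lt_irrefl _ hx
  right
  rw [Q.ord_mul hx0 hy0]
  have := ord_nonneg_of_mem Q hy
  omega

theorem InMax.mul_left {x y : E} (hx : InMax Q x) (hy : y ∈ Q.toValuationSubring) :
    InMax Q (y * x) := by
  rw [mul_comm]
  exact hx.mul_right Q hy

/-- **(BRJk)**: a place of the special fibre whose `J̄`-value lies in `S` is regular for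
`τ̄ = (J̄ - b̄)⁻¹`, and `hpolyk(τ̄)` lies in its maximal ideal. -/
theorem brjk {Jb : E} (hJ : ∀ c : k, Jb ≠ algebraMap k E c) (bb : k) (S : Finset (Option k))
    (hb : some bb ∉ S) (h : ∃ s ∈ S, JValk Q Jb s) :
    0 ≤ Q.ord (Jb - algebraMap k E bb)⁻¹ ∧
      InMax Q (Polynomial.aeval (Jb - algebraMap k E bb)⁻¹ (hpolyk bb S)) := by
  classical
  have hJb : Jb - algebraMap k E bb ≠ 0 := sub_ne_zero.mpr (hJ _)
  set τ := (Jb - algebraMap k E bb)⁻¹ with hτ
  obtain ⟨s, hsS, hs⟩ := h
  -- regularity of `τ`
  have hreg : 0 ≤ Q.ord τ := by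
    cases s with
    | none =>
      have h1 : Q.ord Jb < 0 := hs
      rw [hτ, Q.ord_inv, ord_sub_const_of_neg Q _ h1]
      omega
    | some x =>
      have h1 : 0 < Q.ord (Jb - algebraMap k E x) := hs
      have hxb : x ≠ bb := fun h => hb (h ▸ hsS)
      rw [hτ, Q.ord_inv, ord_sub_const_eq_zero Q h1 hxb, neg_zero]
  have hτmem : τ ∈ Q.toValuationSubring := mem_of_ord_nonneg Q hreg
  have hfac : ∀ s : k, (1 + algebraMap k E (bb - s) * τ) ∈ Q.toValuationSubring := fun s =>
    add_mem (one_mem _) (mul_mem (Q.algebraMap_mem' _) hτmem)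
  refine ⟨hreg, ?_⟩
  have haeval : Polynomial.aeval τ (hpolyk bb S) =
      (∏ s ∈ S.eraseNone, (1 + algebraMap k E (bb - s) * τ)) * (if none ∈ S then τ else 1) := by
    rw [hpolyk, map_mul, map_prod]
    congr 1
    · refine Finset.prod_congr rfl fun s _ => ?_
      rw [map_add, map_one, map_mul, Polynomial.aeval_C, Polynomial.aeval_X]
    · split_ifs
      · rw [Polynomial.aeval_X]
      · rw [map_one]
  rw [haeval]
  have hprodmem : ∀ T : Finset k, (∏ s ∈ T, (1 + algebraMap k E (bb - s) * τ)) ∈
      Q.toValuationSubring := fun T => prod_mem fun s _ => hfac s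
  cases s with
  | none =>
    have h1 : Q.ord Jb < 0 := hs
    have h2 : 0 < Q.ord τ := by
      rw [hτ, Q.ord_inv, ord_sub_const_of_neg Q _ h1]
      omega
    rw [if_pos hsS]
    exact InMax.mul_left Q (Or.inr h2) (hprodmem _)
  | some x =>
    have h1 : 0 < Q.ord (Jb - algebraMap k E x) := hs
    have hxb : x ≠ bb := fun h => hb (h ▸ hsS)
    have hx : x ∈ S.eraseNone := Finset.mem_eraseNone.mpr hsS
    have h0 : Q.ord τ = 0 := by
      rw [hτ, Q.ord_inv, ord_sub_const_eq_zero Q h1 hxb, neg_zero]
    have hfx : InMax Q (1 + algebraMap k E (bb - x) * τ) := by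
      have e : 1 + algebraMap k E (bb - x) * τ = (Jb - algebraMap k E x) * τ := by
        rw [hτ, map_sub]
        field_simp
        ring
      rw [e]
      have hne : Jb - algebraMap k E x ≠ 0 := sub_ne_zero.mpr (hJ _)
      right
      rw [Q.ord_mul hne (inv_ne_zero hJb), h0, add_zero]
      exact h1
    rw [← Finset.mul_prod_erase _ _ hx, mul_assoc]
    refine InMax.mul_right Q hfx (mul_mem (hprodmem _) ?_)
    split_ifs
    · exact hτmem
    · exact one_mem _

end Special

end Fermat.Agent.S37.Local.BRJ
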