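import Mathlib
import Fermat.Prelude.Def_AlgebraicCurve_DivisorClassGroup
import Fermat.Agent.S24.FFPlaces
import Fermat.Agent.S37.Local.Semilocal

/-!
# S37, leaf (C1): the closed points of `V(π, h)` in a chart

`B` a Noetherian domain, `π` a prime element with the two-generator local form `LocalGen π n` at
every maximal ideal `n ∋ π` (so `B ⧸ π` is a Dedekind domain), `h ∈ B` not divisible by `π`.

* (a) `finite_closedPoints`: there are only finitely many maximal ideals containing `π` and `h`;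
  `closedPts` is the corresponding `Finset`.
* (b) `isMaximal_of_mem`: every prime ideal containing `π` and `h` is maximal.
* (c) the special-fibre side: for `ρ : B →+* E` with kernel `(π)` and a place `Q` of `E` whose
  valuation ring contains `ρ(B)`, the centre `nOf ρ Q` of `Q` on `B` is a prime ideal containing
  `π`; elements outside it have reductions of order `0` at `Q`.
* (d) `exists_localEq'`, `unit_of_forall_prime'`: (A1), (A2) of `Semilocal.lean` for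
  `T = closedPts`.
-/

set_option autoImplicit false

namespace Fermat.Agent.S37.Local.ClosedPoints

open Ideal AlgebraicCurve
open Fermat.Agent.S18.Cusp.NormalBridge (LocalGen)
open Fermat.Agent.S37.Local.Semilocal

section Finite

variable {B : Type*} [CommRing B] [IsNoetherianRing B]

/-- **(b)** every prime ideal containing `π` and `h` (`π ∤ h`) is maximal. -/
theorem isMaximal_of_mem {π : B} (hπ : Prime π)
    (hLG : ∀ n : Ideal B, n.IsMaximal → π ∈ n → LocalGen π n) {h : B} (hh : ¬ π ∣ h)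
    (n : Ideal B) [hn : n.IsPrime] (hπn : π ∈ n) (hhn : h ∈ n) : n.IsMaximal := by
  have hprime : (Ideal.span {π}).IsPrime := (Ideal.span_singleton_prime hπ.ne_zero).mpr hπ
  have hdom : IsDomain (B ⧸ Ideal.span {π}) := Ideal.Quotient.isDomain _
  have hdim := dimensionLEOne_quotient π hLG
  have hker : RingHom.ker (Ideal.Quotient.mk (Ideal.span {π})) ≤ n := by
    rw [Ideal.mk_ker, Ideal.span_singleton_le_iff_mem]
    exact hπn
  have hnbar : (n.map (Ideal.Quotient.mk (Ideal.span {π}))).IsPrime :=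
    Ideal.map_isPrime_of_surjective Ideal.Quotient.mk_surjective hker
  have hne : n.map (Ideal.Quotient.mk (Ideal.span {π})) ≠ ⊥ := by
    intro hbot
    have h1 : Ideal.Quotient.mk (Ideal.span {π}) h ∈ n.map (Ideal.Quotient.mk (Ideal.span {π})) :=
      Ideal.mem_map_of_mem _ hhn
    rw [hbot, Ideal.mem_bot, Ideal.Quotient.eq_zero_iff_mem, Ideal.mem_span_singleton] at h1
    exact hh h1
  have hmax := hdim.maximalOfPrime hne hnbar
  have hcomap : (n.map (Ideal.Quotient.mk (Ideal.span {π}))).comap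
      (Ideal.Quotient.mk (Ideal.span {π})) = n := by
    rw [Ideal.comap_map_of_surjective _ Ideal.Quotient.mk_surjective, ← RingHom.ker_eq_comap_bot]
    exact sup_eq_left.mpr hker
  rw [← hcomap]
  exact Ideal.comap_isMaximal_of_surjective _ Ideal.Quotient.mk_surjective

/-- **(a)** there are only finitely many closed points on `V(π, h)`. -/
theorem finite_closedPoints {π : B} (hπ : Prime π)
    (hLG : ∀ n : Ideal B, n.IsMaximal → π ∈ n → LocalGen π n) {h : B} (hh : ¬ π ∣ h) :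
    {n : Ideal B | n.IsMaximal ∧ π ∈ n ∧ h ∈ n}.Finite := by
  refine (Ideal.finite_minimalPrimes_of_isNoetherianRing B (Ideal.span {π, h})).subset ?_
  rintro n ⟨hn, hπn, hhn⟩
  have hle : Ideal.span {π, h} ≤ n := by
    rw [Ideal.span_le]
    rintro x (rfl | rfl)
    · exact hπn
    · exact hhn
  refine ⟨⟨hn.isPrime, hle⟩, fun q hq hqn => ?_⟩
  have hq' : q.IsPrime := hq.1
  have hqmax : q.IsMaximal := isMaximal_of_mem hπ hLG hh q
    (hq.2 (Ideal.subset_span (Set.mem_insert _ _)))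
    (hq.2 (Ideal.subset_span (Set.mem_insert_of_mem _ rfl)))
  exact (hqmax.eq_of_le hn.ne_top hqn).ge

/-- The finite set of closed points of `V(π, h)`. -/
noncomputable def closedPts {π : B} (hπ : Prime π)
    (hLG : ∀ n : Ideal B, n.IsMaximal → π ∈ n → LocalGen π n) {h : B} (hh : ¬ π ∣ h) :
    Finset (Ideal B) :=
  (finite_closedPoints hπ hLG hh).toFinset

theorem mem_closedPts {π : B} (hπ : Prime π)
    (hLG : ∀ n : Ideal B, n.IsMaximal → π ∈ n → LocalGen π n) {h : B} (hh : ¬ π ∣ h)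
    {n : Ideal B} : n ∈ closedPts hπ hLG hh ↔ n.IsMaximal ∧ π ∈ n ∧ h ∈ n := by
  rw [closedPts, Set.Finite.mem_toFinset]
  exact Iff.rfl

/-- The hypothesis `hT` of `Semilocal.exists_localEq` / `unit_of_forall_prime` for
`T = closedPts`. -/
theorem closedPts_spec {π : B} (hπ : Prime π)
    (hLG : ∀ n : Ideal B, n.IsMaximal → π ∈ n → LocalGen π n) {h : B} (hh : ¬ π ∣ h) :
    ∀ n ∈ closedPts hπ hLG hh, n.IsMaximal ∧ π ∈ n ∧
      ∃ θ ∈ n, ∀ x ∈ n, ∃ s, s ∉ n ∧ s * x ∈ Ideal.span {π, θ} := by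
  intro n hn
  obtain ⟨hmax, hπn, -⟩ := (mem_closedPts hπ hLG hh).mp hn
  exact ⟨hmax, hπn, hLG n hmax hπn⟩

end Finite

/-! ## (c) the special-fibre side -/

section Centre

variable {B : Type*} [CommRing B] {k E : Type*} [Field k] [Field E] [Algebra k E]

/-- The centre on `B` of a place `Q` of `E` whose valuation ring contains `ρ(B)`. -/
def nOf (ρ : B →+* E) (Q : Place k E) (hρQ : ∀ x, ρ x ∈ Q.toValuationSubring) : Ideal B :=
  (IsLocalRing.maximalIdeal Q.toValuationSubring).comap (ρ.codRestrict Q.toValuationSubring hρQ)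

variable (ρ : B →+* E) (Q : Place k E) (hρQ : ∀ x, ρ x ∈ Q.toValuationSubring)

theorem mem_nOf {x : B} : x ∈ nOf ρ Q hρQ ↔ ρ x = 0 ∨ 0 < Q.ord (ρ x) := by
  show (⟨ρ x, hρQ x⟩ : Q.toValuationSubring) ∈ IsLocalRing.maximalIdeal Q.toValuationSubring ↔ _
  by_cases h0 : ρ x = 0
  · constructor
    · intro _
      exact Or.inl h0
    · intro _
      have : (⟨ρ x, hρQ x⟩ : Q.toValuationSubring) = 0 := Subtype.ext h0
      rw [this]
      exact Ideal.zero_mem _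
  · rw [Fermat.Agent.S24.ord_pos_iff_mem_maximalIdeal Q h0]
    constructor
    · intro h
      exact Or.inr ⟨hρQ x, h⟩
    · rintro (h | ⟨_, h⟩)
      · exact absurd h h0
      · exact h

instance isPrime_nOf : (nOf ρ Q hρQ).IsPrime :=
  Ideal.comap_isPrime _ _

theorem mem_nOf_of_map_eq_zero {x : B} (hx : ρ x = 0) : x ∈ nOf ρ Q hρQ :=
  (mem_nOf ρ Q hρQ).mpr (Or.inl hx)

theorem pi_mem_nOf {π : B} (hker : RingHom.ker ρ = Ideal.span {π}) : π ∈ nOf ρ Q hρQ := by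
  apply mem_nOf_of_map_eq_zero
  rw [← RingHom.mem_ker, hker]
  exact Ideal.mem_span_singleton_self π

/-- Elements outside the centre reduce to units at `Q`. -/
theorem ord_eq_zero_of_notMem {x : B} (hx : x ∉ nOf ρ Q hρQ) :
    ρ x ≠ 0 ∧ Q.ord (ρ x) = 0 := by
  rw [mem_nOf, not_or] at hx
  refine ⟨hx.1, ?_⟩
  have h1 : 0 ≤ Q.ord (ρ x) := (Fermat.Agent.S24.mem_iff_ord_nonneg Q hx.1).mp (hρQ x)
  have h2 : ¬ 0 < Q.ord (ρ x) := hx.2
  omega

/-- A fraction `a / s` with `a, s` outside the centre reduces to a unit at `Q`. -/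
theorem ord_div_eq_zero {a s : B} (ha : a ∉ nOf ρ Q hρQ) (hs : s ∉ nOf ρ Q hρQ) :
    Q.ord (ρ a / ρ s) = 0 := by
  obtain ⟨ha0, hao⟩ := ord_eq_zero_of_notMem ρ Q hρQ ha
  obtain ⟨hs0, hso⟩ := ord_eq_zero_of_notMem ρ Q hρQ hs
  rw [div_eq_mul_inv, Q.ord_mul ha0 (inv_ne_zero hs0), Q.ord_inv, hao, hso]
  ring

/-- The centre is a closed point of `V(π, h)` as soon as it contains `h`. -/
theorem isMaximal_nOf [IsNoetherianRing B] {π : B} (hπ : Prime π)
    (hLG : ∀ n : Ideal B, n.IsMaximal → π ∈ n → LocalGen π n) {h : B} (hh : ¬ π ∣ h)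
    (hker : RingHom.ker ρ = Ideal.span {π}) (hhQ : h ∈ nOf ρ Q hρQ) :
    (nOf ρ Q hρQ).IsMaximal :=
  isMaximal_of_mem hπ hLG hh _ (pi_mem_nOf ρ Q hρQ hker) hhQ

theorem nOf_mem_closedPts [IsNoetherianRing B] {π : B} (hπ : Prime π)
    (hLG : ∀ n : Ideal B, n.IsMaximal → π ∈ n → LocalGen π n) {h : B} (hh : ¬ π ∣ h)
    (hker : RingHom.ker ρ = Ideal.span {π}) (hhQ : h ∈ nOf ρ Q hρQ) :
    nOf ρ Q hρQ ∈ closedPts hπ hLG hh :=
  (mem_closedPts hπ hLG hh).mpr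
    ⟨isMaximal_nOf ρ Q hρQ hπ hLG hh hker hhQ, pi_mem_nOf ρ Q hρQ hker, hhQ⟩

end Centre

/-! ## (d) local equations and the unit criterion along `V(π, h)` -/

section Restate

variable {B : Type*} [CommRing B] [IsDomain B] [IsNoetherianRing B]

/-- **(A1) along `V(π, h)`.** -/
theorem exists_localEq' {π : B} (hπ : Prime π)
    (hLG : ∀ n : Ideal B, n.IsMaximal → π ∈ n → LocalGen π n) {h : B} (hh : ¬ π ∣ h)
    (p : Ideal B) [hp : p.IsPrime] (hp0 : p ≠ ⊥) (hπp : π ∉ p)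
    (hpT : ∃ n : Ideal B, n.IsMaximal ∧ π ∈ n ∧ h ∈ n ∧ p ≤ n) :
    ∃ g : B, g ∈ p ∧ ¬ π ∣ g ∧
      (∀ x ∈ p, ∃ s : B, (∀ n : Ideal B, n.IsMaximal → π ∈ n → h ∈ n → s ∉ n) ∧
        ∃ b : B, s * x = b * g) ∧
      ∀ p' : Ideal B, p'.IsPrime → (∀ q : Ideal B, q.IsPrime → q ≤ p' → q = ⊥ ∨ q = p') →
        (∃ n : Ideal B, n.IsMaximal ∧ π ∈ n ∧ h ∈ n ∧ p' ≤ n) → p' ≠ p → g ∉ p' := by
  obtain ⟨n₀, hn₀, hπn₀, hhn₀, hpn₀⟩ := hpT
  obtain ⟨g, hgp, hπg, hgen, hother⟩ := exists_localEq hπ (closedPts hπ hLG hh)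
    (closedPts_spec hπ hLG hh) p hp0 hπp
    ⟨n₀, (mem_closedPts hπ hLG hh).mpr ⟨hn₀, hπn₀, hhn₀⟩, hpn₀⟩
  refine ⟨g, hgp, hπg, fun x hx => ?_, fun p' hp' hht ⟨n', hn', hπn', hhn', hp'n'⟩ hne =>
    hother p' hp' hht ⟨n', (mem_closedPts hπ hLG hh).mpr ⟨hn', hπn', hhn'⟩, hp'n'⟩ hne⟩
  obtain ⟨s, hs, b, hb⟩ := hgen x hx
  exact ⟨s, fun n hn hπn hhn => hs n ((mem_closedPts hπ hLG hh).mpr ⟨hn, hπn, hhn⟩), b, hb⟩

variable {F : Type*} [Field F] [Algebra B F] [IsFractionRing B F]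

/-- **(A2) along `V(π, h)`.** -/
theorem unit_of_forall_prime' {π : B} (hπ : Prime π)
    (hLG : ∀ n : Ideal B, n.IsMaximal → π ∈ n → LocalGen π n) {h : B} (hh : ¬ π ∣ h)
    (z : F) (hz : z ≠ 0)
    (hu : ∀ p : Ideal B, p.IsPrime → p ≠ ⊥ →
      (∀ q : Ideal B, q.IsPrime → q ≤ p → q = ⊥ ∨ q = p) →
      (∃ n : Ideal B, n.IsMaximal ∧ π ∈ n ∧ h ∈ n ∧ p ≤ n) →
      ∃ a s : B, a ∉ p ∧ s ∉ p ∧ z * algebraMap B F s = algebraMap B F a) :
    ∃ a s : B, (∀ n : Ideal B, n.IsMaximal → π ∈ n → h ∈ n → a ∉ n) ∧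
      (∀ n : Ideal B, n.IsMaximal → π ∈ n → h ∈ n → s ∉ n) ∧
      z * algebraMap B F s = algebraMap B F a := by
  obtain ⟨a, s, ha, hs, hzs⟩ := unit_of_forall_prime hπ (closedPts hπ hLG hh)
    (closedPts_spec hπ hLG hh) z hz (fun p hp hp0 hht ⟨n, hn, hpn⟩ => by
      obtain ⟨hmax, hπn, hhn⟩ := (mem_closedPts hπ hLG hh).mp hn
      exact hu p hp hp0 hht ⟨n, hmax, hπn, hhn, hpn⟩)
  exact ⟨a, s, fun n hn hπn hhn => ha n ((mem_closedPts hπ hLG hh).mpr ⟨hn, hπn, hhn⟩),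
    fun n hn hπn hhn => hs n ((mem_closedPts hπ hLG hh).mpr ⟨hn, hπn, hhn⟩), hzs⟩

variable {k E : Type*} [Field k] [Field E] [Algebra k E]

/-- **Unit criterion, reduction form.** If `z` is a unit at every height-one prime of `B`
through `V(π, h)`, then `z = a / s` where the reductions of `a` and `s` have order `0` at every
place `Q` of the special fibre centred on `V(π, h)`. -/
theorem exists_fraction_ord_eq_zero {π : B} (hπ : Prime π)
    (hLG : ∀ n : Ideal B, n.IsMaximal → π ∈ n → LocalGen π n) {h : B} (hh : ¬ π ∣ h)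
    (ρ : B →+* E) (hker : RingHom.ker ρ = Ideal.span {π}) (z : F) (hz : z ≠ 0)
    (hu : ∀ p : Ideal B, p.IsPrime → p ≠ ⊥ →
      (∀ q : Ideal B, q.IsPrime → q ≤ p → q = ⊥ ∨ q = p) →
      (∃ n : Ideal B, n.IsMaximal ∧ π ∈ n ∧ h ∈ n ∧ p ≤ n) →
      ∃ a s : B, a ∉ p ∧ s ∉ p ∧ z * algebraMap B F s = algebraMap B F a) :
    ∃ a s : B, z * algebraMap B F s = algebraMap B F a ∧
      ∀ (Q : Place k E) (hρQ : ∀ x, ρ x ∈ Q.toValuationSubring), h ∈ nOf ρ Q hρQ →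
        ρ a ≠ 0 ∧ ρ s ≠ 0 ∧ Q.ord (ρ a) = 0 ∧ Q.ord (ρ s) = 0 ∧ Q.ord (ρ a / ρ s) = 0 := by
  obtain ⟨a, s, ha, hs, hzs⟩ := unit_of_forall_prime' hπ hLG hh z hz hu
  refine ⟨a, s, hzs, fun Q hρQ hhQ => ?_⟩
  have hmax := isMaximal_nOf ρ Q hρQ hπ hLG hh hker hhQ
  have hπQ := pi_mem_nOf ρ Q hρQ hker
  have ha' := ha _ hmax hπQ hhQ
  have hs' := hs _ hmax hπQ hhQ
  obtain ⟨ha0, hao⟩ := ord_eq_zero_of_notMem ρ Q hρQ ha'
  obtain ⟨hs0, hso⟩ := ord_eq_zero_of_notMem ρ Q hρQ hs'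
  exact ⟨ha0, hs0, hao, hso, ord_div_eq_zero ρ Q hρQ ha' hs'⟩

end Restate

end Fermat.Agent.S37.Local.ClosedPoints
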