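import Mathlib
import Fermat.Agent.S24.FFZeros
import Fermat.Agent.S37.Descent.Rational

/-!
# S37 (VAL): values of functions at places with residue field `K`

`F/K` a function field, `P : Place K F` a place whose residue field is `K` (`HasConstResidue P`:
every element of the valuation ring is congruent to a constant; automatic for `K` algebraically
closed of characteristic `0`, `hasConstResidue`).

* `valAt P hP : O_P →ₐ[K] K`, the value at `P`; `valAt_eq_iff`, `valAt_eq_zero_iff`,
  `valAt_algebraMap`, `valAt_aeval`;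
* (V2) `valAt_smul` : semilinear automorphisms: `(g • x)(g • P) = σ (x(P))`;
* (V3) `valAt_up_mem` : values of `L1`-rational functions at places determined over `L1` lie in `L1`;
* (V4) `valAt_mem_of_isIntegral` : integrality of values.
-/

set_option autoImplicit false
set_option linter.style.haveILetI false
set_option linter.unusedSectionVars false

noncomputable section

open AlgebraicCurve ModularCurve IntermediateField Polynomial

namespace Fermat.Agent.S37.Local.Values

open Fermat.Agent.S24

section Generic

variable {K F : Type*} [Field K] [Field F] [Algebra K F]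

/-- The residue field of `P` is `K`: every element of `O_P` is congruent to a constant. -/
def HasConstResidue (P : Place K F) : Prop :=
  ∀ z ∈ P.toValuationSubring, ∃ c : K,
    z = algebraMap K F c ∨ 0 < P.ord (z - algebraMap K F c)

/-- membership in the maximal ideal in terms of `ord`. -/
theorem mem_maximalIdeal_iff (P : Place K F) (x : P.toValuationSubring) :
    x ∈ IsLocalRing.maximalIdeal P.toValuationSubring ↔ (x : F) = 0 ∨ 0 < P.ord (x : F) := by
  rcases eq_or_ne (x : F) 0 with h0 | h0
  · have hx : x = 0 := Subtype.ext h0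
    simp [hx]
  · rw [ord_pos_iff_mem_maximalIdeal P h0]
    constructor
    · intro h
      exact Or.inr ⟨x.2, h⟩
    · rintro (h | ⟨_, h⟩)
      · exact absurd h h0
      · exact h

theorem residue_eq_zero_iff (P : Place K F) (x : P.toValuationSubring) :
    IsLocalRing.residue P.toValuationSubring x = 0 ↔ (x : F) = 0 ∨ 0 < P.ord (x : F) := by
  rw [IsLocalRing.residue_eq_zero_iff, mem_maximalIdeal_iff]

variable {P : Place K F}

theorem HasConstResidue.bijective (hP : HasConstResidue P) :
    Function.Bijective (algebraMap K P.ResidueField) := by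
  refine ⟨(algebraMap K P.ResidueField).injective, fun z => ?_⟩
  obtain ⟨x, rfl⟩ := IsLocalRing.residue_surjective z
  obtain ⟨c, hc⟩ := hP (x : F) x.2
  refine ⟨c, ?_⟩
  have h1 : IsLocalRing.residue P.toValuationSubring (x - algebraMap K P.toValuationSubring c)
      = 0 := by
    rw [residue_eq_zero_iff]
    rcases hc with hc | hc
    · left
      show (x : F) - algebraMap K F c = 0
      rw [hc, sub_self]
    · right
      exact hc
  rw [map_sub, sub_eq_zero] at h1
  rw [h1]
  rfl

/-- the identification `K ≃ k(P)`. -/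
def resEquiv (P : Place K F) (hP : HasConstResidue P) : K ≃ₐ[K] P.ResidueField :=
  AlgEquiv.ofBijective (Algebra.ofId K P.ResidueField) hP.bijective

/-- the residue map of `O_P` as a `K`-algebra map. -/
def residueAlgHom (P : Place K F) : P.toValuationSubring →ₐ[K] P.ResidueField :=
  { IsLocalRing.residue P.toValuationSubring with
    commutes' := fun _ => rfl }

/-- **the value at `P`**, a `K`-algebra map `O_P → K`. -/
def valAt (P : Place K F) (hP : HasConstResidue P) : P.toValuationSubring →ₐ[K] K :=
  ((resEquiv P hP).symm : P.ResidueField →ₐ[K] K).comp (residueAlgHom P)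

theorem valAt_eq_iff (hP : HasConstResidue P) (x : P.toValuationSubring) (c : K) :
    valAt P hP x = c ↔
      ((x : F) = algebraMap K F c ∨ 0 < P.ord ((x : F) - algebraMap K F c)) := by
  have h1 : valAt P hP x = c ↔ IsLocalRing.residue P.toValuationSubring x =
      algebraMap K P.ResidueField c := by
    show (resEquiv P hP).symm (IsLocalRing.residue P.toValuationSubring x) = c ↔ _
    rw [AlgEquiv.symm_apply_eq]
    rfl
  rw [h1]
  have h2 : algebraMap K P.ResidueField c =
      IsLocalRing.residue P.toValuationSubring (algebraMap K P.toValuationSubring c) := rfl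
  rw [h2, ← sub_eq_zero, ← map_sub, residue_eq_zero_iff]
  have h3 : ((x - algebraMap K P.toValuationSubring c : P.toValuationSubring) : F) =
      (x : F) - algebraMap K F c := rfl
  rw [h3, sub_eq_zero]

/-- the defining property of the value. -/
theorem valAt_spec (hP : HasConstResidue P) (x : P.toValuationSubring) :
    (x : F) = algebraMap K F (valAt P hP x) ∨
      0 < P.ord ((x : F) - algebraMap K F (valAt P hP x)) :=
  (valAt_eq_iff hP x _).mp rfl

theorem valAt_eq_zero_iff (hP : HasConstResidue P) (x : P.toValuationSubring) :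
    valAt P hP x = 0 ↔ ((x : F) = 0 ∨ 0 < P.ord (x : F)) := by
  rw [valAt_eq_iff, map_zero, sub_zero]

theorem valAt_algebraMap (hP : HasConstResidue P) (c : K) :
    valAt P hP (algebraMap K P.toValuationSubring c) = c :=
  (valAt P hP).commutes c

theorem valAt_mk_algebraMap (hP : HasConstResidue P) (c : K) (h : algebraMap K F c ∈ P.toValuationSubring) :
    valAt P hP ⟨algebraMap K F c, h⟩ = c :=
  valAt_algebraMap hP c

/-- values commute with polynomial expressions over `K`. -/
theorem valAt_aeval (hP : HasConstResidue P) (x : P.toValuationSubring) (p : K[X]) :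
    valAt P hP (aeval x p) = p.eval (valAt P hP x) := by
  rw [← Polynomial.aeval_algHom_apply, Polynomial.coe_aeval_eq_eval]

/-- the value of a unit is nonzero. -/
theorem valAt_ne_zero_iff (hP : HasConstResidue P) (x : P.toValuationSubring) :
    valAt P hP x ≠ 0 ↔ ((x : F) ≠ 0 ∧ P.ord (x : F) = 0) := by
  rw [ne_eq, valAt_eq_zero_iff, not_or, not_lt]
  constructor
  · rintro ⟨h0, h1⟩
    exact ⟨h0, le_antisymm h1 (FFDeriv.ord_nonneg_of_mem P x.2)⟩
  · rintro ⟨h0, h1⟩
    exact ⟨h0, h1.le⟩

end Generic

section AlgClosed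

/-- **(V1)** over an algebraically closed field of characteristic `0` every place of a function
field has residue field `K`. -/
theorem hasConstResidue (K : Type*) {F : Type*} [Field K] [Field F] [Algebra K F] (y : F)
    [IsAlgClosed K] [CharZero K] [hy : Fact (Transcendental K y)] [FiniteDimensional K⟮y⟯ F]
    (P : Place K F) : HasConstResidue P := by
  intro z hz
  rcases P.toValuationSubring.mem_or_inv_mem y with h | h
  · exact exists_const_of_mem K y P h z hz
  · haveI := Fermat.Agent.S18.Places.Dictionary.fact_transcendental_inv K y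
    haveI := Fermat.Agent.S18.Places.Dictionary.finiteDimensional_adjoin_inv K y
    exact exists_const_of_mem K y⁻¹ P h z hz

/-- uniqueness of the value. -/
theorem existsUnique_const (K : Type*) {F : Type*} [Field K] [Field F] [Algebra K F] (y : F)
    [IsAlgClosed K] [CharZero K] [hy : Fact (Transcendental K y)] [FiniteDimensional K⟮y⟯ F]
    (P : Place K F) (z : F) (hz : z ∈ P.toValuationSubring) :
    ∃! c : K, z = algebraMap K F c ∨ 0 < P.ord (z - algebraMap K F c) := by
  have hP := hasConstResidue K y P
  refine ⟨valAt P hP ⟨z, hz⟩, valAt_spec hP ⟨z, hz⟩, fun c hc => ?_⟩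
  exact ((valAt_eq_iff hP ⟨z, hz⟩ c).mpr hc).symm

end AlgClosed

section Galois

variable {K F : Type*} [Field K] [Field F] [Algebra K F] (g : SemilinearAut K F)
  {P : Place K F}

theorem smul_mem_smul {x : F} (hx : x ∈ P.toValuationSubring) :
    g • x ∈ (g • P).toValuationSubring :=
  ValuationSubring.smul_mem_pointwise_smul g x _ hx

theorem inv_smul_mem_of_mem_smul {z : F} (hz : z ∈ (g • P).toValuationSubring) :
    g⁻¹ • z ∈ P.toValuationSubring :=
  (ValuationSubring.mem_pointwise_smul_iff_inv_smul_mem (g := g)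
    (S := P.toValuationSubring) (x := z)).mp hz

theorem ord_smul_sub (x : F) (c : K) :
    (g • P).ord (g • x - algebraMap K F (SemilinearAut.baseAut g c)) =
      P.ord (x - algebraMap K F c) := by
  rw [← SemilinearAut.smul_algebraMap, ← smul_sub, SemilinearAut.ord_smul]

theorem HasConstResidue.smul (hP : HasConstResidue P) : HasConstResidue (g • P) := by
  intro z hz
  obtain ⟨c, hc⟩ := hP _ (inv_smul_mem_of_mem_smul g hz)
  refine ⟨SemilinearAut.baseAut g c, ?_⟩
  have hz' : g • (g⁻¹ • z) = z := smul_inv_smul g z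
  rcases hc with hc | hc
  · left
    rw [← hz', hc, SemilinearAut.smul_algebraMap]
  · right
    rw [← hz', ord_smul_sub]
    exact hc

/-- **(V2)** Galois equivariance of values: `(g • x)(g • P) = σ (x(P))`. -/
theorem valAt_smul (hP : HasConstResidue P) (hP' : HasConstResidue (g • P))
    (x : P.toValuationSubring) :
    valAt (g • P) hP' ⟨g • (x : F), smul_mem_smul g x.2⟩ =
      SemilinearAut.baseAut g (valAt P hP x) := by
  rw [valAt_eq_iff]
  rcases valAt_spec hP x with h | h
  · left
    show g • (x : F) = _
    rw [← SemilinearAut.smul_algebraMap]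
    exact congrArg (g • ·) h
  · right
    show 0 < (g • P).ord (g • (x : F) - _)
    rw [ord_smul_sub]
    exact h

/-- variant: the place is fixed by `g` and so is the function. -/
theorem baseAut_valAt_of_fixed (hP : HasConstResidue P) (hgP : g • P = P)
    (x : P.toValuationSubring) (hgx : g • (x : F) = (x : F)) :
    SemilinearAut.baseAut g (valAt P hP x) = valAt P hP x := by
  symm
  rw [valAt_eq_iff]
  rcases valAt_spec hP x with h | h
  · left
    conv_lhs => rw [← hgx, h]
    exact SemilinearAut.smul_algebraMap g _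
  · right
    have := ord_smul_sub (P := P) g (x : F) (valAt P hP x)
    rw [hgP, hgx] at this
    rw [this]
    exact h

end Galois

section Integrality

variable {K F : Type*} [Field K] [Field F] [Algebra K F] {P : Place K F}

/-- the elements of `O_P` whose value lies in `A`. -/
def valSubring (P : Place K F) (hP : HasConstResidue P) (A : ValuationSubring K) : Subring F :=
  (A.toSubring.comap (valAt P hP).toRingHom).map P.toValuationSubring.subtype

theorem mem_valSubring_iff (hP : HasConstResidue P) (A : ValuationSubring K) (z : F) :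
    z ∈ valSubring P hP A ↔ ∃ hz : z ∈ P.toValuationSubring, valAt P hP ⟨z, hz⟩ ∈ A := by
  constructor
  · rintro ⟨w, hw, rfl⟩
    exact ⟨w.2, hw⟩
  · rintro ⟨hz, h⟩
    exact ⟨⟨z, hz⟩, h, rfl⟩

/-- **(V4), generic form**: a function integral over a subring of functions with values in `A`
has its value in `A`. -/
theorem valAt_mem_of_isIntegral (hP : HasConstResidue P) (A : ValuationSubring K)
    (C : Subring F) (hC : C ≤ valSubring P hP A) (x : F) (hx : IsIntegral C x) :
    ∃ hxO : x ∈ P.toValuationSubring, valAt P hP ⟨x, hxO⟩ ∈ A := by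
  have hCO : ∀ z : C, (z : F) ∈ P.toValuationSubring := fun z =>
    ((mem_valSubring_iff hP A _).mp (hC z.2)).1
  have hCA : ∀ z : C, valAt P hP ⟨(z : F), hCO z⟩ ∈ A := fun z =>
    ((mem_valSubring_iff hP A _).mp (hC z.2)).2
  -- the inclusion `C → O_P` and the value map `C → A`
  let ι : C →+* P.toValuationSubring := (C.subtype).codRestrict P.toValuationSubring.toSubring hCO
  let ψ : C →+* A := ((valAt P hP).toRingHom.comp ι).codRestrict A.toSubring hCA
  obtain ⟨p, hpm, hp⟩ := hx
  -- `x ∈ O_P`
  have hxint : IsIntegral P.toValuationSubring x := by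
    refine ⟨p.map ι, hpm.map ι, ?_⟩
    rw [eval₂_map]
    exact hp
  obtain ⟨x', hx'⟩ := IsIntegrallyClosed.isIntegral_iff.mp hxint
  have hxO : x ∈ P.toValuationSubring := hx' ▸ x'.2
  refine ⟨hxO, ?_⟩
  have hx'' : x' = ⟨x, hxO⟩ := Subtype.ext hx'
  -- the equation in `O_P`
  have h0 : eval₂ ι (⟨x, hxO⟩ : P.toValuationSubring) p = 0 := by
    apply Subtype.ext
    have := Polynomial.hom_eval₂ p ι P.toValuationSubring.subtype (⟨x, hxO⟩ : P.toValuationSubring)
    rw [show (P.toValuationSubring.subtype (eval₂ ι (⟨x, hxO⟩ : P.toValuationSubring) p) : F)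
      = ((eval₂ ι (⟨x, hxO⟩ : P.toValuationSubring) p : P.toValuationSubring) : F) from rfl] at this
    rw [this]
    exact hp
  -- apply the value map
  have h1 : eval₂ ((algebraMap A K).comp ψ) (valAt P hP ⟨x, hxO⟩) p = 0 := by
    have := Polynomial.hom_eval₂ p ι (valAt P hP).toRingHom (⟨x, hxO⟩ : P.toValuationSubring)
    rw [h0, map_zero] at this
    exact this.symm
  have hint : IsIntegral A (valAt P hP ⟨x, hxO⟩) := by
    refine ⟨p.map ψ, hpm.map ψ, ?_⟩
    rw [eval₂_map]
    exact h1
  obtain ⟨a, ha⟩ := IsIntegrallyClosed.isIntegral_iff.mp hint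
  rw [← ha]
  exact a.2

/-- **(V4)**: `x` integral over `R[τ]`, the constants of `R` and the value of `τ` in `A`
⟹ the value of `x` lies in `A`. -/
theorem valAt_mem_of_isIntegral_adjoin (hP : HasConstResidue P) (A : ValuationSubring K)
    {R : Type*} [CommRing R] [Algebra R K] [Algebra R F] [IsScalarTower R K F]
    (hRA : ∀ r : R, algebraMap R K r ∈ A) (τ : F) (hτ : τ ∈ P.toValuationSubring)
    (hτA : valAt P hP ⟨τ, hτ⟩ ∈ A) (x : F) (hx : IsIntegral (Algebra.adjoin R {τ}) x) :
    ∃ hxO : x ∈ P.toValuationSubring, valAt P hP ⟨x, hxO⟩ ∈ A := by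
  let S : Subalgebra R F :=
    { valSubring P hP A with
      algebraMap_mem' := fun r => by
        show algebraMap R F r ∈ valSubring P hP A
        rw [mem_valSubring_iff, IsScalarTower.algebraMap_apply R K F]
        exact ⟨P.algebraMap_mem' _, by rw [valAt_mk_algebraMap]; exact hRA r⟩ }
  have hle : Algebra.adjoin R {τ} ≤ S := by
    refine Algebra.adjoin_le ?_
    intro z hz
    rw [Set.mem_singleton_iff] at hz
    rw [hz]
    exact (mem_valSubring_iff hP A τ).mpr ⟨hτ, hτA⟩
  exact valAt_mem_of_isIntegral hP A (Algebra.adjoin R {τ}).toSubring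
    (fun z hz => hle hz) x hx

end Integrality

section Rational

open Fermat.Agent.S18.ConstExt Fermat.Agent.S37.Descent.Rational HahnSeries

local notation "Kb" => AlgebraicClosure ℚ

variable (F₀ : IntermediateField ℚ (LaurentSeries ℚ))

/-- an automorphism of `Kb` fixing `L1` fixes the image of `F_{L1}` in `F_K`. -/
theorem smul_up_eq (L1 : IntermediateField ℚ Kb) (σ : Kb ≃ₐ[ℚ] Kb) (hσ : ∀ a ∈ L1, σ a = a)
    (x : laurentBaseChange L1 F₀) :
    arithmeticGalois F₀ σ • up (K := Kb) F₀ x = up F₀ x := by
  apply Subtype.ext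
  rw [coe_arithmeticGalois_smul, coe_up, coeffMap_coeffMap]
  have hcomp : ((σ : Kb ≃ₐ[ℚ] Kb) : Kb →+* Kb).comp (algebraMap L1 Kb) = algebraMap L1 Kb :=
    RingHom.ext fun a : L1 => hσ (a : Kb) a.2
  exact coeffMap_congr hcomp _

/-- an automorphism of `Kb` fixing `L1` fixes every place determined over `L1`. -/
theorem smul_place_eq (L1 : IntermediateField ℚ Kb) (σ : Kb ≃ₐ[ℚ] Kb) (hσ : ∀ a ∈ L1, σ a = a)
    {P : Place Kb (laurentBaseChange Kb F₀)} (hdet : DeterminedOver F₀ L1 P) :
    arithmeticGalois F₀ σ • P = P := by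
  apply hdet
  intro x
  conv_lhs => rw [← smul_up_eq F₀ L1 σ hσ x]
  exact SemilinearAut.ord_smul _ _ _

/-- the value of an `L1`-rational function at a place determined over `L1` is fixed by every
automorphism of `Kb` fixing `L1`. -/
theorem valAt_up_fixed (L1 : IntermediateField ℚ Kb) (σ : Kb ≃ₐ[ℚ] Kb) (hσ : ∀ a ∈ L1, σ a = a)
    {P : Place Kb (laurentBaseChange Kb F₀)} (hP : HasConstResidue P)
    (hdet : DeterminedOver F₀ L1 P) (x : laurentBaseChange L1 F₀)
    (hx : up (K := Kb) F₀ x ∈ P.toValuationSubring) :
    σ (valAt P hP ⟨up F₀ x, hx⟩) = valAt P hP ⟨up F₀ x, hx⟩ :=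
  baseAut_valAt_of_fixed (arithmeticGalois F₀ σ) hP (smul_place_eq F₀ L1 σ hσ hdet)
    ⟨up F₀ x, hx⟩ (smul_up_eq F₀ L1 σ hσ x)

/-- `Kb` is algebraic over every intermediate field (diamond-free proof). -/
theorem isAlgebraic_Kb (L1 : IntermediateField ℚ Kb) : Algebra.IsAlgebraic L1 Kb := by
  constructor
  intro z
  obtain ⟨p, hp0, hp⟩ := (isAlgClosure_Kb.isAlgebraic).isAlgebraic z
  refine ⟨p.map (algebraMap ℚ L1), ?_, ?_⟩
  · exact (Polynomial.map_ne_zero_iff (algebraMap ℚ L1).injective).mpr hp0
  · rw [aeval_def, eval₂_map, ← hp, aeval_def]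
    congr 1

/-- **(V3) rationality of values.** -/
theorem valAt_up_mem (L1 : IntermediateField ℚ Kb)
    {P : Place Kb (laurentBaseChange Kb F₀)} (hP : HasConstResidue P)
    (hdet : DeterminedOver F₀ L1 P) (x : laurentBaseChange L1 F₀)
    (hx : up (K := Kb) F₀ x ∈ P.toValuationSubring) :
    valAt P hP ⟨up F₀ x, hx⟩ ∈ L1 := by
  haveI : Algebra.IsAlgebraic L1 Kb := isAlgebraic_Kb L1
  haveI : IsAlgClosure L1 Kb := ⟨inferInstance, inferInstance⟩
  haveI : Normal L1 Kb := IsAlgClosure.normal L1 Kb
  haveI : CharZero L1 := (algebraMap L1 Kb).charZero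
  haveI : PerfectField L1 := PerfectField.ofCharZero
  haveI : Algebra.IsSeparable L1 Kb := Algebra.IsAlgebraic.isSeparable_of_perfectField
  haveI : IsGalois L1 Kb := ⟨⟩
  have h := (InfiniteGalois.mem_range_algebraMap_iff_fixed (k := L1) (K := Kb)
    (valAt P hP ⟨up F₀ x, hx⟩)).mpr (fun f =>
      valAt_up_fixed F₀ L1 (f : Kb ≃+* Kb).toRatAlgEquiv (fun a ha => f.commutes ⟨a, ha⟩)
        hP hdet x hx)
  obtain ⟨a, ha⟩ := h
  rw [← ha]
  exact a.2

/-! ### the modular instance -/

section Modular

variable (n : ℕ) [NeZero n]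

/-- every place of `F_{n,Kb}` has residue field `Kb`. -/
theorem hasConstResidue_bar (P : Place Kb (modularFunctionFieldBar n)) : HasConstResidue P :=
  hasConstResidue Kb
    (ratElt (modularFunctionFieldFull n) Kb (jqd_mem_full n (one_dvd n))) P

/-- the value at a place of the modular function field over `Kb`. -/
def valAtBar (P : Place Kb (modularFunctionFieldBar n)) : P.toValuationSubring →ₐ[Kb] Kb :=
  valAt P (hasConstResidue_bar n P)

theorem valAtBar_eq_iff (P : Place Kb (modularFunctionFieldBar n)) (x : P.toValuationSubring)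
    (c : Kb) :
    valAtBar n P x = c ↔
      ((x : modularFunctionFieldBar n) = algebraMap Kb _ c ∨
        0 < P.ord ((x : modularFunctionFieldBar n) - algebraMap Kb _ c)) :=
  valAt_eq_iff _ x c

/-- (V2) at the modular function field. -/
theorem valAtBar_smul (σ : Kb ≃ₐ[ℚ] Kb) (P : Place Kb (modularFunctionFieldBar n))
    (x : P.toValuationSubring) :
    valAtBar n (arithmeticGalois (modularFunctionFieldFull n) σ • P)
      ⟨arithmeticGalois (modularFunctionFieldFull n) σ • (x : modularFunctionFieldBar n),
        smul_mem_smul _ x.2⟩ = σ (valAtBar n P x) :=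
  valAt_smul (arithmeticGalois (modularFunctionFieldFull n) σ) _ _ x

/-- (V3) at the modular function field. -/
theorem valAtBar_up_mem (L1 : IntermediateField ℚ Kb) {P : Place Kb (modularFunctionFieldBar n)}
    (hdet : DeterminedOver (modularFunctionFieldFull n) L1 P)
    (x : laurentBaseChange L1 (modularFunctionFieldFull n))
    (hx : up (K := Kb) (modularFunctionFieldFull n) x ∈ P.toValuationSubring) :
    valAtBar n P ⟨up (modularFunctionFieldFull n) x, hx⟩ ∈ L1 :=
  valAt_up_mem (modularFunctionFieldFull n) L1 _ hdet x hx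

end Modular

end Rational

end Fermat.Agent.S37.Local.Values
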