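import Mathlib
import Fermat.Agent.S18.ConstExt.Restrict
import Fermat.Agent.S18.Descent.Restrict
import Fermat.Agent.S37.Local.ChartEq
import Fermat.Agent.S37.Local.ClosedPoints
import Fermat.Agent.S37.Local.Values
import Fermat.Agent.S37.Local.BRJ
import Fermat.Agent.S37.Support.JModular
import Fermat.Agent.S37.HeckeInputs.Basic

/-!
# S37 (L-C): local equations (LE) and the unit criterion (UN) at the `ℚ̄` level

`Kb = ℚ̄`, `F = laurentBaseChange Kb F₀`, `A` a valuation subring of `Kb`, `O` the (Gauss)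
valuation subring of `F`, `τ ∈ F` a coordinate, `hp ∈ A[X]`.  A place `P` of `F` *passes through
`V(π, hp(τ))`* (`ThrA`) if the value `c` of `τ` at `P` lies in `A` and `hp(c)` lies in the maximal
ideal of `A`.

* **Abstract two-level core** (`section Abstract`): small function field `F1 / L₁`, big one
  `F / K`, `u : F1 → F`, `dn : Place K F → Place L₁ F1` with `ord_P ∘ u = ord_{dn P}`; chart
  `B = B0 (A ∩ L₁) τ₁`; the value map `valB : B → K`, its reduction `evB : B → k_A` and the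
  centre `centre = ker evB` (a prime ideal containing `π` and, for places through `V(π, h)`, `h`,
  hence a closed point of `V(π, h)`); `exists_localEq_abstract` (LE) and
  `ord_res_eq_zero_abstract` (UN) from `Local/ChartEq` + `Local/ClosedPoints`.
* **Concrete layer** (`section Concrete`): `u = up F₀`, `dn = down F₀` for
  `L1 : IntermediateField ℚ Kb`; the chart hypothesis `HasChart F₀ A O τ L1` (a `CoordData` bundle
  for `(A ∩ L1, O ∩ F_{L1}, τ₁)`, `up τ₁ = τ`, and `LocalGen` at every closed point);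
  `exists_localEq_of_charts`, `ord_res_eq_zero_of_charts`: (LE), (UN) from `HasChart` over all
  large enough number fields (the field `L1` is chosen by `FieldOfDefinition F₀`).
* **Modular instance** (`section Modular`): `F₀ = modularFunctionFieldFull M`, `τ_b = (J - b)⁻¹`,
  `hp = BRJ.hpoly`; `exists_localEq_jbar`, `ord_res_eq_zero_jbar`: (LE), (UN) for the test sets
  `{P | j̄(P) ∈ S}`.
-/

set_option autoImplicit false
set_option linter.unusedSectionVars false
set_option linter.style.haveILetI false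

noncomputable section

open Polynomial IntermediateField AlgebraicCurve ModularCurve IsLocalRing HahnSeries

namespace Fermat.Agent.S37.Local.LocalEq

open Fermat.Agent.S18.Core.Charts Fermat.Agent.S18.Core.StartB0
open Fermat.Agent.S18.ConstExt
open Fermat.Agent.S18.Descent (restrict restrictIncl)
open Fermat.Agent.S18.Inst.Bundle
open Fermat.Agent.S18.Cusp.NormalBridge (LocalGen)
open Fermat.Agent.S37.Descent.Rational Fermat.Agent.S37.Local.Values
open Fermat.Agent.S37.Local.ChartDict Fermat.Agent.S37.Local.ChartEq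
open Fermat.Agent.S37.Local.ClosedPoints

local notation "Kb" => AlgebraicClosure ℚ

/-! ## The abstract two-level setting

`F1 / L₁` the small function field, `F / K` the big one, `u : F1 → F` the inclusion,
`dn : Place K F → Place L₁ F1` the restriction of places (`ord_P ∘ u = ord_{dn P}`), `A` a
valuation subring of `K` whose restriction `A ∩ L₁` is a discrete valuation ring, and the chart
`B = B0 (A ∩ L₁) τ₁ ⊆ F1`. -/

section Abstract

variable {L₁ K F1 F : Type*} [Field L₁] [Field K] [Field F1] [Field F]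
  [Algebra L₁ K] [Algebra L₁ F1] [Algebra K F]
variable (u : F1 →+* F) (dn : Place K F → Place L₁ F1) (A : ValuationSubring K)
variable (hu : ∀ c : L₁, u (algebraMap L₁ F1 c) = algebraMap K F (algebraMap L₁ K c))
  (hmem : ∀ (P : Place K F) (x : F1),
    x ∈ (dn P).toValuationSubring ↔ u x ∈ P.toValuationSubring)
  (hord : ∀ (P : Place K F) (x : F1), P.ord (u x) = (dn P).ord x)
variable [IsDiscreteValuationRing ↥(restrict A L₁)] {τ1 : F1}

include hmem in
/-- the chart maps into the valuation ring of `P` -/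
theorem u_mem_of_mem_B0 {P : Place K F} (hτ : u τ1 ∈ P.toValuationSubring)
    (x : ↥(B0 ↥(restrict A L₁) τ1)) : u (x : F1) ∈ P.toValuationSubring :=
  (hmem P _).mp (B0_le_place (dn P) ((hmem P τ1).mpr hτ) x.2)

/-- the ring hom `B0 (A ∩ L₁) τ₁ → O_P` -/
def toO (P : Place K F) (hτ : u τ1 ∈ P.toValuationSubring) :
    ↥(B0 ↥(restrict A L₁) τ1) →+* ↥P.toValuationSubring :=
  RingHom.codRestrict (u.comp (Subring.subtype (B0 ↥(restrict A L₁) τ1)))
    P.toValuationSubring (fun x => u_mem_of_mem_B0 u dn A hmem hτ x)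

theorem coe_toO (P : Place K F) (hτ : u τ1 ∈ P.toValuationSubring)
    (x : ↥(B0 ↥(restrict A L₁) τ1)) :
    ((toO u dn A hmem P hτ x : ↥P.toValuationSubring) : F) = u (x : F1) := rfl

/-- the value at `P` on the chart -/
def valB (P : Place K F) (hP : HasConstResidue P) (hτ : u τ1 ∈ P.toValuationSubring) :
    ↥(B0 ↥(restrict A L₁) τ1) →+* K :=
  ((valAt P hP : ↥P.toValuationSubring →ₐ[K] K) : ↥P.toValuationSubring →+* K).comp
    (toO u dn A hmem P hτ)

theorem valB_apply (P : Place K F) (hP : HasConstResidue P) (hτ : u τ1 ∈ P.toValuationSubring)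
    (x : ↥(B0 ↥(restrict A L₁) τ1)) :
    valB u dn A hmem P hP hτ x = valAt P hP ⟨u (x : F1), u_mem_of_mem_B0 u dn A hmem hτ x⟩ := rfl

/-- `p ↦ p(τ₁)`, as a ring hom into the chart -/
def polyToB (τ1 : F1) : (↥(restrict A L₁))[X] →+* ↥(B0 ↥(restrict A L₁) τ1) :=
  RingHom.codRestrict ((aeval τ1 : (↥(restrict A L₁))[X] →ₐ[↥(restrict A L₁)] F1) :
    (↥(restrict A L₁))[X] →+* F1) (B0 ↥(restrict A L₁) τ1) (fun p => aeval_mem_B0 p)

theorem coe_polyToB (p : (↥(restrict A L₁))[X]) :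
    ((polyToB A τ1 p : ↥(B0 ↥(restrict A L₁) τ1)) : F1) = aeval τ1 p := rfl

include hu in
theorem valB_C (P : Place K F) (hP : HasConstResidue P) (hτ : u τ1 ∈ P.toValuationSubring)
    (r : ↥(restrict A L₁)) :
    valB u dn A hmem P hP hτ (polyToB A τ1 (C r)) = algebraMap L₁ K (r : L₁) := by
  rw [valB_apply, valAt_eq_iff]
  left
  show u (aeval τ1 (C r)) = _
  rw [aeval_C]
  exact hu (r : L₁)

theorem valB_X (P : Place K F) (hP : HasConstResidue P) (hτ : u τ1 ∈ P.toValuationSubring) :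
    valB u dn A hmem P hP hτ (polyToB A τ1 X) = valAt P hP ⟨u τ1, hτ⟩ := by
  rw [valB_apply]
  congr 1
  apply Subtype.ext
  show u (aeval τ1 X) = u τ1
  rw [aeval_X]

include hu in
/-- values of polynomial expressions in `τ₁`, when the value of `τ₁` lies in `A` -/
theorem valB_comp_polyToB (P : Place K F) (hP : HasConstResidue P)
    (hτ : u τ1 ∈ P.toValuationSubring) (hc : valAt P hP ⟨u τ1, hτ⟩ ∈ A) :
    (valB u dn A hmem P hP hτ).comp (polyToB A τ1) =
      A.subtype.comp (eval₂RingHom (restrictIncl A L₁) ⟨valAt P hP ⟨u τ1, hτ⟩, hc⟩) := by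
  apply Polynomial.ringHom_ext
  · intro r
    rw [RingHom.comp_apply, valB_C u dn A hu hmem, RingHom.comp_apply, coe_eval₂RingHom, eval₂_C]
    rfl
  · rw [RingHom.comp_apply, valB_X, RingHom.comp_apply, coe_eval₂RingHom, eval₂_X]
    rfl

include hu in
/-- **integrality of values**: if the value of `τ₁` at `P` lies in `A`, so do the values of all
elements of the chart. -/
theorem valB_mem (P : Place K F) (hP : HasConstResidue P)
    (hτ : u τ1 ∈ P.toValuationSubring) (hc : valAt P hP ⟨u τ1, hτ⟩ ∈ A)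
    (x : ↥(B0 ↥(restrict A L₁) τ1)) : valB u dn A hmem P hP hτ x ∈ A := by
  obtain ⟨q, hq, hqx⟩ := (isIntegral_adjoin_iff τ1 (x : F1)).mp (mem_B0.mp x.2)
  have h1 : eval₂ (polyToB A τ1) x q = 0 := by
    apply Subtype.ext
    have := Polynomial.hom_eval₂ q (polyToB A τ1) (Subring.subtype (B0 ↥(restrict A L₁) τ1)) x
    exact this.trans hqx
  have h2 := Polynomial.hom_eval₂ q (polyToB A τ1) (valB u dn A hmem P hP hτ) x
  rw [h1, map_zero, valB_comp_polyToB u dn A hu hmem P hP hτ hc] at h2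
  have hint : IsIntegral A (valB u dn A hmem P hP hτ x) := by
    refine ⟨q.map (eval₂RingHom (restrictIncl A L₁) ⟨valAt P hP ⟨u τ1, hτ⟩, hc⟩),
      hq.map _, ?_⟩
    rw [eval₂_map]
    exact h2.symm
  obtain ⟨a, ha⟩ := IsIntegrallyClosed.isIntegral_iff.mp hint
  rw [← ha]
  exact a.2

/-- the reduced value at `P` on the chart -/
def evB (P : Place K F) (hP : HasConstResidue P)
    (hτ : u τ1 ∈ P.toValuationSubring) (hc : valAt P hP ⟨u τ1, hτ⟩ ∈ A) :
    ↥(B0 ↥(restrict A L₁) τ1) →+* ResidueField A :=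
  (residue A).comp (RingHom.codRestrict (valB u dn A hmem P hP hτ) A
    (valB_mem u dn A hu hmem P hP hτ hc))

/-- the centre on the chart of the composite of `P` and `A`: the functions whose value at `P`
lies in the maximal ideal of `A` -/
def centre (P : Place K F) (hP : HasConstResidue P)
    (hτ : u τ1 ∈ P.toValuationSubring) (hc : valAt P hP ⟨u τ1, hτ⟩ ∈ A) :
    Ideal ↥(B0 ↥(restrict A L₁) τ1) :=
  RingHom.ker (evB u dn A hu hmem P hP hτ hc)

instance centre_isPrime (P : Place K F) (hP : HasConstResidue P)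
    (hτ : u τ1 ∈ P.toValuationSubring) (hc : valAt P hP ⟨u τ1, hτ⟩ ∈ A) :
    (centre u dn A hu hmem P hP hτ hc).IsPrime :=
  RingHom.ker_isPrime _

theorem mem_centre_iff (P : Place K F) (hP : HasConstResidue P)
    (hτ : u τ1 ∈ P.toValuationSubring) (hc : valAt P hP ⟨u τ1, hτ⟩ ∈ A)
    (x : ↥(B0 ↥(restrict A L₁) τ1)) :
    x ∈ centre u dn A hu hmem P hP hτ hc ↔
      (⟨valB u dn A hmem P hP hτ x, valB_mem u dn A hu hmem P hP hτ hc x⟩ : A) ∈
        maximalIdeal A := by
  rw [centre, RingHom.mem_ker, evB, RingHom.comp_apply, IsLocalRing.residue_eq_zero_iff]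
  rfl

theorem mem_centre_of_valB_eq_zero (P : Place K F) (hP : HasConstResidue P)
    (hτ : u τ1 ∈ P.toValuationSubring) (hc : valAt P hP ⟨u τ1, hτ⟩ ∈ A)
    {x : ↥(B0 ↥(restrict A L₁) τ1)} (hx : valB u dn A hmem P hP hτ x = 0) :
    x ∈ centre u dn A hu hmem P hP hτ hc := by
  rw [mem_centre_iff]
  have : (⟨valB u dn A hmem P hP hτ x, valB_mem u dn A hu hmem P hP hτ hc x⟩ : A) = 0 :=
    Subtype.ext hx
  rw [this]
  exact zero_mem _

include hord in
/-- the kernel of the value map is the centre of the restricted place -/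
theorem valB_eq_zero_iff (P : Place K F) (hP : HasConstResidue P)
    (hτ : u τ1 ∈ P.toValuationSubring) (x : ↥(B0 ↥(restrict A L₁) τ1)) :
    valB u dn A hmem P hP hτ x = 0 ↔
      x ∈ primeOfPlace ↥(restrict A L₁) (dn P) ((hmem P τ1).mpr hτ) := by
  rw [valB_apply, valAt_eq_zero_iff]
  rcases eq_or_ne x 0 with rfl | hx
  · simp
  · have hx0 : (x : F1) ≠ 0 := fun h0 => hx (Subtype.ext h0)
    have hux : u (x : F1) ≠ 0 := (map_ne_zero u).mpr hx0
    rw [mem_primeOfPlace_iff_ord_pos (dn P) _ hx, ← hord]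
    constructor
    · rintro (h | h)
      · exact absurd h hux
      · exact h
    · exact Or.inr

include hord in
theorem primeOfPlace_le_centre (P : Place K F) (hP : HasConstResidue P)
    (hτ : u τ1 ∈ P.toValuationSubring) (hc : valAt P hP ⟨u τ1, hτ⟩ ∈ A) :
    primeOfPlace ↥(restrict A L₁) (dn P) ((hmem P τ1).mpr hτ) ≤
      centre u dn A hu hmem P hP hτ hc := fun _ hx =>
  mem_centre_of_valB_eq_zero u dn A hu hmem P hP hτ hc
    ((valB_eq_zero_iff u dn A hmem hord P hP hτ _).mpr hx)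

/-- a polynomial expression in `τ₁` lies in the centre iff its value at the value of `τ₁` lies in
the maximal ideal of `A` -/
theorem polyToB_mem_centre_iff (P : Place K F) (hP : HasConstResidue P)
    (hτ : u τ1 ∈ P.toValuationSubring) (hc : valAt P hP ⟨u τ1, hτ⟩ ∈ A)
    (p : (↥(restrict A L₁))[X]) :
    polyToB A τ1 p ∈ centre u dn A hu hmem P hP hτ hc ↔
      (p.map (restrictIncl A L₁)).eval ⟨valAt P hP ⟨u τ1, hτ⟩, hc⟩ ∈ maximalIdeal A := by
  rw [mem_centre_iff]
  have h := congrArg (fun f => f p) (valB_comp_polyToB u dn A hu hmem P hP hτ hc)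
  simp only [RingHom.comp_apply, coe_eval₂RingHom] at h
  have e : (⟨valB u dn A hmem P hP hτ (polyToB A τ1 p),
      valB_mem u dn A hu hmem P hP hτ hc _⟩ : A) =
      (p.map (restrictIncl A L₁)).eval ⟨valAt P hP ⟨u τ1, hτ⟩, hc⟩ := by
    apply Subtype.ext
    rw [eval_map]
    exact h
  rw [e]

/-- `π` lies in the centre -/
theorem pi_mem_centre (P : Place K F) (hP : HasConstResidue P)
    (hτ : u τ1 ∈ P.toValuationSubring) (hc : valAt P hP ⟨u τ1, hτ⟩ ∈ A)
    {π : ↥(restrict A L₁)} (hπ : Irreducible π) :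
    piB0 ↥(restrict A L₁) π τ1 ∈ centre u dn A hu hmem P hP hτ hc := by
  have e : piB0 ↥(restrict A L₁) π τ1 = polyToB A τ1 (C π) := by
    apply Subtype.ext
    rw [coe_polyToB, aeval_C]
    rfl
  rw [e, polyToB_mem_centre_iff, Polynomial.map_C, eval_C, mem_maximalIdeal, mem_nonunits_iff]
  intro h
  exact hπ.not_isUnit (isUnit_of_map_unit (restrictIncl A L₁) π h)

/-! ### The test "`P` passes through `V(π, h)`" and the two main statements -/

/-- `P` passes through `V(π, h)`, `h = hp1(τ₁)`: the value `c` of `τ₁` at `P` lies in `A` and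
`hp1(c)` lies in the maximal ideal of `A`. -/
def Thr (τ1 : F1) (hp1 : (↥(restrict A L₁))[X]) (P : Place K F) : Prop :=
  ∃ c : A, 0 < P.ord (u τ1 - algebraMap K F (c : K)) ∧
    (hp1.map (restrictIncl A L₁)).eval c ∈ maximalIdeal A

theorem Thr.data {hp1 : (↥(restrict A L₁))[X]} {P : Place K F} (h : Thr u A τ1 hp1 P)
    (hP : HasConstResidue P) :
    ∃ (hτ : u τ1 ∈ P.toValuationSubring) (hc : valAt P hP ⟨u τ1, hτ⟩ ∈ A),
      (hp1.map (restrictIncl A L₁)).eval ⟨valAt P hP ⟨u τ1, hτ⟩, hc⟩ ∈ maximalIdeal A := by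
  obtain ⟨c, hc, hev⟩ := h
  have h1 : u τ1 - algebraMap K F (c : K) ∈ P.toValuationSubring :=
    Fermat.Agent.S24.FFDeriv.mem_of_ord_nonneg P hc.le
  have hτ : u τ1 ∈ P.toValuationSubring := by
    have := add_mem h1 (P.algebraMap_mem' (c : K))
    rwa [sub_add_cancel] at this
  have hv : valAt P hP ⟨u τ1, hτ⟩ = (c : K) := (valAt_eq_iff hP _ _).mpr (Or.inr hc)
  have hcA : valAt P hP ⟨u τ1, hτ⟩ ∈ A := hv ▸ c.2
  refine ⟨hτ, hcA, ?_⟩
  have e : (⟨valAt P hP ⟨u τ1, hτ⟩, hcA⟩ : A) = c := Subtype.ext hv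
  rw [e]
  exact hev

section Main

variable [CharZero L₁] (hres : ∀ P : Place K F, HasConstResidue P)
  {π : ↥(restrict A L₁)} {O1 : ValuationSubring F1}
  (hcd : CoordData (restrict A L₁) π O1 τ1)
  (hLG : ∀ n : Ideal ↥(B0 ↥(restrict A L₁) τ1), n.IsMaximal →
    piB0 ↥(restrict A L₁) π τ1 ∈ n → LocalGen (piB0 ↥(restrict A L₁) π τ1) n)
  (hp1 : (↥(restrict A L₁))[X])
  (hp1π : ¬ piB0 ↥(restrict A L₁) π τ1 ∣ polyToB A τ1 hp1)

include hcd in
/-- `π ∤ hp1(τ₁)` as soon as `hp1` is not zero modulo the maximal ideal -/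
theorem not_dvd_polyToB (h : (hp1.map (restrictIncl A L₁)).map (residue A) ≠ 0) :
    ¬ piB0 ↥(restrict A L₁) π τ1 ∣ polyToB A τ1 hp1 := by
  rw [piB0_dvd_iff hcd.good L₁⟮τ1⟯ rfl hcd.algebraic hcd.uniq]
  intro hlt
  apply h
  ext i
  rw [coeff_map, coeff_map, Polynomial.coeff_zero, IsLocalRing.residue_eq_zero_iff]
  obtain ⟨r, hr⟩ := hcd.good.transc hp1 hlt i
  rw [hr, map_mul]
  refine Ideal.mul_mem_right _ _ ?_
  rw [mem_maximalIdeal, mem_nonunits_iff]
  intro hun
  exact hcd.good.irreducible.not_isUnit (isUnit_of_map_unit (restrictIncl A L₁) π hun)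

include hu hmem hord hres hcd hLG hp1π in
/-- every place through `V(π, h)` has its centre among the closed points of `V(π, h)` -/
theorem exists_closedPt {P : Place K F} (hP : Thr u A τ1 hp1 P) :
    ∃ hτ' : τ1 ∈ (dn P).toValuationSubring,
      ∃ n : Ideal ↥(B0 ↥(restrict A L₁) τ1), n.IsMaximal ∧
        piB0 ↥(restrict A L₁) π τ1 ∈ n ∧ polyToB A τ1 hp1 ∈ n ∧
        primeOfPlace ↥(restrict A L₁) (dn P) hτ' ≤ n := by
  have hprime := prime_piB0_of_coordData hcd
  haveI := isNoetherianRing_B0_of_coordData hcd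
  obtain ⟨hτ, hc, hev⟩ := hP.data u A (hres P)
  have hπn := pi_mem_centre u dn A hu hmem P (hres P) hτ hc hcd.good.irreducible
  have hhn := (polyToB_mem_centre_iff u dn A hu hmem P (hres P) hτ hc hp1).mpr hev
  exact ⟨(hmem P τ1).mpr hτ, centre u dn A hu hmem P (hres P) hτ hc,
    isMaximal_of_mem hprime hLG hp1π _ hπn hhn, hπn, hhn,
    primeOfPlace_le_centre u dn A hu hmem hord P (hres P) hτ hc⟩

include hu hmem hord hres hcd hLG hp1π in
/-- **(LE), abstract form.** A place `P` through `V(π, h)` which is determined by its restriction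
has a local equation `g` in the small field: a Gauss unit with `ord_P g = 1` and `ord_{P'} g = 0`
at every other place `P'` through `V(π, h)`. -/
theorem exists_localEq_abstract (P : Place K F)
    (hdet : ∀ P' : Place K F, dn P' = dn P → P' = P) (hP : Thr u A τ1 hp1 P) :
    ∃ g : F1, O1.valuation g = 1 ∧ P.ord (u g) = 1 ∧
      ∀ P' : Place K F, P' ≠ P → Thr u A τ1 hp1 P' → P'.ord (u g) = 0 := by
  have hprime := prime_piB0_of_coordData hcd
  haveI := isNoetherianRing_B0_of_coordData hcd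
  have hT := closedPts_spec hprime hLG hp1π
  have key : ∀ P' : Place K F, Thr u A τ1 hp1 P' →
      ∃ hτ' : τ1 ∈ (dn P').toValuationSubring, ∃ n ∈ closedPts hprime hLG hp1π,
        primeOfPlace ↥(restrict A L₁) (dn P') hτ' ≤ n := by
    intro P' hP'
    obtain ⟨hτ', n, hn, hπn, hhn, hle⟩ :=
      exists_closedPt u dn A hu hmem hord hres hcd hLG hp1 hp1π hP'
    exact ⟨hτ', n, (mem_closedPts hprime hLG hp1π).mpr ⟨hn, hπn, hhn⟩, hle⟩
  obtain ⟨hτ1, hPT⟩ := key P hP
  obtain ⟨g, hg1, hg2, hg3⟩ := exists_localEq_place_of_coordData hcd _ hT (dn P) hτ1 hPT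
  refine ⟨(g : F1), hg1, ?_, ?_⟩
  · rw [hord]
    exact hg2
  · intro P' hne hP'
    obtain ⟨hτ', hP'T⟩ := key P' hP'
    rw [hord]
    exact hg3 (dn P') hτ' (fun h => hne (hdet P' h)) hP'T

include hu hmem hord hres hcd hLG hp1π in
/-- a place of the small field whose centre lies on `V(π, h)` and whose extension `P` has a
rational `τ₁`-value passes through `V(π, h)`. -/
theorem thr_of_le_closedPt (P : Place K F) (hτ : u τ1 ∈ P.toValuationSubring)
    (hval : valAt P (hres P) ⟨u τ1, hτ⟩ ∈ Set.range (algebraMap L₁ K))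
    (n : Ideal ↥(B0 ↥(restrict A L₁) τ1)) (hn : n.IsMaximal)
    (hπn : piB0 ↥(restrict A L₁) π τ1 ∈ n) (hhn : polyToB A τ1 hp1 ∈ n)
    (hle : primeOfPlace ↥(restrict A L₁) (dn P) ((hmem P τ1).mpr hτ) ≤ n) :
    Thr u A τ1 hp1 P := by
  have hP := hres P
  obtain ⟨c1, hc1⟩ := hval
  have h1n : (1 : ↥(B0 ↥(restrict A L₁) τ1)) ∉ n := fun h =>
    hn.ne_top ((Ideal.eq_top_iff_one n).mpr h)
  have hπC : polyToB A τ1 (C π) ∈ n := by
    have e : polyToB A τ1 (C π) = piB0 ↥(restrict A L₁) π τ1 := by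
      apply Subtype.ext
      rw [coe_polyToB, aeval_C]
      rfl
    rw [e]
    exact hπn
  -- the value of `τ₁` is integral
  have hc1A : c1 ∈ restrict A L₁ := by
    by_contra hc1A
    have hc10 : c1 ≠ 0 := by
      rintro rfl
      exact hc1A (zero_mem _)
    have hinv : c1⁻¹ ∈ restrict A L₁ :=
      ((restrict A L₁).mem_or_inv_mem c1).resolve_left hc1A
    have hnu : (⟨c1⁻¹, hinv⟩ : ↥(restrict A L₁)) ∈ maximalIdeal ↥(restrict A L₁) := by
      rw [mem_maximalIdeal, mem_nonunits_iff]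
      intro hun
      obtain ⟨e, he⟩ := hun.exists_right_inv
      have he' : c1⁻¹ * (e : L₁) = 1 := congrArg Subtype.val he
      have : (e : L₁) = c1 := by
        field_simp at he'
        exact he'
      exact hc1A (this ▸ e.2)
    rw [hcd.good.irreducible.maximalIdeal_eq, Ideal.mem_span_singleton] at hnu
    obtain ⟨r, hr⟩ := hnu
    -- `1 - c1⁻¹ τ₁` vanishes at `P`
    have hy : 1 - polyToB A τ1 (C ⟨c1⁻¹, hinv⟩) * polyToB A τ1 X ∈ n := by
      apply hle
      rw [← valB_eq_zero_iff u dn A hmem hord P hP hτ, map_sub, map_one, map_mul,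
        valB_C u dn A hu hmem, valB_X, ← hc1]
      show 1 - algebraMap L₁ K c1⁻¹ * algebraMap L₁ K c1 = 0
      rw [← map_mul, inv_mul_cancel₀ hc10, map_one, sub_self]
    have hd : polyToB A τ1 (C ⟨c1⁻¹, hinv⟩) * polyToB A τ1 X ∈ n := by
      rw [hr, C_mul, map_mul, mul_assoc]
      exact n.mul_mem_right _ hπC
    apply h1n
    have := n.add_mem hy hd
    rwa [sub_add_cancel] at this
  have hc : valAt P hP ⟨u τ1, hτ⟩ ∈ A := by
    rw [← hc1]
    exact hc1A
  have hcc : (⟨valAt P hP ⟨u τ1, hτ⟩, hc⟩ : A) = restrictIncl A L₁ ⟨c1, hc1A⟩ :=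
    Subtype.ext hc1.symm
  refine ⟨⟨valAt P hP ⟨u τ1, hτ⟩, hc⟩, ?_, ?_⟩
  · rcases valAt_spec hP ⟨u τ1, hτ⟩ with h | h
    · exfalso
      apply hcd.transc_field
      have h' : u τ1 = u (algebraMap L₁ F1 c1) := by
        rw [hu, hc1]
        exact h
      rw [u.injective h']
      exact isAlgebraic_algebraMap c1
    · exact h
  · -- the value of `h` at `P`
    have hw : polyToB A τ1 hp1 - polyToB A τ1 (C (hp1.eval ⟨c1, hc1A⟩)) ∈ n := by
      apply hle
      rw [← valB_eq_zero_iff u dn A hmem hord P hP hτ, map_sub, sub_eq_zero]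
      have h := valB_comp_polyToB u dn A hu hmem P hP hτ hc
      have e1 := congrArg (fun f => f hp1) h
      have e2 := congrArg (fun f => f (C (hp1.eval ⟨c1, hc1A⟩))) h
      simp only [RingHom.comp_apply, coe_eval₂RingHom] at e1 e2
      rw [e1, e2, eval₂_C, hcc, eval₂_at_apply]
    have hCn : polyToB A τ1 (C (hp1.eval ⟨c1, hc1A⟩)) ∈ n := by
      have := n.sub_mem hhn hw
      rwa [sub_sub_cancel] at this
    have hnu : ¬ IsUnit (hp1.eval (⟨c1, hc1A⟩ : ↥(restrict A L₁))) := by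
      intro hun
      apply h1n
      have h2 : IsUnit (polyToB A τ1 (C (hp1.eval ⟨c1, hc1A⟩))) :=
        (hun.map (C : ↥(restrict A L₁) →+* _)).map (polyToB A τ1)
      obtain ⟨v, hv⟩ := h2.exists_right_inv
      rw [← hv]
      exact n.mul_mem_right _ hCn
    rw [hcc, eval_map, eval₂_at_apply, mem_maximalIdeal, mem_nonunits_iff]
    intro hun
    exact hnu (isUnit_of_map_unit (restrictIncl A L₁) _ hun)

include hu hmem hord hres hcd hLG hp1π in
/-- **(UN), abstract form.** Let `z₁` be a Gauss unit of the small field which has order `0` at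
every place through `V(π, h)`, and such that the `τ₁`-values of its zeros and poles are rational.
Then the reduction of `z₁` has order `0` at every place `Q₀` of the special fibre through
`V(π, h)`. -/
theorem ord_res_eq_zero_abstract
    (hsurj : ∀ P1 : Place L₁ F1, ∃ P : Place K F, dn P = P1)
    (z1 : F1) (hz1 : O1.valuation z1 = 1)
    (hz : ∀ P : Place K F, Thr u A τ1 hp1 P → P.ord (u z1) = 0)
    (hval : ∀ P : Place K F, P.ord (u z1) ≠ 0 → ∀ hτ : u τ1 ∈ P.toValuationSubring,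
      valAt P (hres P) ⟨u τ1, hτ⟩ ∈ Set.range (algebraMap L₁ K))
    {κ E : Type*} [Field κ] [Field E] [Algebra κ E]
    (ρ : ↥O1 →+* E) (hρ : ∀ x : ↥O1, ρ x = 0 ↔ O1.valuation (x : F1) < 1)
    (resR : ↥(restrict A L₁) →+* κ)
    (hcompat : ∀ r : ↥(restrict A L₁),
      ρ ⟨algebraMap ↥(restrict A L₁) F1 r, hcd.good.algebraMap_mem r⟩ = algebraMap κ E (resR r))
    (Q₀ : Place κ E) (hτQ : ρ ⟨τ1, hcd.good.tau_mem⟩ ∈ Q₀.toValuationSubring)
    (hQ : BRJ.InMax Q₀ (aeval (ρ ⟨τ1, hcd.good.tau_mem⟩) (hp1.map resR)))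
    (hz1O : z1 ∈ O1) : Q₀.ord (ρ ⟨z1, hz1O⟩) = 0 := by
  have hprime := prime_piB0_of_coordData hcd
  haveI := isNoetherianRing_B0_of_coordData hcd
  have hT := closedPts_spec hprime hLG hp1π
  -- `z₁` is a unit at every place of the small field through `V(π, h)`
  have hord' : ∀ (P1 : Place L₁ F1) (hτ : τ1 ∈ P1.toValuationSubring),
      (∃ n ∈ closedPts hprime hLG hp1π, primeOfPlace ↥(restrict A L₁) P1 hτ ≤ n) →
        P1.ord z1 = 0 := by
    intro P1 hτ1 hP1
    by_contra hne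
    obtain ⟨P, rfl⟩ := hsurj P1
    obtain ⟨n, hnT, hle⟩ := hP1
    obtain ⟨hn, hπn, hhn⟩ := (mem_closedPts hprime hLG hp1π).mp hnT
    have hPz : P.ord (u z1) ≠ 0 := by
      rw [hord]
      exact hne
    have hτ : u τ1 ∈ P.toValuationSubring := (hmem P τ1).mp hτ1
    exact hPz (hz P (thr_of_le_closedPt u dn A hu hmem hord hres hcd hLG hp1 hp1π P hτ
      (hval P hPz hτ) n hn hπn hhn hle))
  obtain ⟨a, s, ha, hs, has⟩ :=
    exists_frac_of_forall_place_of_coordData hcd _ hT z1 hz1 hord'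
  -- the closed point of `Q₀`
  have hπn₀ := pi_mem_pointOfPlace hcd.good L₁⟮τ1⟯ rfl hcd.algebraic hcd.uniq ρ hρ resR hcompat
    Q₀ hτQ
  have hhn₀ : polyToB A τ1 hp1 ∈ pointOfPlace hcd.good ρ resR hcompat Q₀ hτQ := by
    rw [mem_pointOfPlace_iff]
    have e : resChart hcd.good ρ (polyToB A τ1 hp1) =
        aeval (ρ ⟨τ1, hcd.good.tau_mem⟩) (hp1.map resR) :=
      res_polyToO hcd.good ρ resR hcompat hp1
    rw [e]
    exact hQ
  have hn₀T : pointOfPlace hcd.good ρ resR hcompat Q₀ hτQ ∈ closedPts hprime hLG hp1π :=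
    (mem_closedPts hprime hLG hp1π).mpr
      ⟨isMaximal_of_mem hprime hLG hp1π _ hπn₀ hhn₀, hπn₀, hhn₀⟩
  exact ord_res_eq_zero_of_frac hcd.good ρ resR hcompat Q₀ hτQ (ha _ hn₀T) (hs _ hn₀T)
    ⟨z1, hz1O⟩ has

end Main

end Abstract

/-! ## Valuations of a restricted valuation subring -/

section Comap

theorem valuation_lt_one_iff_inv_notMem {G : Type*} [Field G] (V : ValuationSubring G) {y : G}
    (hy : y ≠ 0) : V.valuation y < 1 ↔ y⁻¹ ∉ V := by
  rw [← ValuationSubring.valuation_le_one_iff, map_inv₀, not_le,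
    one_lt_inv₀ (zero_lt_iff.mpr ((_root_.map_ne_zero _).mpr hy))]

theorem valuation_eq_one_iff_mem {G : Type*} [Field G] (V : ValuationSubring G) (y : G) :
    V.valuation y = 1 ↔ y ∈ V ∧ ¬ V.valuation y < 1 := by
  rw [← ValuationSubring.valuation_le_one_iff, not_lt]
  exact ⟨fun h => ⟨h.le, h.ge⟩, fun h => le_antisymm h.1 h.2⟩

variable {F1 F : Type*} [Field F1] [Field F] (O : ValuationSubring F) (f : F1 →+* F)

theorem comap_valuation_lt_one_iff (x : F1) :
    (O.comap f).valuation x < 1 ↔ O.valuation (f x) < 1 := by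
  rcases eq_or_ne x 0 with rfl | hx
  · simp
  have hfx : f x ≠ 0 := (_root_.map_ne_zero f).mpr hx
  rw [valuation_lt_one_iff_inv_notMem _ hx, valuation_lt_one_iff_inv_notMem _ hfx,
    ValuationSubring.mem_comap, map_inv₀]

theorem comap_valuation_eq_one_iff (x : F1) :
    (O.comap f).valuation x = 1 ↔ O.valuation (f x) = 1 := by
  rw [valuation_eq_one_iff_mem, valuation_eq_one_iff_mem, comap_valuation_lt_one_iff,
    ValuationSubring.mem_comap]

/-- the inclusion of the restricted valuation subring -/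
def comapHom : ↥(O.comap f) →+* ↥O :=
  RingHom.codRestrict (f.comp (O.comap f).subtype) O (fun x => x.2)

@[simp] theorem coe_comapHom (x : ↥(O.comap f)) : ((comapHom O f x : ↥O) : F) = f (x : F1) := rfl

end Comap

/-! ## The concrete two-level setting `F_{L1} ⊆ F_{ℚ̄}` -/

section Concrete

set_option synthInstance.maxHeartbeats 400000

variable (F₀ : IntermediateField ℚ (LaurentSeries ℚ)) (A : ValuationSubring Kb)

/-- `P` passes through `V(π, h)`, at the level of `ℚ̄`: the value `c` of `τ` at `P` lies in `A`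
and `hp(c)` lies in the maximal ideal of `A`. -/
def ThrA (τ : ↥(laurentBaseChange Kb F₀)) (hp : (↥A)[X])
    (P : Place Kb ↥(laurentBaseChange Kb F₀)) : Prop :=
  ∃ c : A, 0 < P.ord (τ - algebraMap Kb ↥(laurentBaseChange Kb F₀) (c : Kb)) ∧
    hp.eval c ∈ maximalIdeal A

/-- **The chart hypothesis over `L1`** (to be discharged from G's INST layer + (CHJ)):
`A ∩ L1` is a discrete valuation ring, and there are a uniformiser `π` and a coordinate `τ₁` of
`F_{L1}` with `up τ₁ = τ` such that `(π, O ∩ F_{L1}, τ₁)` is a `CoordData` bundle and the chart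
`B0 (A ∩ L1) τ₁` has the two-generator form at every closed point of its special fibre. -/
def HasChart (O : ValuationSubring ↥(laurentBaseChange Kb F₀)) (τ : ↥(laurentBaseChange Kb F₀))
    (L1 : IntermediateField ℚ Kb) : Prop :=
  IsDiscreteValuationRing ↥(restrict A ↥L1) ∧
    ∃ (π : ↥(restrict A ↥L1)) (τ1 : ↥(laurentBaseChange ↥L1 F₀)),
      up (K := Kb) F₀ τ1 = τ ∧
      CoordData (restrict A ↥L1) π (O.comap (up (K := Kb) F₀)) τ1 ∧
      ∀ n : Ideal ↥(B0 ↥(restrict A ↥L1) τ1), n.IsMaximal →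
        piB0 ↥(restrict A ↥L1) π τ1 ∈ n → LocalGen (piB0 ↥(restrict A ↥L1) π τ1) n

variable {F₀ A}

theorem exists_map_restrictIncl_eq (L1 : IntermediateField ℚ Kb) (hp : (↥A)[X])
    (hL1 : ∀ i, ((hp.coeff i : A) : Kb) ∈ L1) :
    ∃ hp1 : (↥(restrict A ↥L1))[X], hp1.map (restrictIncl A ↥L1) = hp := by
  have : hp ∈ Polynomial.lifts (restrictIncl A ↥L1) := by
    rw [Polynomial.lifts_iff_coeff_lifts]
    intro i
    exact ⟨⟨⟨((hp.coeff i : A) : Kb), hL1 i⟩, (hp.coeff i).2⟩, Subtype.ext rfl⟩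
  exact (Polynomial.mem_lifts _).mp this

theorem thr_iff_thrA {L1 : IntermediateField ℚ Kb} {τ : ↥(laurentBaseChange Kb F₀)}
    {τ1 : ↥(laurentBaseChange ↥L1 F₀)} (hτ1 : up (K := Kb) F₀ τ1 = τ) {hp : (↥A)[X]}
    {hp1 : (↥(restrict A ↥L1))[X]} (hmap : hp1.map (restrictIncl A ↥L1) = hp)
    (P : Place Kb ↥(laurentBaseChange Kb F₀)) :
    Thr (up (K := Kb) F₀) A τ1 hp1 P ↔ ThrA F₀ A τ hp P := by
  unfold Thr ThrA
  rw [hτ1, hmap]

/-- **(LE) over a fixed `L1`.** -/
theorem exists_localEq_of_hasChart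
    (hres : ∀ P : Place Kb ↥(laurentBaseChange Kb F₀), HasConstResidue P)
    (O : ValuationSubring ↥(laurentBaseChange Kb F₀)) (τ : ↥(laurentBaseChange Kb F₀))
    (hp : (↥A)[X]) (hpres : hp.map (residue A) ≠ 0)
    (L1 : IntermediateField ℚ Kb) (hL1 : ∀ i, ((hp.coeff i : A) : Kb) ∈ L1)
    (hch : HasChart F₀ A O τ L1)
    (P : Place Kb ↥(laurentBaseChange Kb F₀)) (hdet : DeterminedOver F₀ L1 P)
    (hP : ThrA F₀ A τ hp P) :
    ∃ g : ↥(laurentBaseChange Kb F₀), O.valuation g = 1 ∧ P.ord g = 1 ∧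
      ∀ P' : Place Kb ↥(laurentBaseChange Kb F₀), P' ≠ P → ThrA F₀ A τ hp P' →
        P'.ord g = 0 := by
  haveI : Algebra.IsAlgebraic ↥L1 Kb := isAlgebraic_Kb L1
  haveI : CharZero ↥L1 := (algebraMap ↥L1 Kb).charZero
  obtain ⟨hdvr, π, τ1, hτ1, hcd, hLG⟩ := hch
  haveI := hdvr
  obtain ⟨hp1, hmap⟩ := exists_map_restrictIncl_eq L1 hp hL1
  have hp1π := not_dvd_polyToB A hcd hp1 (by rw [hmap]; exact hpres)
  obtain ⟨g, hg1, hg2, hg3⟩ := exists_localEq_abstract (up (K := Kb) F₀) (down (L1 := ↥L1) F₀) A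
    (up_algebraMap F₀) (mem_down_iff F₀) (ord_up F₀) hres hcd hLG hp1 hp1π P
    (fun P' h => hdet P' (fun x => by rw [ord_up, ord_up, h]))
    ((thr_iff_thrA hτ1 hmap P).mpr hP)
  refine ⟨up (K := Kb) F₀ g, (comap_valuation_eq_one_iff O _ g).mp hg1, hg2, ?_⟩
  intro P' hne hP'
  exact hg3 P' hne ((thr_iff_thrA hτ1 hmap P').mpr hP')

set_option maxHeartbeats 1600000 in
/-- **(UN) over a fixed `L1`.** `rH : O → E` is the reduction map of the big Gauss valuation
subring `O`. -/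
theorem ord_res_eq_zero_of_hasChart
    (hres : ∀ P : Place Kb ↥(laurentBaseChange Kb F₀), HasConstResidue P)
    (O : ValuationSubring ↥(laurentBaseChange Kb F₀)) (τ : ↥(laurentBaseChange Kb F₀))
    (hp : (↥A)[X]) (hpres : hp.map (residue A) ≠ 0)
    {E : Type*} [Field E] [Algebra (ResidueField A) E] (rH : ↥O →+* E)
    (hker : ∀ x : ↥O, rH x = 0 ↔ O.valuation (x : ↥(laurentBaseChange Kb F₀)) < 1)
    (hAO : ∀ a : A, algebraMap Kb ↥(laurentBaseChange Kb F₀) (a : Kb) ∈ O)
    (hconst : ∀ a : A, rH ⟨algebraMap Kb ↥(laurentBaseChange Kb F₀) (a : Kb), hAO a⟩ =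
      algebraMap (ResidueField A) E (residue A a))
    (L1 : IntermediateField ℚ Kb) (hL1 : ∀ i, ((hp.coeff i : A) : Kb) ∈ L1)
    (hch : HasChart F₀ A O τ L1)
    (z1 : ↥(laurentBaseChange ↥L1 F₀)) (hz1 : O.valuation (up (K := Kb) F₀ z1) = 1)
    (hz : ∀ P : Place Kb ↥(laurentBaseChange Kb F₀), ThrA F₀ A τ hp P →
      P.ord (up (K := Kb) F₀ z1) = 0)
    (hdet : ∀ P : Place Kb ↥(laurentBaseChange Kb F₀), P.ord (up (K := Kb) F₀ z1) ≠ 0 →
      DeterminedOver F₀ L1 P)
    (hτO : τ ∈ O) (Q₀ : Place (ResidueField A) E)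
    (hτQ : rH ⟨τ, hτO⟩ ∈ Q₀.toValuationSubring)
    (hQ : BRJ.InMax Q₀ (aeval (rH ⟨τ, hτO⟩) (hp.map (residue A))))
    (hzO : up (K := Kb) F₀ z1 ∈ O) : Q₀.ord (rH ⟨up (K := Kb) F₀ z1, hzO⟩) = 0 := by
  haveI : Algebra.IsAlgebraic ↥L1 Kb := isAlgebraic_Kb L1
  haveI : CharZero ↥L1 := (algebraMap ↥L1 Kb).charZero
  obtain ⟨hdvr, π, τ1, hτ1, hcd, hLG⟩ := hch
  haveI := hdvr
  obtain ⟨hp1, hmap⟩ := exists_map_restrictIncl_eq L1 hp hL1
  have hp1π := not_dvd_polyToB A hcd hp1 (by rw [hmap]; exact hpres)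
  -- the reduction map on the small Gauss valuation subring
  set ρ : ↥(O.comap (up (L1 := ↥L1) (K := Kb) F₀)) →+* E :=
    rH.comp (comapHom O (up (L1 := ↥L1) (K := Kb) F₀)) with hρdef
  have hρ : ∀ x : ↥(O.comap (up (L1 := ↥L1) (K := Kb) F₀)),
      ρ x = 0 ↔ (O.comap (up (L1 := ↥L1) (K := Kb) F₀)).valuation
        (x : ↥(laurentBaseChange ↥L1 F₀)) < 1 := by
    intro x
    rw [comap_valuation_lt_one_iff, hρdef, RingHom.comp_apply, hker, coe_comapHom]
  have hcompat : ∀ r : ↥(restrict A ↥L1),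
      ρ ⟨algebraMap ↥(restrict A ↥L1) ↥(laurentBaseChange ↥L1 F₀) r,
        hcd.good.algebraMap_mem r⟩ =
      algebraMap (ResidueField A) E (((residue A).comp (restrictIncl A ↥L1)) r) := by
    intro r
    have e : comapHom O (up (L1 := ↥L1) (K := Kb) F₀)
        ⟨algebraMap ↥(restrict A ↥L1) ↥(laurentBaseChange ↥L1 F₀) r,
          hcd.good.algebraMap_mem r⟩ =
        ⟨algebraMap Kb ↥(laurentBaseChange Kb F₀) ((restrictIncl A ↥L1 r : A) : Kb),
          hAO _⟩ := Subtype.ext (up_algebraMap F₀ (r : ↥L1))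
    rw [hρdef, RingHom.comp_apply, e, hconst]
    rfl
  have hρτ : ρ ⟨τ1, hcd.good.tau_mem⟩ = rH ⟨τ, hτO⟩ := by
    have e : comapHom O (up (L1 := ↥L1) (K := Kb) F₀) ⟨τ1, hcd.good.tau_mem⟩ = ⟨τ, hτO⟩ :=
      Subtype.ext hτ1
    rw [hρdef, RingHom.comp_apply, e]
  have hmap' : hp1.map ((residue A).comp (restrictIncl A ↥L1)) = hp.map (residue A) := by
    rw [← Polynomial.map_map, hmap]
  have hz1' : (O.comap (up (L1 := ↥L1) (K := Kb) F₀)).valuation z1 = 1 :=
    (comap_valuation_eq_one_iff O _ z1).mpr hz1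
  have hτQ' : ρ ⟨τ1, hcd.good.tau_mem⟩ ∈ Q₀.toValuationSubring := by
    rw [hρτ]
    exact hτQ
  have hQ' : BRJ.InMax Q₀ (aeval (ρ ⟨τ1, hcd.good.tau_mem⟩)
      (hp1.map ((residue A).comp (restrictIncl A ↥L1)))) := by
    rw [hρτ, hmap']
    exact hQ
  have hval : ∀ P : Place Kb ↥(laurentBaseChange Kb F₀), P.ord (up (K := Kb) F₀ z1) ≠ 0 →
      ∀ hτ : up (K := Kb) F₀ τ1 ∈ P.toValuationSubring,
        valAt P (hres P) ⟨up (K := Kb) F₀ τ1, hτ⟩ ∈ Set.range (algebraMap ↥L1 Kb) :=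
    fun P hP hτ => ⟨⟨_, valAt_up_mem F₀ L1 (hres P) (hdet P hP) τ1 hτ⟩, rfl⟩
  have hz' : ∀ P : Place Kb ↥(laurentBaseChange Kb F₀),
      Thr (up (K := Kb) F₀) A τ1 hp1 P → P.ord (up (K := Kb) F₀ z1) = 0 :=
    fun P hP => hz P ((thr_iff_thrA hτ1 hmap P).mp hP)
  have key := ord_res_eq_zero_abstract (up (K := Kb) F₀) (down (L1 := ↥L1) F₀) A
    (up_algebraMap F₀) (mem_down_iff F₀) (ord_up F₀) hres hcd hLG hp1 hp1π
    (exists_down_eq F₀) z1 hz1' hz' hval
    ρ hρ ((residue A).comp (restrictIncl A ↥L1)) hcompat Q₀ hτQ' hQ' hzO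
  exact key

/-! ### Choosing the field of definition -/

/-- the field-of-definition property (F'0) of `F₀`: finitely many places, constants and functions
are simultaneously defined over a number field, and over every larger one. -/
def FieldOfDefinition (F₀ : IntermediateField ℚ (LaurentSeries ℚ)) : Prop :=
  ∀ (S : Finset (Place Kb ↥(laurentBaseChange Kb F₀))) (C : Finset Kb)
    (E : Finset ↥(laurentBaseChange Kb F₀)),
    ∃ L1 : IntermediateField ℚ Kb, FiniteDimensional ℚ L1 ∧ (↑C : Set Kb) ⊆ (L1 : Set Kb) ∧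
      ∀ L2 : IntermediateField ℚ Kb, L1 ≤ L2 →
        (∀ P ∈ S, DeterminedOver F₀ L2 P) ∧
        (∀ z ∈ E, ∃ x : ↥(laurentBaseChange ↥L2 F₀), up (K := Kb) F₀ x = z)

open scoped Classical in
/-- the finite set of coefficients of a polynomial over `A`, inside `ℚ̄` -/
def coeffSet (hp : (↥A)[X]) : Finset Kb :=
  hp.support.image (fun i => ((hp.coeff i : A) : Kb))

theorem coeff_mem_of_coeffSet_subset (hp : (↥A)[X]) (L : IntermediateField ℚ Kb)
    (h : (↑(coeffSet hp) : Set Kb) ⊆ (L : Set Kb)) (i : ℕ) : ((hp.coeff i : A) : Kb) ∈ L := by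
  classical
  by_cases hi : i ∈ hp.support
  · exact h (Finset.mem_coe.mpr (Finset.mem_image.mpr ⟨i, hi, rfl⟩))
  · rw [Polynomial.notMem_support_iff.mp hi]
    exact zero_mem L

/-- **(LE)** from the chart hypothesis over all large enough number fields. -/
theorem exists_localEq_of_charts
    (hres : ∀ P : Place Kb ↥(laurentBaseChange Kb F₀), HasConstResidue P)
    (hfd : FieldOfDefinition F₀)
    (O : ValuationSubring ↥(laurentBaseChange Kb F₀)) (τ : ↥(laurentBaseChange Kb F₀))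
    (hp : (↥A)[X]) (hpres : hp.map (residue A) ≠ 0)
    (L0 : IntermediateField ℚ Kb) (hL0 : FiniteDimensional ℚ L0)
    (hchart : ∀ L1 : IntermediateField ℚ Kb, FiniteDimensional ℚ L1 → L0 ≤ L1 →
      HasChart F₀ A O τ L1)
    (P : Place Kb ↥(laurentBaseChange Kb F₀)) (hP : ThrA F₀ A τ hp P) :
    ∃ g : ↥(laurentBaseChange Kb F₀), O.valuation g = 1 ∧ P.ord g = 1 ∧
      ∀ P' : Place Kb ↥(laurentBaseChange Kb F₀), P' ≠ P → ThrA F₀ A τ hp P' →
        P'.ord g = 0 := by
  obtain ⟨L1, hfin1, hC, hL2⟩ := hfd {P} (coeffSet hp) ∅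
  have hfin : FiniteDimensional ℚ ↥(L1 ⊔ L0) := IntermediateField.finiteDimensional_sup L1 L0
  obtain ⟨hS, -⟩ := hL2 (L1 ⊔ L0) le_sup_left
  exact exists_localEq_of_hasChart hres O τ hp hpres (L1 ⊔ L0)
    (coeff_mem_of_coeffSet_subset hp _ (hC.trans (fun _ hx => (le_sup_left : L1 ≤ L1 ⊔ L0) hx)))
    (hchart _ hfin le_sup_right) P (hS P (Finset.mem_singleton_self P)) hP

/-- **(UN)** from the chart hypothesis over all large enough number fields. -/
theorem ord_res_eq_zero_of_charts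
    (hres : ∀ P : Place Kb ↥(laurentBaseChange Kb F₀), HasConstResidue P)
    (hfd : FieldOfDefinition F₀)
    (hfinite : ∀ z : ↥(laurentBaseChange Kb F₀), z ≠ 0 →
      {P : Place Kb ↥(laurentBaseChange Kb F₀) | P.ord z ≠ 0}.Finite)
    (O : ValuationSubring ↥(laurentBaseChange Kb F₀)) (τ : ↥(laurentBaseChange Kb F₀))
    (hp : (↥A)[X]) (hpres : hp.map (residue A) ≠ 0)
    {E : Type*} [Field E] [Algebra (ResidueField A) E] (rH : ↥O →+* E)
    (hker : ∀ x : ↥O, rH x = 0 ↔ O.valuation (x : ↥(laurentBaseChange Kb F₀)) < 1)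
    (hAO : ∀ a : A, algebraMap Kb ↥(laurentBaseChange Kb F₀) (a : Kb) ∈ O)
    (hconst : ∀ a : A, rH ⟨algebraMap Kb ↥(laurentBaseChange Kb F₀) (a : Kb), hAO a⟩ =
      algebraMap (ResidueField A) E (residue A a))
    (L0 : IntermediateField ℚ Kb) (hL0 : FiniteDimensional ℚ L0)
    (hchart : ∀ L1 : IntermediateField ℚ Kb, FiniteDimensional ℚ L1 → L0 ≤ L1 →
      HasChart F₀ A O τ L1)
    (z : ↥(laurentBaseChange Kb F₀)) (hz1 : O.valuation z = 1)
    (hz : ∀ P : Place Kb ↥(laurentBaseChange Kb F₀), ThrA F₀ A τ hp P → P.ord z = 0)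
    (hτO : τ ∈ O) (Q₀ : Place (ResidueField A) E)
    (hτQ : rH ⟨τ, hτO⟩ ∈ Q₀.toValuationSubring)
    (hQ : BRJ.InMax Q₀ (aeval (rH ⟨τ, hτO⟩) (hp.map (residue A))))
    (hzO : z ∈ O) : Q₀.ord (rH ⟨z, hzO⟩) = 0 := by
  have hz0 : z ≠ 0 := by
    rintro rfl
    rw [map_zero] at hz1
    exact zero_ne_one hz1
  obtain ⟨L1, hfin1, hC, hL2⟩ := hfd (hfinite z hz0).toFinset (coeffSet hp) {z}
  have hfin : FiniteDimensional ℚ ↥(L1 ⊔ L0) := IntermediateField.finiteDimensional_sup L1 L0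
  obtain ⟨hS, hE⟩ := hL2 (L1 ⊔ L0) le_sup_left
  obtain ⟨z1, rfl⟩ := hE z (Finset.mem_singleton_self z)
  exact ord_res_eq_zero_of_hasChart hres O τ hp hpres rH hker hAO hconst (L1 ⊔ L0)
    (coeff_mem_of_coeffSet_subset hp _ (hC.trans (fun _ hx => (le_sup_left : L1 ≤ L1 ⊔ L0) hx)))
    (hchart _ hfin le_sup_right) z1 hz1 hz
    (fun P hP => hS P ((Set.Finite.mem_toFinset _).mpr hP)) hτO Q₀ hτQ hQ hzO

end Concrete

/-! ## The modular instance: the test sets `j̄⁻¹(S)` in the `J`-chart -/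

section Modular

open Fermat.Agent.S24.BridgeInv (Kbar FF)
open Fermat.Agent.S24.PlaceAt (J)
open Fermat.Agent.S37.Support.JModular
open Fermat.Agent.S37.Local.BRJ

set_option synthInstance.maxHeartbeats 400000

variable (M : ℕ) [NeZero M] (A : ValuationSubring Kb)

theorem fieldOfDefinition_full : FieldOfDefinition (modularFunctionFieldFull M) := by
  intro S C E
  obtain ⟨L1, h1, -, h3, h4⟩ := exists_galois_field_of_definition M S C E
  exact ⟨L1, h1, h3, h4⟩

theorem finite_ord_ne_zero (z : FF M) (hz : z ≠ 0) :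
    {P : Place Kb (FF M) | P.ord z ≠ 0}.Finite := by
  haveI := Fermat.Agent.S37.HeckeInputs.hasPrincipalDivisors_bar M
  obtain ⟨D, hD, -⟩ := HasPrincipalDivisors.exists_divisor (K := Kbar) z hz
  refine (Finset.finite_toSet D.support).subset ?_
  intro P hP
  rw [Finset.mem_coe, Finsupp.mem_support_iff, hD]
  exact hP

variable {M A}

/-- `j̄(P) ∈ S` in the elementary form of `BRJ` -/
theorem jbar_mem_iff_jBarIn (S : Finset (Option (ResidueField A))) (P : Place Kb (FF M)) :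
    jbar M A P ∈ S ↔ JBarIn A P (J M) S := by
  constructor
  · intro h
    cases hj : jbar M A P with
    | none =>
      right
      rw [hj] at h
      exact ⟨h, jbar_eq_none_iff.mp hj⟩
    | some x =>
      left
      rw [hj] at h
      obtain ⟨c, hc, hord, hx⟩ := jbar_eq_some_iff.mp hj
      refine ⟨⟨c, hc⟩, hord, ?_⟩
      rw [hx]
      exact h
  · rintro (⟨a, ha, haS⟩ | ⟨hnone, h⟩)
    · have : jbar M A P = some (residue A a) := jbar_eq_some_iff.mpr ⟨a, a.2, ha, rfl⟩
      rw [this]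
      exact haS
    · rw [jbar_eq_none_iff.mpr h]
      exact hnone

variable (M A)

/-- the coordinate `τ_b = (J - b)⁻¹` of the `J`-chart -/
def tauB (b : A) : FF M := (J M - algebraMap Kb (FF M) (b : Kb))⁻¹

variable {M A}

/-- **(BRJ)** in the form used here: `j̄(P) ∈ S` iff `P` passes through `V(π, hpoly(τ_b))`. -/
theorem jbar_mem_iff_thrA (S : Finset (Option (ResidueField A))) (b : A)
    (hb : some (residue A b) ∉ S) (lift : ResidueField A → A)
    (hlift : ∀ s, residue A (lift s) = s) (P : Place Kb (FF M)) :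
    jbar M A P ∈ S ↔
      ThrA (modularFunctionFieldFull M) A (tauB M A b) (hpoly A b lift S) P := by
  rw [jbar_mem_iff_jBarIn, jBarIn_iff P b lift S (J_ne_algebraMap M) hlift hb]
  constructor
  · rintro ⟨-, h⟩
    exact h
  · rintro ⟨c, hc, hev⟩
    refine ⟨?_, c, hc, hev⟩
    have h1 : tauB M A b - algebraMap Kb (FF M) (c : Kb) ∈ P.toValuationSubring :=
      Fermat.Agent.S24.FFDeriv.mem_of_ord_nonneg P hc.le
    have h2 : tauB M A b ∈ P.toValuationSubring := by
      have := add_mem h1 (P.algebraMap_mem' (c : Kb))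
      rwa [sub_add_cancel] at this
    exact Fermat.Agent.S24.FFDeriv.ord_nonneg_of_mem P h2

theorem hpolyk_ne_zero {k : Type*} [Field k] (bb : k) (S : Finset (Option k)) :
    hpolyk bb S ≠ 0 := by
  classical
  unfold hpolyk
  refine mul_ne_zero (Finset.prod_ne_zero_iff.mpr fun s _ => ?_) ?_
  · intro h
    have := congrArg (fun p => Polynomial.coeff p 0) h
    simp at this
  · split_ifs
    · exact X_ne_zero
    · exact one_ne_zero

/-- **(LE)** for the test set `j̄⁻¹(S)`: every place `P` with `j̄(P) ∈ S` has a local equation `g`,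
a unit of the Gauss valuation subring `O` with `ord_P g = 1` and `ord_{P'} g = 0` at every other
place `P'` with `j̄(P') ∈ S`. -/
theorem exists_localEq_jbar (O : ValuationSubring (FF M)) (S : Finset (Option (ResidueField A)))
    (b : A) (hb : some (residue A b) ∉ S)
    (L0 : IntermediateField ℚ Kb) (hL0 : FiniteDimensional ℚ L0)
    (hchart : ∀ L1 : IntermediateField ℚ Kb, FiniteDimensional ℚ L1 → L0 ≤ L1 →
      HasChart (modularFunctionFieldFull M) A O (tauB M A b) L1)
    (P : Place Kb (FF M)) (hP : jbar M A P ∈ S) :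
    ∃ g : FF M, O.valuation g = 1 ∧ P.ord g = 1 ∧
      ∀ P' : Place Kb (FF M), P' ≠ P → jbar M A P' ∈ S → P'.ord g = 0 := by
  have hlift : ∀ s, residue A (Function.surjInv (residue_surjective (R := A)) s) = s :=
    Function.surjInv_eq _
  have hpres : (hpoly A b (Function.surjInv (residue_surjective (R := A))) S).map (residue A)
      ≠ 0 := by
    rw [map_hpoly b _ hlift S]
    exact hpolyk_ne_zero _ _
  obtain ⟨g, h1, h2, h3⟩ := exists_localEq_of_charts (hasConstResidue_bar M)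
    (fieldOfDefinition_full M) O (tauB M A b) _ hpres L0 hL0 hchart P
    ((jbar_mem_iff_thrA S b hb _ hlift P).mp hP)
  exact ⟨g, h1, h2, fun P' hne hP' => h3 P' hne ((jbar_mem_iff_thrA S b hb _ hlift P').mp hP')⟩

/-- **(UN)** for the test set `j̄⁻¹(S)`: a unit `z` of the Gauss valuation subring `O` which has
order `0` at every place `P` with `j̄(P) ∈ S` reduces to a function of order `0` at every place
`Q₀` of the special fibre whose `J̄`-value lies in `S`. -/
theorem ord_res_eq_zero_jbar (O : ValuationSubring (FF M))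
    (S : Finset (Option (ResidueField A))) (b : A) (hb : some (residue A b) ∉ S)
    {E : Type*} [Field E] [Algebra (ResidueField A) E] (rH : ↥O →+* E)
    (hker : ∀ x : ↥O, rH x = 0 ↔ O.valuation (x : FF M) < 1)
    (hAO : ∀ a : A, algebraMap Kb (FF M) (a : Kb) ∈ O)
    (hconst : ∀ a : A, rH ⟨algebraMap Kb (FF M) (a : Kb), hAO a⟩ =
      algebraMap (ResidueField A) E (residue A a))
    (hJO : J M ∈ O)
    (hJb : ∀ c : ResidueField A, rH ⟨J M, hJO⟩ ≠ algebraMap (ResidueField A) E c)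
    (L0 : IntermediateField ℚ Kb) (hL0 : FiniteDimensional ℚ L0)
    (hchart : ∀ L1 : IntermediateField ℚ Kb, FiniteDimensional ℚ L1 → L0 ≤ L1 →
      HasChart (modularFunctionFieldFull M) A O (tauB M A b) L1)
    (z : FF M) (hz1 : O.valuation z = 1)
    (hz : ∀ P : Place Kb (FF M), jbar M A P ∈ S → P.ord z = 0)
    (Q₀ : Place (ResidueField A) E) (hQ₀ : ∃ s ∈ S, JValk Q₀ (rH ⟨J M, hJO⟩) s)
    (hzO : z ∈ O) : Q₀.ord (rH ⟨z, hzO⟩) = 0 := by
  have hlift : ∀ s, residue A (Function.surjInv (residue_surjective (R := A)) s) = s :=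
    Function.surjInv_eq _
  have hmapk := map_hpoly b _ hlift S
  have hpres : (hpoly A b (Function.surjInv (residue_surjective (R := A))) S).map (residue A)
      ≠ 0 := by
    rw [hmapk]
    exact hpolyk_ne_zero _ _
  -- `τ_b` is a unit of `O`
  have hτO : tauB M A b ∈ O := by
    obtain ⟨-, π, τ1, hτ1, hcd, -⟩ := hchart L0 hL0 le_rfl
    have := hcd.good.tau_mem
    rw [ValuationSubring.mem_comap, hτ1] at this
    exact this
  -- its reduction
  have hJb0 : J M - algebraMap Kb (FF M) (b : Kb) ≠ 0 := sub_ne_zero.mpr (J_ne_algebraMap M _)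
  have hrτ : rH ⟨tauB M A b, hτO⟩ =
      (rH ⟨J M, hJO⟩ - algebraMap (ResidueField A) E (residue A b))⁻¹ := by
    have h1 : (⟨J M, hJO⟩ - ⟨algebraMap Kb (FF M) (b : Kb), hAO b⟩ : ↥O) *
        ⟨tauB M A b, hτO⟩ = 1 := Subtype.ext (mul_inv_cancel₀ hJb0)
    have h2 := congrArg rH h1
    rw [map_mul, map_one, map_sub, hconst] at h2
    exact eq_inv_of_mul_eq_one_right h2
  obtain ⟨hord, hin⟩ := brjk Q₀ hJb (residue A b) S hb hQ₀
  rw [← hrτ] at hord hin
  exact ord_res_eq_zero_of_charts (hasConstResidue_bar M) (fieldOfDefinition_full M)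
    (finite_ord_ne_zero M) O (tauB M A b) _ hpres rH hker hAO hconst L0 hL0 hchart z hz1
    (fun P hP => hz P ((jbar_mem_iff_thrA S b hb _ hlift P).mpr hP)) hτO Q₀
    (Fermat.Agent.S24.FFDeriv.mem_of_ord_nonneg Q₀ hord) (by rw [hmapk]; exact hin) hzO

end Modular

end Fermat.Agent.S37.Local.LocalEq
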