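import Mathlib
import Fermat.Agent.S37.Local.CoordJ
import Fermat.Agent.S37.Key.ResExplicit
import Fermat.Agent.S18.ConstExt.Place
import Fermat.Agent.S18.Descent.Restrict

/-!
# S37 (L-C glue): the `J`-chart coordinate under the constant field extension

`CoordJ.JL L M`, `CoordJ.JsubB A M b = J - b`, `CoordJ.tauB A M b = (J - b)⁻¹` (helper10) live in
`F_M ⊗ L` for any `(L, A)`.  Under `up := ConstExt.up : F_M ⊗ L₁ → F_M ⊗ K`:

* `up_JL : up (JL L₁ M) = JL K M`;
* `up_JsubB : up (JsubB (restrict A L₁) M b) = JsubB A M (restrictIncl A L₁ b)`;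
* `up_tauB : up (tauB (restrict A L₁) M b) = tauB A M (restrictIncl A L₁ b)`;

and at `K = ℚ̄`: `JL_Kbar : JL ℚ̄ M = J M` (S24 `PlaceAt.J`), `JsubB_Kbar`, `tauB_Kbar`
(`= (J M - algebraMap ℚ̄ (FF M) b)⁻¹`, the `τ` of `Local/BRJ` and `Key/ResExplicit.isU_tau`), hence
`up_JL_Kbar`, `up_JsubB_Kbar`, `up_tauB_Kbar`.
-/

set_option autoImplicit false
set_option linter.unusedSectionVars false
set_option linter.unusedVariables false

noncomputable section

namespace Fermat.Agent.S37.Local.UpJ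

open ModularCurve IsLocalRing
open Fermat.Agent.S18.ConstExt Fermat.Agent.S18.Descent Fermat.Agent.S37.Local.CoordJ
open Fermat.Agent.S24.BridgeInv Fermat.Agent.S24.PlaceAt

set_option synthInstance.maxHeartbeats 400000

section Generic

variable {L₁ K : Type*} [Field L₁] [Field K] [Algebra ℚ L₁] [Algebra ℚ K] [Algebra L₁ K]
  (M : ℕ) [NeZero M]

/-- `up J = J`. -/
theorem up_JL : up (K := K) (modularFunctionFieldFull M) (JL L₁ M) = JL K M := by
  apply Subtype.ext
  rw [coe_up]
  exact coeffMap_jqModC _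

variable (A : ValuationSubring K)

/-- `up (J - b) = J - b`. -/
theorem up_JsubB (b : restrict A L₁) :
    up (K := K) (modularFunctionFieldFull M) (JsubB (restrict A L₁) M b) =
      JsubB A M (restrictIncl A L₁ b) := by
  unfold JsubB
  rw [map_sub, up_JL, up_algebraMap]
  rfl

/-- `up τ_b = τ_b`. -/
theorem up_tauB (b : restrict A L₁) :
    up (K := K) (modularFunctionFieldFull M) (tauB (restrict A L₁) M b) =
      tauB A M (restrictIncl A L₁ b) := by
  unfold tauB
  rw [map_inv₀, up_JsubB]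

end Generic

section AtKbar

variable (M : ℕ) [NeZero M]

/-- over `ℚ̄`, helper10's `JL` is S24's `J M`. -/
theorem JL_Kbar : (JL Kbar M : FF M) = J M :=
  Subtype.ext (Fermat.Agent.S37.Key.ResExplicit.coe_J M).symm

variable (A : ValuationSubring Kbar)

theorem JsubB_Kbar (b : A) :
    (JsubB A M b : FF M) = J M - algebraMap Kbar (FF M) (b : Kbar) := by
  unfold JsubB
  rw [JL_Kbar]

/-- over `ℚ̄`, helper10's `τ_b` is the `τ` of `Local/BRJ` / `ResExplicit.isU_tau`. -/
theorem tauB_Kbar (b : A) :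
    (tauB A M b : FF M) = (J M - algebraMap Kbar (FF M) (b : Kbar))⁻¹ := by
  unfold tauB
  rw [JsubB_Kbar]

variable {L₁ : Type*} [Field L₁] [Algebra ℚ L₁] [Algebra L₁ Kbar]

theorem up_JL_Kbar : up (K := Kbar) (modularFunctionFieldFull M) (JL L₁ M) = J M := by
  rw [up_JL, JL_Kbar]

theorem up_JsubB_Kbar (b : restrict A L₁) :
    up (K := Kbar) (modularFunctionFieldFull M) (JsubB (restrict A L₁) M b) =
      J M - algebraMap Kbar (FF M) (algebraMap L₁ Kbar (b : L₁)) := by
  rw [up_JsubB, JsubB_Kbar]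
  rfl

/-- **`up τ₁ = τ`.** -/
theorem up_tauB_Kbar (b : restrict A L₁) :
    up (K := Kbar) (modularFunctionFieldFull M) (tauB (restrict A L₁) M b) =
      (J M - algebraMap Kbar (FF M) (algebraMap L₁ Kbar (b : L₁)))⁻¹ := by
  rw [up_tauB, tauB_Kbar]
  rfl

/-- the same with `b` given upstairs. -/
theorem up_tauB_Kbar' (b : A) (b₁ : restrict A L₁) (hb : algebraMap L₁ Kbar (b₁ : L₁) = (b : Kbar)) :
    up (K := Kbar) (modularFunctionFieldFull M) (tauB (restrict A L₁) M b₁) =
      (J M - algebraMap Kbar (FF M) (b : Kbar))⁻¹ := by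
  rw [up_tauB_Kbar, hb]

end AtKbar

end Fermat.Agent.S37.Local.UpJ
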