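import Mathlib
import Fermat.Agent.S37.Local.LocalEq
import Fermat.Agent.S37.Local.UpJ
import Fermat.Agent.S37.Local.GaussRestrict
import Fermat.Agent.S18.Descent.StarOfDVR

/-!
# S37 (L-C adapter, part (i)): the chart hypothesis `LocalEq.HasChart` of the `J`-chart

For `A` a valuation subring of `ℚ̄` over `ℓ ∤ M`, `b ∈ A`, and `L1` a number field containing `b`:
`LocalEq.HasChart (modularFunctionFieldFull M) A (ResExplicit.gaussVS M A hℓM) (LocalEq.tauB M A b) L1`
follows from the two-generator form `LocalGen` at the closed points of the `J`-chart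
`B0 (A ∩ L1) (CoordJ.tauB (A ∩ L1) M b1)` (the `hchart` hypothesis of the E-architect's #1308):
`CoordJ.coordDataJ` (the INST bundle), `UpJ.up_tauB_Kbar'` (`up τ₁ = τ`),
`GaussRestrict.comap_gaussVS` (the small Gauss valuation subring is the restriction of the big one)
and `isDiscreteValuationRing_restrict_of_liesOver`.
-/

set_option autoImplicit false
set_option linter.unusedSectionVars false
set_option linter.style.haveILetI false

open Polynomial IntermediateField AlgebraicCurve ModularCurve IsLocalRing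

namespace Fermat.Agent.S37.Local.HasChartOf

open Fermat.Agent.S18.Core.Charts Fermat.Agent.S18.Core.StartB0
open Fermat.Agent.S18.ConstExt
open Fermat.Agent.S18.Descent (restrict restrictIncl)
open Fermat.Agent.S18.Inst.Bundle
open Fermat.Agent.S18.Cusp.NormalBridge (LocalGen)
open Fermat.Agent.S24.BridgeInv (Kbar FF)
open Fermat.Agent.S24.PlaceAt (J)
open Fermat.Agent.S37.Key
open Fermat.Agent.S37.Local.LocalEq

local notation "Kb" => AlgebraicClosure ℚ

set_option synthInstance.maxHeartbeats 400000

variable (M : ℕ) [NeZero M] (A : ValuationSubring Kb) {ℓ : ℕ} [Fact ℓ.Prime]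
  [CharP (ResidueField A) ℓ] (hA : A.LiesOverPrime ℓ) (hℓM : ¬ ℓ ∣ M)

set_option maxHeartbeats 1000000 in
/-- **`HasChart` over a fixed number field `L1 ∋ b`** from `LocalGen` on the `J`-chart. -/
theorem hasChart_of_localGen (b : A) (L1 : IntermediateField ℚ Kb) [FiniteDimensional ℚ L1]
    (hb : (b : Kb) ∈ L1)
    [CharP (ResidueField (restrict A L1)) ℓ] [IsDiscreteValuationRing (restrict A L1)]
    (hLG : ∀ (b1 : ↥(restrict A L1)) (π : ↥(restrict A L1)), Irreducible π →
      ∀ n : Ideal ↥(B0 ↥(restrict A L1) (CoordJ.tauB (restrict A L1) M b1)), n.IsMaximal →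
        piB0 ↥(restrict A L1) π (CoordJ.tauB (restrict A L1) M b1) ∈ n →
        LocalGen (piB0 ↥(restrict A L1) π (CoordJ.tauB (restrict A L1) M b1)) n) :
    HasChart (modularFunctionFieldFull M) A (ResExplicit.gaussVS M A hℓM) (tauB M A b) L1 := by
  refine ⟨inferInstance, ?_⟩
  obtain ⟨π, hπ⟩ := IsDiscreteValuationRing.exists_irreducible ↥(restrict A L1)
  let b1 : ↥(restrict A L1) := ⟨⟨(b : Kb), hb⟩, b.2⟩
  refine ⟨π, CoordJ.tauB (restrict A L1) M b1, ?_, ?_, hLG b1 π hπ⟩
  · exact UpJ.up_tauB_Kbar' M A b b1 rfl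
  · rw [GaussRestrict.comap_gaussVS M A hℓM]
    exact CoordJ.coordDataJ (restrict A L1) hℓM hπ b1

/-- the number field generated by `b` and a finite set of constants `C0` -/
noncomputable def baseField (C0 : Finset Kb) (b : A) : IntermediateField ℚ Kb :=
  IntermediateField.adjoin ℚ ((↑C0 : Set Kb) ∪ {(b : Kb)})

theorem finiteDimensional_baseField (C0 : Finset Kb) (b : A) :
    FiniteDimensional ℚ ↥(baseField A C0 b) := by
  have halg : Algebra.IsAlgebraic ℚ Kb := AlgebraicClosure.isAlgebraic ℚ
  have hfin : ((↑C0 : Set Kb) ∪ {(b : Kb)}).Finite := (Finset.finite_toSet C0).union (Set.finite_singleton _)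
  haveI := hfin.to_subtype
  exact IntermediateField.finiteDimensional_adjoin fun x _ =>
    (Algebra.IsAlgebraic.isAlgebraic x).isIntegral

theorem subset_of_baseField_le {C0 : Finset Kb} {b : A} {L1 : IntermediateField ℚ Kb}
    (h : baseField A C0 b ≤ L1) : (↑C0 : Set Kb) ⊆ (L1 : Set Kb) := fun x hx =>
  h (IntermediateField.subset_adjoin ℚ _ (Or.inl hx))

theorem mem_of_baseField_le {C0 : Finset Kb} {b : A} {L1 : IntermediateField ℚ Kb}
    (h : baseField A C0 b ≤ L1) : (b : Kb) ∈ L1 :=
  h (IntermediateField.subset_adjoin ℚ _ (Or.inr rfl))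

set_option maxHeartbeats 1000000 in
include hA in
/-- **`HasChart` over all number fields containing `C0` and `b`**, from the `C0`-guarded chart
hypothesis (#1308): this is verbatim the `hchart` of `LocalEq.exists_localEq_jbar` /
`LocalEq.ord_res_eq_zero_jbar` with `L0 := baseField A C0 b`, `hL0 := finiteDimensional_baseField`,
`O := ResExplicit.gaussVS M A hℓM`. -/
theorem hasChart_of_hchart (C0 : Finset Kb)
    (hchart : ∀ (L1 : IntermediateField ℚ Kb) [FiniteDimensional ℚ L1],
      (↑C0 : Set Kb) ⊆ (L1 : Set Kb) →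
      ∀ (b1 : ↥(restrict A L1)) (π : ↥(restrict A L1)), Irreducible π →
      ∀ n : Ideal ↥(B0 ↥(restrict A L1) (CoordJ.tauB (restrict A L1) M b1)), n.IsMaximal →
        piB0 ↥(restrict A L1) π (CoordJ.tauB (restrict A L1) M b1) ∈ n →
        LocalGen (piB0 ↥(restrict A L1) π (CoordJ.tauB (restrict A L1) M b1)) n)
    (b : A) :
    ∀ L1 : IntermediateField ℚ Kb, FiniteDimensional ℚ L1 → baseField A C0 b ≤ L1 →
      HasChart (modularFunctionFieldFull M) A (ResExplicit.gaussVS M A hℓM) (tauB M A b) L1 := by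
  intro L1 hfin hle
  haveI := hfin
  haveI : CharP (ResidueField (restrict A L1)) ℓ := GaussRestrict.charP_restrict A ℓ
  haveI : IsDiscreteValuationRing (restrict A L1) :=
    Fermat.Agent.S18.Descent.isDiscreteValuationRing_restrict_of_liesOver A
      (Fact.out : ℓ.Prime).ne_zero hA L1
  exact hasChart_of_localGen M A hℓM b L1 (mem_of_baseField_le A hle)
    (hchart L1 (subset_of_baseField_le A hle))

end Fermat.Agent.S37.Local.HasChartOf
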