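import Mathlib
import Fermat.Agent.S37.Local.BRJ
import Fermat.Agent.S37.Support.ThrTK

/-!
# S37 (SB): the bridge between the `S`-forms of support control and (BRJ)

The local statements (LE)/(UN) of `Local/LocalEq` are formulated with the elementary predicate
`BRJ.JBarIn A P (J M) S` on the generic fibre and `∃ s ∈ S, BRJ.JValk Q₀ (jBar k M) s` on the special
fibre; the support-control fields of the KEY interface (`Support/ThrS`, `Support/ThrT`,
`Support/ThrTK`) use `ThrS M A ↑S P` (`jbar M A P ∈ S`) and `vK k M Q₀ ∈ S`.  This file identifies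
the two, provides the auxiliary choices (`b` with `b̄ ∉ S`, lifts of the residue classes), and
turns the `JBarIn`-forms of (LE)/(UN) into the hypotheses `hLE`/`hUN` of `ThrT.localEq_of` /
`ThrT.unit_of`.
-/

set_option autoImplicit false

namespace Fermat.Agent.S37.Local.SBridge

open AlgebraicCurve IsLocalRing ModularCurve
open Fermat.Agent.S24
open Fermat.Agent.S24.BridgeInv (Kbar FF)
open Fermat.Agent.S24.PlaceAt (J)
open Fermat.Agent.S18.Trans
open Fermat.Agent.S37.Support Fermat.Agent.S37.Support.JModular Fermat.Agent.S37.Support.ThrS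
  Fermat.Agent.S37.Support.ThrT Fermat.Agent.S37.Support.ThrTK
open Fermat.Agent.S37.Local

noncomputable section

/-! ### generic fibre -/

section GenericFibre

variable (M : ℕ) [NeZero M] (A : ValuationSubring Kbar)

/-- **`ThrS` is (BRJ)'s `JBarIn`.** -/
theorem thrS_iff_jBarIn (S : Finset (Option (ResidueField A))) (P : Place Kbar (FF M)) :
    ThrS M A (↑S) P ↔ BRJ.JBarIn A P (J M) S := by
  unfold ThrS BRJ.JBarIn
  rw [Finset.mem_coe]
  constructor
  · intro h
    cases hx : jbar M A P with
    | none =>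
      rw [hx] at h
      exact Or.inr ⟨h, jbar_eq_none_iff.mp hx⟩
    | some x =>
      rw [hx] at h
      obtain ⟨c, hc, hP, hres⟩ := jbar_eq_some_iff.mp hx
      exact Or.inl ⟨⟨c, hc⟩, hP, by rw [hres]; exact h⟩
  · rintro (⟨a, hP, haS⟩ | ⟨hnone, hP⟩)
    · have : jbar M A P = some (residue A a) :=
        jbar_eq_some_iff.mpr ⟨(a : Kbar), a.2, hP, rfl⟩
      rw [this]
      exact haS
    · rw [jbar_eq_none_iff.mpr hP]
      exact hnone

end GenericFibre

/-! ### special fibre -/

section SpecialFibre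

variable {ℓ : ℕ} [Fact ℓ.Prime] {k : Type*} [Field k] [CharP k ℓ] {M : ℕ} [NeZero M]

/-- **`vK Q₀ ∈ S` is (BRJk)'s `∃ s ∈ S, JValk Q₀ J̄ s`.** -/
theorem vK_mem_iff [IsAlgClosed k] (hℓM : ¬ ℓ ∣ M) (S : Finset (Option k))
    (Q₀ : Place k (modularFunctionFieldFullC k M)) :
    vK k M Q₀ ∈ S ↔ ∃ s ∈ S, BRJ.JValk Q₀ (jBar k M) s := by
  constructor
  · intro h
    cases hx : vK k M Q₀ with
    | none =>
      rw [hx] at h
      exact ⟨none, h, (vK_eq_none_iff hℓM).mp hx⟩
    | some c =>
      rw [hx] at h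
      exact ⟨some c, h, vK_eq_some_iff.mp hx⟩
  · rintro ⟨s, hs, hJ⟩
    cases s with
    | none =>
      have : vK k M Q₀ = none := JVal.val_eq_none_of_ord_neg hJ
      rw [this]
      exact hs
    | some c =>
      have : vK k M Q₀ = some c := vK_eq_some_iff.mpr hJ
      rw [this]
      exact hs

end SpecialFibre

/-! ### auxiliary choices -/

section Choices

variable {L : Type*} [Field L] (A : ValuationSubring L)

/-- a finite set of values misses some residue class (`k` infinite). -/
theorem exists_notMem [Infinite (ResidueField A)] (S : Finset (Option (ResidueField A))) :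
    ∃ b : A, some (residue A b) ∉ S := by
  classical
  obtain ⟨x, hx⟩ := Infinite.exists_notMem_finset S.eraseNone
  obtain ⟨b, rfl⟩ := residue_surjective x
  exact ⟨b, fun h => hx (Finset.mem_eraseNone.mpr h)⟩

/-- lifts of the residue classes. -/
theorem exists_lift : ∃ lift : ResidueField A → A, ∀ s, residue A (lift s) = s :=
  ⟨Function.surjInv residue_surjective, Function.surjInv_eq residue_surjective⟩

end Choices

/-! ### (LE)/(UN): from the `JBarIn`-forms to the `ThrS`-forms -/

section LEUN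

set_option synthInstance.maxHeartbeats 400000

variable (M : ℕ) [NeZero M] (A : ValuationSubring Kbar)

/-- **`hLE` of `ThrT.localEq_of`** from the `JBarIn`-form (LE') of the local equations. -/
theorem hLE_of [Infinite (ResidueField A)] (IsU : FF M → Prop)
    (hLE' : ∀ (S : Finset (Option (ResidueField A))) (b : A) (lift : ResidueField A → A),
      (∀ s, residue A (lift s) = s) → some (residue A b) ∉ S →
      ∀ P : Place Kbar (FF M), BRJ.JBarIn A P (J M) S →
        ∃ g : FF M, IsU g ∧ P.ord g = 1 ∧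
          ∀ P' : Place Kbar (FF M), P' ≠ P → BRJ.JBarIn A P' (J M) S → P'.ord g = 0)
    (S : Finset (Option (ResidueField A))) (P : Place Kbar (FF M)) (hP : ThrS M A (↑S) P) :
    ∃ g : FF M, IsU g ∧ P.ord g = 1 ∧
      ∀ P' : Place Kbar (FF M), P' ≠ P → ThrS M A (↑S) P' → P'.ord g = 0 := by
  obtain ⟨b, hb⟩ := exists_notMem A S
  obtain ⟨lift, hlift⟩ := exists_lift A
  obtain ⟨g, hg, hgP, hg0⟩ := hLE' S b lift hlift hb P ((thrS_iff_jBarIn M A S P).mp hP)
  exact ⟨g, hg, hgP, fun P' hne hP' => hg0 P' hne ((thrS_iff_jBarIn M A S P').mp hP')⟩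

/-- **`hUN` of `ThrT.unit_of`** from the `JBarIn`-form (UN') of the unit criterion. -/
theorem hUN_of {ℓ : ℕ} [Fact ℓ.Prime] [CharP (ResidueField A) ℓ] [IsAlgClosed (ResidueField A)]
    (hℓM : ¬ ℓ ∣ M) (IsU : FF M → Prop)
    (res : FF M → modularFunctionFieldFullC (ResidueField A) M)
    (hUN' : ∀ (S : Finset (Option (ResidueField A))) (b : A) (lift : ResidueField A → A),
      (∀ s, residue A (lift s) = s) → some (residue A b) ∉ S →
      ∀ z : FF M, IsU z →
        (∀ P : Place Kbar (FF M), BRJ.JBarIn A P (J M) S → P.ord z = 0) →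
        ∀ Q₀ : Place (ResidueField A) (modularFunctionFieldFullC (ResidueField A) M),
          (∃ s ∈ S, BRJ.JValk Q₀ (jBar (ResidueField A) M) s) → Q₀.ord (res z) = 0)
    (S : Finset (Option (ResidueField A))) (z : FF M) (hz : IsU z)
    (h0 : ∀ P : Place Kbar (FF M), ThrS M A (↑S) P → P.ord z = 0)
    (Q₀ : Place (ResidueField A) (modularFunctionFieldFullC (ResidueField A) M))
    (hQ₀ : vK (ResidueField A) M Q₀ ∈ S) : Q₀.ord (res z) = 0 := by
  obtain ⟨b, hb⟩ := exists_notMem A S
  obtain ⟨lift, hlift⟩ := exists_lift A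
  exact hUN' S b lift hlift hb z hz
    (fun P hP => h0 P ((thrS_iff_jBarIn M A S P).mpr hP)) Q₀ ((vK_mem_iff hℓM S Q₀).mp hQ₀)

end LEUN

end

end Fermat.Agent.S37.Local.SBridge
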