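import Mathlib
import Fermat.Agent.S37.Local.LocalEq
import Fermat.Agent.S37.Local.SBridge
import Fermat.Agent.S37.Key.ResExplicit
import Fermat.Agent.S37.Key.Main

/-!
# S37 (LEUN-F): the two local fields `Main.LEForm` / `Main.UNForm` from the chart hypothesis

`Local/LocalEq` proves (LE) and (UN) for an arbitrary valuation subring `O` of `F_M` with a
reduction hom `rH`.  Here they are instantiated at the Gauss valuation subring
`ResExplicit.gaussVS M A hℓM` and `ResExplicit.resHom`:

* `resHom_eq_zero_iff`, `isU_iff_valuation_eq_one`, `resHom_algebraMap`, `resHom_J`: the facts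
  about `gaussVS` / `resHom` needed by `LocalEq`;
* `leForm_of_hasChart`, `unForm_of_hasChart`: `Main.LEForm M ℓ A hℓM` and `Main.UNForm M ℓ A hℓM`
  from the chart hypothesis `LocalEq.HasChart` over all large enough number fields (for every
  `b : A`).
-/

set_option autoImplicit false

noncomputable section

open AlgebraicCurve ModularCurve IsLocalRing
open Fermat.Agent.S24
open Fermat.Agent.S24.BridgeInv (Kbar FF)
open Fermat.Agent.S24.PlaceAt (J)
open Fermat.Agent.S18.Trans
open Fermat.Agent.S18.Gauss.Basic Fermat.Agent.S18.Gauss.ScalableFull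
open Fermat.Agent.S37.Key Fermat.Agent.S37.Key.GaussUnitsFull Fermat.Agent.S37.Key.ResExplicit
open Fermat.Agent.S37.Support Fermat.Agent.S37.Support.JModular Fermat.Agent.S37.Support.ThrS
  Fermat.Agent.S37.Support.ThrTK
open Fermat.Agent.S37.Local

namespace Fermat.Agent.S37.Local.LEUNFinal

set_option synthInstance.maxHeartbeats 400000

variable (M : ℕ) [NeZero M] (A : ValuationSubring Kbar) {ℓ : ℕ} [Fact ℓ.Prime]
  [CharP (ResidueField A) ℓ] (hℓM : ¬ ℓ ∣ M)

/-- the kernel of the reduction is the maximal ideal of the Gauss valuation subring -/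
theorem resHom_eq_zero_iff (x : gaussVS M A hℓM) :
    resHom M A hℓM x = 0 ↔ (gaussVS M A hℓM).valuation (x : FF M) < 1 := by
  rw [← ValuationSubring.valuation_lt_one_iff]
  have h1 : resHom M A hℓM x = 0 ↔ resMap (scalable_full M A hℓM) x = 0 := by
    constructor
    · intro h
      rw [← coe_resHom, h]
      rfl
    · intro h
      apply Subtype.ext
      rw [coe_resHom, h]
      rfl
  rw [h1]
  exact resMap_eq_zero_iff (scalable_full M A hℓM) x

/-- Gauss units are the elements of Gauss valuation `1` -/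
theorem isU_iff_valuation_eq_one (z : FF M) :
    IsU M A hℓM z ↔ (gaussVS M A hℓM).valuation z = 1 := by
  rw [isU_iff_resHom_ne_zero]
  constructor
  · rintro ⟨hz, h⟩
    rcases ValuationSubring.valuation_lt_one_or_eq_one (gaussVS M A hℓM) ⟨z, hz⟩ with hlt | heq
    · exact absurd ((resHom_eq_zero_iff M A hℓM ⟨z, hz⟩).mpr hlt) h
    · exact heq
  · intro h
    have hz : z ∈ gaussVS M A hℓM :=
      (ValuationSubring.valuation_le_one_iff _ _).mp h.le
    refine ⟨hz, fun h0 => ?_⟩
    have := (resHom_eq_zero_iff M A hℓM ⟨z, hz⟩).mp h0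
    rw [h] at this
    exact lt_irrefl _ this

theorem resHom_algebraMap (a : A) :
    resHom M A hℓM ⟨algebraMap Kbar (FF M) (a : Kbar), algebraMap_mem_gaussVS M A hℓM a⟩ =
      algebraMap (ResidueField A) (modularFunctionFieldFullC (ResidueField A) M)
        (residue A a) := by
  rw [← res_eq_resHom]
  exact res_algebraMap M A hℓM a

theorem resHom_J :
    resHom M A hℓM ⟨J M, J_mem_gaussVS M A hℓM⟩ = Jbar (ResidueField A) M := by
  rw [← res_eq_resHom]
  exact res_J M A hℓM

/-- **`Main.LEForm`** from the chart hypothesis. -/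
theorem leForm_of_hasChart
    (hHC : ∀ b : A, ∃ L0 : IntermediateField ℚ Kbar, FiniteDimensional ℚ L0 ∧
      ∀ L1 : IntermediateField ℚ Kbar, FiniteDimensional ℚ L1 → L0 ≤ L1 →
        LocalEq.HasChart (modularFunctionFieldFull M) A (gaussVS M A hℓM)
          (LocalEq.tauB M A b) L1) :
    Main.LEForm M ℓ A hℓM := by
  have := Fermat.Agent.S37.Kron.GaussNorm.isAlgClosed_residueField A
  have : Infinite (ResidueField A) := IsAlgClosed.instInfinite
  intro S _ P hP
  obtain ⟨b, hb⟩ := SBridge.exists_notMem A S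
  obtain ⟨L0, hL0, hchart⟩ := hHC b
  obtain ⟨g, hg1, hg2, hg3⟩ :=
    LocalEq.exists_localEq_jbar (gaussVS M A hℓM) S b hb L0 hL0 hchart P hP
  exact ⟨g, (isU_iff_valuation_eq_one M A hℓM g).mpr hg1, hg2, hg3⟩

/-- **`Main.UNForm`** from the chart hypothesis. -/
theorem unForm_of_hasChart
    (hHC : ∀ b : A, ∃ L0 : IntermediateField ℚ Kbar, FiniteDimensional ℚ L0 ∧
      ∀ L1 : IntermediateField ℚ Kbar, FiniteDimensional ℚ L1 → L0 ≤ L1 →
        LocalEq.HasChart (modularFunctionFieldFull M) A (gaussVS M A hℓM)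
          (LocalEq.tauB M A b) L1) :
    Main.UNForm M ℓ A hℓM := by
  have := Fermat.Agent.S37.Kron.GaussNorm.isAlgClosed_residueField A
  have : Infinite (ResidueField A) := IsAlgClosed.instInfinite
  intro S _ z hz h0 Q₀ hQ₀
  obtain ⟨b, hb⟩ := SBridge.exists_notMem A S
  obtain ⟨L0, hL0, hchart⟩ := hHC b
  have hz1 := (isU_iff_valuation_eq_one M A hℓM z).mp hz
  have hzO : z ∈ gaussVS M A hℓM := IsU.mem_gaussVS M A hℓM hz
  have hQ := (SBridge.vK_mem_iff hℓM S Q₀).mp hQ₀
  rw [res_eq_resHom M A hℓM hzO]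
  refine LocalEq.ord_res_eq_zero_jbar (gaussVS M A hℓM) S b hb (resHom M A hℓM)
    (resHom_eq_zero_iff M A hℓM) (algebraMap_mem_gaussVS M A hℓM) (resHom_algebraMap M A hℓM)
    (J_mem_gaussVS M A hℓM) ?_ L0 hL0 hchart z hz1 h0 Q₀ ?_ hzO
  · intro c
    rw [resHom_J]
    exact Jbar_ne_algebraMap M (ResidueField A) c
  · rw [resHom_J]
    exact hQ

end Fermat.Agent.S37.Local.LEUNFinal
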