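import Mathlib
import Fermat.Agent.S37.Local.ChartJInst
import Fermat.Agent.S18.Final.BundleOf
import Fermat.Agent.S18.Final.Level9Aux
import Fermat.Agent.S18.Descent.StarOfDVR
import Fermat.Agent.S18.Trans.LiesOver

/-!
# S37 (GLUE), level `9 ∣ M`: the chart hypothesis `hchart` of (LE')/(UN') over number fields

Level-9 twin of `Local/ChartJInst4`.

* `Hloc9 h9 A hℓM hπ r` : the four Kummer statements at the cusp values `t = 0, r, -9 - r, ∞` of
  the `t₉`-line (`r² + 9 r + 27 = 0`), for a general pair `(L, A)` (`A` a discrete valuation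
  subring of a field `L` of characteristic zero, residue characteristic `ℓ ∤ M`), bundled as ONE
  proposition: the hypotheses `hloc0`, `hlocinf` of `ChartJInst.localGen_chartJ9_of_hloc`
  (= of G's `Final/Level9Gen.localGen9`) verbatim;
* `Hloc9.localGen_tcharts`, `Hloc9.localGen_chartJ` : `LocalGen` at every closed point over `π` of
  the two `t₉`-charts and of the `J`-chart `B0 A (J - b)⁻¹`;
* `Hloc9K`, `Hloc9K.toHloc9`, `Hloc9K.localGen_chartJ`, `hchart9K` : the same from the four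
  statements in the Kummer shape (uniform exponent, cover polynomials `g(X - a)`: the hypotheses
  of G's `Final/Level9Gen.localGen9_of_kummer` verbatim);
* `hchart9`, `hchart9_of_mem` : for `A` a valuation subring of `ℚ̄` over `ℓ` and a root `ρ ∈ ℚ̄` of
  `X² + 9 X + 27`: the chart hypothesis in the shape fixed by the E architect (board #1308), for
  every number field `L1 ⊆ ℚ̄` containing a guard set `C0 ∋ ρ`.
-/

set_option autoImplicit false
set_option linter.style.haveILetI false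
set_option linter.unusedSectionVars false
set_option linter.unusedVariables false
set_option synthInstance.maxHeartbeats 400000
set_option backward.isDefEq.respectTransparency.types false

noncomputable section

namespace Fermat.Agent.S37.Local.ChartJInst9

open Polynomial IsLocalRing IntermediateField ModularCurve
open Fermat.Agent.S18.Core.Charts Fermat.Agent.S18.Core Fermat.Agent.S18.Core.StartB0
open Fermat.Agent.S18.Cusp Fermat.Agent.S18.Cusp.ChartLocalOK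
open Fermat.Agent.S18.Inst.Bundle Fermat.Agent.S18.Gauss Fermat.Agent.S18.Descent
open Fermat.Agent.S18.Inst.Level9Final Fermat.Agent.S18.Final.Level9
open Fermat.Agent.S18.Cusp.Level9Poly
open Fermat.Agent.S37.Local.CoordJ

section General

variable {L : Type*} [Field L] [Algebra ℚ L] {M : ℕ} [NeZero M] (h9 : 9 ∣ M)
  (A : ValuationSubring L) {ℓ : ℕ} [Fact ℓ.Prime] [CharP (ResidueField A) ℓ] (hℓM : ¬ ℓ ∣ M)
  [IsDiscreteValuationRing A] {π : A} (hπ : Irreducible π)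

/-- **The four Kummer statements at level `9 ∣ M`** (cusp values `t₉ = 0`, `r`, `-9 - r`, `∞`), for
the unconditional INST package `Inst/Level9Final` at `(L, A)`. -/
structure Hloc9 (r : A) : Prop where
  zero : ∀ i, ∀ z : ↥(modularFunctionFieldFullC (ResidueField A) M),
    IsIntegral (resB0 (coordData9 h9 A hℓM hπ).good (rho9 A hℓM)).range z →
    ∃ (k : ℕ) (b : ↥(B0 ↥A (tEl (L := L) M h9))),
      resB0 (coordData9 h9 A hℓM hπ).good (rho9 A hℓM)
        ⟨aeval (tEl (L := L) M h9) (G9 r i), aeval_mem_B0 (G9 r i)⟩ ^ k * z =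
        resB0 (coordData9 h9 A hℓM hπ).good (rho9 A hℓM) b
  inf : ∀ z : ↥(modularFunctionFieldFullC (ResidueField A) M),
    IsIntegral (resB1 (coordData9 h9 A hℓM hπ).good (rho9 A hℓM)).range z →
    ∃ (k : ℕ) (b : ↥(B1 ↥A (tEl (L := L) M h9))),
      resB1 (coordData9 h9 A hℓM hπ).good (rho9 A hℓM)
        ⟨aeval (tEl (L := L) M h9)⁻¹ (Ginf9 : (↥A)[X]), aeval_mem_B0 Ginf9⟩ ^ k * z =
        resB1 (coordData9 h9 A hℓM hπ).good (rho9 A hℓM) b

variable {h9 A hℓM hπ}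

/-- `LocalGen` at every closed point over `π` of the two `t₉`-charts. -/
theorem Hloc9.localGen_tcharts {r : A} (H : Hloc9 h9 A hℓM hπ r)
    (hr : r ^ 2 + 9 * r + 27 = 0) :
    (∀ (n : Ideal ↥(B0 ↥A (tEl (L := L) M h9))) [n.IsMaximal],
        (⟨algebraMap ↥A _ π, algebraMap_mem_B0 π⟩ : ↥(B0 ↥A (tEl (L := L) M h9))) ∈ n →
        NormalBridge.LocalGen
          (⟨algebraMap ↥A _ π, algebraMap_mem_B0 π⟩ : ↥(B0 ↥A (tEl (L := L) M h9))) n) ∧
    (∀ (n : Ideal ↥(B1 ↥A (tEl (L := L) M h9))) [n.IsMaximal],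
        (⟨algebraMap ↥A _ π, algebraMap_mem_B0 π⟩ : ↥(B1 ↥A (tEl (L := L) M h9))) ∈ n →
        NormalBridge.LocalGen
          (⟨algebraMap ↥A _ π, algebraMap_mem_B0 π⟩ : ↥(B1 ↥A (tEl (L := L) M h9))) n) := by
  haveI : CharZero L := algebraRat.charZero L
  exact Fermat.Agent.S18.Final.Level9.localGen9 (coordData9 h9 A hℓM hπ) hr
    (Fermat.Agent.S37.Local.ChartJInst.isUnit_three A hℓM h9)
    (rho9 A hℓM) (rho9_eq_zero_iff A hℓM) (fun a => rho9_algebraMap A hℓM a _) H.zero H.inf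

/-- `LocalGen` at every closed point over `π` of the `J`-chart `B0 A (J - b)⁻¹`. -/
theorem Hloc9.localGen_chartJ {r : A} (H : Hloc9 h9 A hℓM hπ r)
    (hr : r ^ 2 + 9 * r + 27 = 0) (b : A) :
    ∀ n : Ideal ↥(B0 ↥A (tauB A M b)), n.IsMaximal → piB0 ↥A π (tauB A M b) ∈ n →
      NormalBridge.LocalGen (piB0 ↥A π (tauB A M b)) n :=
  Fermat.Agent.S37.Local.ChartJInst.localGen_chartJ9_of_hloc A hℓM h9 hπ b hr H.zero H.inf

/-! ### the same in the Kummer shape (conclusions of `Cusp/KummerHloc.hloc_of_kummer_package`) -/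

variable (h9 A hℓM hπ)

/-- **The four Kummer statements at level `9 ∣ M` in the Kummer shape**: uniform exponent, cover
polynomials written as `g(X - a)` (= the hypotheses `hloc0`, `hlocinf` of G's
`Final/Level9Gen.localGen9_of_kummer`, verbatim, at the INST package `Inst/Level9Final`). -/
structure Hloc9K (r : A) : Prop where
  zero : ∀ i, ∃ k : ℕ, ∀ z : ↥(modularFunctionFieldFullC (ResidueField A) M),
    IsIntegral (resB0 (coordData9 h9 A hℓM hπ).good (rho9 A hℓM)).range z →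
    ∃ b : ↥(B0 ↥A (tEl (L := L) M h9)),
      resB0 (coordData9 h9 A hℓM hπ).good (rho9 A hℓM)
        ⟨aeval (tEl (L := L) M h9) ((g9 r i).comp (X - C (a9 r i))), aeval_mem_B0 _⟩ ^ k * z =
        resB0 (coordData9 h9 A hℓM hπ).good (rho9 A hℓM) b
  inf : ∃ k : ℕ, ∀ z : ↥(modularFunctionFieldFullC (ResidueField A) M),
    IsIntegral (resB0 (coordData9 h9 A hℓM hπ).good.inv (rho9 A hℓM)).range z →
    ∃ b : ↥(B0 ↥A (tEl (L := L) M h9)⁻¹),
      resB0 (coordData9 h9 A hℓM hπ).good.inv (rho9 A hℓM)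
        ⟨aeval (tEl (L := L) M h9)⁻¹ ((Ginf9 : (↥A)[X]).comp (X - C 0)), aeval_mem_B0 _⟩ ^ k * z =
        resB0 (coordData9 h9 A hℓM hπ).good.inv (rho9 A hℓM) b

variable {h9 A hℓM hπ}

/-- the Kummer shape implies the cover shape -/
theorem Hloc9K.toHloc9 {r : A} (H : Hloc9K h9 A hℓM hπ r) (hr : r ^ 2 + 9 * r + 27 = 0) :
    Hloc9 h9 A hℓM hπ r where
  zero := fun i z hz => by
    obtain ⟨k, hk⟩ := H.zero i
    obtain ⟨b, hb⟩ := hk z hz
    refine ⟨k, b, ?_⟩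
    have e1 : (⟨aeval (tEl (L := L) M h9) (G9 r i), aeval_mem_B0 (G9 r i)⟩ :
        ↥(B0 ↥A (tEl (L := L) M h9))) =
        ⟨aeval (tEl (L := L) M h9) ((g9 r i).comp (X - C (a9 r i))), aeval_mem_B0 _⟩ :=
      Subtype.ext (by rw [g9_comp hr i])
    rw [e1]
    exact hb
  inf := fun z hz => by
    obtain ⟨k, hk⟩ := H.inf
    obtain ⟨b, hb⟩ := hk z hz
    refine ⟨k, b, ?_⟩
    have e1 : (⟨aeval (tEl (L := L) M h9)⁻¹ (Ginf9 : (↥A)[X]), aeval_mem_B0 Ginf9⟩ :
        ↥(B0 ↥A (tEl (L := L) M h9)⁻¹)) =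
        ⟨aeval (tEl (L := L) M h9)⁻¹ ((Ginf9 : (↥A)[X]).comp (X - C 0)), aeval_mem_B0 _⟩ :=
      Subtype.ext (by rw [Ginf9_comp])
    change resB0 (coordData9 h9 A hℓM hπ).good.inv (rho9 A hℓM)
      ⟨aeval (tEl (L := L) M h9)⁻¹ (Ginf9 : (↥A)[X]), aeval_mem_B0 Ginf9⟩ ^ k * z =
      resB0 (coordData9 h9 A hℓM hπ).good.inv (rho9 A hℓM) b
    rw [e1]
    exact hb

/-- `LocalGen` on the `J`-chart from the Kummer shape. -/
theorem Hloc9K.localGen_chartJ {r : A} (H : Hloc9K h9 A hℓM hπ r)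
    (hr : r ^ 2 + 9 * r + 27 = 0) (b : A) :
    ∀ n : Ideal ↥(B0 ↥A (tauB A M b)), n.IsMaximal → piB0 ↥A π (tauB A M b) ∈ n →
      NormalBridge.LocalGen (piB0 ↥A π (tauB A M b)) n :=
  (H.toHloc9 hr).localGen_chartJ hr b

end General

/-! ### over the number fields inside `ℚ̄` -/

section NumberFields

local notation "Kb" => AlgebraicClosure ℚ

variable {M : ℕ} [NeZero M] (h9 : 9 ∣ M) {ℓ : ℕ} [Fact ℓ.Prime]
  (A : ValuationSubring Kb) (hA : A.LiesOverPrime ℓ) (hℓM : ¬ ℓ ∣ M)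

/-- a root `ρ ∈ ℚ̄` of `X² + 9 X + 27` lying in `L₁`, as a root in `L₁`. -/
theorem root_of_mem {ρ : Kb} (hρ : ρ ^ 2 + 9 * ρ + 27 = 0) (L₁ : IntermediateField ℚ Kb)
    (hρ₁ : ρ ∈ L₁) : (⟨ρ, hρ₁⟩ : L₁) ^ 2 + 9 * (⟨ρ, hρ₁⟩ : L₁) + 27 = 0 := by
  apply Subtype.ext
  push_cast
  exact hρ

include hA in
/-- **The chart hypothesis of (LE')/(UN') at level `9 ∣ M`** (shape of board #1308, guard set
`C0 ∋ ρ`); the Kummer statements are quantified as in G's `Final/Level9.star9_of_localOK`: over the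
roots `ρ₁ ∈ L₁` with `algebraMap L₁ ℚ̄ ρ₁ = ρ`. -/
theorem hchart9 {ρ : Kb} (hρ : ρ ^ 2 + 9 * ρ + 27 = 0)
    (H9 : ∀ (L₁ : IntermediateField ℚ Kb) [FiniteDimensional ℚ L₁]
      [CharP (ResidueField ↥(restrict A L₁)) ℓ] [IsDiscreteValuationRing ↥(restrict A L₁)]
      (ρ₁ : L₁) (hρ₁ : ρ₁ ^ 2 + 9 * ρ₁ + 27 = 0), algebraMap L₁ Kb ρ₁ = ρ →
      ∀ (π : ↥(restrict A L₁)) (hπ : Irreducible π),
        Hloc9 h9 (restrict A L₁) hℓM hπ (Fermat.Agent.S18.Final.Level9Aux.rhoR A L₁ hρ₁))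
    (C0 : Finset Kb) (hρC : ρ ∈ C0) :
    ∀ (L1 : IntermediateField ℚ Kb) [FiniteDimensional ℚ L1], (↑C0 : Set Kb) ⊆ (L1 : Set Kb) →
      ∀ (b1 : ↥(restrict A L1)) (π : ↥(restrict A L1)), Irreducible π →
      ∀ n : Ideal ↥(B0 ↥(restrict A L1) (tauB (restrict A L1) M b1)), n.IsMaximal →
        piB0 ↥(restrict A L1) π (tauB (restrict A L1) M b1) ∈ n →
        NormalBridge.LocalGen (piB0 ↥(restrict A L1) π (tauB (restrict A L1) M b1)) n := by
  intro L1 _ hC b1 π hπ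
  have hℓ0 : ℓ ≠ 0 := (Fact.out : ℓ.Prime).ne_zero
  haveI : IsDiscreteValuationRing ↥(restrict A L1) :=
    isDiscreteValuationRing_restrict_of_liesOver A hℓ0 hA L1
  haveI : CharP (ResidueField ↥(restrict A L1)) ℓ :=
    Fermat.Agent.S18.Trans.LiesOver.charP_residueField
      (Fermat.Agent.S18.Final.BundleOf.liesOverPrime_restrict A L1 hA)
  have hmem : ρ ∈ L1 := hC (Finset.mem_coe.mpr hρC)
  have hroot := root_of_mem hρ L1 hmem
  exact (H9 L1 ⟨ρ, hmem⟩ hroot rfl π hπ).localGen_chartJ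
    (Fermat.Agent.S18.Final.Level9Aux.rhoR_root A hroot) b1

include hA in
/-- The same with the Kummer statements quantified over the membership `ρ ∈ L₁`. -/
theorem hchart9_of_mem {ρ : Kb} (hρ : ρ ^ 2 + 9 * ρ + 27 = 0)
    (H9 : ∀ (L₁ : IntermediateField ℚ Kb) [FiniteDimensional ℚ L₁]
      [CharP (ResidueField ↥(restrict A L₁)) ℓ] [IsDiscreteValuationRing ↥(restrict A L₁)]
      (hρ₁ : ρ ∈ L₁) (π : ↥(restrict A L₁)) (hπ : Irreducible π),
        Hloc9 h9 (restrict A L₁) hℓM hπ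
          (Fermat.Agent.S18.Final.Level9Aux.rhoR A L₁ (root_of_mem hρ L₁ hρ₁)))
    (C0 : Finset Kb) (hρC : ρ ∈ C0) :
    ∀ (L1 : IntermediateField ℚ Kb) [FiniteDimensional ℚ L1], (↑C0 : Set Kb) ⊆ (L1 : Set Kb) →
      ∀ (b1 : ↥(restrict A L1)) (π : ↥(restrict A L1)), Irreducible π →
      ∀ n : Ideal ↥(B0 ↥(restrict A L1) (tauB (restrict A L1) M b1)), n.IsMaximal →
        piB0 ↥(restrict A L1) π (tauB (restrict A L1) M b1) ∈ n →
        NormalBridge.LocalGen (piB0 ↥(restrict A L1) π (tauB (restrict A L1) M b1)) n := by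
  refine hchart9 h9 A hA hℓM hρ (fun L₁ _ _ _ ρ₁ hρ₁ heq π hπ => ?_) C0 hρC
  have hmem : ρ ∈ L₁ := by
    rw [← heq]
    exact ρ₁.2
  have e : ρ₁ = ⟨ρ, hmem⟩ := Subtype.ext heq
  subst e
  exact H9 L₁ hmem π hπ

include hA in
/-- **The chart hypothesis at level `9 ∣ M` from the Kummer shape** of the four statements. -/
theorem hchart9K {ρ : Kb} (hρ : ρ ^ 2 + 9 * ρ + 27 = 0)
    (H9 : ∀ (L₁ : IntermediateField ℚ Kb) [FiniteDimensional ℚ L₁]
      [CharP (ResidueField ↥(restrict A L₁)) ℓ] [IsDiscreteValuationRing ↥(restrict A L₁)]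
      (ρ₁ : L₁) (hρ₁ : ρ₁ ^ 2 + 9 * ρ₁ + 27 = 0), algebraMap L₁ Kb ρ₁ = ρ →
      ∀ (π : ↥(restrict A L₁)) (hπ : Irreducible π),
        Hloc9K h9 (restrict A L₁) hℓM hπ (Fermat.Agent.S18.Final.Level9Aux.rhoR A L₁ hρ₁))
    (C0 : Finset Kb) (hρC : ρ ∈ C0) :
    ∀ (L1 : IntermediateField ℚ Kb) [FiniteDimensional ℚ L1], (↑C0 : Set Kb) ⊆ (L1 : Set Kb) →
      ∀ (b1 : ↥(restrict A L1)) (π : ↥(restrict A L1)), Irreducible π →
      ∀ n : Ideal ↥(B0 ↥(restrict A L1) (tauB (restrict A L1) M b1)), n.IsMaximal →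
        piB0 ↥(restrict A L1) π (tauB (restrict A L1) M b1) ∈ n →
        NormalBridge.LocalGen (piB0 ↥(restrict A L1) π (tauB (restrict A L1) M b1)) n :=
  hchart9 h9 A hA hℓM hρ (fun L₁ _ _ _ ρ₁ hρ₁ heq π hπ =>
    (H9 L₁ ρ₁ hρ₁ heq π hπ).toHloc9 (Fermat.Agent.S18.Final.Level9Aux.rhoR_root A hρ₁)) C0 hρC

end NumberFields

end Fermat.Agent.S37.Local.ChartJInst9
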