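import Mathlib
import Fermat.Agent.S18.Cusp.NormalBridge

/-!
# Transport of `(N_n)` along an equality of local rings inside a field (element form)

`B`, `Bs` subrings of a field `F`, `n ⊂ B`, `ns ⊂ Bs` prime ideals.  The local ring `B_n` is used
in element form only: `InLoc B n x := ∃ a s : B, s ∉ n ∧ x * s = a`, and its maximal ideal
`InLocMax B n x := ∃ a s : B, a ∈ n ∧ s ∉ n ∧ x * s = a`.

Hypotheses of the transport (`R := B_n`, `R* := (Bs)_{ns}`):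
* `h1 : ∀ x : B, InLoc Bs ns x`            (`B ⊆ R*`),
* `h3 : ∀ y : Bs, InLoc B n y`             (`Bs ⊆ R`),
* `h4 : ∀ y : Bs, y ∈ ns ↔ InLocMax B n y` (`ns = n R ∩ Bs`, e.g. the DEFINITION of `ns`).

Then `R = R*` with the same maximal ideal (`inLocMax_of_mem`, `inLoc_iff`), and
`localGen_transport : LocalGen πs ns → LocalGen π n` for `π : B`, `πs : Bs` with the same image
in `F`.
-/

namespace Fermat.Agent.S37.Local.LocalGenTransport

open Fermat.Agent.S18.Cusp.NormalBridge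

variable {F : Type*} [Field F]

/-- `x ∈ B_n`, element form. -/
def InLoc (B : Subring F) (n : Ideal B) (x : F) : Prop :=
  ∃ a s : B, s ∉ n ∧ x * (s : F) = (a : F)

/-- `x ∈ n B_n`, element form. -/
def InLocMax (B : Subring F) (n : Ideal B) (x : F) : Prop :=
  ∃ a s : B, a ∈ n ∧ s ∉ n ∧ x * (s : F) = (a : F)

variable {B : Subring F} {n : Ideal B}

theorem InLocMax.inLoc {x : F} (h : InLocMax B n x) : InLoc B n x := by
  obtain ⟨a, s, -, hs, h⟩ := h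
  exact ⟨a, s, hs, h⟩

theorem one_not_mem [n.IsPrime] : (1 : B) ∉ n := fun h =>
  (Ideal.IsPrime.ne_top ‹_›) ((Ideal.eq_top_iff_one n).mpr h)

theorem inLoc_of_mem [n.IsPrime] (x : B) : InLoc B n (x : F) :=
  ⟨x, 1, one_not_mem, by simp⟩

theorem inLocMax_of_mem_ideal [n.IsPrime] {x : B} (hx : x ∈ n) : InLocMax B n (x : F) :=
  ⟨x, 1, hx, one_not_mem, by simp⟩

/-- An element of `n B_n` that lies in `B` lies in `n`. -/
theorem mem_of_inLocMax [n.IsPrime] {x : B} (h : InLocMax B n (x : F)) : x ∈ n := by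
  obtain ⟨a, s, ha, hs, h⟩ := h
  have : x * s = a := Subtype.ext (by push_cast; exact h)
  rcases Ideal.IsPrime.mem_or_mem ‹_› (this ▸ ha : x * s ∈ n) with h | h
  · exact h
  · exact absurd h hs

theorem InLoc.mul [n.IsPrime] {x y : F} (hx : InLoc B n x) (hy : InLoc B n y) :
    InLoc B n (x * y) := by
  obtain ⟨a, s, hs, h1⟩ := hx
  obtain ⟨b, t, ht, h2⟩ := hy
  refine ⟨a * b, s * t, fun h => ?_, ?_⟩
  · rcases Ideal.IsPrime.mem_or_mem ‹_› h with h | h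
    · exact hs h
    · exact ht h
  · push_cast
    rw [← h1, ← h2]
    ring

theorem InLoc.add [n.IsPrime] {x y : F} (hx : InLoc B n x) (hy : InLoc B n y) :
    InLoc B n (x + y) := by
  obtain ⟨a, s, hs, h1⟩ := hx
  obtain ⟨b, t, ht, h2⟩ := hy
  refine ⟨a * t + b * s, s * t, fun h => ?_, ?_⟩
  · rcases Ideal.IsPrime.mem_or_mem ‹_› h with h | h
    · exact hs h
    · exact ht h
  · push_cast
    rw [← h1, ← h2]
    ring

theorem InLoc.neg {x : F} (hx : InLoc B n x) : InLoc B n (-x) := by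
  obtain ⟨a, s, hs, h1⟩ := hx
  exact ⟨-a, s, hs, by push_cast; rw [← h1]; ring⟩

theorem InLocMax.mul_left [n.IsPrime] {x y : F} (hx : InLoc B n x) (hy : InLocMax B n y) :
    InLocMax B n (x * y) := by
  obtain ⟨a, s, hs, h1⟩ := hx
  obtain ⟨b, t, hb, ht, h2⟩ := hy
  refine ⟨a * b, s * t, Ideal.mul_mem_left _ _ hb, fun h => ?_, ?_⟩
  · rcases Ideal.IsPrime.mem_or_mem ‹_› h with h | h
    · exact hs h
    · exact ht h
  · push_cast
    rw [← h1, ← h2]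
    ring

theorem InLocMax.add [n.IsPrime] {x y : F} (hx : InLocMax B n x) (hy : InLocMax B n y) :
    InLocMax B n (x + y) := by
  obtain ⟨a, s, ha, hs, h1⟩ := hx
  obtain ⟨b, t, hb, ht, h2⟩ := hy
  refine ⟨a * t + b * s, s * t,
    Ideal.add_mem _ (Ideal.mul_mem_right _ _ ha) (Ideal.mul_mem_right _ _ hb), fun h => ?_, ?_⟩
  · rcases Ideal.IsPrime.mem_or_mem ‹_› h with h | h
    · exact hs h
    · exact ht h
  · push_cast
    rw [← h1, ← h2]
    ring

/-- An element of `B_n` which is not in `n B_n` has its inverse in `B_n`. -/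
theorem InLoc.inv_of_not_inLocMax {x : F} (hx : InLoc B n x) (hx' : ¬ InLocMax B n x) :
    InLoc B n x⁻¹ := by
  obtain ⟨a, s, hs, h⟩ := hx
  have ha : a ∉ n := fun ha => hx' ⟨a, s, ha, hs, h⟩
  have hx0 : x ≠ 0 := by
    rintro rfl
    apply ha
    have : a = 0 := Subtype.ext (by push_cast; rw [← h, zero_mul])
    rw [this]
    exact n.zero_mem
  refine ⟨s, a, ha, ?_⟩
  rw [← h, ← mul_assoc, inv_mul_cancel₀ hx0, one_mul]

section Two

variable {Bs : Subring F} {ns : Ideal Bs}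

/-- An element of `Bs ∖ ns` is a fraction `p / q` with `p, q ∈ B ∖ n`. -/
theorem exists_unit_repr (h3 : ∀ y : Bs, InLoc B n (y : F))
    (h4 : ∀ y : Bs, y ∈ ns ↔ InLocMax B n (y : F)) {w : Bs} (hw : w ∉ ns) :
    ∃ p q : B, p ∉ n ∧ q ∉ n ∧ (w : F) * (q : F) = (p : F) := by
  obtain ⟨p, q, hq, hpq⟩ := h3 w
  exact ⟨p, q, fun hp => hw ((h4 w).mpr ⟨p, q, hp, hq, hpq⟩), hq, hpq⟩

/-- `n ⊆ ns (Bs)_{ns}`. -/
theorem inLocMax_of_mem [n.IsPrime]
    (h1 : ∀ x : B, InLoc Bs ns (x : F)) (h3 : ∀ y : Bs, InLoc B n (y : F))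
    (h4 : ∀ y : Bs, y ∈ ns ↔ InLocMax B n (y : F))
    {x : B} (hx : x ∈ n) : InLocMax Bs ns (x : F) := by
  obtain ⟨a, s, hs, has⟩ := h1 x
  by_cases ha : a ∈ ns
  · exact ⟨a, s, ha, hs, has⟩
  exfalso
  obtain ⟨pa, qa, hpa, hqa, ea⟩ := exists_unit_repr h3 h4 ha
  obtain ⟨ps, qs, hps, hqs, es⟩ := exists_unit_repr h3 h4 hs
  -- `x * ps * qa = pa * qs`
  have key : x * ps * qa = pa * qs := by
    apply Subtype.ext
    push_cast
    rw [← es, ← ea, ← has]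
    ring
  have hL : x * ps * qa ∈ n := Ideal.mul_mem_right _ _ (Ideal.mul_mem_right _ _ hx)
  rw [key] at hL
  rcases Ideal.IsPrime.mem_or_mem ‹_› hL with h | h
  · exact hpa h
  · exact hqs h

/-- `(Bs)_{ns} ⊆ B_n`. -/
theorem inLoc_of_inLoc_right [n.IsPrime] (h3 : ∀ y : Bs, InLoc B n (y : F))
    (h4 : ∀ y : Bs, y ∈ ns ↔ InLocMax B n (y : F)) {x : F} (hx : InLoc Bs ns x) :
    InLoc B n x := by
  obtain ⟨a, s, hs, has⟩ := hx
  obtain ⟨pa, qa, hqa, ea⟩ := h3 a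
  obtain ⟨ps, qs, hps, hqs, es⟩ := exists_unit_repr h3 h4 hs
  refine ⟨pa * qs, ps * qa, fun h => ?_, ?_⟩
  · rcases Ideal.IsPrime.mem_or_mem ‹_› h with h | h
    · exact hps h
    · exact hqa h
  · push_cast
    rw [← es, ← ea, ← has]
    ring

/-- `ns (Bs)_{ns} ⊆ n B_n`. -/
theorem inLocMax_of_inLocMax_right [n.IsPrime] (h3 : ∀ y : Bs, InLoc B n (y : F))
    (h4 : ∀ y : Bs, y ∈ ns ↔ InLocMax B n (y : F)) {x : F} (hx : InLocMax Bs ns x) :
    InLocMax B n x := by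
  obtain ⟨a, s, ha, hs, has⟩ := hx
  obtain ⟨pa, qa, hpa, hqa, ea⟩ := (h4 a).mp ha
  obtain ⟨ps, qs, hps, hqs, es⟩ := exists_unit_repr h3 h4 hs
  refine ⟨pa * qs, ps * qa, Ideal.mul_mem_right _ _ hpa, fun h => ?_, ?_⟩
  · rcases Ideal.IsPrime.mem_or_mem ‹_› h with h | h
    · exact hps h
    · exact hqa h
  · push_cast
    rw [← es, ← ea, ← has]
    ring

/-- `B_n ⊆ (Bs)_{ns}`. -/
theorem inLoc_of_inLoc_left [n.IsPrime] [ns.IsPrime]
    (h1 : ∀ x : B, InLoc Bs ns (x : F)) (h3 : ∀ y : Bs, InLoc B n (y : F))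
    (h4 : ∀ y : Bs, y ∈ ns ↔ InLocMax B n (y : F)) {x : F} (hx : InLoc B n x) :
    InLoc Bs ns x := by
  obtain ⟨a, s, hs, has⟩ := hx
  obtain ⟨αa, σa, hσa, ea⟩ := h1 a
  obtain ⟨α, σ, hσ, es⟩ := h1 s
  have hα : α ∉ ns := fun hα =>
    hs (mem_of_inLocMax (inLocMax_of_inLocMax_right h3 h4 ⟨α, σ, hα, hσ, es⟩))
  refine ⟨αa * σ, α * σa, fun h => ?_, ?_⟩
  · rcases Ideal.IsPrime.mem_or_mem ‹_› h with h | h
    · exact hα h
    · exact hσa h
  · push_cast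
    rw [← es, ← ea, ← has]
    ring

/-- The two local rings coincide. -/
theorem inLoc_iff [n.IsPrime] [ns.IsPrime]
    (h1 : ∀ x : B, InLoc Bs ns (x : F)) (h3 : ∀ y : Bs, InLoc B n (y : F))
    (h4 : ∀ y : Bs, y ∈ ns ↔ InLocMax B n (y : F)) (x : F) :
    InLoc B n x ↔ InLoc Bs ns x :=
  ⟨inLoc_of_inLoc_left h1 h3 h4, inLoc_of_inLoc_right h3 h4⟩

/-- **Transport of `(N_n)`**: if `B ⊆ (Bs)_{ns}`, `Bs ⊆ B_n` and `ns = n B_n ∩ Bs`, then
`LocalGen πs ns → LocalGen π n`. -/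
theorem localGen_transport [n.IsPrime] [ns.IsPrime] (π : B) (πs : Bs) (hπ : (π : F) = (πs : F))
    (h1 : ∀ x : B, InLoc Bs ns (x : F)) (h3 : ∀ y : Bs, InLoc B n (y : F))
    (h4 : ∀ y : Bs, y ∈ ns ↔ InLocMax B n (y : F))
    (hgen : LocalGen πs ns) : LocalGen π n := by
  obtain ⟨Ts, hTs, hgen⟩ := hgen
  obtain ⟨T, σ, hT, hσ, hTσ⟩ := (h4 Ts).mp hTs
  refine ⟨T, hT, fun x hx => ?_⟩
  obtain ⟨a, s, ha, hs, has⟩ := inLocMax_of_mem h1 h3 h4 hx
  obtain ⟨s1, hs1, hmem⟩ := hgen a ha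
  obtain ⟨u, v, huv⟩ := Ideal.mem_span_pair.mp hmem
  -- `w := s * s1 ∉ ns`
  have hw : s * s1 ∉ ns := fun h => by
    rcases Ideal.IsPrime.mem_or_mem ‹_› h with h | h
    · exact hs h
    · exact hs1 h
  obtain ⟨p, q, hp, hq, epq⟩ := exists_unit_repr h3 h4 hw
  obtain ⟨pu, qu, hqu, eu⟩ := h3 u
  obtain ⟨pv, qv, hqv, ev⟩ := h3 v
  refine ⟨p * qu * qv * σ, fun h => ?_, ?_⟩
  · rcases Ideal.IsPrime.mem_or_mem ‹_› h with h | h
    · rcases Ideal.IsPrime.mem_or_mem ‹_› h with h | h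
      · rcases Ideal.IsPrime.mem_or_mem ‹_› h with h | h
        · exact hp h
        · exact hqu h
      · exact hqv h
    · exact hσ h
  · rw [Ideal.mem_span_pair]
    refine ⟨pu * q * qv * σ, pv * q * qu, ?_⟩
    apply Subtype.ext
    have huvF : (u : F) * (πs : F) + (v : F) * (Ts : F) = (s1 : F) * (a : F) := by
      have := congrArg (Subtype.val) huv
      push_cast at this
      exact this
    push_cast
    rw [← eu, ← ev, ← epq, ← hTσ, hπ]
    push_cast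
    have e1 : (x : F) * (s : F) = (a : F) := has
    calc (u : F) * (qu : F) * (q : F) * (qv : F) * (σ : F) * (πs : F) +
          (v : F) * (qv : F) * (q : F) * (qu : F) * ((Ts : F) * (σ : F))
        = ((u : F) * (πs : F) + (v : F) * (Ts : F)) *
            ((qu : F) * (q : F) * (qv : F) * (σ : F)) := by ring
      _ = (s1 : F) * (a : F) * ((qu : F) * (q : F) * (qv : F) * (σ : F)) := by rw [huvF]
      _ = (s : F) * (s1 : F) * (q : F) * (qu : F) * (qv : F) * (σ : F) * (x : F) := by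
          rw [← e1]; ring

end Two

end Fermat.Agent.S37.Local.LocalGenTransport
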