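import Mathlib
import Fermat.Agent.S37.Local.LocalGenTransport

/-!
# The local ring `B_n` of a subring of a field, as a subring (support for CHJ)

`B : Subring F`, `n : Ideal B` prime.

* `locSubring B n : Subring F` with carrier `{x | InLoc B n x}`.
* `mem_locSubring_of_isIntegral` : if `B` is integrally closed in `F`, so is `B_n`.
* `resLoc : locSubring B n →+* B ⧸ n` for `n` maximal (`x = a / s ↦ ā s̄⁻¹`), with
  `resLoc_eq_zero_iff : resLoc x = 0 ↔ InLocMax B n x` and `resLoc_of_mem`.
* `contract h3 : Ideal Bs` for a subring `Bs ⊆ B_n` : the contraction `n B_n ∩ Bs`, prime,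
  `mem_contract : y ∈ contract h3 ↔ InLocMax B n y` (= hypothesis `h4` of
  `LocalGenTransport.localGen_transport`, by `Iff.rfl`).
* `contract_isMaximal` : maximal as soon as `B ⧸ n` is integral over the image of a ring `R'`
  mapping to both `B` and `Bs`.
-/

namespace Fermat.Agent.S37.Local.LocSubring

open Fermat.Agent.S37.Local.LocalGenTransport Polynomial

set_option linter.style.haveILetI false

variable {F : Type*} [Field F]

/-- The local ring `B_n` as a subring of `F`. -/
def locSubring (B : Subring F) (n : Ideal B) [n.IsPrime] : Subring F where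
  carrier := {x | InLoc B n x}
  mul_mem' hx hy := hx.mul hy
  one_mem' := by simpa using inLoc_of_mem (n := n) (1 : B)
  add_mem' hx hy := hx.add hy
  zero_mem' := by simpa using inLoc_of_mem (n := n) (0 : B)
  neg_mem' hx := hx.neg

variable {B : Subring F} {n : Ideal B}

theorem mem_locSubring [n.IsPrime] {x : F} : x ∈ locSubring B n ↔ InLoc B n x := Iff.rfl

theorem le_locSubring [n.IsPrime] : B ≤ locSubring B n := fun x hx =>
  inLoc_of_mem (n := n) ⟨x, hx⟩

/-- A finite family of elements of `B_n` has a common denominator. -/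
theorem exists_common_denom [n.IsPrime] {ι : Type*} (s : Finset ι) (c : ι → F)
    (hc : ∀ i ∈ s, InLoc B n (c i)) :
    ∃ d : B, d ∉ n ∧ ∀ i ∈ s, ∃ a : B, c i * (d : F) = (a : F) := by
  classical
  induction s using Finset.induction_on with
  | empty => exact ⟨1, one_not_mem, by simp⟩
  | insert j s hj ih =>
    obtain ⟨d, hd, hds⟩ := ih fun i hi => hc i (Finset.mem_insert_of_mem hi)
    obtain ⟨a, t, ht, hat⟩ := hc j (Finset.mem_insert_self j s)
    refine ⟨d * t, fun h => ?_, fun i hi => ?_⟩
    · rcases Ideal.IsPrime.mem_or_mem ‹_› h with h | h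
      · exact hd h
      · exact ht h
    · rcases Finset.mem_insert.mp hi with rfl | hi
      · exact ⟨a * d, by push_cast; rw [← hat]; ring⟩
      · obtain ⟨a', ha'⟩ := hds i hi
        exact ⟨a' * t, by push_cast; rw [← ha']; ring⟩

/-- If `B` is integrally closed in `F`, so is `B_n`. -/
theorem mem_locSubring_of_isIntegral [n.IsPrime] (hB : ∀ x : F, IsIntegral B x → x ∈ B)
    {x : F} (hx : IsIntegral (locSubring B n) x) : x ∈ locSubring B n := by
  obtain ⟨p, hp, hpx⟩ := hx
  -- common denominator of the coefficients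
  obtain ⟨d, hd, hds⟩ := exists_common_denom (B := B) (n := n) (Finset.range (p.natDegree + 1))
    (fun i => ((p.coeff i : locSubring B n) : F)) (fun i _ => (p.coeff i).2)
  have hd0 : (d : F) ≠ 0 := by
    intro h0
    apply hd
    have : d = 0 := Subtype.ext h0
    rw [this]
    exact n.zero_mem
  -- `d * x` is integral over `B`
  have hint : IsIntegral B ((d : F) * x) := by
    -- the polynomial `q := ∑ (coeff i * d ^ (N - i)) X ^ i` over `B`
    set N := p.natDegree with hN
    have hcoef : ∀ i, i < N → ∃ a : B, ((p.coeff i : locSubring B n) : F) * (d : F) ^ (N - i) =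
        (a : F) := by
      intro i hi
      obtain ⟨a, ha⟩ := hds i (Finset.mem_range.mpr (by omega))
      refine ⟨a * d ^ (N - i - 1), ?_⟩
      push_cast
      rw [← ha, mul_assoc, ← pow_succ']
      congr 2
      omega
    choose! a ha using hcoef
    refine ⟨X ^ N + ∑ i ∈ Finset.range N, C (a i) * X ^ i, ?_, ?_⟩
    · refine Polynomial.monic_X_pow_add ?_
      refine lt_of_le_of_lt (Polynomial.degree_sum_le _ _) ?_
      rw [Finset.sup_lt_iff (by exact WithBot.bot_lt_coe N)]
      intro i hi
      refine lt_of_le_of_lt (Polynomial.degree_C_mul_X_pow_le _ _) ?_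
      exact_mod_cast Finset.mem_range.mp hi
    · rw [eval₂_add, eval₂_pow, eval₂_X, eval₂_finsetSum]
      simp only [eval₂_mul, eval₂_C, eval₂_pow, eval₂_X]
      have hsum : ∀ i ∈ Finset.range N, (algebraMap B F) (a i) * ((d : F) * x) ^ i =
          (d : F) ^ N * (((p.coeff i : locSubring B n) : F) * x ^ i) := by
        intro i hi
        have hi' := Finset.mem_range.mp hi
        have : (algebraMap B F) (a i) = (a i : F) := rfl
        rw [this, ← ha i hi', mul_pow]
        have : (d : F) ^ N = (d : F) ^ (N - i) * (d : F) ^ i := by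
          rw [← pow_add]; congr 1; omega
        rw [this]
        ring
      rw [Finset.sum_congr rfl hsum, ← Finset.mul_sum, mul_pow, ← mul_add]
      have hp0 : x ^ N + ∑ i ∈ Finset.range N, ((p.coeff i : locSubring B n) : F) * x ^ i = 0 := by
        have := hpx
        rw [Polynomial.eval₂_eq_sum_range, Finset.sum_range_succ, ← hN] at this
        have hlead : p.coeff N = 1 := hp
        rw [hlead, map_one, one_mul, add_comm] at this
        exact this
      rw [hp0, mul_zero]
  have hmem := hB _ hint
  exact ⟨⟨_, hmem⟩, d, hd, by push_cast; ring⟩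

section Residue

variable [hn : n.IsMaximal]

/-- auxiliary: the residue of a fraction -/
noncomputable def resFun (x : locSubring B n) : B ⧸ n :=
  letI := Ideal.Quotient.field n
  Ideal.Quotient.mk n x.2.choose * (Ideal.Quotient.mk n x.2.choose_spec.choose)⁻¹

theorem resFun_eq (x : locSubring B n) {a s : B} (hs : s ∉ n) (h : (x : F) * (s : F) = (a : F)) :
    letI := Ideal.Quotient.field n
    resFun x = Ideal.Quotient.mk n a * (Ideal.Quotient.mk n s)⁻¹ := by
  letI := Ideal.Quotient.field n
  have hs' := x.2.choose_spec.choose_spec.1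
  have h' := x.2.choose_spec.choose_spec.2
  set a' := x.2.choose
  set s' := x.2.choose_spec.choose
  have hs0 : Ideal.Quotient.mk n s ≠ 0 := fun h0 => hs (Ideal.Quotient.eq_zero_iff_mem.mp h0)
  have hs'0 : Ideal.Quotient.mk n s' ≠ 0 := fun h0 => hs' (Ideal.Quotient.eq_zero_iff_mem.mp h0)
  have key : a' * s = a * s' := by
    apply Subtype.ext
    push_cast
    rw [← h, ← h']
    ring
  change Ideal.Quotient.mk n a' * (Ideal.Quotient.mk n s')⁻¹ = _
  rw [mul_inv_eq_iff_eq_mul₀ hs'0, mul_assoc, mul_comm _ (Ideal.Quotient.mk n s'), ← mul_assoc,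
    eq_mul_inv_iff_mul_eq₀ hs0, ← map_mul, ← map_mul, key]

/-- The residue homomorphism `B_n → B ⧸ n`. -/
noncomputable def resLoc : locSubring B n →+* B ⧸ n :=
  letI := Ideal.Quotient.field n
  { toFun := resFun
    map_one' := by
      rw [resFun_eq (1 : locSubring B n) (a := 1) (s := 1) one_not_mem (by simp)]
      simp
    map_mul' := fun x y => by
      obtain ⟨a, s, hs, h1⟩ := x.2
      obtain ⟨b, t, ht, h2⟩ := y.2
      rw [resFun_eq x hs h1, resFun_eq y ht h2,
        resFun_eq (x * y) (a := a * b) (s := s * t)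
          (fun h => by
            rcases Ideal.IsPrime.mem_or_mem hn.isPrime h with h | h
            · exact hs h
            · exact ht h)
          (by push_cast; rw [← h1, ← h2]; ring)]
      rw [map_mul, map_mul, mul_inv]
      ring
    map_zero' := by
      rw [resFun_eq (0 : locSubring B n) (a := 0) (s := 1) one_not_mem (by simp)]
      simp
    map_add' := fun x y => by
      obtain ⟨a, s, hs, h1⟩ := x.2
      obtain ⟨b, t, ht, h2⟩ := y.2
      have hs0 : Ideal.Quotient.mk n s ≠ 0 := fun h0 => hs (Ideal.Quotient.eq_zero_iff_mem.mp h0)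
      have ht0 : Ideal.Quotient.mk n t ≠ 0 := fun h0 => ht (Ideal.Quotient.eq_zero_iff_mem.mp h0)
      rw [resFun_eq x hs h1, resFun_eq y ht h2,
        resFun_eq (x + y) (a := a * t + b * s) (s := s * t)
          (fun h => by
            rcases Ideal.IsPrime.mem_or_mem hn.isPrime h with h | h
            · exact hs h
            · exact ht h)
          (by push_cast; rw [← h1, ← h2]; ring)]
      rw [map_add, map_mul, map_mul, map_mul, mul_inv]
      field_simp }

theorem resLoc_eq (x : locSubring B n) {a s : B} (hs : s ∉ n) (h : (x : F) * (s : F) = (a : F)) :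
    letI := Ideal.Quotient.field n
    resLoc x = Ideal.Quotient.mk n a * (Ideal.Quotient.mk n s)⁻¹ :=
  resFun_eq x hs h

theorem resLoc_mul_mk (x : locSubring B n) {a s : B} (hs : s ∉ n)
    (h : (x : F) * (s : F) = (a : F)) :
    resLoc x * Ideal.Quotient.mk n s = Ideal.Quotient.mk n a := by
  letI := Ideal.Quotient.field n
  have hs0 : Ideal.Quotient.mk n s ≠ 0 := fun h0 => hs (Ideal.Quotient.eq_zero_iff_mem.mp h0)
  rw [resLoc_eq x hs h, mul_assoc, inv_mul_cancel₀ hs0, mul_one]

theorem resLoc_of_mem (b : B) :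
    resLoc (⟨(b : F), inLoc_of_mem b⟩ : locSubring B n) = Ideal.Quotient.mk n b := by
  letI := Ideal.Quotient.field n
  rw [resLoc_eq _ (a := b) (s := 1) one_not_mem (by simp)]
  simp

theorem resLoc_eq_zero_iff (x : locSubring B n) : resLoc x = 0 ↔ InLocMax B n (x : F) := by
  letI := Ideal.Quotient.field n
  constructor
  · intro h0
    obtain ⟨a, s, hs, h1⟩ := x.2
    have hs0 : Ideal.Quotient.mk n s ≠ 0 := fun h0 => hs (Ideal.Quotient.eq_zero_iff_mem.mp h0)
    rw [resLoc_eq x hs h1, mul_eq_zero] at h0
    rcases h0 with h0 | h0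
    · exact ⟨a, s, Ideal.Quotient.eq_zero_iff_mem.mp h0, hs, h1⟩
    · exact absurd (inv_eq_zero.mp h0) hs0
  · rintro ⟨a, s, ha, hs, h1⟩
    rw [resLoc_eq x hs h1, Ideal.Quotient.eq_zero_iff_mem.mpr ha, zero_mul]

end Residue

section Contract

variable {Bs : Subring F}

/-- The inclusion `Bs → B_n`. -/
noncomputable def inclLoc [n.IsPrime] (h3 : ∀ y : Bs, InLoc B n (y : F)) : Bs →+* locSubring B n :=
  Subring.inclusion (fun y hy => h3 ⟨y, hy⟩)

/-- The contraction `n B_n ∩ Bs`. -/
noncomputable def contract [n.IsMaximal] (h3 : ∀ y : Bs, InLoc B n (y : F)) : Ideal Bs :=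
  RingHom.ker (resLoc.comp (inclLoc (n := n) h3))

theorem mem_contract [n.IsMaximal] (h3 : ∀ y : Bs, InLoc B n (y : F)) (y : Bs) :
    y ∈ contract (n := n) h3 ↔ InLocMax B n (y : F) := by
  unfold contract
  rw [RingHom.mem_ker, RingHom.comp_apply, resLoc_eq_zero_iff]
  rfl

instance contract_isPrime [n.IsMaximal] (h3 : ∀ y : Bs, InLoc B n (y : F)) :
    (contract (n := n) h3).IsPrime := by
  letI := Ideal.Quotient.field n
  exact RingHom.ker_isPrime _

/-- The contraction is maximal as soon as `B ⧸ n` is integral over the image of a ring `R'`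
mapping to both `B` and `Bs`. -/
theorem contract_isMaximal [n.IsMaximal] (h3 : ∀ y : Bs, InLoc B n (y : F))
    {R' : Type*} [CommRing R'] (g : R' →+* F) (hgB : ∀ r, g r ∈ B) (hgBs : ∀ r, g r ∈ Bs)
    (hint : ∀ k : B ⧸ n, ((Ideal.Quotient.mk n).comp (g.codRestrict B hgB)).IsIntegralElem k) :
    (contract (n := n) h3).IsMaximal := by
  letI := Ideal.Quotient.field n
  set φ : Bs →+* B ⧸ n := resLoc.comp (inclLoc (n := n) h3) with hφ
  -- `B ⧸ n` is integral over `φ`
  have hφint : φ.IsIntegral := by
    intro k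
    obtain ⟨p, hp, hpk⟩ := hint k
    refine ⟨p.map (g.codRestrict Bs hgBs), hp.map _, ?_⟩
    rw [eval₂_map]
    have : φ.comp (g.codRestrict Bs hgBs) =
        (Ideal.Quotient.mk n).comp (g.codRestrict B hgB) := by
      ext c
      change resLoc (inclLoc (n := n) h3 (g.codRestrict Bs hgBs c)) = _
      exact resLoc_of_mem (n := n) (g.codRestrict B hgB c)
    rw [this]
    exact hpk
  letI : Algebra Bs (B ⧸ n) := φ.toAlgebra
  haveI : Algebra.IsIntegral Bs (B ⧸ n) := ⟨hφint⟩
  exact Ideal.isMaximal_comap_of_isIntegral_of_isMaximal (R := Bs) (⊥ : Ideal (B ⧸ n))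

end Contract

end Fermat.Agent.S37.Local.LocSubring
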