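import Mathlib
import Fermat.Agent.S18.Core.Charts
import Fermat.Agent.S37.Local.LocSubring

/-!
# Closed points of the charts `B0 R τ` (support for CHJ)

`R` a commutative ring, `π : R` with `(π)` maximal (e.g. a uniformiser of a DVR), `F` a field
over `R`, `τ : F`, `B := B0 R τ` the integral closure of `R[τ]` in `F`.

* `mem_B0_of_isIntegral` : `B0 R τ` is integrally closed in `F`;
  `mem_locSubring_B0_of_isIntegral` : so are its local rings `B_n`.
* `exists_monic_mem` : for a maximal ideal `n ∋ π` there is a MONIC `g : R[X]` with `g(τ) ∈ n`.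
* `isIntegralElem_quot_B0` : the residue field `B ⧸ n` is integral over (the image of) `R`.
* `contract_isMaximal_B0` : for a subring `Bs ⊆ B_n` of `F` containing the image of `R`, the
  contraction `n B_n ∩ Bs` is a MAXIMAL ideal of `Bs`.
-/

namespace Fermat.Agent.S37.Local.ChartClosedPoint

open Polynomial Fermat.Agent.S18.Core.Charts Fermat.Agent.S37.Local.LocalGenTransport
open Fermat.Agent.S37.Local.LocSubring

set_option linter.style.haveILetI false

variable {R F : Type*} [CommRing R] [Field F] [Algebra R F] {τ : F}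

/-- `B0 R τ` is integrally closed in `F`. -/
theorem mem_B0_of_isIntegral {x : F} (hx : IsIntegral ↥(B0 R τ) x) : x ∈ B0 R τ := by
  obtain ⟨p, hp, hpx⟩ := hx
  let g : ↥(B0 R τ) →+* ↥(integralClosure (Algebra.adjoin R {τ}) F) := RingHom.id _
  have h1 : IsIntegral ↥(integralClosure (Algebra.adjoin R {τ}) F) x :=
    ⟨p.map g, hp.map g, by rw [eval₂_map]; exact hpx⟩
  exact isIntegral_trans (R := Algebra.adjoin R {τ}) x h1

/-- The local rings of `B0 R τ` are integrally closed in `F`. -/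
theorem mem_locSubring_B0_of_isIntegral (n : Ideal ↥(B0 R τ)) [n.IsPrime] {x : F}
    (hx : IsIntegral ↥(locSubring (B0 R τ) n) x) : x ∈ locSubring (B0 R τ) n :=
  mem_locSubring_of_isIntegral (fun _ h => mem_B0_of_isIntegral h) hx

/-- `R → B0 R τ`. -/
noncomputable def algB0 (R : Type*) [CommRing R] {F : Type*} [Field F] [Algebra R F] (τ : F) :
    R →+* ↥(B0 R τ) :=
  (algebraMap R F).codRestrict (B0 R τ) (fun r => algebraMap_mem_B0 r)

/-- `R[X] → B0 R τ`, `X ↦ τ`. -/
noncomputable def polyB0 (R : Type*) [CommRing R] {F : Type*} [Field F] [Algebra R F] (τ : F) :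
    R[X] →+* ↥(B0 R τ) :=
  RingHom.codRestrict ((aeval τ : R[X] →ₐ[R] F) : R[X] →+* F) (B0 R τ) (fun p => aeval_mem_B0 p)

theorem coe_polyB0 (p : R[X]) : ((polyB0 R τ p : ↥(B0 R τ)) : F) = aeval τ p := rfl

theorem polyB0_C (r : R) : polyB0 R τ (C r) = algB0 R τ r :=
  Subtype.ext (by rw [coe_polyB0, aeval_C]; rfl)

theorem polyB0_isIntegral : (polyB0 R τ).IsIntegral := by
  intro b
  obtain ⟨q, hq, hqb⟩ := (isIntegral_adjoin_iff τ (b : F)).mp (mem_B0.mp b.2)
  refine ⟨q, hq, ?_⟩
  apply Subtype.ext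
  have := Polynomial.hom_eval₂ q (polyB0 R τ) (B0 R τ).subtype b
  rw [Subring.coe_subtype] at this
  rw [this]
  exact hqb

variable {π : R}

/-- For a maximal ideal `n ∋ π` of `B0 R τ` there is a monic `g : R[X]` with `g(τ) ∈ n`
(the residue of `τ` is algebraic over `R ⧸ π`). -/
theorem exists_monic_mem (hπ : (Ideal.span {π} : Ideal R).IsMaximal) (n : Ideal ↥(B0 R τ))
    [n.IsMaximal] (hπn : algB0 R τ π ∈ n) : ∃ g : R[X], g.Monic ∧ polyB0 R τ g ∈ n := by
  letI := Ideal.Quotient.field n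
  letI : Field (R ⧸ Ideal.span {π}) := Ideal.Quotient.field _
  set θ : R[X] →+* ↥(B0 R τ) ⧸ n := (Ideal.Quotient.mk n).comp (polyB0 R τ) with hθ
  have hθint : θ.IsIntegral :=
    RingHom.IsIntegral.trans _ _ polyB0_isIntegral
      (RingHom.isIntegral_of_surjective _ Ideal.Quotient.mk_surjective)
  -- `𝔪 := ker θ` is maximal
  letI : Algebra R[X] (↥(B0 R τ) ⧸ n) := θ.toAlgebra
  haveI : Algebra.IsIntegral R[X] (↥(B0 R τ) ⧸ n) := ⟨hθint⟩
  have hmax : (RingHom.ker θ).IsMaximal :=
    Ideal.isMaximal_comap_of_isIntegral_of_isMaximal (R := R[X]) (⊥ : Ideal (↥(B0 R τ) ⧸ n))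
  have hπm : C π ∈ RingHom.ker θ := by
    rw [RingHom.mem_ker, hθ, RingHom.comp_apply, polyB0_C]
    exact Ideal.Quotient.eq_zero_iff_mem.mpr hπn
  -- pass to `κ[X]`
  set μ : R[X] →+* (R ⧸ Ideal.span {π})[X] := Polynomial.mapRingHom (Ideal.Quotient.mk _) with hμ
  have hμsurj : Function.Surjective μ :=
    Polynomial.map_surjective _ Ideal.Quotient.mk_surjective
  have hker : RingHom.ker μ ≤ RingHom.ker θ := by
    intro p hp
    rw [hμ, Polynomial.ker_mapRingHom, Ideal.mk_ker] at hp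
    -- `p ∈ map C (span {π}) = span {C π}`
    rw [Ideal.map_span, Set.image_singleton] at hp
    obtain ⟨q, rfl⟩ := Ideal.mem_span_singleton.mp hp
    exact Ideal.mul_mem_right _ _ hπm
  have hmax' : (Ideal.map μ (RingHom.ker θ)).IsMaximal := by
    rcases Ideal.map_eq_top_or_isMaximal_of_surjective μ hμsurj hmax with h | h
    · exfalso
      have h2 : Ideal.comap μ (Ideal.map μ (RingHom.ker θ)) = RingHom.ker θ := by
        rw [Ideal.comap_map_of_surjective μ hμsurj]
        exact sup_eq_left.mpr (by rwa [← RingHom.ker_eq_comap_bot])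
      rw [h, Ideal.comap_top] at h2
      exact hmax.ne_top h2.symm
    · exact h
  have hne : Ideal.map μ (RingHom.ker θ) ≠ ⊥ :=
    Ring.ne_bot_of_isMaximal_of_not_isField hmax' (Polynomial.not_isField _)
  obtain ⟨gb, hgb, hgb0⟩ := Submodule.exists_mem_ne_zero_of_ne_bot hne
  -- normalise
  set gm := gb * C (gb.leadingCoeff)⁻¹ with hgm
  have hgmm : gm.Monic := Polynomial.monic_mul_leadingCoeff_inv hgb0
  have hgmmem : gm ∈ Ideal.map μ (RingHom.ker θ) := Ideal.mul_mem_right _ _ hgb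
  obtain ⟨g, hg, -, hgmonic⟩ := Polynomial.lifts_and_natDegree_eq_and_monic
    (Polynomial.mem_lifts_of_surjective Ideal.Quotient.mk_surjective gm) hgmm
  refine ⟨g, hgmonic, ?_⟩
  have hgker : g ∈ RingHom.ker θ := by
    have h2 : Ideal.comap μ (Ideal.map μ (RingHom.ker θ)) = RingHom.ker θ := by
      rw [Ideal.comap_map_of_surjective μ hμsurj]
      exact sup_eq_left.mpr (by rwa [← RingHom.ker_eq_comap_bot])
    rw [← h2, Ideal.mem_comap]
    change g.map _ ∈ _
    rw [hg]
    exact hgmmem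
  exact Ideal.Quotient.eq_zero_iff_mem.mp hgker

/-- The residue field of a closed point `n ∋ π` of `B0 R τ` is integral over `R`. -/
theorem isIntegralElem_quot_B0 (hπ : (Ideal.span {π} : Ideal R).IsMaximal)
    (n : Ideal ↥(B0 R τ)) [n.IsMaximal] (hπn : algB0 R τ π ∈ n) (k : ↥(B0 R τ) ⧸ n) :
    ((Ideal.Quotient.mk n).comp (algB0 R τ)).IsIntegralElem k := by
  obtain ⟨g, hg, hgn⟩ := exists_monic_mem hπ n hπn
  set ψ : R →+* ↥(B0 R τ) ⧸ n := (Ideal.Quotient.mk n).comp (algB0 R τ) with hψ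
  set θ : R[X] →+* ↥(B0 R τ) ⧸ n := (Ideal.Quotient.mk n).comp (polyB0 R τ) with hθ
  have hθint : θ.IsIntegral :=
    RingHom.IsIntegral.trans _ _ polyB0_isIntegral
      (RingHom.isIntegral_of_surjective _ Ideal.Quotient.mk_surjective)
  letI a1 : Algebra R (↥(B0 R τ) ⧸ n) := ψ.toAlgebra
  set τb : ↥(B0 R τ) ⧸ n := Ideal.Quotient.mk n ⟨τ, tau_mem_B0⟩ with hτb
  -- `θ = aeval τb`
  have hθe : ∀ p : R[X], θ p = aeval τb p := by
    intro p
    have h1 : θ = ((aeval τb : R[X] →ₐ[R] _) : R[X] →+* _) := by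
      refine Polynomial.ringHom_ext (fun r => ?_) ?_
      · change θ (C r) = aeval τb (C r)
        rw [aeval_C, hθ, RingHom.comp_apply, polyB0_C]
        rfl
      · change θ X = aeval τb X
        rw [aeval_X, hθ, RingHom.comp_apply]
        congr 1
        exact Subtype.ext (by rw [coe_polyB0, aeval_X])
    rw [h1]
    rfl
  -- `τb` is integral over `R`
  have hτint : IsIntegral R τb := ⟨g, hg, by
    have := hθe g
    rw [hθ, RingHom.comp_apply, Ideal.Quotient.eq_zero_iff_mem.mpr hgn] at this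
    rw [← aeval_def]
    exact this.symm⟩
  haveI : Algebra.IsIntegral R (Algebra.adjoin R {τb}) :=
    Algebra.IsIntegral.adjoin (by
      intro x hx
      rw [Set.mem_singleton_iff.mp hx]
      exact hτint)
  -- `k` is integral over `R[τb]`
  obtain ⟨q, hq, hqk⟩ := hθint k
  let θ' : R[X] →+* Algebra.adjoin R {τb} := RingHom.codRestrict θ (Algebra.adjoin R {τb})
    (fun p => by
      rw [hθe, Algebra.adjoin_singleton_eq_range_aeval]
      exact ⟨p, rfl⟩)
  have hk : IsIntegral (Algebra.adjoin R {τb}) k := by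
    refine ⟨q.map θ', hq.map θ', ?_⟩
    rw [eval₂_map]
    exact hqk
  exact isIntegral_trans (R := R) (A := Algebra.adjoin R {τb}) k hk

/-- For a subring `Bs ⊆ B_n` of `F` containing the image of `R`, the contraction
`n B_n ∩ Bs` is a maximal ideal of `Bs`. -/
theorem contract_isMaximal_B0 (hπ : (Ideal.span {π} : Ideal R).IsMaximal)
    (n : Ideal ↥(B0 R τ)) [n.IsMaximal] (hπn : algB0 R τ π ∈ n)
    {Bs : Subring F} (h3 : ∀ y : Bs, InLoc (B0 R τ) n (y : F))
    (hRBs : ∀ r : R, algebraMap R F r ∈ Bs) :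
    (contract (n := n) h3).IsMaximal :=
  contract_isMaximal h3 (algebraMap R F) (fun r => algebraMap_mem_B0 r) hRBs
    (fun k => isIntegralElem_quot_B0 hπ n hπn k)

end Fermat.Agent.S37.Local.ChartClosedPoint
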