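import Mathlib
import Fermat.Agent.S37.Local.ChartEq
import Fermat.Agent.S37.Descent.Rational
import Fermat.Agent.S18.ConstExt.Restrict

/-!
# S37 (L-B3): local equations and the unit criterion, pushed up along a constant field extension

GENERIC part: `L1 ⊆ K` fields, `F1/L1`, `F/K` function fields, `up : F1 →+* F`,
`down : Place K F → Place L1 F1` with `ord_P (up x) = ord_{down P} x` and `down` onto.  `A1` a
discrete valuation subring of `L1`, `h : CoordData A1 π O τ` a chart bundle for `F1` (G's INST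
layer), `T` a finite set of closed points of the chart `B0 A1 τ` with `LocalGen`.

* `exists_localEq_up` (LE): a `K`-place `P` which is the only extension of `down P`, and such that
  `down P` passes through `T`, has a local equation `g ∈ B0 A1 τ`: `up g` has order `1` at `P` and
  order `0` at every other `K`-place whose restriction passes through `T`.
* `exists_frac_up` (UN): a Gauss unit `z ∈ F1` such that `up z` has order `0` at all `K`-places
  whose restriction passes through `T` is a fraction of two elements of the chart outside `T`.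

CONCRETE part (`Kb = ℚ̄`, `F1 = laurentBaseChange L1 F₀`, `F = laurentBaseChange Kb F₀`, helper26's
`up`/`down`): `DeterminedOver.eq_of_down_eq`, `isAlgebraic_Kb`.
-/

set_option autoImplicit false

open HahnSeries AlgebraicCurve ModularCurve IntermediateField

namespace Fermat.Agent.S37.Local.ChartEqUp

open Fermat.Agent.S18.Core.Charts Fermat.Agent.S18.Core.StartB0
open Fermat.Agent.S18.Inst.Bundle
open Fermat.Agent.S37.Local.ChartDict Fermat.Agent.S37.Local.ChartEq

set_option linter.unusedSectionVars false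
set_option linter.style.haveILetI false

section Generic

variable {L1 F1 : Type*} [Field L1] [CharZero L1] [Field F1] [Algebra L1 F1]
  {A1 : ValuationSubring L1} [IsDiscreteValuationRing A1] {π : A1}
  {O : ValuationSubring F1} {τ : F1}
  {K F : Type*} [Field K] [Field F] [Algebra K F]
  (up : F1 →+* F) (down : Place K F → Place L1 F1)

/-- membership in the centre of a restricted place, in terms of the big place -/
theorem mem_primeOfPlace_down_iff (hord : ∀ (P : Place K F) (x : F1), P.ord (up x) = (down P).ord x)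
    (P : Place K F) (hτ : τ ∈ (down P).toValuationSubring) {b : ↥(B0 ↥A1 τ)} (hb : b ≠ 0) :
    b ∈ primeOfPlace ↥A1 (down P) hτ ↔ 0 < P.ord (up (b : F1)) := by
  rw [mem_primeOfPlace_iff_ord_pos _ hτ hb, hord]

/-- **(LE), pushed up.** -/
theorem exists_localEq_up (hord : ∀ (P : Place K F) (x : F1), P.ord (up x) = (down P).ord x)
    (h : CoordData A1 π O τ) (T : Finset (Ideal ↥(B0 ↥A1 τ)))
    (hT : ∀ n ∈ T, n.IsMaximal ∧ piB0 ↥A1 π τ ∈ n ∧
      ∃ θ ∈ n, ∀ x ∈ n, ∃ s, s ∉ n ∧ s * x ∈ Ideal.span {piB0 ↥A1 π τ, θ})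
    (P : Place K F) (hdet : ∀ P' : Place K F, down P' = down P → P' = P)
    (hτ : τ ∈ (down P).toValuationSubring)
    (hPT : ∃ n ∈ T, primeOfPlace ↥A1 (down P) hτ ≤ n) :
    ∃ g : ↥(B0 ↥A1 τ), O.valuation (g : F1) = 1 ∧ P.ord (up (g : F1)) = 1 ∧
      ∀ (P' : Place K F), P' ≠ P → ∀ hτ' : τ ∈ (down P').toValuationSubring,
        (∃ n ∈ T, primeOfPlace ↥A1 (down P') hτ' ≤ n) → P'.ord (up (g : F1)) = 0 := by
  obtain ⟨g, hg1, hg2, hg3⟩ := exists_localEq_place_of_coordData h T hT _ hτ hPT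
  refine ⟨g, hg1, by rw [hord]; exact hg2, fun P' hne hτ' hP'T => ?_⟩
  rw [hord]
  exact hg3 _ hτ' (fun heq => hne (hdet P' heq)) hP'T

/-- **(UN), pushed up.** -/
theorem exists_frac_up (hord : ∀ (P : Place K F) (x : F1), P.ord (up x) = (down P).ord x)
    (hsurj : ∀ P1 : Place L1 F1, ∃ P : Place K F, down P = P1)
    (h : CoordData A1 π O τ) (T : Finset (Ideal ↥(B0 ↥A1 τ)))
    (hT : ∀ n ∈ T, n.IsMaximal ∧ piB0 ↥A1 π τ ∈ n ∧
      ∃ θ ∈ n, ∀ x ∈ n, ∃ s, s ∉ n ∧ s * x ∈ Ideal.span {piB0 ↥A1 π τ, θ})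
    (z : F1) (hz : O.valuation z = 1)
    (hunit : ∀ (P : Place K F) (hτ : τ ∈ (down P).toValuationSubring),
      (∃ n ∈ T, primeOfPlace ↥A1 (down P) hτ ≤ n) → P.ord (up z) = 0) :
    ∃ a s : ↥(B0 ↥A1 τ), (∀ n ∈ T, a ∉ n) ∧ (∀ n ∈ T, s ∉ n) ∧ z * (s : F1) = (a : F1) := by
  refine exists_frac_of_forall_place_of_coordData h T hT z hz (fun P1 hτ hP1T => ?_)
  obtain ⟨P, rfl⟩ := hsurj P1
  rw [← hord]
  exact hunit P hτ hP1T

end Generic

section Concrete

open Fermat.Agent.S18.ConstExt Fermat.Agent.S37.Descent.Rational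

local notation "Kb" => AlgebraicClosure ℚ

/-- `ℚ̄` is algebraic over every intermediate field (for the instances used by `down`). -/
theorem isAlgebraic_Kb (L1 : IntermediateField ℚ Kb) : Algebra.IsAlgebraic ↥L1 Kb :=
  haveI : Algebra.IsAlgebraic ℚ Kb := AlgebraicClosure.isAlgebraic ℚ
  Algebra.IsAlgebraic.tower_top (K := ℚ) ↥L1

attribute [local instance] isAlgebraic_Kb

variable {F₀ : IntermediateField ℚ (LaurentSeries ℚ)} {L1 : IntermediateField ℚ Kb}

/-- A place determined over `L1` is the only extension of its restriction to `F_{L1}`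
(= the hypothesis `hdet` of `exists_localEq_up` for `down := ConstExt.down F₀`). -/
theorem DeterminedOver.eq_of_down_eq {P P' : Place Kb (laurentBaseChange Kb F₀)}
    (hP : DeterminedOver F₀ L1 P) (h : down (L1 := L1) F₀ P' = down (L1 := L1) F₀ P) :
    P' = P :=
  hP P' (fun x => by rw [ord_up, ord_up, h])

theorem DeterminedOver.down_eq_iff {P P' : Place Kb (laurentBaseChange Kb F₀)}
    (hP : DeterminedOver F₀ L1 P) :
    down (L1 := L1) F₀ P' = down (L1 := L1) F₀ P ↔ P' = P :=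
  ⟨fun h => DeterminedOver.eq_of_down_eq hP h, fun h => by rw [h]⟩

set_option synthInstance.maxHeartbeats 400000 in
set_option maxHeartbeats 1000000 in
/-- **(LE), pushed up**, for helper26's `up`/`down` and a place determined over `L1`. -/
theorem exists_localEq_up_laurent {A1 : ValuationSubring L1} [IsDiscreteValuationRing A1]
    {π : A1} {O : ValuationSubring (laurentBaseChange L1 F₀)} {τ : laurentBaseChange L1 F₀}
    (h : CoordData A1 π O τ) (T : Finset (Ideal ↥(B0 ↥A1 τ)))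
    (hT : ∀ n ∈ T, n.IsMaximal ∧ piB0 ↥A1 π τ ∈ n ∧
      ∃ θ ∈ n, ∀ x ∈ n, ∃ s, s ∉ n ∧ s * x ∈ Ideal.span {piB0 ↥A1 π τ, θ})
    (P : Place Kb (laurentBaseChange Kb F₀)) (hdet : DeterminedOver F₀ L1 P)
    (hτ : τ ∈ (down (L1 := L1) F₀ P).toValuationSubring)
    (hPT : ∃ n ∈ T, primeOfPlace ↥A1 (down (L1 := L1) F₀ P) hτ ≤ n) :
    ∃ g : ↥(B0 ↥A1 τ), O.valuation (g : laurentBaseChange L1 F₀) = 1 ∧
      P.ord (up F₀ (g : laurentBaseChange L1 F₀)) = 1 ∧
      ∀ (P' : Place Kb (laurentBaseChange Kb F₀)), P' ≠ P →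
        ∀ hτ' : τ ∈ (down (L1 := L1) F₀ P').toValuationSubring,
        (∃ n ∈ T, primeOfPlace ↥A1 (down (L1 := L1) F₀ P') hτ' ≤ n) →
        P'.ord (up F₀ (g : laurentBaseChange L1 F₀)) = 0 :=
  exists_localEq_up (up F₀) (down (L1 := L1) F₀) (fun P x => ord_up F₀ P x) h T hT P
    (fun _ h' => DeterminedOver.eq_of_down_eq hdet h') hτ hPT

set_option synthInstance.maxHeartbeats 400000 in
set_option maxHeartbeats 1000000 in
/-- **(UN), pushed up**, for helper26's `up`/`down`. -/
theorem exists_frac_up_laurent {A1 : ValuationSubring L1} [IsDiscreteValuationRing A1]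
    {π : A1} {O : ValuationSubring (laurentBaseChange L1 F₀)} {τ : laurentBaseChange L1 F₀}
    (h : CoordData A1 π O τ) (T : Finset (Ideal ↥(B0 ↥A1 τ)))
    (hT : ∀ n ∈ T, n.IsMaximal ∧ piB0 ↥A1 π τ ∈ n ∧
      ∃ θ ∈ n, ∀ x ∈ n, ∃ s, s ∉ n ∧ s * x ∈ Ideal.span {piB0 ↥A1 π τ, θ})
    (z : laurentBaseChange L1 F₀) (hz : O.valuation z = 1)
    (hunit : ∀ (P : Place Kb (laurentBaseChange Kb F₀))
      (hτ : τ ∈ (down (L1 := L1) F₀ P).toValuationSubring),
      (∃ n ∈ T, primeOfPlace ↥A1 (down (L1 := L1) F₀ P) hτ ≤ n) → P.ord (up F₀ z) = 0) :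
    ∃ a s : ↥(B0 ↥A1 τ), (∀ n ∈ T, a ∉ n) ∧ (∀ n ∈ T, s ∉ n) ∧
      z * (s : laurentBaseChange L1 F₀) = (a : laurentBaseChange L1 F₀) :=
  exists_frac_up (up F₀) (down (L1 := L1) F₀) (fun P x => ord_up F₀ P x)
    (fun P1 => exists_down_eq (K := Kb) F₀ P1) h T hT z hz hunit

end Concrete

end Fermat.Agent.S37.Local.ChartEqUp
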