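import Mathlib
import Fermat.Agent.S37.Local.ChartJInst
import Fermat.Agent.S18.Inst.LevelDown

/-!
# S37 (GLUE), level `9 ∣ M`: from the Kummer shape of the cusp statements to the `J`-chart

The level-9 cusp layer of S18 (`Cusp/Level9CuspGauss.hloc9_fin / hloc9_inf`, `Cusp/Level9Cusp*`)
produces the four Kummer statements in the shape of `Final/Level9.localOK9_of_kummer`
(uniform exponent `∃ k, ∀ z`, cover polynomials `(g9 r i).comp (X - C (a9 r i))`,
`Ginf9.comp (X - C 0)` on `B0 A t⁻¹`), in the spelling `LevelDown.coordData9'` / `rho4` / `t9el`.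
The `J`-chart glue of S37 (`ChartJInst.localGen_chartJ9_of_hloc`) consumes the shape of
`Final/Level9Gen.localGen9` (`∀ z, ∃ k b`, cover polynomials `G9 r i`, `Ginf9` on `B1 A t`), in
the spelling `Level9Final.coordData9` / `rho9` / `tEl`.  This file is the adapter.

* `hloc0_of_kummer`, `hlocinf_of_kummer` : generic (any `CoordData`);
* `hloc0_level9`, `hlocinf_level9` : the two hypotheses of `ChartJInst.localGen_chartJ9_of_hloc`
  verbatim, from the Kummer shape at `(coordData9', rho4, t9el)`;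
* `localGen_chartJ9_of_kummer` : `LocalGen` at every closed point over `π` of the `J`-chart
  `B0 A (J - b)⁻¹`, from the four Kummer statements.
-/

set_option autoImplicit false
set_option linter.style.haveILetI false
set_option linter.unusedSectionVars false
set_option linter.unusedVariables false
set_option synthInstance.maxHeartbeats 400000

noncomputable section

namespace Fermat.Agent.S37.Local.ChartJKummer9

open Polynomial IsLocalRing IntermediateField ModularCurve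
open Fermat.Agent.S18.Core.Charts Fermat.Agent.S18.Core Fermat.Agent.S18.Core.StartB0
open Fermat.Agent.S18.Cusp Fermat.Agent.S18.Cusp.ChartLocalOK
open Fermat.Agent.S18.Inst.Bundle Fermat.Agent.S18.Gauss
open Fermat.Agent.S18.Final.Level9 Fermat.Agent.S18.Cusp.Level9Poly
open Fermat.Agent.S37.Local.CoordJ

section Generic

variable {L' : Type*} [Field L'] {A' : ValuationSubring L'}
  {F' : Type*} [Field F'] [Algebra L' F'] {ϖ : A'}
  {O' : ValuationSubring F'} {t : F'} {E' : Type*} [Field E']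

/-- the three finite cusp values: from the Kummer shape to the shape of `localGen9`. -/
theorem hloc0_of_kummer (h : CoordData A' ϖ O' t) {r : A'} (hr : r ^ 2 + 9 * r + 27 = 0)
    (ρ : ↥O' →+* E')
    (hloc0 : ∀ i, ∃ k : ℕ, ∀ z : E', IsIntegral (resB0 h.good ρ).range z →
      ∃ b : ↥(B0 ↥A' t),
        resB0 h.good ρ ⟨aeval t ((g9 r i).comp (X - C (a9 r i))), aeval_mem_B0 _⟩ ^ k * z =
          resB0 h.good ρ b) :
    ∀ i, ∀ z : E', IsIntegral (resB0 h.good ρ).range z →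
      ∃ (k : ℕ) (b : ↥(B0 ↥A' t)),
        resB0 h.good ρ ⟨aeval t (G9 r i), aeval_mem_B0 (G9 r i)⟩ ^ k * z = resB0 h.good ρ b := by
  intro i z hz
  obtain ⟨k, hk⟩ := hloc0 i
  obtain ⟨b, hb⟩ := hk z hz
  refine ⟨k, b, ?_⟩
  have e1 : (⟨aeval t (G9 r i), aeval_mem_B0 (G9 r i)⟩ : ↥(B0 ↥A' t)) =
      ⟨aeval t ((g9 r i).comp (X - C (a9 r i))), aeval_mem_B0 _⟩ :=
    Subtype.ext (by rw [g9_comp hr i])
  rw [e1]
  exact hb

/-- the cusp `∞`: from the Kummer shape (chart `B0 A t⁻¹`) to the shape of `localGen9`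
(chart `B1 A t`). -/
theorem hlocinf_of_kummer (h : CoordData A' ϖ O' t) (ρ : ↥O' →+* E')
    (hlocinf : ∃ k : ℕ, ∀ z : E', IsIntegral (resB0 h.good.inv ρ).range z →
      ∃ b : ↥(B0 ↥A' t⁻¹),
        resB0 h.good.inv ρ
          ⟨aeval t⁻¹ ((Ginf9 : (↥A')[X]).comp (X - C 0)), aeval_mem_B0 _⟩ ^ k * z =
          resB0 h.good.inv ρ b) :
    ∀ z : E', IsIntegral (resB1 h.good ρ).range z →
      ∃ (k : ℕ) (b : ↥(B1 ↥A' t)),
        resB1 h.good ρ ⟨aeval t⁻¹ (Ginf9 : (↥A')[X]), aeval_mem_B0 Ginf9⟩ ^ k * z =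
          resB1 h.good ρ b := by
  intro z hz
  obtain ⟨k, hk⟩ := hlocinf
  obtain ⟨b, hb⟩ := hk z hz
  refine ⟨k, b, ?_⟩
  have e1 : (⟨aeval t⁻¹ (Ginf9 : (↥A')[X]), aeval_mem_B0 Ginf9⟩ : ↥(B0 ↥A' t⁻¹)) =
      ⟨aeval t⁻¹ ((Ginf9 : (↥A')[X]).comp (X - C 0)), aeval_mem_B0 _⟩ :=
    Subtype.ext (by rw [Ginf9_comp])
  change resB0 h.good.inv ρ ⟨aeval t⁻¹ (Ginf9 : (↥A')[X]), aeval_mem_B0 Ginf9⟩ ^ k * z =
    resB0 h.good.inv ρ b
  rw [e1]
  exact hb

end Generic

/-! ### the concrete level `9 ∣ M` -/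

section Level9

open Fermat.Agent.S18.Inst.Level9Final Fermat.Agent.S18.Inst.LevelDown
  Fermat.Agent.S18.Inst.Level4Final

variable {L : Type*} [Field L] [Algebra ℚ L] {M : ℕ} [NeZero M]
  (A : ValuationSubring L) {ℓ : ℕ} [Fact ℓ.Prime] [CharP (ResidueField A) ℓ] (hℓM : ¬ ℓ ∣ M)
  (h9 : 9 ∣ M)

/-- `hloc0` of `ChartJInst.localGen_chartJ9_of_hloc`, verbatim, from the Kummer shape at
`(LevelDown.coordData9', rho4, t9el)`. -/
theorem hloc0_level9 [IsDiscreteValuationRing A] {π : A} (hπ : Irreducible π)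
    {r : A} (hr : r ^ 2 + 9 * r + 27 = 0)
    (hloc0 : ∀ i, ∃ k : ℕ, ∀ z : ↥(modularFunctionFieldFullC (ResidueField A) M),
      IsIntegral (resB0 (coordData9' A hℓM h9 hπ).good (rho4 A hℓM)).range z →
      ∃ b : ↥(B0 ↥A (Fermat.Agent.S18.Inst.Level9.t9el (L := L) M h9)),
        resB0 (coordData9' A hℓM h9 hπ).good (rho4 A hℓM)
          ⟨aeval (Fermat.Agent.S18.Inst.Level9.t9el (L := L) M h9)
            ((g9 r i).comp (X - C (a9 r i))), aeval_mem_B0 _⟩ ^ k * z =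
          resB0 (coordData9' A hℓM h9 hπ).good (rho4 A hℓM) b) :
    ∀ i, ∀ z : ↥(modularFunctionFieldFullC (ResidueField A) M),
      IsIntegral (resB0 (coordData9 h9 A hℓM hπ).good (rho9 A hℓM)).range z →
      ∃ (k : ℕ) (b : ↥(B0 ↥A (tEl (L := L) M h9))),
        resB0 (coordData9 h9 A hℓM hπ).good (rho9 A hℓM)
          ⟨aeval (tEl (L := L) M h9) (G9 r i), aeval_mem_B0 (G9 r i)⟩ ^ k * z =
          resB0 (coordData9 h9 A hℓM hπ).good (rho9 A hℓM) b :=
  hloc0_of_kummer (coordData9' A hℓM h9 hπ) hr (rho4 A hℓM) hloc0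

/-- `hlocinf` of `ChartJInst.localGen_chartJ9_of_hloc`, verbatim, from the Kummer shape. -/
theorem hlocinf_level9 [IsDiscreteValuationRing A] {π : A} (hπ : Irreducible π)
    (hlocinf : ∃ k : ℕ, ∀ z : ↥(modularFunctionFieldFullC (ResidueField A) M),
      IsIntegral (resB0 (coordData9' A hℓM h9 hπ).good.inv (rho4 A hℓM)).range z →
      ∃ b : ↥(B0 ↥A (Fermat.Agent.S18.Inst.Level9.t9el (L := L) M h9)⁻¹),
        resB0 (coordData9' A hℓM h9 hπ).good.inv (rho4 A hℓM)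
          ⟨aeval (Fermat.Agent.S18.Inst.Level9.t9el (L := L) M h9)⁻¹
            ((Ginf9 : (↥A)[X]).comp (X - C 0)), aeval_mem_B0 _⟩ ^ k * z =
          resB0 (coordData9' A hℓM h9 hπ).good.inv (rho4 A hℓM) b) :
    ∀ z : ↥(modularFunctionFieldFullC (ResidueField A) M),
      IsIntegral (resB1 (coordData9 h9 A hℓM hπ).good (rho9 A hℓM)).range z →
      ∃ (k : ℕ) (b : ↥(B1 ↥A (tEl (L := L) M h9))),
        resB1 (coordData9 h9 A hℓM hπ).good (rho9 A hℓM)
          ⟨aeval (tEl (L := L) M h9)⁻¹ (Ginf9 : (↥A)[X]), aeval_mem_B0 Ginf9⟩ ^ k * z =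
          resB1 (coordData9 h9 A hℓM hπ).good (rho9 A hℓM) b :=
  hlocinf_of_kummer (coordData9' A hℓM h9 hπ) (rho4 A hℓM) hlocinf

/-- **`LocalGen` on the `J`-chart at level `9 ∣ M` from the four Kummer statements** in the shape
produced by the S18 cusp layer. -/
theorem localGen_chartJ9_of_kummer [IsDiscreteValuationRing A] {π : A} (hπ : Irreducible π)
    (b : A) {r : A} (hr : r ^ 2 + 9 * r + 27 = 0)
    (hloc0 : ∀ i, ∃ k : ℕ, ∀ z : ↥(modularFunctionFieldFullC (ResidueField A) M),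
      IsIntegral (resB0 (coordData9' A hℓM h9 hπ).good (rho4 A hℓM)).range z →
      ∃ b : ↥(B0 ↥A (Fermat.Agent.S18.Inst.Level9.t9el (L := L) M h9)),
        resB0 (coordData9' A hℓM h9 hπ).good (rho4 A hℓM)
          ⟨aeval (Fermat.Agent.S18.Inst.Level9.t9el (L := L) M h9)
            ((g9 r i).comp (X - C (a9 r i))), aeval_mem_B0 _⟩ ^ k * z =
          resB0 (coordData9' A hℓM h9 hπ).good (rho4 A hℓM) b)
    (hlocinf : ∃ k : ℕ, ∀ z : ↥(modularFunctionFieldFullC (ResidueField A) M),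
      IsIntegral (resB0 (coordData9' A hℓM h9 hπ).good.inv (rho4 A hℓM)).range z →
      ∃ b : ↥(B0 ↥A (Fermat.Agent.S18.Inst.Level9.t9el (L := L) M h9)⁻¹),
        resB0 (coordData9' A hℓM h9 hπ).good.inv (rho4 A hℓM)
          ⟨aeval (Fermat.Agent.S18.Inst.Level9.t9el (L := L) M h9)⁻¹
            ((Ginf9 : (↥A)[X]).comp (X - C 0)), aeval_mem_B0 _⟩ ^ k * z =
          resB0 (coordData9' A hℓM h9 hπ).good.inv (rho4 A hℓM) b) :
    ∀ n : Ideal ↥(B0 ↥A (tauB A M b)), n.IsMaximal → piB0 ↥A π (tauB A M b) ∈ n →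
      NormalBridge.LocalGen (piB0 ↥A π (tauB A M b)) n :=
  Fermat.Agent.S37.Local.ChartJInst.localGen_chartJ9_of_hloc A hℓM h9 hπ b hr
    (hloc0_level9 A hℓM h9 hπ hr hloc0) (hlocinf_level9 A hℓM h9 hπ hlocinf)

end Level9

end Fermat.Agent.S37.Local.ChartJKummer9
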