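import Mathlib
import Fermat.Agent.S18.Inst.GaussChart
import Fermat.Agent.S37.Key.ResExplicit
import Fermat.Agent.S37.Key.Main
import Fermat.Agent.S37.Local.LocalEq
import Fermat.Agent.S37.Local.SBridge

/-!
# S37 (L-C adapter, part ii): the Gauss valuation and `resHom` in the shapes of `Local/LocalEq`

`Local/LocalEq.lean` proves (LE)/(UN) for an arbitrary valuation subring `O` of `F_M` and an
arbitrary reduction homomorphism `rH : O →+* E`.  Here we record, for
`O := ResExplicit.gaussVS M A hℓM`, `rH := ResExplicit.resHom M A hℓM`,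
`E := F_{M,k}`, the side conditions of `LocalEq.ord_res_eq_zero_jbar` (`hker`, `hAO`, `hconst`,
`hJO`, `hJb`), the dictionary `IsU z ↔ O.valuation z = 1`, `res z = rH ⟨z, _⟩`,
`rH J = jBar`, and deduce `Main.LEForm` / `Main.UNForm` from the chart hypothesis `HasChart`.
-/

set_option autoImplicit false

noncomputable section

namespace Fermat.Agent.S37.Local.ResHomFacts

open AlgebraicCurve ModularCurve IsLocalRing
open Fermat.Agent.S18.Gauss.Basic Fermat.Agent.S18.Gauss.ScalableFull
open Fermat.Agent.S18.Trans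
open Fermat.Agent.S18.Descent (restrict)
open Fermat.Agent.S24
open Fermat.Agent.S24.BridgeInv (Kbar FF)
open Fermat.Agent.S24.PlaceAt (J)
open Fermat.Agent.S37.Key Fermat.Agent.S37.Key.GaussUnitsFull Fermat.Agent.S37.Key.ResExplicit
open Fermat.Agent.S37.Support Fermat.Agent.S37.Support.JModular Fermat.Agent.S37.Support.ThrS
  Fermat.Agent.S37.Support.ThrTK
open Fermat.Agent.S37.Local Fermat.Agent.S37.Local.LocalEq

set_option synthInstance.maxHeartbeats 400000

variable (M : ℕ) [NeZero M]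
variable (A : ValuationSubring Kbar) {ℓ : ℕ} [Fact ℓ.Prime] [CharP (ResidueField A) ℓ]
variable (hℓM : ¬ ℓ ∣ M)

/-! ### units -/

/-- **Gauss units are the elements of Gauss valuation `1`.** -/
theorem isU_iff_valuation_eq_one {z : FF M} :
    IsU M A hℓM z ↔ (gaussVS M A hℓM).valuation z = 1 := by
  constructor
  · intro h
    obtain ⟨hz, hu⟩ := GaussUnits.isU_iff_isUnit.mp h
    exact ((gaussVS M A hℓM).valuation_eq_one_iff ⟨z, hz⟩).mp hu
  · intro h
    have hz : z ∈ gaussVS M A hℓM :=
      ((gaussVS M A hℓM).valuation_le_one_iff z).mp h.le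
    exact GaussUnits.isU_iff_isUnit.mpr
      ⟨hz, ((gaussVS M A hℓM).valuation_eq_one_iff ⟨z, hz⟩).mpr h⟩

theorem mem_gaussVS_of_valuation_eq_one {z : FF M}
    (h : (gaussVS M A hℓM).valuation z = 1) : z ∈ gaussVS M A hℓM :=
  ((gaussVS M A hℓM).valuation_le_one_iff z).mp h.le

/-! ### the side conditions of `LocalEq.ord_res_eq_zero_jbar` -/

/-- `hker` -/
theorem hker (x : gaussVS M A hℓM) :
    resHom M A hℓM x = 0 ↔ (gaussVS M A hℓM).valuation (x : FF M) < 1 := by
  rw [show (gaussVS M A hℓM).valuation (x : FF M) < 1 ↔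
      resMap (scalable_full M A hℓM) x = 0 from
    Fermat.Agent.S18.Inst.GaussChart.valuation_lt_one_iff (scalable_full M A hℓM) x]
  constructor
  · intro h
    have := congrArg Subtype.val h
    exact this
  · intro h
    exact Subtype.ext h

/-- `hAO` -/
theorem hAO (a : A) : algebraMap Kbar (FF M) (a : Kbar) ∈ gaussVS M A hℓM :=
  algebraMap_mem_gaussVS M A hℓM a

/-- `hconst` -/
theorem hconst (a : A) :
    resHom M A hℓM ⟨algebraMap Kbar (FF M) (a : Kbar), hAO M A hℓM a⟩ =
      algebraMap (ResidueField A) (modularFunctionFieldFullC (ResidueField A) M)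
        (residue A a) := by
  rw [← res_eq_resHom M A hℓM (hAO M A hℓM a)]
  exact res_algebraMap M A hℓM a

/-- `hJO` -/
theorem hJO : J M ∈ gaussVS M A hℓM := J_mem_gaussVS M A hℓM

/-- the reduction of `J` is `j̄` -/
theorem resHom_J : resHom M A hℓM ⟨J M, hJO M A hℓM⟩ = jBar (ResidueField A) M := by
  rw [← res_eq_resHom M A hℓM (hJO M A hℓM), res_J]
  rfl

/-- `hJb` -/
theorem hJb (c : ResidueField A) :
    resHom M A hℓM ⟨J M, hJO M A hℓM⟩ ≠
      algebraMap (ResidueField A) (modularFunctionFieldFullC (ResidueField A) M) c := by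
  rw [← res_eq_resHom M A hℓM (hJO M A hℓM), res_J]
  exact Jbar_ne_algebraMap (M := M) (ResidueField A) c

/-- the special-fibre test of `Main.UNForm` in the form of `LocalEq.ord_res_eq_zero_jbar` -/
theorem jValk_of_vK_mem [IsAlgClosed (ResidueField A)]
    (S : Finset (Option (ResidueField A)))
    (Q₀ : Place (ResidueField A) (modularFunctionFieldFullC (ResidueField A) M))
    (h : vK (ResidueField A) M Q₀ ∈ S) :
    ∃ s ∈ S, BRJ.JValk Q₀ (resHom M A hℓM ⟨J M, hJO M A hℓM⟩) s := by
  rw [resHom_J]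
  exact (SBridge.vK_mem_iff hℓM S Q₀).mp h

/-! ### `Main.LEForm` / `Main.UNForm` from the chart hypothesis -/

/-- the chart hypothesis for all `b`: for every `b ∈ A` there is a number field `L0` such that the
`J`-chart `B0 (A ∩ L1) τ_b` is a good chart (`LocalEq.HasChart`) over every number field
`L1 ⊇ L0`. -/
def Charts : Prop :=
  ∀ b : A, ∃ L0 : IntermediateField ℚ Kbar, FiniteDimensional ℚ L0 ∧
    ∀ L1 : IntermediateField ℚ Kbar, FiniteDimensional ℚ L1 → L0 ≤ L1 →
      HasChart (modularFunctionFieldFull M) A (gaussVS M A hℓM) (tauB M A b) L1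

/-- **(LE)** in the form of `Key/Main`. -/
theorem leForm_of_charts (hch : Charts M A hℓM) : Main.LEForm M ℓ A hℓM := by
  haveI := Fermat.Agent.S37.Kron.GaussNorm.isAlgClosed_residueField A
  haveI : Infinite (ResidueField A) := IsAlgClosed.instInfinite
  intro S _ P hP
  obtain ⟨b, hb⟩ := SBridge.exists_notMem A S
  obtain ⟨L0, hL0, hchart⟩ := hch b
  obtain ⟨g, hg, hgP, hg0⟩ :=
    exists_localEq_jbar (gaussVS M A hℓM) S b hb L0 hL0 hchart P hP
  exact ⟨g, (isU_iff_valuation_eq_one M A hℓM).mpr hg, hgP, hg0⟩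

/-- **(UN)** in the form of `Key/Main`. -/
theorem unForm_of_charts (hch : Charts M A hℓM) : Main.UNForm M ℓ A hℓM := by
  haveI := Fermat.Agent.S37.Kron.GaussNorm.isAlgClosed_residueField A
  haveI : Infinite (ResidueField A) := IsAlgClosed.instInfinite
  intro S _ z hz h0 Q₀ hQ₀
  obtain ⟨b, hb⟩ := SBridge.exists_notMem A S
  obtain ⟨L0, hL0, hchart⟩ := hch b
  have hz1 := (isU_iff_valuation_eq_one M A hℓM).mp hz
  have hzO := mem_gaussVS_of_valuation_eq_one M A hℓM hz1
  rw [res_eq_resHom M A hℓM hzO]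
  exact ord_res_eq_zero_jbar (gaussVS M A hℓM) S b hb (resHom M A hℓM) (hker M A hℓM)
    (hAO M A hℓM) (hconst M A hℓM) (hJO M A hℓM) (hJb M A hℓM) L0 hL0 hchart z hz1 h0 Q₀
    (jValk_of_vK_mem M A hℓM S Q₀ hQ₀) hzO

end Fermat.Agent.S37.Local.ResHomFacts
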