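import Mathlib
import Fermat.Agent.S37.Local.HasChartOf
import Fermat.Agent.S37.Local.ResHomFacts

/-!
# S37 (L-C adapter): `Main.LEForm` / `Main.UNForm` from the `C0`-guarded chart hypothesis

`ResHomFacts.Charts M A hℓM` (hence `Main.LEForm M ℓ A hℓM` and `Main.UNForm M ℓ A hℓM`) from the
two-generator form `LocalGen` at the closed points of the `J`-charts
`B0 (A ∩ L1) (CoordJ.tauB (A ∩ L1) M b1)` over all number fields `L1` containing a finite set `C0`
of constants (= the conclusion of `ChartJInst4.hchart4` / `ChartJInst9.hchart9`).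
-/

set_option autoImplicit false
set_option linter.unusedSectionVars false

open IntermediateField AlgebraicCurve ModularCurve IsLocalRing

namespace Fermat.Agent.S37.Local.ChartsOf

open Fermat.Agent.S18.Core.Charts Fermat.Agent.S18.Core.StartB0
open Fermat.Agent.S18.Descent (restrict)
open Fermat.Agent.S18.Cusp.NormalBridge (LocalGen)
open Fermat.Agent.S37.Key
open Fermat.Agent.S37.Local.HasChartOf Fermat.Agent.S37.Local.ResHomFacts

local notation "Kb" => AlgebraicClosure ℚ

set_option synthInstance.maxHeartbeats 400000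

variable (M : ℕ) [NeZero M] (A : ValuationSubring Kb) {ℓ : ℕ} [Fact ℓ.Prime]
  [CharP (ResidueField A) ℓ] (hA : A.LiesOverPrime ℓ) (hℓM : ¬ ℓ ∣ M)

include hA in
/-- the chart hypothesis of `ResHomFacts` from the `C0`-guarded `LocalGen` hypothesis -/
theorem charts_of_hchart (C0 : Finset Kb)
    (hchart : ∀ (L1 : IntermediateField ℚ Kb) [FiniteDimensional ℚ L1],
      (↑C0 : Set Kb) ⊆ (L1 : Set Kb) →
      ∀ (b1 : ↥(restrict A L1)) (π : ↥(restrict A L1)), Irreducible π →
      ∀ n : Ideal ↥(B0 ↥(restrict A L1) (CoordJ.tauB (restrict A L1) M b1)), n.IsMaximal →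
        piB0 ↥(restrict A L1) π (CoordJ.tauB (restrict A L1) M b1) ∈ n →
        LocalGen (piB0 ↥(restrict A L1) π (CoordJ.tauB (restrict A L1) M b1)) n) :
    Charts M A hℓM := fun b =>
  ⟨baseField A C0 b, finiteDimensional_baseField A C0 b,
    hasChart_of_hchart M A hA hℓM C0 hchart b⟩

include hA in
/-- **(LE)** in the form of `Key/Main`, from the `C0`-guarded chart hypothesis. -/
theorem leForm_of_hchart (C0 : Finset Kb)
    (hchart : ∀ (L1 : IntermediateField ℚ Kb) [FiniteDimensional ℚ L1],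
      (↑C0 : Set Kb) ⊆ (L1 : Set Kb) →
      ∀ (b1 : ↥(restrict A L1)) (π : ↥(restrict A L1)), Irreducible π →
      ∀ n : Ideal ↥(B0 ↥(restrict A L1) (CoordJ.tauB (restrict A L1) M b1)), n.IsMaximal →
        piB0 ↥(restrict A L1) π (CoordJ.tauB (restrict A L1) M b1) ∈ n →
        LocalGen (piB0 ↥(restrict A L1) π (CoordJ.tauB (restrict A L1) M b1)) n) :
    Main.LEForm M ℓ A hℓM :=
  leForm_of_charts M A hℓM (charts_of_hchart M A hA hℓM C0 hchart)

include hA in
/-- **(UN)** in the form of `Key/Main`, from the `C0`-guarded chart hypothesis. -/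
theorem unForm_of_hchart (C0 : Finset Kb)
    (hchart : ∀ (L1 : IntermediateField ℚ Kb) [FiniteDimensional ℚ L1],
      (↑C0 : Set Kb) ⊆ (L1 : Set Kb) →
      ∀ (b1 : ↥(restrict A L1)) (π : ↥(restrict A L1)), Irreducible π →
      ∀ n : Ideal ↥(B0 ↥(restrict A L1) (CoordJ.tauB (restrict A L1) M b1)), n.IsMaximal →
        piB0 ↥(restrict A L1) π (CoordJ.tauB (restrict A L1) M b1) ∈ n →
        LocalGen (piB0 ↥(restrict A L1) π (CoordJ.tauB (restrict A L1) M b1)) n) :
    Main.UNForm M ℓ A hℓM :=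
  unForm_of_charts M A hℓM (charts_of_hchart M A hA hℓM C0 hchart)

end Fermat.Agent.S37.Local.ChartsOf
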