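import Mathlib
import Fermat.Agent.S37.Local.ChartEq
import Fermat.Agent.S37.Local.ClosedPoints
import Fermat.Agent.S37.Local.Values
import Fermat.Agent.S24.FFDeriv

/-!
# S37 (L-C), slice "through a closed point"

Chart `B := B0 ↥A1 τ` over a discrete valuation subring `A1` of `L1`.

PART 2 (`L1`-level, used in (UN)): `eval_mem_maximalIdeal_of_le`: if the centre of a place `P1` of
`F1/L1` lies below a proper ideal `n ∋ π` of the chart, `τ` has the value `c1 ∈ L1` at `P1` and
`p1(τ) ∈ n` for `p1 ∈ A1[X]`, then `c1 ∈ A1` and `p1(c1) ∈ 𝔪_{A1}`.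

PART 1 (`K`-level, used in (LE)): `L1 ⊆ K`, `A1 = A ∩ L1`, `P` a place of `F/K` with constant
residue field (`valAt P hP`, helper26), `up : F1 →+* F`; if `τ` has a value `c ∈ A` at `P`, then
every element of the chart has a value in `A` at `P` (`evB : B →+* A`), `nP := evB⁻¹(𝔪_A)` is a
prime ideal `∋ π` above the centre of the restriction of `P`, `p1(τ) ∈ nP ↔ p1(c) ∈ 𝔪_A`, and `nP` is
one of the closed points of `V(π, p1(τ))` (`exists_closedPt_ge`).
-/

set_option autoImplicit false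

open Polynomial AlgebraicCurve IsLocalRing IntermediateField

namespace Fermat.Agent.S37.Local.ThroughPoint

open Fermat.Agent.S18.Core.Charts Fermat.Agent.S18.Core.StartB0
open Fermat.Agent.S18.Cusp.NormalBridge (LocalGen)
open Fermat.Agent.S37.Local.ChartDict Fermat.Agent.S37.Local.ClosedPoints
open Fermat.Agent.S37.Local.Values

set_option linter.unusedSectionVars false
set_option linter.style.haveILetI false

/-! ## Part 2: from a closed point above the centre to the value of `τ` -/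

section Down

variable {L : Type*} [Field L] {A : ValuationSubring L} [IsDiscreteValuationRing A]
  {F : Type*} [Field F] [Algebra L F] {π : A} {τ : F}

/-- constants of `A` as elements of the chart -/
def constB (τ : F) (r : A) : ↥(B0 ↥A τ) := ⟨algebraMap A F r, algebraMap_mem_B0 r⟩

/-- polynomial expressions in `τ` as elements of the chart -/
noncomputable def polyB (τ : F) (p : A[X]) : ↥(B0 ↥A τ) := ⟨aeval τ p, aeval_mem_B0 p⟩

@[simp] theorem coe_constB (r : A) : ((constB τ r : ↥(B0 ↥A τ)) : F) = algebraMap L F (r : L) := rfl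

@[simp] theorem coe_polyB (p : A[X]) : ((polyB τ p : ↥(B0 ↥A τ)) : F) = aeval τ p := rfl

theorem constB_mul (r s : A) : constB τ (r * s) = constB τ r * constB τ s :=
  Subtype.ext (by simp [map_mul])

theorem piB0_eq_constB : piB0 ↥A π τ = constB τ π := rfl

/-- **(d')** If the centre of `P1` lies below a proper ideal `n ∋ π` of the chart, `τ` has the
value `c1` at `P1`, and `p1(τ) ∈ n`, then `c1 ∈ A` and `p1(c1) ∈ 𝔪_A`. -/
theorem eval_mem_maximalIdeal_of_le (hπ : Irreducible π)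
    (n : Ideal ↥(B0 ↥A τ)) (hn : n ≠ ⊤) (hπn : piB0 ↥A π τ ∈ n)
    (P1 : Place L F) (hτ : τ ∈ P1.toValuationSubring) (hle : primeOfPlace ↥A P1 hτ ≤ n)
    (c1 : L) (hc : 0 < P1.ord (τ - algebraMap L F c1))
    (p1 : A[X]) (hp : polyB τ p1 ∈ n) :
    ∃ hc1 : c1 ∈ A, p1.eval ⟨c1, hc1⟩ ∈ maximalIdeal A := by
  have hτc : τ - algebraMap L F c1 ≠ 0 := by
    intro h0
    rw [h0, Place.ord_zero] at hc
    exact lt_irrefl _ hc
  -- Step 1: `c1 ∈ A`
  have hc1 : c1 ∈ A := by
    by_contra hnot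
    have hc10 : c1 ≠ 0 := fun h0 => hnot (h0 ▸ A.zero_mem)
    have hinv : c1⁻¹ ∈ A := (A.mem_or_inv_mem c1).resolve_left hnot
    set d : A := ⟨c1⁻¹, hinv⟩ with hd
    have hdm : d ∈ maximalIdeal A := by
      rw [mem_maximalIdeal, mem_nonunits_iff]
      intro hu
      obtain ⟨e, he⟩ := hu.exists_right_inv
      apply hnot
      have h1 : c1⁻¹ * (e : L) = 1 := by
        have := congrArg Subtype.val he
        simpa [hd] using this
      have h2 : (e : L) = c1 := by
        have h3 : (e : L) = (c1⁻¹)⁻¹ := eq_inv_of_mul_eq_one_right h1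
        rw [h3, inv_inv]
      rw [← h2]
      exact e.2
    rw [hπ.maximalIdeal_eq, Ideal.mem_span_singleton] at hdm
    obtain ⟨e, he⟩ := hdm
    set τB : ↥(B0 ↥A τ) := ⟨τ, tau_mem_B0⟩ with hτB
    have hdn : constB τ d * τB ∈ n := by
      rw [he, constB_mul, ← piB0_eq_constB, mul_assoc]
      exact n.mul_mem_right _ hπn
    set u : ↥(B0 ↥A τ) := 1 - constB τ d * τB with hu
    have huF : (u : F) = algebraMap L F (-c1⁻¹) * (τ - algebraMap L F c1) := by
      have hc1F : algebraMap L F c1 ≠ 0 := by rwa [Ne, map_eq_zero]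
      have e1 : (u : F) = 1 - algebraMap L F (d : L) * τ := rfl
      rw [e1, map_neg, map_inv₀]
      field_simp
      ring
    have hconst : algebraMap L F (-c1⁻¹) ≠ 0 := by
      rw [Ne, map_eq_zero, neg_eq_zero, inv_eq_zero]
      exact hc10
    have hu0 : u ≠ 0 := by
      intro h0
      have : (u : F) = 0 := by rw [h0]; rfl
      rw [huF] at this
      exact (mul_ne_zero hconst hτc) this
    have hup : u ∈ primeOfPlace ↥A P1 hτ := by
      rw [mem_primeOfPlace_iff_ord_pos P1 hτ hu0, huF, Place.ord_mul P1 hconst hτc,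
        Fermat.Agent.S24.FFDeriv.ord_algebraMap, zero_add]
      exact hc
    have h1 : (1 : ↥(B0 ↥A τ)) ∈ n := by
      have := n.add_mem (hle hup) hdn
      rwa [hu, sub_add_cancel] at this
    exact hn ((Ideal.eq_top_iff_one _).mpr h1)
  refine ⟨hc1, ?_⟩
  -- Step 2: `p1(c1) ∈ 𝔪_A`
  set c' : A := ⟨c1, hc1⟩ with hc'
  obtain ⟨q, hq⟩ := Polynomial.X_sub_C_dvd_sub_C_eval (a := c') (p := p1)
  set w : ↥(B0 ↥A τ) := polyB τ p1 - constB τ (p1.eval c') with hw
  have hwF : (w : F) = (τ - algebraMap L F c1) * aeval τ q := by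
    have h1 := congrArg (aeval τ) hq
    rw [map_sub, aeval_C, map_mul, map_sub, aeval_X, aeval_C] at h1
    have e1 : (w : F) = aeval τ p1 - algebraMap L F ((p1.eval c' : A) : L) := rfl
    rw [e1]
    exact h1
  have hwn : w ∈ n := by
    rcases eq_or_ne w 0 with h0 | h0
    · rw [h0]; exact n.zero_mem
    · apply hle
      have hq0 : aeval τ q ≠ 0 := by
        intro hq0
        apply h0
        apply Subtype.ext
        rw [hwF, hq0, mul_zero]
        rfl
      rw [mem_primeOfPlace_iff_ord_pos P1 hτ h0, hwF, Place.ord_mul P1 hτc hq0]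
      have := ord_nonneg_of_mem_B0 (R := ↥A) P1 hτ (polyB τ q)
      rw [coe_polyB] at this
      omega
  have hcn : constB τ (p1.eval c') ∈ n := by
    have := n.sub_mem hp hwn
    rwa [hw, sub_sub_cancel] at this
  rw [mem_maximalIdeal, mem_nonunits_iff]
  intro hunit
  obtain ⟨e, he⟩ := hunit.exists_right_inv
  apply hn
  rw [Ideal.eq_top_iff_one]
  have h1 : constB τ (p1.eval c') * constB τ e = 1 := by
    rw [← constB_mul, he]
    exact Subtype.ext (by simp)
  rw [← h1]
  exact n.mul_mem_right _ hcn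

end Down

/-! ## Part 1: the closed point through which a `K`-place passes -/

section Incl

variable {L1 K : Type*} [Field L1] [Field K] [Algebra L1 K]
  {A1 : ValuationSubring L1} {A : ValuationSubring K}
  (hA1 : ∀ c : L1, c ∈ A1 ↔ algebraMap L1 K c ∈ A)

/-- the inclusion `A1 = A ∩ L1 → A` -/
def incl : ↥A1 →+* ↥A :=
  ((algebraMap L1 K).comp A1.subtype).codRestrict A (fun r => (hA1 r).mp r.2)

@[simp] theorem coe_incl (r : A1) : ((incl hA1 r : ↥A) : K) = algebraMap L1 K (r : L1) := rfl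

theorem isUnit_incl_iff (r : A1) : IsUnit (incl hA1 r) ↔ IsUnit r := by
  constructor
  · intro hu
    obtain ⟨t, ht⟩ := hu.exists_right_inv
    have h1 : algebraMap L1 K (r : L1) * (t : K) = 1 := by
      have := congrArg Subtype.val ht
      simpa using this
    have hr0 : (r : L1) ≠ 0 := by
      intro h0
      rw [h0, map_zero, zero_mul] at h1
      exact zero_ne_one h1
    have h2 : (t : K) = algebraMap L1 K ((r : L1)⁻¹) := by
      rw [map_inv₀]
      exact eq_inv_of_mul_eq_one_right h1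
    have h3 : (r : L1)⁻¹ ∈ A1 := by
      rw [hA1, ← h2]
      exact t.2
    refine isUnit_iff_exists_inv.mpr ⟨⟨(r : L1)⁻¹, h3⟩, Subtype.ext ?_⟩
    change (r : L1) * (r : L1)⁻¹ = 1
    exact mul_inv_cancel₀ hr0
  · intro hu
    exact hu.map (incl hA1)

theorem incl_mem_maximalIdeal_iff (r : A1) :
    incl hA1 r ∈ maximalIdeal A ↔ r ∈ maximalIdeal A1 := by
  rw [mem_maximalIdeal, mem_nonunits_iff, mem_maximalIdeal, mem_nonunits_iff, isUnit_incl_iff]

end Incl

section Up

variable {L1 K F1 F : Type*} [Field L1] [Field K] [Algebra L1 K] [Field F1] [Field F]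
  [Algebra L1 F1] [Algebra K F]
  {A1 : ValuationSubring L1} {A : ValuationSubring K}
  (hA1 : ∀ c : L1, c ∈ A1 ↔ algebraMap L1 K c ∈ A)
  (up : F1 →+* F)
  (hupc : ∀ c : L1, up (algebraMap L1 F1 c) = algebraMap K F (algebraMap L1 K c))
  {τ : F1} {P : Place K F} (hP : HasConstResidue P)
  (hτP : up τ ∈ P.toValuationSubring)

section WithValue

variable (hcA : valAt P hP ⟨up τ, hτP⟩ ∈ A)

include hA1 hupc hτP hcA in
theorem up_adjoin_mem_valSubring :
    ∀ x ∈ Algebra.adjoin ↥A1 {τ}, up x ∈ valSubring P hP A := by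
  intro x hx
  induction hx using Algebra.adjoin_induction with
  | mem y hy =>
    rw [Set.mem_singleton_iff.mp hy]
    exact (mem_valSubring_iff hP A _).mpr ⟨hτP, hcA⟩
  | algebraMap r =>
    have e : algebraMap ↥A1 F1 r = algebraMap L1 F1 (r : L1) := rfl
    rw [e, hupc]
    refine (mem_valSubring_iff hP A _).mpr ⟨P.algebraMap_mem' _, ?_⟩
    rw [valAt_mk_algebraMap]
    exact (hA1 r).mp r.2
  | add a b _ _ ha hb => rw [map_add]; exact add_mem ha hb
  | mul a b _ _ ha hb => rw [map_mul]; exact mul_mem ha hb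

include hA1 hupc hτP hcA in
/-- **(a)** every element of the chart has a value in `A` at `P` -/
theorem up_mem_valSubring {b : F1} (hb : b ∈ B0 ↥A1 τ) : up b ∈ valSubring P hP A := by
  let φ : ↥(Algebra.adjoin ↥A1 {τ}) →+* ↥(valSubring P hP A) :=
    (up.comp (Algebra.adjoin ↥A1 {τ}).val.toRingHom).codRestrict (valSubring P hP A)
      (fun x => up_adjoin_mem_valSubring hA1 up hupc hP hτP hcA x x.2)
  have hint : IsIntegral ↥(valSubring P hP A) (up b) :=
    IsIntegral.map_of_comp_eq φ up (by ext x; rfl) (mem_B0.mp hb)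
  obtain ⟨hxO, hxA⟩ := valAt_mem_of_isIntegral hP A (valSubring P hP A) le_rfl (up b) hint
  exact (mem_valSubring_iff hP A _).mpr ⟨hxO, hxA⟩

/-- the chart inside `O_P` -/
noncomputable def evO : ↥(B0 ↥A1 τ) →+* ↥P.toValuationSubring :=
  (up.comp (B0 ↥A1 τ).subtype).codRestrict P.toValuationSubring
    (fun b => ((mem_valSubring_iff hP A _).mp
      (up_mem_valSubring hA1 up hupc hP hτP hcA b.2)).1)

/-- **the value at `P`** as a ring homomorphism from the chart to `A` -/
noncomputable def evB : ↥(B0 ↥A1 τ) →+* ↥A :=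
  ((valAt P hP).toRingHom.comp (evO hA1 up hupc hP hτP hcA)).codRestrict A
    (fun b => ((mem_valSubring_iff hP A _).mp
      (up_mem_valSubring hA1 up hupc hP hτP hcA b.2)).2)

theorem coe_evB (b : ↥(B0 ↥A1 τ)) :
    ((evB hA1 up hupc hP hτP hcA b : ↥A) : K) =
      valAt P hP ⟨up b, ((mem_valSubring_iff hP A _).mp
        (up_mem_valSubring hA1 up hupc hP hτP hcA b.2)).1⟩ := rfl

theorem evB_constB (r : A1) : evB hA1 up hupc hP hτP hcA (constB τ r) = incl hA1 r := by
  apply Subtype.ext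
  rw [coe_evB, coe_incl]
  exact (valAt_eq_iff hP _ _).mpr (Or.inl (hupc (r : L1)))

theorem evB_tau :
    evB hA1 up hupc hP hτP hcA ⟨τ, tau_mem_B0⟩ = ⟨valAt P hP ⟨up τ, hτP⟩, hcA⟩ :=
  Subtype.ext rfl

/-- polynomial expressions in `τ`, as a ring homomorphism -/
noncomputable def polyBHom (τ : F1) : A1[X] →+* ↥(B0 ↥A1 τ) :=
  ((aeval τ : A1[X] →ₐ[A1] F1) : A1[X] →+* F1).codRestrict (B0 ↥A1 τ) (fun p => aeval_mem_B0 p)

theorem polyBHom_apply (p : A1[X]) : polyBHom τ p = polyB τ p := rfl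

/-- **(b)** the value of `p1(τ)` at `P` is `p1(c)`, `c` the value of `τ` -/
theorem evB_polyB (p1 : A1[X]) :
    evB hA1 up hupc hP hτP hcA (polyB τ p1) =
      (p1.map (incl hA1)).eval ⟨valAt P hP ⟨up τ, hτP⟩, hcA⟩ := by
  have h : (evB hA1 up hupc hP hτP hcA).comp (polyBHom τ) =
      (evalRingHom (⟨valAt P hP ⟨up τ, hτP⟩, hcA⟩ : ↥A)).comp (mapRingHom (incl hA1)) := by
    apply Polynomial.ringHom_ext
    · intro r
      have e1 : polyBHom τ (C r) = constB τ r := Subtype.ext (aeval_C τ r)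
      rw [RingHom.comp_apply, e1, evB_constB]
      simp
    · have e1 : polyBHom τ (X : A1[X]) = ⟨τ, tau_mem_B0⟩ := Subtype.ext (aeval_X τ)
      rw [RingHom.comp_apply, e1, evB_tau]
      simp
  exact RingHom.congr_fun h p1

/-- the closed point (a priori: prime ideal) of the chart through which `P` passes -/
noncomputable def nP : Ideal ↥(B0 ↥A1 τ) :=
  Ideal.comap (evB hA1 up hupc hP hτP hcA) (maximalIdeal A)

instance nP_isPrime : (nP hA1 up hupc hP hτP hcA).IsPrime := Ideal.comap_isPrime _ _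

theorem mem_nP_iff {b : ↥(B0 ↥A1 τ)} :
    b ∈ nP hA1 up hupc hP hτP hcA ↔ evB hA1 up hupc hP hτP hcA b ∈ maximalIdeal A := Iff.rfl

theorem constB_mem_nP_iff (r : A1) :
    constB τ r ∈ nP hA1 up hupc hP hτP hcA ↔ r ∈ maximalIdeal A1 := by
  rw [mem_nP_iff, evB_constB, incl_mem_maximalIdeal_iff]

variable [IsDiscreteValuationRing A1]

theorem piB0_mem_nP {π : A1} (hπ : π ∈ maximalIdeal A1) :
    piB0 ↥A1 π τ ∈ nP hA1 up hupc hP hτP hcA := by
  rw [piB0_eq_constB, constB_mem_nP_iff]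
  exact hπ

/-- **(b)** `p1(τ) ∈ nP ↔ p1(c) ∈ 𝔪_A` -/
theorem polyB_mem_nP_iff (p1 : A1[X]) :
    polyB τ p1 ∈ nP hA1 up hupc hP hτP hcA ↔
      (p1.map (incl hA1)).eval ⟨valAt P hP ⟨up τ, hτP⟩, hcA⟩ ∈ maximalIdeal A := by
  rw [mem_nP_iff, evB_polyB]

/-- **(a)** `nP` lies above the centre of the restriction of `P` -/
theorem primeOfPlace_le_nP (P1 : Place L1 F1) (hord : ∀ x : F1, P.ord (up x) = P1.ord x)
    (hτ1 : τ ∈ P1.toValuationSubring) :
    primeOfPlace ↥A1 P1 hτ1 ≤ nP hA1 up hupc hP hτP hcA := by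
  intro b hb
  rw [mem_nP_iff]
  rcases eq_or_ne b 0 with rfl | hb0
  · rw [map_zero]; exact zero_mem _
  · have h1 : 0 < P1.ord (b : F1) := (mem_primeOfPlace_iff_ord_pos P1 hτ1 hb0).mp hb
    rw [← hord] at h1
    have h2 : evB hA1 up hupc hP hτP hcA b = 0 := by
      apply Subtype.ext
      rw [coe_evB]
      exact (valAt_eq_zero_iff hP _).mpr (Or.inr h1)
    rw [h2]
    exact zero_mem _

include hupc in
/-- **(c)** `nP` is one of the closed points of `V(π, p1(τ))`, and it lies above the centre of the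
restriction of `P`: the hypothesis `hPT` of `ChartEqUp.exists_localEq_up`. -/
theorem exists_closedPt_ge [IsNoetherianRing ↥(B0 ↥A1 τ)] {π : A1} (hπ : π ∈ maximalIdeal A1)
    (hprime : Prime (piB0 ↥A1 π τ))
    (hLG : ∀ n : Ideal ↥(B0 ↥A1 τ), n.IsMaximal → piB0 ↥A1 π τ ∈ n →
      LocalGen (piB0 ↥A1 π τ) n)
    (p1 : A1[X]) (hh : ¬ piB0 ↥A1 π τ ∣ polyB τ p1)
    (hev : (p1.map (incl hA1)).eval ⟨valAt P hP ⟨up τ, hτP⟩, hcA⟩ ∈ maximalIdeal A)
    (P1 : Place L1 F1) (hord : ∀ x : F1, P.ord (up x) = P1.ord x)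
    (hτ1 : τ ∈ P1.toValuationSubring) :
    ∃ n ∈ closedPts hprime hLG hh, primeOfPlace ↥A1 P1 hτ1 ≤ n := by
  refine ⟨nP hA1 up hupc hP hτP hcA, ?_, primeOfPlace_le_nP hA1 up hupc hP hτP hcA P1 hord hτ1⟩
  have hπn := piB0_mem_nP hA1 up hupc hP hτP hcA hπ
  have hhn := (polyB_mem_nP_iff hA1 up hupc hP hτP hcA p1).mpr hev
  rw [mem_closedPts]
  exact ⟨isMaximal_of_mem hprime hLG hh _ hπn hhn, hπn, hhn⟩

end WithValue

/-! ### the converse, for places whose `τ`-value is `L1`-rational -/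

variable [IsDiscreteValuationRing A1]

include hupc in
/-- **(d)** If the centre of the restriction `P1` of `P` lies below a proper ideal `n ∋ π` of the
chart with `p1(τ) ∈ n`, and the value of `τ` at `P` is `L1`-rational, then this value lies in `A`
and `p1(value) ∈ 𝔪_A`. -/
theorem eval_mem_maximalIdeal_of_le_up {π : A1} (hπ : Irreducible π)
    (n : Ideal ↥(B0 ↥A1 τ)) (hn : n ≠ ⊤) (hπn : piB0 ↥A1 π τ ∈ n)
    (P1 : Place L1 F1) (hord : ∀ x : F1, P.ord (up x) = P1.ord x)
    (hτ1 : τ ∈ P1.toValuationSubring) (hle : primeOfPlace ↥A1 P1 hτ1 ≤ n)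
    (c1 : L1) (hc1 : valAt P hP ⟨up τ, hτP⟩ = algebraMap L1 K c1)
    (hτc : τ ≠ algebraMap L1 F1 c1)
    (p1 : A1[X]) (hp : polyB τ p1 ∈ n) :
    ∃ hcA : valAt P hP ⟨up τ, hτP⟩ ∈ A,
      (p1.map (incl hA1)).eval ⟨valAt P hP ⟨up τ, hτP⟩, hcA⟩ ∈ maximalIdeal A := by
  have h1 : 0 < P1.ord (τ - algebraMap L1 F1 c1) := by
    rcases (valAt_eq_iff hP _ _).mp hc1 with h | h
    · exfalso
      apply hτc
      apply up.injective
      rw [hupc]
      exact h
    · rw [← hord, map_sub, hupc]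
      exact h
  obtain ⟨hc1A, hev⟩ := eval_mem_maximalIdeal_of_le hπ n hn hπn P1 hτ1 hle c1 h1 p1 hp
  have hcA : valAt P hP ⟨up τ, hτP⟩ ∈ A := by
    rw [hc1]
    exact (hA1 c1).mp hc1A
  refine ⟨hcA, ?_⟩
  have e : (⟨valAt P hP ⟨up τ, hτP⟩, hcA⟩ : ↥A) = incl hA1 ⟨c1, hc1A⟩ := Subtype.ext hc1
  rw [e, Polynomial.eval_map_apply, incl_mem_maximalIdeal_iff]
  exact hev

end Up

/-! ## Part 3: `π ∤ p1(τ)` for a polynomial with a unit coefficient -/

section NotDvd

open Fermat.Agent.S18.Inst.Bundle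

variable {L : Type*} [Field L] [CharZero L] {A : ValuationSubring L} [IsDiscreteValuationRing A]
  {F : Type*} [Field F] [Algebra L F] {π : A} {O : ValuationSubring F} {t : F}

/-- A polynomial expression `p1(t)` in the coordinate of a `CoordData` bundle is prime to `π` as
soon as one coefficient of `p1` is (the reduction of `t` is transcendental). -/
theorem not_dvd_polyB_of_coordData (h : CoordData A π O t) (p1 : A[X]) (i : ℕ)
    (hi : ¬ π ∣ p1.coeff i) : ¬ piB0 ↥A π t ∣ polyB t p1 := by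
  intro hdvd
  rw [piB0_dvd_iff h.good L⟮t⟯ rfl h.algebraic h.uniq, coe_polyB] at hdvd
  exact hi (h.good.transc p1 hdvd i)

/-- the same with a coefficient outside the maximal ideal -/
theorem not_dvd_polyB_of_coeff_not_mem (h : CoordData A π O t) (p1 : A[X]) (i : ℕ)
    (hi : p1.coeff i ∉ maximalIdeal A) : ¬ piB0 ↥A π t ∣ polyB t p1 := by
  apply not_dvd_polyB_of_coordData h p1 i
  intro hdvd
  apply hi
  rw [h.good.irreducible.maximalIdeal_eq, Ideal.mem_span_singleton]
  exact hdvd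

end NotDvd

end Fermat.Agent.S37.Local.ThroughPoint
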