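import Mathlib
import Fermat.Agent.S37.Local.ThroughPoint
import Fermat.Agent.S37.Local.ChartEqUp

/-!
# S37 (L-C), generic core of (LE) and (UN)

Abstract setting of `Local/ChartEqUp` + `Local/ThroughPoint`: `L1 ⊆ K`, `F1/L1`, `F/K`,
`up : F1 →+* F`, `down : Place K F → Place L1 F1` with `ord_P (up x) = ord_{down P} x`,
`A1 = A ∩ L1` a discrete valuation ring, `h : CoordData A1 π O τ` a chart bundle with `LocalGen` at
every closed point of the special fibre, `p1 ∈ A1[X]` with a unit coefficient.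

`Through P` : the `K`-place `P` passes through `V(π, p1(τ))` w.r.t. `A`: `τ` is regular at `P`, its
value `c` lies in `A` and `p1(c) ∈ 𝔪_A`.

* `exists_localEq_through` (LE): a place `P` through `V(π, p1(τ))` which is the only extension of
  `down P` has a local equation `g` in the chart: Gauss unit, `ord_P (up g) = 1`,
  `ord_{P'} (up g) = 0` at every other `P'` through `V(π, p1(τ))`.
* `exists_frac_through` (UN): a Gauss unit `z ∈ F1` such that `up z` has order `0` at every place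
  through `V(π, p1(τ))`, and such that the places in the support of `up z` have `L1`-rational
  `τ`-values, is a fraction of two elements of the chart outside all closed points of
  `V(π, p1(τ))`.
* `ord_res_eq_zero_through` (UN, special fibre): hence the reduction of `z` has order `0` at every
  place of the special fibre centred on `V(π, p1(τ))`.
-/

set_option autoImplicit false

open Polynomial AlgebraicCurve IsLocalRing IntermediateField

namespace Fermat.Agent.S37.Local.LEUNGeneric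

open Fermat.Agent.S18.Core.Charts Fermat.Agent.S18.Core.StartB0
open Fermat.Agent.S18.Inst.Bundle
open Fermat.Agent.S18.Cusp.NormalBridge (LocalGen)
open Fermat.Agent.S37.Local.ChartDict Fermat.Agent.S37.Local.ChartEq
open Fermat.Agent.S37.Local.ChartEqUp Fermat.Agent.S37.Local.ClosedPoints
open Fermat.Agent.S37.Local.Values Fermat.Agent.S37.Local.ThroughPoint

set_option linter.unusedSectionVars false
set_option linter.style.haveILetI false

section Generic

variable {L1 K F1 F : Type*} [Field L1] [CharZero L1] [Field K] [Algebra L1 K]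
  [Field F1] [Field F] [Algebra L1 F1] [Algebra K F]
  {A1 : ValuationSubring L1} [IsDiscreteValuationRing A1] {A : ValuationSubring K}
  (hA1 : ∀ c : L1, c ∈ A1 ↔ algebraMap L1 K c ∈ A)
  (up : F1 →+* F)
  (hupc : ∀ c : L1, up (algebraMap L1 F1 c) = algebraMap K F (algebraMap L1 K c))
  (down : Place K F → Place L1 F1)
  (hord : ∀ (P : Place K F) (x : F1), P.ord (up x) = (down P).ord x)
  (hconst : ∀ P : Place K F, HasConstResidue P)
  {π : A1} {O : ValuationSubring F1} {τ : F1} (p1 : A1[X])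

/-- `P` passes through `V(π, p1(τ))` (w.r.t. `A`): `τ` is regular at `P`, its value `c` lies in `A`
and `p1(c) ∈ 𝔪_A`. -/
def Through (τ : F1) (P : Place K F) : Prop :=
  ∃ (hτP : up τ ∈ P.toValuationSubring) (hcA : valAt P (hconst P) ⟨up τ, hτP⟩ ∈ A),
    (p1.map (incl hA1)).eval ⟨valAt P (hconst P) ⟨up τ, hτP⟩, hcA⟩ ∈ maximalIdeal A

include hord in
theorem tau_mem_down_iff (P : Place K F) :
    τ ∈ (down P).toValuationSubring ↔ up τ ∈ P.toValuationSubring := by
  rw [Fermat.Agent.S24.FFDeriv.mem_iff_ord_nonneg, Fermat.Agent.S24.FFDeriv.mem_iff_ord_nonneg,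
    hord]

include hupc hord in
/-- a place through `V(π, p1(τ))` has its restriction centred below a closed point of
`V(π, p1(τ))` -/
theorem Through.exists_closedPt_ge [IsNoetherianRing ↥(B0 ↥A1 τ)]
    (hπ : π ∈ maximalIdeal A1) (hprime : Prime (piB0 ↥A1 π τ))
    (hLG : ∀ n : Ideal ↥(B0 ↥A1 τ), n.IsMaximal → piB0 ↥A1 π τ ∈ n →
      LocalGen (piB0 ↥A1 π τ) n)
    (hh : ¬ piB0 ↥A1 π τ ∣ polyB τ p1) {P : Place K F}
    (hP : Through hA1 up hconst p1 τ P) :
    ∃ hτ1 : τ ∈ (down P).toValuationSubring,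
      ∃ n ∈ closedPts hprime hLG hh, primeOfPlace ↥A1 (down P) hτ1 ≤ n := by
  obtain ⟨hτP, hcA, hev⟩ := hP
  have hτ1 : τ ∈ (down P).toValuationSubring := (tau_mem_down_iff up down hord P).mpr hτP
  exact ⟨hτ1, ThroughPoint.exists_closedPt_ge hA1 up hupc (hconst P) hτP hcA hπ hprime hLG p1 hh
    hev (down P) (hord P) hτ1⟩

include hupc hord in
/-- **(LE), generic core.** -/
theorem exists_localEq_through (h : CoordData A1 π O τ)
    (hLG : ∀ n : Ideal ↥(B0 ↥A1 τ), n.IsMaximal → piB0 ↥A1 π τ ∈ n →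
      LocalGen (piB0 ↥A1 π τ) n)
    (i : ℕ) (hi : p1.coeff i ∉ maximalIdeal A1)
    (P : Place K F) (hdet : ∀ P' : Place K F, down P' = down P → P' = P)
    (hP : Through hA1 up hconst p1 τ P) :
    ∃ g : ↥(B0 ↥A1 τ), O.valuation (g : F1) = 1 ∧ P.ord (up (g : F1)) = 1 ∧
      ∀ P' : Place K F, P' ≠ P → Through hA1 up hconst p1 τ P' → P'.ord (up (g : F1)) = 0 := by
  haveI := isNoetherianRing_B0_of_coordData h
  have hprime := prime_piB0_of_coordData h
  have hh := not_dvd_polyB_of_coeff_not_mem h p1 i hi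
  have hπ : π ∈ maximalIdeal A1 := by
    rw [h.good.irreducible.maximalIdeal_eq]
    exact Ideal.mem_span_singleton_self π
  obtain ⟨hτ1, hPT⟩ := hP.exists_closedPt_ge hA1 up hupc down hord hconst p1 hπ hprime hLG hh
  obtain ⟨g, hg1, hg2, hg3⟩ := exists_localEq_up up down hord h (closedPts hprime hLG hh)
    (closedPts_spec hprime hLG hh) P hdet hτ1 hPT
  refine ⟨g, hg1, hg2, fun P' hne hP' => ?_⟩
  obtain ⟨hτ1', hPT'⟩ := hP'.exists_closedPt_ge hA1 up hupc down hord hconst p1 hπ hprime hLG hh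
  exact hg3 P' hne hτ1' hPT'

include hupc hord in
/-- **(UN), generic core.** -/
theorem exists_frac_through (hsurj : ∀ P1 : Place L1 F1, ∃ P : Place K F, down P = P1)
    (h : CoordData A1 π O τ)
    (hLG : ∀ n : Ideal ↥(B0 ↥A1 τ), n.IsMaximal → piB0 ↥A1 π τ ∈ n →
      LocalGen (piB0 ↥A1 π τ) n)
    (i : ℕ) (hi : p1.coeff i ∉ maximalIdeal A1)
    (z : F1) (hz : O.valuation z = 1)
    (hrat : ∀ P : Place K F, P.ord (up z) ≠ 0 → ∀ hτP : up τ ∈ P.toValuationSubring,
      ∃ c1 : L1, valAt P (hconst P) ⟨up τ, hτP⟩ = algebraMap L1 K c1)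
    (hunit : ∀ P : Place K F, Through hA1 up hconst p1 τ P → P.ord (up z) = 0) :
    ∃ a s : ↥(B0 ↥A1 τ),
      (∀ n : Ideal ↥(B0 ↥A1 τ), n.IsMaximal → piB0 ↥A1 π τ ∈ n → polyB τ p1 ∈ n → a ∉ n) ∧
      (∀ n : Ideal ↥(B0 ↥A1 τ), n.IsMaximal → piB0 ↥A1 π τ ∈ n → polyB τ p1 ∈ n → s ∉ n) ∧
      z * (s : F1) = (a : F1) := by
  haveI := isNoetherianRing_B0_of_coordData h
  have hprime := prime_piB0_of_coordData h
  have hh := not_dvd_polyB_of_coeff_not_mem h p1 i hi
  obtain ⟨a, s, ha, hs, hzs⟩ := exists_frac_up up down hord hsurj h (closedPts hprime hLG hh)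
    (closedPts_spec hprime hLG hh) z hz (fun P hτ1 hPT => by
      by_contra hne
      obtain ⟨n, hnT, hle⟩ := hPT
      obtain ⟨hmax, hπn, hpn⟩ := (mem_closedPts hprime hLG hh).mp hnT
      have hτP : up τ ∈ P.toValuationSubring := (tau_mem_down_iff up down hord P).mp hτ1
      obtain ⟨c1, hc1⟩ := hrat P hne hτP
      have hτc : τ ≠ algebraMap L1 F1 c1 := by
        intro heq
        exact h.transc_field (heq ▸ isAlgebraic_algebraMap c1)
      obtain ⟨hcA, hev⟩ := eval_mem_maximalIdeal_of_le_up hA1 up hupc (hconst P) hτP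
        h.good.irreducible n hmax.ne_top hπn (down P) (hord P) hτ1 hle c1 hc1 hτc p1 hpn
      exact hne (hunit P ⟨hτP, hcA, hev⟩))
  exact ⟨a, s,
    fun n hn hπn hpn => ha n ((mem_closedPts hprime hLG hh).mpr ⟨hn, hπn, hpn⟩),
    fun n hn hπn hpn => hs n ((mem_closedPts hprime hLG hh).mpr ⟨hn, hπn, hpn⟩), hzs⟩

include hupc hord in
/-- **(UN), generic core, special fibre form.**  `ρ` is the reduction map of the chart to the
function field `E/k` of the special fibre (kernel `(π)`). -/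
theorem ord_res_eq_zero_through (hsurj : ∀ P1 : Place L1 F1, ∃ P : Place K F, down P = P1)
    (h : CoordData A1 π O τ)
    (hLG : ∀ n : Ideal ↥(B0 ↥A1 τ), n.IsMaximal → piB0 ↥A1 π τ ∈ n →
      LocalGen (piB0 ↥A1 π τ) n)
    (i : ℕ) (hi : p1.coeff i ∉ maximalIdeal A1)
    (z : F1) (hz : O.valuation z = 1)
    (hrat : ∀ P : Place K F, P.ord (up z) ≠ 0 → ∀ hτP : up τ ∈ P.toValuationSubring,
      ∃ c1 : L1, valAt P (hconst P) ⟨up τ, hτP⟩ = algebraMap L1 K c1)
    (hunit : ∀ P : Place K F, Through hA1 up hconst p1 τ P → P.ord (up z) = 0)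
    {k E : Type*} [Field k] [Field E] [Algebra k E] (ρ : ↥(B0 ↥A1 τ) →+* E)
    (hker : RingHom.ker ρ = Ideal.span {piB0 ↥A1 π τ}) :
    ∃ a s : ↥(B0 ↥A1 τ), z * (s : F1) = (a : F1) ∧
      ∀ (Q : Place k E) (hρQ : ∀ x, ρ x ∈ Q.toValuationSubring),
        polyB τ p1 ∈ nOf ρ Q hρQ →
        ρ a ≠ 0 ∧ ρ s ≠ 0 ∧ Q.ord (ρ a) = 0 ∧ Q.ord (ρ s) = 0 ∧ Q.ord (ρ a / ρ s) = 0 := by
  haveI := isNoetherianRing_B0_of_coordData h
  have hprime := prime_piB0_of_coordData h
  have hh := not_dvd_polyB_of_coeff_not_mem h p1 i hi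
  obtain ⟨a, s, ha, hs, hzs⟩ := exists_frac_through hA1 up hupc down hord hconst p1 hsurj h hLG i hi
    z hz hrat hunit
  refine ⟨a, s, hzs, fun Q hρQ hhQ => ?_⟩
  have hmax := isMaximal_nOf ρ Q hρQ hprime hLG hh hker hhQ
  have hπQ := pi_mem_nOf ρ Q hρQ hker
  have ha' := ha _ hmax hπQ hhQ
  have hs' := hs _ hmax hπQ hhQ
  obtain ⟨ha0, hao⟩ := ord_eq_zero_of_notMem ρ Q hρQ ha'
  obtain ⟨hs0, hso⟩ := ord_eq_zero_of_notMem ρ Q hρQ hs'
  exact ⟨ha0, hs0, hao, hso, ord_div_eq_zero ρ Q hρQ ha' hs'⟩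

end Generic

end Fermat.Agent.S37.Local.LEUNGeneric
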