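import Mathlib
import Fermat.Agent.S37.Local.ChartEqUp
import Fermat.Agent.S37.Local.ClosedPoints
import Fermat.Agent.S37.Local.Values
import Fermat.Agent.S37.Local.BRJ
import Fermat.Agent.S37.Local.GaussRestrict
import Fermat.Agent.S37.Local.CoordJ
import Fermat.Agent.S37.Key.ResExplicit
import Fermat.Agent.S18.Core.ChartsInst

/-!
# S37 (L-C), part (UN), auxiliary

* (TP) `exists_eq_of_le`, `eval_mem_maximalIdeal`, `exists_eval_mem_maximalIdeal`: a place of the
  generic fibre whose centre on the chart `B0 R τ` lies in a closed point `n ∋ π`: the value `c` of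
  `τ` is integral, and `p(τ) ∈ n` forces `p(c) ∈ 𝔪_R`.
* `unit_generic` : (UN) in the generic setting of `ChartEqUp` (`up`, `down`), for the test set
  `V(π, p(τ))` of the chart, with an arbitrary reduction `ρ : O → E` with kernel `{v < 1}`.
* `upO`, `rhoK` : the reduction `O₁ → F_{M,k}` of the Gauss valuation ring over `A ∩ L₁` with
  values in the function field over the BIG residue field `k` of `A`; kernel, constants, value at
  the `J`-chart coordinate `(J - b)⁻¹`.
-/

set_option autoImplicit false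

open Polynomial IntermediateField AlgebraicCurve ModularCurve IsLocalRing

namespace Fermat.Agent.S37.Local.UnitCrit

open Fermat.Agent.S18.Core.Charts Fermat.Agent.S18.Core.StartB0
open Fermat.Agent.S37.Local.ChartDict

set_option linter.unusedSectionVars false
set_option linter.style.haveILetI false

/-! ## (TP) places of the generic fibre through a closed point of the special fibre -/

section ThroughPoint

variable {R L F : Type*} [CommRing R] [IsDomain R] [IsDiscreteValuationRing R]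
  [Field L] [Field F] [Algebra R L] [IsFractionRing R L] [Algebra L F] [Algebra R F]
  [IsScalarTower R L F] {π : R} {τ : F}

/-- the element `τ - c` of the chart, `c ∈ R` -/
noncomputable def tauSub (R : Type*) {F : Type*} [CommRing R] [Field F] [Algebra R F] (τ : F)
    (c : R) : ↥(B0 R τ) :=
  ⟨τ - algebraMap R F c, sub_mem tau_mem_B0 (algebraMap_mem_B0 c)⟩

/-- **(TP1)** if the centre of `P` on the chart lies on the special fibre, the value of `τ` at `P`
is integral. -/
theorem exists_eq_of_le (hπ : Irreducible π) (P : Place L F) (hτ : τ ∈ P.toValuationSubring)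
    (n : Ideal ↥(B0 R τ)) (hn : n ≠ ⊤) (hπn : piB0 R π τ ∈ n)
    (hle : primeOfPlace R P hτ ≤ n) (c : L) (hc : 0 < P.ord (τ - algebraMap L F c)) :
    ∃ r : R, algebraMap R L r = c := by
  rcases eq_or_ne c 0 with rfl | hc0
  · exact ⟨0, map_zero _⟩
  rcases ValuationRing.isInteger_or_isInteger R c with ⟨r, hr⟩ | ⟨d, hd⟩
  · exact ⟨r, hr⟩
  by_cases hdu : IsUnit d
  · obtain ⟨u, rfl⟩ := hdu
    refine ⟨((u⁻¹ : Rˣ) : R), ?_⟩
    have h1 : algebraMap R L ((u⁻¹ : Rˣ) : R) * algebraMap R L (u : R) = 1 := by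
      rw [← map_mul, Units.inv_mul, map_one]
    rw [hd] at h1
    have := eq_inv_of_mul_eq_one_left h1
    rwa [inv_inv] at this
  exfalso
  -- `d ∈ (π)`
  have hdm : d ∈ maximalIdeal R := (mem_maximalIdeal d).mpr hdu
  rw [hπ.maximalIdeal_eq, Ideal.mem_span_singleton] at hdm
  obtain ⟨r', rfl⟩ := hdm
  -- the element `1 - d τ` of the chart lies in the centre of `P`
  have hx0 : τ - algebraMap L F c ≠ 0 := by
    intro h0
    rw [h0, Place.ord_zero] at hc
    exact lt_irrefl _ hc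
  have hcinv : algebraMap L F c⁻¹ ≠ 0 := by
    rw [Ne, map_eq_zero]
    exact inv_ne_zero hc0
  have hdF : algebraMap R F (π * r') = algebraMap L F c⁻¹ := by
    rw [IsScalarTower.algebraMap_apply R L F, hd]
  have hy : (1 : F) - algebraMap R F (π * r') * τ = -(algebraMap L F c⁻¹) * (τ - algebraMap L F c) := by
    rw [hdF, map_inv₀]
    have hcF : algebraMap L F c ≠ 0 := by rwa [Ne, map_eq_zero]
    field_simp
    ring
  set yB : ↥(B0 R τ) := 1 - ⟨algebraMap R F (π * r'), algebraMap_mem_B0 _⟩ * ⟨τ, tau_mem_B0⟩ with hyB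
  have hyBcoe : (yB : F) = 1 - algebraMap R F (π * r') * τ := rfl
  have hyne : yB ≠ 0 := by
    intro h0
    have := congrArg (fun b : ↥(B0 R τ) => (b : F)) h0
    simp only [hyBcoe, hy, ZeroMemClass.coe_zero] at this
    exact mul_ne_zero (neg_ne_zero.mpr hcinv) hx0 this
  have hymem : yB ∈ primeOfPlace R P hτ := by
    rw [mem_primeOfPlace_iff_ord_pos P hτ hyne, hyBcoe, hy,
      P.ord_mul (neg_ne_zero.mpr hcinv) hx0, Fermat.Agent.S24.FFDeriv.ord_neg,
      Fermat.Agent.S24.FFDeriv.ord_algebraMap, zero_add]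
    exact hc
  have h1 : (⟨algebraMap R F (π * r'), algebraMap_mem_B0 _⟩ : ↥(B0 R τ)) * ⟨τ, tau_mem_B0⟩ ∈ n := by
    have e : (⟨algebraMap R F (π * r'), algebraMap_mem_B0 _⟩ : ↥(B0 R τ)) * ⟨τ, tau_mem_B0⟩ =
        piB0 R π τ * (⟨algebraMap R F r', algebraMap_mem_B0 _⟩ * ⟨τ, tau_mem_B0⟩) := by
      apply Subtype.ext
      simp only [piB0, Subring.coe_mul, map_mul]
      ring
    rw [e]
    exact n.mul_mem_right _ hπn
  apply hn
  rw [Ideal.eq_top_iff_one]
  have := n.add_mem (hle hymem) h1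
  rwa [hyB, sub_add_cancel] at this

/-- **(TP2)** if the centre of `P` on the chart lies in a closed point `n` of the special fibre
and `p(τ) ∈ n`, then the value `p(c)` is a nonunit, `c` the value of `τ` at `P`. -/
theorem eval_mem_maximalIdeal (P : Place L F) (hτ : τ ∈ P.toValuationSubring)
    (n : Ideal ↥(B0 R τ)) (hn : n ≠ ⊤) (hle : primeOfPlace R P hτ ≤ n) (c : R)
    (hc : 0 < P.ord (τ - algebraMap R F c)) (p : R[X])
    (hp : (⟨aeval τ p, aeval_mem_B0 p⟩ : ↥(B0 R τ)) ∈ n) :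
    p.eval c ∈ maximalIdeal R := by
  rw [mem_maximalIdeal, mem_nonunits_iff]
  intro hu
  obtain ⟨q, hq⟩ := Polynomial.X_sub_C_dvd_sub_C_eval (a := c) (p := p)
  have hx0 : τ - algebraMap R F c ≠ 0 := by
    intro h0
    rw [h0, Place.ord_zero] at hc
    exact lt_irrefl _ hc
  have hxne : tauSub R τ c ≠ 0 := fun h0 => hx0 (congrArg (fun b : ↥(B0 R τ) => (b : F)) h0)
  have hxmem : tauSub R τ c ∈ primeOfPlace R P hτ := by
    rw [mem_primeOfPlace_iff_ord_pos P hτ hxne]
    exact hc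
  have e : (⟨aeval τ p, aeval_mem_B0 p⟩ : ↥(B0 R τ)) -
      ⟨algebraMap R F (p.eval c), algebraMap_mem_B0 _⟩ =
        tauSub R τ c * ⟨aeval τ q, aeval_mem_B0 q⟩ := by
    apply Subtype.ext
    have := congrArg (aeval τ) hq
    simp only [map_sub, map_mul, aeval_X, aeval_C] at this
    exact this
  have hmem : (⟨algebraMap R F (p.eval c), algebraMap_mem_B0 _⟩ : ↥(B0 R τ)) ∈ n := by
    have h2 : tauSub R τ c * ⟨aeval τ q, aeval_mem_B0 q⟩ ∈ n := n.mul_mem_right _ (hle hxmem)
    rw [← e] at h2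
    have := n.sub_mem hp h2
    rwa [sub_sub_cancel] at this
  apply hn
  obtain ⟨u, hu'⟩ := hu
  rw [Ideal.eq_top_iff_one]
  have e1 : (1 : ↥(B0 R τ)) = ⟨algebraMap R F ((u⁻¹ : Rˣ) : R), algebraMap_mem_B0 _⟩ *
      ⟨algebraMap R F (p.eval c), algebraMap_mem_B0 _⟩ := by
    apply Subtype.ext
    simp only [Subring.coe_mul, OneMemClass.coe_one]
    rw [← map_mul, ← hu', Units.inv_mul, map_one]
  rw [e1]
  exact n.mul_mem_left _ hmem

/-- **(TP)** `(TP1)` and `(TP2)` together. -/
theorem exists_eval_mem_maximalIdeal (hπ : Irreducible π) (P : Place L F)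
    (hτ : τ ∈ P.toValuationSubring) (n : Ideal ↥(B0 R τ)) (hn : n ≠ ⊤) (hπn : piB0 R π τ ∈ n)
    (hle : primeOfPlace R P hτ ≤ n) (c : L) (hc : 0 < P.ord (τ - algebraMap L F c)) (p : R[X])
    (hp : (⟨aeval τ p, aeval_mem_B0 p⟩ : ↥(B0 R τ)) ∈ n) :
    ∃ r : R, algebraMap R L r = c ∧ p.eval r ∈ maximalIdeal R := by
  obtain ⟨r, hr⟩ := exists_eq_of_le hπ P hτ n hn hπn hle c hc
  refine ⟨r, hr, eval_mem_maximalIdeal P hτ n hn hle r ?_ p hp⟩
  rw [IsScalarTower.algebraMap_apply R L F, hr]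
  exact hc

end ThroughPoint

/-! ## (UN), generic form -/

section Generic

open Fermat.Agent.S18.Inst.Bundle Fermat.Agent.S37.Local.ClosedPoints
open Fermat.Agent.S18.Cusp.NormalBridge (LocalGen)

variable {L1 F1 : Type*} [Field L1] [CharZero L1] [Field F1] [Algebra L1 F1]
  {A1 : ValuationSubring L1} [IsDiscreteValuationRing A1] {π : A1}
  {O : ValuationSubring F1} {τ : F1}
  {K F : Type*} [Field K] [Field F] [Algebra K F]
  (up : F1 →+* F) (down : Place K F → Place L1 F1)
  {k E : Type*} [Field k] [Field E] [Algebra k E]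

/-- **(UN), generic form.** -/
theorem unit_generic
    (hord : ∀ (P : Place K F) (x : F1), P.ord (up x) = (down P).ord x)
    (hsurj : ∀ P1 : Place L1 F1, ∃ P : Place K F, down P = P1)
    (h : CoordData A1 π O τ)
    (hLG : ∀ n : Ideal ↥(B0 ↥A1 τ), n.IsMaximal → piB0 ↥A1 π τ ∈ n →
      LocalGen (piB0 ↥A1 π τ) n)
    (ρ : ↥O →+* E) (hρ : ∀ x : ↥O, ρ x = 0 ↔ O.valuation (x : F1) < 1)
    (resR : ↥A1 →+* k)
    (hcompat : ∀ r : ↥A1, ρ ⟨algebraMap ↥A1 F1 r, h.good.algebraMap_mem r⟩ =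
      algebraMap k E (resR r))
    (htr : Transcendental k (ρ ⟨τ, h.good.tau_mem⟩))
    (p : (↥A1)[X]) (hp : p.map resR ≠ 0)
    (z : F1) (hz : O.valuation z = 1)
    (hunit : ∀ (P : Place K F) (hτ : τ ∈ (down P).toValuationSubring)
      (n : Ideal ↥(B0 ↥A1 τ)), n.IsMaximal → piB0 ↥A1 π τ ∈ n →
      (⟨aeval τ p, aeval_mem_B0 p⟩ : ↥(B0 ↥A1 τ)) ∈ n →
      primeOfPlace ↥A1 (down P) hτ ≤ n → P.ord (up z) = 0)
    (Q : Place k E) (hτQ : ρ ⟨τ, h.good.tau_mem⟩ ∈ Q.toValuationSubring)
    (hQ : aeval (ρ ⟨τ, h.good.tau_mem⟩) (p.map resR) = 0 ∨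
      0 < Q.ord (aeval (ρ ⟨τ, h.good.tau_mem⟩) (p.map resR))) :
    ∃ hzO : z ∈ O, Q.ord (ρ ⟨z, hzO⟩) = 0 := by
  classical
  have hgood := h.good
  have hsep := h.separable
  have halg := h.algebraic
  haveI := h.finite
  haveI : IsNoetherianRing ↥(B0 ↥A1 τ) :=
    Fermat.Agent.S18.Core.ChartsInst.isNoetherianRing_B0 hgood L1⟮τ⟯ rfl h.finite hsep
  have hprime : Prime (piB0 ↥A1 π τ) := prime_piB0 hgood L1⟮τ⟯ rfl halg h.uniq
  -- the equation of the test set
  set h1 : ↥(B0 ↥A1 τ) := ⟨aeval τ p, aeval_mem_B0 p⟩ with hh1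
  have hres_h1 : resChart hgood ρ h1 = aeval (ρ ⟨τ, hgood.tau_mem⟩) (p.map resR) := by
    rw [resChart_apply, ← res_polyToO hgood ρ resR hcompat p]
    rfl
  have hh : ¬ piB0 ↥A1 π τ ∣ h1 := by
    rw [← resChart_eq_zero_iff hgood L1⟮τ⟯ rfl halg h.uniq ρ hρ, hres_h1]
    intro h0
    exact hp ((transcendental_iff.mp htr) _ h0)
  -- the closed points
  set T := closedPts hprime hLG hh with hT_def
  have hT := closedPts_spec hprime hLG hh
  have hzO : z ∈ O := (O.valuation_le_one_iff z).mp hz.le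
  refine ⟨hzO, ?_⟩
  -- the fraction
  obtain ⟨a, s, ha, hs, hzs⟩ := Fermat.Agent.S37.Local.ChartEqUp.exists_frac_up up down hord hsurj
    h T hT z hz (fun P hτ ⟨n, hnT, hle⟩ => by
      obtain ⟨hnmax, hπn, hh1n⟩ := (mem_closedPts hprime hLG hh).mp hnT
      exact hunit P hτ n hnmax hπn hh1n hle)
  -- the special fibre
  set n₀ := pointOfPlace hgood ρ resR hcompat Q hτQ with hn₀
  have hh1n₀ : h1 ∈ n₀ := by
    rw [hn₀, mem_pointOfPlace_iff, hres_h1]
    exact hQ
  have hπn₀ : piB0 ↥A1 π τ ∈ n₀ :=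
    pi_mem_pointOfPlace hgood L1⟮τ⟯ rfl halg h.uniq ρ hρ resR hcompat Q hτQ
  have hmaxn₀ : n₀.IsMaximal := isMaximal_of_mem hprime hLG hh n₀ hπn₀ hh1n₀
  have hn₀T : n₀ ∈ T := (mem_closedPts hprime hLG hh).mpr ⟨hmaxn₀, hπn₀, hh1n₀⟩
  exact ord_res_eq_zero_of_frac hgood ρ resR hcompat Q hτQ (ha n₀ hn₀T) (hs n₀ hn₀T)
    ⟨z, hzO⟩ hzs

end Generic

/-! ## small generic facts -/

section Small

open Fermat.Agent.S37.Local.BRJ

theorem transcendental_inv_sub {k E : Type*} [Field k] [Field E] [Algebra k E] {x : E}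
    (hx : Transcendental k x) (c : k) : Transcendental k (x - algebraMap k E c)⁻¹ := by
  intro h
  apply hx
  have h1 := h.inv
  rw [inv_inv] at h1
  have h2 := h1.add (isAlgebraic_algebraMap (R := k) (A := E) c)
  rwa [sub_add_cancel] at h2

theorem hpolyk_ne_zero {k : Type*} [Field k] (bb : k) (S : Finset (Option k)) :
    hpolyk bb S ≠ 0 := by
  classical
  rw [hpolyk]
  refine mul_ne_zero (Finset.prod_ne_zero_iff.mpr fun s _ h0 => ?_) ?_
  · have := congrArg (fun q : k[X] => q.coeff 0) h0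
    simp at this
  · split_ifs
    · exact X_ne_zero
    · exact one_ne_zero

end Small

/-! ## the reduction `O₁ → F_{M,k}` through the big Gauss valuation ring -/

section Reduction

open Fermat.Agent.S18.ConstExt Fermat.Agent.S18.Descent Fermat.Agent.S18.Gauss
open Fermat.Agent.S18.Gauss.Basic Fermat.Agent.S18.Inst.Bundle
open Fermat.Agent.S37.Key Fermat.Agent.S37.Local.GaussRestrict Fermat.Agent.S37.Local.CoordJ
open Fermat.Agent.S37.Key.ResExplicit

set_option synthInstance.maxHeartbeats 400000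

variable {L₁ K : Type*} [Field L₁] [Field K] [Algebra ℚ L₁] [Algebra ℚ K] [Algebra L₁ K]
variable (M : ℕ) [NeZero M] (A : ValuationSubring K) {ℓ : ℕ} [Fact ℓ.Prime]
  [CharP (ResidueField A) ℓ] [CharP (ResidueField (restrict A L₁)) ℓ] (hℓM : ¬ ℓ ∣ M)

/-- `up` on the Gauss valuation subrings -/
noncomputable def upO : ↥(ModularH.gaussVS (restrict A L₁) hℓM) →+* ↥(ResExplicit.gaussVS M A hℓM) where
  toFun x := ⟨up (K := K) (modularFunctionFieldFull M) (x : ↥(laurentBaseChange L₁ (modularFunctionFieldFull M))),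
    (up_mem_gaussVS_iff M A hℓM _).mpr x.2⟩
  map_one' := Subtype.ext (map_one _)
  map_mul' _ _ := Subtype.ext (map_mul _ _ _)
  map_zero' := Subtype.ext (map_zero _)
  map_add' _ _ := Subtype.ext (map_add _ _ _)

/-- the reduction `O₁ → F_{M,k}`, `k` the BIG residue field -/
noncomputable def rhoK : ↥(ModularH.gaussVS (restrict A L₁) hℓM) →+*
    ↥(modularFunctionFieldFullC (ResidueField A) M) :=
  (ResExplicit.resHom M A hℓM).comp (upO M A hℓM)

theorem rhoK_apply (x : ↥(ModularH.gaussVS (restrict A L₁) hℓM)) :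
    rhoK M A hℓM x = GaussUnitsFull.res M A hℓM
      (up (K := K) (modularFunctionFieldFull M) (x : ↥(laurentBaseChange L₁ (modularFunctionFieldFull M)))) :=
  (ResExplicit.res_eq_resHom M A hℓM ((up_mem_gaussVS_iff M A hℓM _).mpr x.2)).symm

theorem rhoK_eq_zero_iff (x : ↥(ModularH.gaussVS (restrict A L₁) hℓM)) :
    rhoK M A hℓM x = 0 ↔ (ModularH.gaussVS (restrict A L₁) hℓM).valuation
      (x : ↥(laurentBaseChange L₁ (modularFunctionFieldFull M))) < 1 := by
  have hx' : up (K := K) (modularFunctionFieldFull M)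
      (x : ↥(laurentBaseChange L₁ (modularFunctionFieldFull M))) ∈
        gaussSubring (ScalableFull.scalable_full M A hℓM) :=
    (up_mem_gaussVS_iff M A hℓM _).mpr x.2
  have h1 : rhoK M A hℓM x = 0 ↔
      resMap (ScalableFull.scalable_full M A hℓM) ⟨_, hx'⟩ = 0 := by
    constructor
    · intro h
      have := congrArg Subtype.val h
      exact this
    · intro h
      exact Subtype.ext h
  rw [h1, ← Fermat.Agent.S18.Inst.GaussChart.valuation_lt_one_iff
    (ScalableFull.scalable_full M A hℓM) ⟨_, hx'⟩]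
  exact valuation_gaussVS_up_lt_one_iff M A hℓM _

/-- constants -/
theorem rhoK_algebraMap (r : ↥(restrict A L₁))
    (hr : algebraMap ↥(restrict A L₁) ↥(laurentBaseChange L₁ (modularFunctionFieldFull M)) r ∈
      ModularH.gaussVS (restrict A L₁) hℓM) :
    rhoK M A hℓM ⟨_, hr⟩ = algebraMap (ResidueField A)
      ↥(modularFunctionFieldFullC (ResidueField A) M) (residue A (restrictIncl A L₁ r)) := by
  rw [rhoK_apply, ← ResExplicit.res_algebraMap M A hℓM (restrictIncl A L₁ r)]
  congr 1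
  exact up_algebraMap (K := K) (modularFunctionFieldFull M) (r : L₁)

/-- the base change of `J` has `q`-expansion `j` -/
theorem coe_up_JL : ((up (K := K) (modularFunctionFieldFull M) (JL L₁ M) :
    ↥(laurentBaseChange K (modularFunctionFieldFull M))) : LaurentSeries K) = jqModC K := by
  rw [coe_up]
  exact coeffMap_jqModC _

/-- the base change of the `J`-chart coordinate -/
theorem up_tauB (b₁ : ↥(restrict A L₁)) :
    up (K := K) (modularFunctionFieldFull M) (tauB (restrict A L₁) M b₁) =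
      (up (K := K) (modularFunctionFieldFull M) (JL L₁ M) -
        algebraMap K ↥(laurentBaseChange K (modularFunctionFieldFull M))
          ((restrictIncl A L₁ b₁ : ↥A) : K))⁻¹ := by
  rw [tauB, JsubB, map_inv₀, map_sub, up_algebraMap]
  rfl

/-- the reduction of the `J`-chart coordinate -/
theorem rhoK_tauB (b₁ : ↥(restrict A L₁)) :
    rhoK M A hℓM ⟨tauB (restrict A L₁) M b₁, tauB_mem (restrict A L₁) hℓM b₁⟩ =
      (ResExplicit.Jbar (ResidueField A) M -
        algebraMap (ResidueField A) ↥(modularFunctionFieldFullC (ResidueField A) M)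
          (residue A (restrictIncl A L₁ b₁)))⁻¹ := by
  rw [rhoK_apply]
  show GaussUnitsFull.res M A hℓM (up (K := K) (modularFunctionFieldFull M)
    (tauB (restrict A L₁) M b₁)) = _
  rw [up_tauB]
  exact (ResExplicit.isU_inv_sub_algebraMap M A hℓM (coe_up_JL M) (restrictIncl A L₁ b₁)).2

end Reduction

end Fermat.Agent.S37.Local.UnitCrit
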