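import Mathlib
import Fermat.Agent.S37.Local.UnitCritAux
import Fermat.Agent.S37.HeckeInputs.Basic
import Fermat.Agent.S18.Descent.StarOfDVR

/-!
# S37 (L-C), part (UN): the unit criterion at the `ℚ̄` level

`A` a valuation subring of `ℚ̄` over `ℓ ∤ M`, `k` its residue field, `S` a finite set of
`j̄`-values, `b ∈ A` with `b̄ ∉ S`.

* `LocalGenJ M A` : the G-glue hypothesis (two-generator local form at the closed points over `π`
  of the `J`-chart `B0 (A ∩ L1) (J - b)⁻¹`, for all number fields `L1` containing a finite set).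
* `unit_core` : (UN) over a number field `L1` of definition of `z`, `b`, the lifts and the
  support of `div z`.
* `unitCrit` : **(UN)**: if `z` is a Gauss unit of `F_M ⊗ ℚ̄` with `ord_P z = 0` at every place
  `P` whose reduced `j`-value lies in `S` (`BRJ.JBarIn`), then `res z` has order `0` at every place
  of the special fibre `F_{M,k}` whose `j̄`-value lies in `S`.
-/

set_option autoImplicit false

open Polynomial IntermediateField AlgebraicCurve ModularCurve IsLocalRing

namespace Fermat.Agent.S37.Local.UnitCrit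

open Fermat.Agent.S18.Core.Charts Fermat.Agent.S18.Core.StartB0
open Fermat.Agent.S37.Local.ChartDict

set_option linter.unusedSectionVars false
set_option linter.style.haveILetI false

/-! ## (UN) at a number field of definition -/

section Core

open Fermat.Agent.S18.ConstExt Fermat.Agent.S18.Descent Fermat.Agent.S18.Gauss
open Fermat.Agent.S18.Gauss.Basic Fermat.Agent.S18.Inst.Bundle Fermat.Agent.S18.Trans
open Fermat.Agent.S18.Cusp.NormalBridge (LocalGen)
open Fermat.Agent.S24.BridgeInv (FF)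
open Fermat.Agent.S24.PlaceAt (J)
open Fermat.Agent.S37.Descent.Rational Fermat.Agent.S37.Key Fermat.Agent.S37.Local.Values
open Fermat.Agent.S37.Local.GaussRestrict Fermat.Agent.S37.Local.CoordJ Fermat.Agent.S37.Local.BRJ
open Fermat.Agent.S37.Local.ClosedPoints Fermat.Agent.S37.Local.ChartEqUp

local notation "Kb" => AlgebraicClosure ℚ

attribute [local instance] Fermat.Agent.S37.Local.ChartEqUp.isAlgebraic_Kb

set_option synthInstance.maxHeartbeats 400000

variable (M : ℕ) [NeZero M] (A : ValuationSubring Kb) {ℓ : ℕ} [Fact ℓ.Prime]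
  [CharP (ResidueField A) ℓ] (hℓM : ¬ ℓ ∣ M)
  (L1 : IntermediateField ℚ Kb) [IsDiscreteValuationRing ↥(restrict A L1)]
  [CharP (ResidueField ↥(restrict A L1)) ℓ]

theorem up_JL : up (K := Kb) (modularFunctionFieldFull M) (JL ↥L1 M) = J M :=
  Subtype.ext ((coe_up_JL M).trans (ResExplicit.coe_J M).symm)

set_option maxHeartbeats 1000000 in
/-- **(UN) at a number field `L1` of definition.** -/
theorem unit_core {π : ↥(restrict A L1)} (hπ : Irreducible π)
    (S : Finset (Option (ResidueField A))) (b : A) (lift : ResidueField A → A)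
    (hlift : ∀ s, residue A (lift s) = s) (hb : some (residue A b) ∉ S)
    (b₁ : ↥(restrict A L1)) (hb₁ : restrictIncl A L1 b₁ = b)
    (p₁ : (↥(restrict A L1))[X]) (hp₁ : p₁.map (restrictIncl A L1) = hpoly A b lift S)
    (hLG : ∀ n : Ideal ↥(B0 ↥(restrict A L1) (tauB (restrict A L1) M b₁)), n.IsMaximal →
      piB0 ↥(restrict A L1) π (tauB (restrict A L1) M b₁) ∈ n →
      LocalGen (piB0 ↥(restrict A L1) π (tauB (restrict A L1) M b₁)) n)
    (z₁ : ↥(laurentBaseChange ↥L1 (modularFunctionFieldFull M)))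
    (hz₁ : (ModularH.gaussVS (restrict A L1) hℓM).valuation z₁ = 1)
    (hdet : ∀ P : Place Kb (FF M),
      P.ord (up (K := Kb) (modularFunctionFieldFull M) z₁) ≠ 0 →
        DeterminedOver (modularFunctionFieldFull M) L1 P)
    (h0 : ∀ P : Place Kb (FF M), JBarIn A P (J M) S →
      P.ord (up (K := Kb) (modularFunctionFieldFull M) z₁) = 0)
    (Q₀ : Place (ResidueField A) ↥(modularFunctionFieldFullC (ResidueField A) M))
    (hQ₀ : ∃ s ∈ S, JValk Q₀ (jBar (ResidueField A) M) s) :
    Q₀.ord (GaussUnitsFull.res M A hℓM (up (K := Kb) (modularFunctionFieldFull M) z₁)) = 0 := by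
  classical
  haveI : CharZero ↥L1 := algebraRat.charZero ↥L1
  have hcd := coordDataJ (restrict A L1) hℓM hπ b₁
  have hJk : ∀ c : ResidueField A, jBar (ResidueField A) M ≠
      algebraMap (ResidueField A) ↥(modularFunctionFieldFullC (ResidueField A) M) c :=
    fun c => ResExplicit.Jbar_ne_algebraMap M (ResidueField A) c
  have hρτ : rhoK M A hℓM ⟨tauB (restrict A L1) M b₁, hcd.good.tau_mem⟩ =
      (jBar (ResidueField A) M -
        algebraMap (ResidueField A) ↥(modularFunctionFieldFullC (ResidueField A) M)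
          (residue A b))⁻¹ := by
    rw [← hb₁]
    exact rhoK_tauB M A hℓM b₁
  have hmap : p₁.map ((residue A).comp (restrictIncl A L1)) = hpolyk (residue A b) S := by
    rw [← Polynomial.map_map, hp₁]
    exact map_hpoly b lift hlift S
  obtain ⟨hreg, hmaxQ⟩ := brjk Q₀ hJk (residue A b) S hb hQ₀
  have key := unit_generic (up (K := Kb) (modularFunctionFieldFull M))
    (down (L1 := L1) (modularFunctionFieldFull M))
    (fun P x => ord_up (modularFunctionFieldFull M) P x)
    (fun P1 => exists_down_eq (K := Kb) (modularFunctionFieldFull M) P1) hcd hLG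
    (rhoK M A hℓM) (rhoK_eq_zero_iff M A hℓM) ((residue A).comp (restrictIncl A L1))
    (fun r => rhoK_algebraMap M A hℓM r _)
    (by rw [hρτ]; exact transcendental_inv_sub (transcendental_jBar (ResidueField A) M) _)
    p₁ (by rw [hmap]; exact hpolyk_ne_zero _ _) z₁ hz₁ ?_ Q₀
    (by rw [hρτ]; exact Fermat.Agent.S24.FFDeriv.mem_of_ord_nonneg Q₀ hreg)
    (by rw [hρτ, hmap]; exact hmaxQ)
  · obtain ⟨hzO, hkey⟩ := key
    rw [rhoK_apply] at hkey
    exact hkey
  · intro P hτ n hnmax hπn hh1n hle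
    by_contra hne
    have hdetP := hdet P hne
    have hτP : up (K := Kb) (modularFunctionFieldFull M) (tauB (restrict A L1) M b₁) ∈
        P.toValuationSubring := (mem_down_iff (modularFunctionFieldFull M) P _).mp hτ
    have hcL1 : valAtBar M P ⟨_, hτP⟩ ∈ L1 := valAtBar_up_mem M L1 hdetP _ hτP
    have hspec := valAt_spec (hasConstResidue_bar M P) ⟨_, hτP⟩
    set c : Kb := valAtBar M P ⟨_, hτP⟩ with hc_def
    have hc : 0 < P.ord (up (K := Kb) (modularFunctionFieldFull M) (tauB (restrict A L1) M b₁) -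
        algebraMap Kb (FF M) c) := by
      rcases hspec with h | h
      · exfalso
        have h2 : up (K := Kb) (modularFunctionFieldFull M) (tauB (restrict A L1) M b₁) =
            up (K := Kb) (modularFunctionFieldFull M)
              (algebraMap ↥L1 ↥(laurentBaseChange ↥L1 (modularFunctionFieldFull M)) ⟨c, hcL1⟩) := by
          rw [up_algebraMap]
          exact h
        have h3 := (up (K := Kb) (modularFunctionFieldFull M)).injective h2
        exact hcd.transc_field (h3 ▸ isAlgebraic_algebraMap _)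
      · exact h
    have hc1 : 0 < (down (L1 := L1) (modularFunctionFieldFull M) P).ord
        (tauB (restrict A L1) M b₁ -
          algebraMap ↥L1 ↥(laurentBaseChange ↥L1 (modularFunctionFieldFull M)) ⟨c, hcL1⟩) := by
      rw [← ord_up, map_sub, up_algebraMap]
      exact hc
    obtain ⟨r, hr, hev⟩ := exists_eval_mem_maximalIdeal hπ
      (down (L1 := L1) (modularFunctionFieldFull M) P) hτ n hnmax.ne_top hπn hle ⟨c, hcL1⟩ hc1 p₁
      hh1n
    have hrc : ((restrictIncl A L1 r : ↥A) : Kb) = c := congrArg (fun x : ↥L1 => (x : Kb)) hr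
    have hupτ : up (K := Kb) (modularFunctionFieldFull M) (tauB (restrict A L1) M b₁) =
        (J M - algebraMap Kb (FF M) (b : Kb))⁻¹ := by
      rw [up_tauB, up_JL, hb₁]
    have hJK : ∀ c : Kb, J M ≠ algebraMap Kb (FF M) c := fun c h =>
      Fermat.Agent.S24.FiniteFibres.transcendental_J M (h ▸ isAlgebraic_algebraMap c)
    have hJB : JBarIn A P (J M) S := by
      rw [jBarIn_iff P b lift S hJK hlift hb]
      refine ⟨?_, restrictIncl A L1 r, ?_, ?_⟩
      · rw [← hupτ]
        exact Fermat.Agent.S24.FFDeriv.ord_nonneg_of_mem P hτP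
      · rw [← hupτ, hrc]
        exact hc
      · rw [← hp₁, eval_map, eval₂_hom, mem_maximalIdeal, mem_nonunits_iff]
        intro hu
        exact (mem_maximalIdeal _).mp hev (isUnit_of_map_unit (restrictIncl A L1) _ hu)
    exact hne (h0 P hJB)

/-- **The G-glue hypothesis of (UN)/(LE)**: over every number field `L1 ⊇ T0`, the two-generator
local form `LocalGen` at every closed point over `π` of the `J`-chart `B0 (A ∩ L1) (J - b)⁻¹`. -/
def LocalGenJ (M : ℕ) [NeZero M] (A : ValuationSubring Kb) : Prop :=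
  ∃ T0 : Finset Kb, ∀ (L1 : IntermediateField ℚ Kb) [FiniteDimensional ℚ ↥L1],
    (↑T0 : Set Kb) ⊆ (L1 : Set Kb) →
    ∀ [IsDiscreteValuationRing ↥(restrict A L1)] (π : ↥(restrict A L1)), Irreducible π →
    ∀ (b₁ : ↥(restrict A L1))
      (n : Ideal ↥(B0 ↥(restrict A L1) (tauB (restrict A L1) M b₁))), n.IsMaximal →
      piB0 ↥(restrict A L1) π (tauB (restrict A L1) M b₁) ∈ n →
      LocalGen (piB0 ↥(restrict A L1) π (tauB (restrict A L1) M b₁)) n

omit [NeZero M] [Fact ℓ.Prime] [CharP (ResidueField A) ℓ] [IsDiscreteValuationRing ↥(restrict A L1)]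
  [CharP (ResidueField ↥(restrict A L1)) ℓ] in
/-- `hpoly` is defined over `A ∩ L1` as soon as `b` and the lifts are. -/
theorem exists_map_eq_hpoly (S : Finset (Option (ResidueField A))) (b : A)
    (lift : ResidueField A → A) (hbL : (b : Kb) ∈ L1)
    (hlL : ∀ s, some s ∈ S → ((lift s : A) : Kb) ∈ L1) :
    ∃ p₁ : (↥(restrict A L1))[X], p₁.map (restrictIncl A L1) = hpoly A b lift S := by
  classical
  change hpoly A b lift S ∈ (Polynomial.mapRingHom (restrictIncl A L1)).range
  rw [hpoly]
  refine mul_mem (prod_mem fun s hs => ?_) ?_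
  · have hsS : some s ∈ S := Finset.mem_eraseNone.mp hs
    refine ⟨1 + C (⟨⟨(b : Kb), hbL⟩, b.2⟩ - ⟨⟨((lift s : A) : Kb), hlL s hsS⟩, (lift s).2⟩) * X, ?_⟩
    have e : restrictIncl A L1
        (⟨⟨(b : Kb), hbL⟩, b.2⟩ - ⟨⟨((lift s : A) : Kb), hlL s hsS⟩, (lift s).2⟩) = b - lift s :=
      Subtype.ext rfl
    rw [Polynomial.coe_mapRingHom, Polynomial.map_add, Polynomial.map_one, Polynomial.map_mul,
      Polynomial.map_C, Polynomial.map_X, e]
  · split_ifs
    · exact ⟨X, Polynomial.map_X _⟩
    · exact one_mem _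

omit [IsDiscreteValuationRing ↥(restrict A L1)] [CharP (ResidueField ↥(restrict A L1)) ℓ] in
set_option maxHeartbeats 1000000 in
/-- **(UN)**: a Gauss unit `z` of `F_M ⊗ ℚ̄` whose divisor avoids the places with reduced
`j`-value in `S` has a reduction of order `0` at every place of the special fibre with
`j̄`-value in `S`. -/
theorem unitCrit (hA : A.LiesOverPrime ℓ) (hLGJ : LocalGenJ M A)
    (S : Finset (Option (ResidueField A))) (b : A) (lift : ResidueField A → A)
    (hlift : ∀ s, residue A (lift s) = s) (hb : some (residue A b) ∉ S)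
    (z : FF M) (hz : GaussUnitsFull.IsU M A hℓM z)
    (h0 : ∀ P : Place Kb (FF M), JBarIn A P (J M) S → P.ord z = 0)
    (Q₀ : Place (ResidueField A) ↥(modularFunctionFieldFullC (ResidueField A) M))
    (hQ₀ : ∃ s ∈ S, JValk Q₀ (jBar (ResidueField A) M) s) :
    Q₀.ord (GaussUnitsFull.res M A hℓM z) = 0 := by
  classical
  obtain ⟨T0, hT0⟩ := hLGJ
  have hℓ0 : ℓ ≠ 0 := (Fact.out : ℓ.Prime).ne_zero
  haveI := Fermat.Agent.S37.HeckeInputs.hasPrincipalDivisors_bar M
  obtain ⟨D, hD, -⟩ := HasPrincipalDivisors.exists_divisor (K := Kb) z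
    (GaussUnitsFull.isU_ne_zero M A hℓM hz)
  -- a number field of definition
  obtain ⟨L1, hfin, -, hC, hL2⟩ := exists_galois_field_of_definition M D.support
    (T0 ∪ {(b : Kb)} ∪ S.eraseNone.image (fun s => ((lift s : A) : Kb))) {z}
  obtain ⟨hdetS, hE⟩ := hL2 L1 le_rfl
  obtain ⟨z₁, hz₁⟩ := hE z (Finset.mem_singleton_self z)
  haveI := hfin
  haveI : IsDiscreteValuationRing ↥(restrict A L1) :=
    isDiscreteValuationRing_restrict_of_liesOver A hℓ0 hA L1
  haveI : CharP (ResidueField ↥(restrict A L1)) ℓ := charP_restrict (L₁ := ↥L1) A ℓ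
  obtain ⟨π, hπ⟩ := IsDiscreteValuationRing.exists_irreducible ↥(restrict A L1)
  have hT0L : (↑T0 : Set Kb) ⊆ (L1 : Set Kb) := fun x hx =>
    hC (by simp only [Finset.coe_union, Set.mem_union]; exact Or.inl (Or.inl hx))
  have hbL : (b : Kb) ∈ L1 :=
    hC (by simp only [Finset.coe_union, Set.mem_union, Finset.coe_singleton,
      Set.mem_singleton_iff]; exact Or.inl (Or.inr trivial))
  have hlL : ∀ s, some s ∈ S → ((lift s : A) : Kb) ∈ L1 := fun s hs =>
    hC (by
      simp only [Finset.coe_union, Set.mem_union, Finset.coe_image, Set.mem_image]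
      exact Or.inr ⟨s, Finset.mem_coe.mpr (Finset.mem_eraseNone.mpr hs), rfl⟩)
  obtain ⟨p₁, hp₁⟩ := exists_map_eq_hpoly A L1 S b lift hbL hlL
  subst hz₁
  refine unit_core M A hℓM L1 hπ S b lift hlift hb ⟨⟨(b : Kb), hbL⟩, b.2⟩ (Subtype.ext rfl) p₁ hp₁
    (hT0 L1 hT0L π hπ _) z₁ ((isU_up_iff_valuation M A hℓM z₁).mp hz) (fun P hP => ?_) h0 Q₀ hQ₀
  refine hdetS P (Finsupp.mem_support_iff.mpr ?_)
  rw [hD P]
  exact hP

end Core



end Fermat.Agent.S37.Local.UnitCrit
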